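/-
Functions of level `Γ(M)` adapted to the cusps: `1/j` and the products of `E₆/E₄²` with
differences of division series, with their expansions over the base.
-/
import Fermat.Agent.Models.Field.Quad
import Fermat.Agent.Eisenstein.DeltaSeries

set_option autoImplicit false

noncomputable section

namespace Fermat.Agent.CuspPt

open UpperHalfPlane CongruenceSubgroup ModularForm EisensteinSeries
open Fermat.Agent.GalRep Fermat.Agent.GalRep.Level Fermat.Agent.ModField
open Fermat.Agent.GalRep.Model (NZ PM pSer zetaC wpDiff rowMul)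
open scoped MatrixGroups Manifold

variable {O : Type} [CommRing O] {M : ℕ} [NeZero M]

/-- An integral series in `q`, as a series in `q ^ (1/M)` over `O`. -/
def intS (O : Type) [CommRing O] (M : ℕ) [NeZero M] : PowerSeries ℤ →+* PowerSeries O :=
  (PowerSeries.expand M (NeZero.ne M)).toRingHom.comp (PowerSeries.map (Int.castRingHom O))

theorem constantCoeff_intS (P : PowerSeries ℤ) :
    PowerSeries.constantCoeff (intS O M P) = ((PowerSeries.constantCoeff P : ℤ) : O) := by
  rw [intS, RingHom.comp_apply]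
  show PowerSeries.constantCoeff (PowerSeries.expand M (NeZero.ne M) _) = _
  rw [PowerSeries.constantCoeff_expand, ← PowerSeries.coeff_zero_eq_constantCoeff_apply,
    PowerSeries.coeff_map, PowerSeries.coeff_zero_eq_constantCoeff_apply]
  rfl

theorem gO_intS (E : Emb O M) (P : PowerSeries ℤ) :
    E.gO (intS O M P) = expand M (NeZero.ne M)
      (HahnSeries.ofPowerSeries ℤ ℂ (PowerSeries.map (Int.castRingHom ℂ) P)) := by
  have h0 : E.gO (intS O M P) = HahnSeries.ofPowerSeries ℤ ℂ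
      (PowerSeries.expand M (NeZero.ne M) (PowerSeries.map (Int.castRingHom ℂ) P)) := by
    simp only [Emb.gO, intS, RingHom.comp_apply, AlgHom.toRingHom_eq_coe, RingHom.coe_coe,
      PowerSeries.map_expand]
    congr 2
    ext k; simp
  rw [h0]
  set Q := PowerSeries.map (Int.castRingHom ℂ) P
  have hneg : ∀ (R : PowerSeries ℂ) (m : ℤ), (¬ ∃ k : ℕ, (k : ℤ) = m) →
      (HahnSeries.ofPowerSeries ℤ ℂ R).coeff m = 0 := fun R m hm => by
    rw [HahnSeries.ofPowerSeries_apply, HahnSeries.embDomain_of_notMem_range]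
    rintro ⟨k, hk⟩; exact hm ⟨k, hk⟩
  have ha : (M : ℤ) ≠ 0 := by exact_mod_cast NeZero.ne M
  ext m
  by_cases hm : (M : ℤ) ∣ m
  · obtain ⟨t, rfl⟩ := hm
    rw [expand_coeff_mul]
    by_cases ht : ∃ k : ℕ, (k : ℤ) = t
    · obtain ⟨k, rfl⟩ := ht
      rw [HahnSeries.ofPowerSeries_apply_coeff, ← Nat.cast_mul,
        HahnSeries.ofPowerSeries_apply_coeff, PowerSeries.coeff_expand_mul]
    · rw [hneg _ _ ht, hneg]
      rintro ⟨k, hk⟩
      exact ht ⟨k / M, by rw [Int.natCast_div, hk, Int.mul_ediv_cancel_left _ ha]⟩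
  · rw [expand_coeff_of_not_dvd _ _ _ _ hm]
    by_cases hk : ∃ k : ℕ, (k : ℤ) = m
    · obtain ⟨k, rfl⟩ := hk
      rw [HahnSeries.ofPowerSeries_apply_coeff,
        PowerSeries.coeff_expand_of_not_dvd M (NeZero.ne M) _ fun h =>
          hm (Int.natCast_dvd_natCast.mpr h)]
    · exact hneg _ _ hk

/-- The series of `E₄`. -/
def e4Z : PowerSeries ℤ :=
  PowerSeries.mk fun m => if m = 0 then 1 else 240 * (ArithmeticFunction.sigma 3 m : ℤ)

/-- The series of `E₆`. -/
def e6Z : PowerSeries ℤ :=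
  PowerSeries.mk fun m => if m = 0 then 1 else -504 * (ArithmeticFunction.sigma 5 m : ℤ)

theorem constantCoeff_e4Z : PowerSeries.constantCoeff e4Z = 1 := by
  simp [e4Z]

theorem constantCoeff_e6Z : PowerSeries.constantCoeff e6Z = 1 := by
  simp [e6Z]

theorem map_e4Z : PowerSeries.map (Int.castRingHom ℂ) e4Z = Hecke.qExp Hecke.eis4 := by
  ext m
  rw [Hecke.qExp_apply, Hecke.eis4, Hecke.toQ_coe,
    E_qExpansion_coeff (by norm_num) ⟨2, rfl⟩, show bernoulli 4 = -1 / 30 by decide +kernel,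
    PowerSeries.coeff_map, e4Z, PowerSeries.coeff_mk]
  split_ifs
  · simp
  · simp only [Int.coe_castRingHom, Int.cast_mul, Int.cast_natCast, Int.cast_ofNat]
    push_cast
    ring

theorem map_e6Z : PowerSeries.map (Int.castRingHom ℂ) e6Z = Hecke.qExp Hecke.eis6 := by
  ext m
  rw [Hecke.qExp_apply, Hecke.eis6, Hecke.toQ_coe,
    E_qExpansion_coeff (by norm_num) ⟨3, rfl⟩, show bernoulli 6 = 1 / 42 by decide +kernel,
    PowerSeries.coeff_map, e6Z, PowerSeries.coeff_mk]
  split_ifs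
  · simp
  · simp only [Int.coe_castRingHom, Int.cast_mul, Int.cast_natCast, Int.cast_neg, Int.cast_ofNat]
    push_cast
    ring

theorem hasQSeries_discriminant : HasQSeries 1 ModularForm.discriminant
    (HahnSeries.ofPowerSeries ℤ ℂ (PowerSeries.map (Int.castRingHom ℂ) Eisenstein.deltaSer)) := by
  rw [hasQSeries_iff]
  refine .of_forall fun τ => ?_
  refine (Nat.cast_injective.hasSum_iff fun m hm => ?_).mp ?_
  · rw [HahnSeries.ofPowerSeries_apply, HahnSeries.embDomain_of_notMem_range, zero_mul]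
    rintro ⟨k, hk⟩; exact hm ⟨k, hk⟩
  · simpa [Function.comp_def, qq_eq_qParam, HahnSeries.ofPowerSeries_apply_coeff] using
      Eisenstein.qexp_discriminant τ

/-- The series `q` of `1/j` over `O`. -/
def wS (O : Type) [CommRing O] (M : ℕ) [NeZero M] : PowerSeries O :=
  intS O M (Eisenstein.deltaSer * (PowerSeries.invOfUnit e4Z 1) ^ 3)

/-- The series of `E₆ / E₄²` over `O`. -/
def cS (O : Type) [CommRing O] (M : ℕ) [NeZero M] : PowerSeries O :=
  intS O M (e6Z * (PowerSeries.invOfUnit e4Z 1) ^ 2)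

theorem e4Z_mul_inv : e4Z * PowerSeries.invOfUnit e4Z 1 = 1 :=
  PowerSeries.mul_invOfUnit _ _ (by rw [constantCoeff_e4Z]; rfl)

theorem constantCoeff_cS : PowerSeries.constantCoeff (cS O M) = 1 := by
  rw [cS, constantCoeff_intS, map_mul, map_pow, PowerSeries.constantCoeff_invOfUnit,
    constantCoeff_e6Z]
  simp

theorem exists_wS : ∃ U : (PowerSeries O)ˣ, wS O M = PowerSeries.X ^ M * (U : PowerSeries O) := by
  have h : IsUnit (intS O M (Eisenstein.etaPow * (PowerSeries.invOfUnit e4Z 1) ^ 3)) := by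
    rw [PowerSeries.isUnit_iff_constantCoeff, constantCoeff_intS, map_mul, map_pow,
      PowerSeries.constantCoeff_invOfUnit, Eisenstein.constantCoeff_etaPow]
    simp
  refine ⟨h.unit, ?_⟩
  rw [IsUnit.unit_spec, wS, Eisenstein.deltaSer, mul_assoc, map_mul]
  congr 1
  simp [intS]

variable [IsDomain O] (E : Emb O M)

theorem toLS_jF_mul : toLS E (jF E) * E.gO (wS O M) = 1 := by
  rw [toLS_jF, jqN_eq, wS, gO_intS, map_mul, map_pow, map_mul, map_pow, ← map_mul,
    ← map_one (expand (K := ℂ) M (NeZero.ne M))]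
  congr 1
  have hrel : jq * HahnSeries.ofPowerSeries ℤ ℂ
      (PowerSeries.map (Int.castRingHom ℂ) Eisenstein.deltaSer) =
      HahnSeries.ofPowerSeries ℤ ℂ (Hecke.qExp Hecke.eis4) ^ 3 := by
    refine ((hasQSeries_jq.mul hasQSeries_discriminant).congr
      (.of_forall fun τ => ?_)).unique one_pos ((hasQSeries_qExp Hecke.eis4).pow 3)
    show Period.jFun τ * ModularForm.discriminant τ = ModularForm.E₄ τ ^ 3
    simp only [Period.jFun]
    field_simp [ModularForm.discriminant_ne_zero τ]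
  rw [← mul_assoc, hrel, ← map_e4Z, ← mul_pow, ← map_mul, ← map_mul, e4Z_mul_inv, map_one,
    map_one, one_pow]

/-- `1/j`. -/
abbrev wF : Fld E := (jF E)⁻¹

theorem toLS_wF : toLS E (wF E) = E.gO (wS O M) := by
  rw [map_inv₀]
  exact inv_eq_of_mul_eq_one_right (toLS_jF_mul E)

/-! ## Division differences -/

omit [CommRing O] in
theorem hasQSeries_frac : ∃ s : LaurentSeries ℂ,
    HasQSeries 1 (fun τ => 1728 * wtTwo τ) s ∧
      s * HahnSeries.ofPowerSeries ℤ ℂ (PowerSeries.map (Int.castRingHom ℂ) Eisenstein.deltaSer) =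
        HahnSeries.ofPowerSeries ℤ ℂ (Hecke.qExp Hecke.eis4) *
          HahnSeries.ofPowerSeries ℤ ℂ (Hecke.qExp Hecke.eis6) := by
  obtain ⟨s, hs, -⟩ := exists_series_wtTwo
  refine ⟨_, hs.smul 1728, ?_⟩
  refine (((hs.smul 1728).mul hasQSeries_discriminant).congr (.of_forall fun τ => ?_)).unique
    one_pos ((hasQSeries_qExp Hecke.eis4).mul (hasQSeries_qExp Hecke.eis6))
  show 1728 * wtTwo τ * ModularForm.discriminant τ = ModularForm.E₄ τ * ModularForm.E₆ τ
  rw [wtTwo]
  field_simp [ModularForm.discriminant_ne_zero τ]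

omit [NeZero M] in
theorem dFun_smul (u t : ℤ × ℤ) (g : SL(2, ℤ)) (τ : ℍ) :
    1728 * wtTwo (g • τ) * wpDiff M u t (g • τ) =
      1728 * wtTwo τ * wpDiff M (rowMul u g) (rowMul t g) τ := by
  rw [Model.wpDiff_smul, ← wtTwo_smul g τ]
  ring

/-- `(E₄ E₆ / Δ) (℘(u) - ℘(t))`, normalised. -/
def dMF (u t : ℤ × ℤ) (hu : NZ M u) (ht : NZ M t) : MF M :=
  ⟨fun τ => 1728 * wtTwo τ * wpDiff M u t τ,
    (mdifferentiable_const.mul mdifferentiable_wtTwo).mul (Model.mdifferentiable_wpDiff hu ht),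
    fun γ hγ τ => by
      show 1728 * wtTwo (γ • τ) * wpDiff M u t (γ • τ) = _
      rw [dFun_smul, Model.wpDiff_congr (u' := u) (t' := t) (pm_of_res ?_) (pm_of_res ?_)]
      all_goals rw [resV_rowMul, red_eq_one_iff.mpr hγ]; simp,
    fun δ => by
      obtain ⟨s, hs, -⟩ := hasQSeries_frac
      have h1 := hs.refine_width one_pos M (NeZero.ne M)
      rw [one_mul] at h1
      exact ⟨M, _, NeZero.pos M,
        (h1.mul (Model.hasQSeries_wpDiff (nz_rowMul hu δ) (nz_rowMul ht δ))).congr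
          (.of_forall fun τ => (dFun_smul u t δ τ).symm)⟩⟩

theorem shift_dMF {u t : ℤ × ℤ} (hu : NZ M u) (ht : NZ M t) (g : SL(2, ℤ)) :
    shift M g (dMF u t hu ht) = dMF (rowMul u g) (rowMul t g) (nz_rowMul hu g) (nz_rowMul ht g) := by
  ext τ; exact dFun_smul u t g τ

omit [IsDomain O] in
theorem serAlg_dMF {u t : ℤ × ℤ} (hu : NZ M u) (ht : NZ M t) :
    serAlg M (dMF u t hu ht) * E.gO (wS O M) = E.gO (cS O M) *
      HahnSeries.ofPowerSeries ℤ ℂ (pSer M (zetaC M) u - pSer M (zetaC M) t) := by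
  obtain ⟨s, hs, hrel⟩ := hasQSeries_frac
  have h1 := hs.refine_width one_pos M (NeZero.ne M)
  rw [one_mul] at h1
  have hser : serAlg M (dMF u t hu ht) = expand M (NeZero.ne M) s *
      HahnSeries.ofPowerSeries ℤ ℂ (pSer M (zetaC M) u - pSer M (zetaC M) t) :=
    (hasQSeries_serHom (dMF u t hu ht)).unique (NeZero.pos M)
      ((h1.mul (Model.hasQSeries_wpDiff hu ht)).congr (.of_forall fun τ => rfl))
  rw [hser, mul_right_comm, wS, cS, gO_intS, gO_intS, ← map_mul (expand (K := ℂ) M (NeZero.ne M))]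
  congr 2
  rw [map_mul, map_mul (HahnSeries.ofPowerSeries ℤ ℂ), ← mul_assoc, hrel, ← map_e4Z, ← map_e6Z,
    map_mul, map_mul (HahnSeries.ofPowerSeries ℤ ℂ), map_pow, map_pow, map_pow, map_pow,
    mul_comm (HahnSeries.ofPowerSeries ℤ ℂ (PowerSeries.map _ e4Z)), mul_assoc]
  congr 1
  rw [pow_succ', ← mul_assoc, ← map_mul, ← map_mul, e4Z_mul_inv, map_one, map_one, one_mul]

theorem dMF_mem {u t : ℤ × ℤ} (hu : NZ M u) (ht : NZ M t) :
    serAlg M (dMF u t hu ht) ∈ kSer E.K := by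
  have h := serAlg_dMF E hu ht
  have hne : E.gO (wS O M) ≠ 0 := fun h0 => by
    have := toLS_jF_mul E
    rw [h0, mul_zero] at this
    exact zero_ne_one this
  rw [(eq_div_iff hne).mpr h]
  refine E.sFld_le (div_mem (mul_mem (E.gO_mem _) ?_) (E.gO_mem _))
  rw [map_sub]
  exact sub_mem (pSer_mem E _) (pSer_mem E _)

/-- `(E₆/E₄²)(℘(u) - ℘(t))` in the field. -/
def zF (u t : ℤ × ℤ) (hu : NZ M u) (ht : NZ M t) : Fld E :=
  wF E * ofMF E (dMF u t hu ht) (dMF_mem E hu ht)

theorem fShift_zF {u t : ℤ × ℤ} (hu : NZ M u) (ht : NZ M t) (g : SL(2, ℤ)) :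
    fShift E g (zF E u t hu ht) = zF E (rowMul u g) (rowMul t g) (nz_rowMul hu g) (nz_rowMul ht g) := by
  rw [zF, map_mul, map_inv₀, fShift_jF, ofMF, fShift_toFld]
  exact congrArg _ (congrArg _ (Subtype.ext (shift_dMF hu ht g)))

theorem toLS_zF {u t : ℤ × ℤ} (hu : NZ M u) (ht : NZ M t) :
    toLS E (zF E u t hu ht) = E.gO (cS O M) *
      HahnSeries.ofPowerSeries ℤ ℂ (pSer M (zetaC M) u - pSer M (zetaC M) t) := by
  rw [zF, map_mul, toLS_wF, ofMF, toLS_toFld, mul_comm]
  exact serAlg_dMF E hu ht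

end Fermat.Agent.CuspPt
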