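/-
Residues of division series at the cusps, and the ring of functions integral at every cusp inside
the chart at infinity of the `j`-line.
-/
import Fermat.Agent.Moduli.CuspSeries

set_option autoImplicit false
set_option linter.unusedSectionVars false

noncomputable section

namespace Fermat.Agent.CuspPt

open UpperHalfPlane CongruenceSubgroup IsLocalRing
open Fermat.Agent.GalRep Fermat.Agent.GalRep.Level Fermat.Agent.ModField
open Fermat.Agent.GalRep.Model (NZ PM pSer zetaC rowMul)
open scoped MatrixGroups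

variable {O : Type} [CommRing O] [IsDomain O] [IsDiscreteValuationRing O] {M q m : ℕ} [NeZero M]

/-- Level `M = q m` with `q` in the maximal ideal and `m ≥ 3` prime to `q`. -/
structure Setup (O : Type) [CommRing O] [IsLocalRing O] (M q m : ℕ) : Prop where
  prime : q.Prime
  level : M = q * m
  notDvd : ¬ q ∣ m
  three_le : 3 ≤ m
  mem : (q : O) ∈ maximalIdeal O

variable (h : Setup O M q m) (E : Emb O M)

include h in
theorem dvd_level : (m : ℤ) ∣ (M : ℤ) := ⟨q, by rw [h.level]; push_cast; ring⟩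

include h in
theorem NZ.of_sub {u : ℤ × ℤ} (hu : NZ m u) : NZ M u := fun hd =>
  hu ⟨(dvd_level h).trans hd.1, (dvd_level h).trans hd.2⟩

include h in
theorem NZ.rowMul' {u : ℤ × ℤ} (hu : NZ m u) (g : SL(2, ℤ)) : NZ m (rowMul u g) := by
  haveI : NeZero m := ⟨by have := h.three_le; omega⟩
  exact nz_rowMul hu g

/-! ## Roots of unity -/

/-- The root of unity `exp (2πi a/M)` in `O`. -/
def zO (a : ℤ) : O := E.ζ ^ (a % (M : ℤ)).toNat

theorem map_zO (a : ℤ) : E.φ (zO E a) = zetaC M ^ a := by
  have hM : (M : ℤ) ≠ 0 := by exact_mod_cast NeZero.ne M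
  have hz : zetaC M ≠ 0 := Complex.exp_ne_zero _
  rw [zO, map_pow, E.map_ζ, ← zpow_natCast, Int.toNat_of_nonneg (Int.emod_nonneg a hM)]
  conv_rhs => rw [← Int.emod_add_mul_ediv a M, zpow_add₀ hz, zpow_mul, zpow_natCast, zetaC_pow,
    one_zpow, mul_one]

theorem zO_add (a b : ℤ) : zO E (a + b) = zO E a * zO E b := E.inj (by
  rw [map_mul, map_zO, map_zO, map_zO, zpow_add₀ (show zetaC M ≠ 0 from Complex.exp_ne_zero _)])

theorem zO_zero : zO E 0 = 1 := E.inj (by rw [map_zO, zpow_zero, map_one])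

theorem zO_mul (a : ℤ) (n : ℕ) : zO E (a * n) = zO E a ^ n := E.inj (by
  rw [map_pow, map_zO, map_zO, zpow_mul, zpow_natCast])

theorem zO_congr {a b : ℤ} (hab : (M : ℤ) ∣ a - b) : zO E a = zO E b := by
  obtain ⟨k, hk⟩ := hab
  refine E.inj ?_
  rw [map_zO, map_zO, show a = (M : ℤ) * k + b by linarith,
    zpow_add₀ (show zetaC M ≠ 0 from Complex.exp_ne_zero _), zpow_mul, zpow_natCast, zetaC_pow,
    one_zpow, one_mul]

include h in
theorem natCast_residue : (q : ResidueField O) = 0 := by
  rw [← map_natCast (residue O), residue_eq_zero_iff]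
  exact h.mem

include h in
theorem isUnit_natCast : IsUnit (m : O) := by
  by_contra hu
  have hm : (m : O) ∈ maximalIdeal O := (mem_maximalIdeal _).mpr hu
  obtain ⟨x, y, hxy⟩ := Int.isCoprime_iff_nat_coprime.mpr
    (show Nat.Coprime (Int.natAbs q) (Int.natAbs m) by
      simpa using h.prime.coprime_iff_not_dvd.mpr h.notDvd)
  have h1 : (1 : O) ∈ maximalIdeal O := by
    have e : ((x : O) * q + (y : O) * m) = 1 := by exact_mod_cast congrArg (fun k : ℤ => (k : O)) hxy
    rw [← e]
    exact add_mem (Ideal.mul_mem_left _ _ h.mem) (Ideal.mul_mem_left _ _ hm)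
  exact (mem_maximalIdeal _).mp h1 isUnit_one

include h in
theorem isUnit_one_sub_zO {a : ℤ} (ha : ¬ (m : ℤ) ∣ a) : IsUnit (1 - zO E a) := by
  haveI : NeZero m := ⟨by have := h.three_le; omega⟩
  have hζ : E.φ (zO E q) = zetaC m := by
    rw [map_zO, zpow_natCast, zetaC, zetaC, ← Complex.exp_nat_mul]
    congr 1
    have hq : (q : ℂ) ≠ 0 := by exact_mod_cast h.prime.ne_zero
    have hm : (m : ℂ) ≠ 0 := by exact_mod_cast NeZero.ne m
    rw [h.level]
    push_cast
    field_simp
  let C : Model.Cyc O m := ⟨E.φ, E.inj, zO E q, hζ, isUnit_natCast h⟩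
  have hu := C.isUnit_one_sub ha
  have e : ((C.z ^ a : Oˣ) : O) = zO E (a * q) := E.inj (by
    rw [map_zO, mul_comm a, zpow_mul, ← map_zO E (q : ℤ)]
    have h2 := congrArg Units.val (map_zpow (Units.map (E.φ : O →* ℂ)) C.z a)
    rw [Units.coe_map, Units.val_zpow_eq_zpow_val, Units.coe_map] at h2
    refine h2.trans ?_
    simp [Model.Cyc.z, C])
  rw [e, zO_mul] at hu
  have hdvd : 1 - zO E a ∣ 1 - zO E a ^ q := by
    simpa using sub_dvd_pow_sub_pow (1 : O) (zO E a) q
  exact isUnit_of_dvd_unit hdvd hu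

/-- The reduction of `zO`. -/
def rz (a : ℤ) : ResidueField O := residue O (zO E a)

theorem rz_add (a b : ℤ) : rz E (a + b) = rz E a * rz E b := by rw [rz, zO_add, map_mul]; rfl

theorem rz_zero : rz E 0 = 1 := by rw [rz, zO_zero, map_one]

theorem rz_ne_zero (a : ℤ) : rz E a ≠ 0 := by
  have := rz_add E a (-a)
  rw [add_neg_cancel, rz_zero] at this
  exact left_ne_zero_of_mul (this.symm ▸ one_ne_zero)

include h in
theorem rz_eq_one_iff {a : ℤ} : rz E a = 1 ↔ (m : ℤ) ∣ a := by
  constructor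
  · intro hr
    by_contra ha
    have hu := (isUnit_one_sub_zO h E ha).map (residue O)
    rw [map_sub, map_one] at hu
    exact hu.ne_zero (by rw [show residue O (zO E a) = 1 from hr, sub_self])
  · rintro ⟨k, rfl⟩
    haveI := Fact.mk h.prime
    haveI : CharP (ResidueField O) q :=
      (CharP.charP_iff_prime_eq_zero h.prime).mpr (natCast_residue h)
    have h1 : zO E ((m : ℤ) * k) ^ q = 1 := by
      rw [← zO_mul, ← zO_zero E]
      exact zO_congr E ⟨k, by rw [h.level]; push_cast; ring⟩
    have h2 : (rz E ((m : ℤ) * k) - 1) ^ q = 0 := by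
      rw [sub_pow_char, rz, ← map_pow, h1, map_one, one_pow, sub_self]
    exact sub_eq_zero.mp (eq_zero_of_pow_eq_zero h2)

include h in
theorem rz_eq_iff {a b : ℤ} : rz E a = rz E b ↔ (m : ℤ) ∣ a - b := by
  rw [← rz_eq_one_iff h E]
  have e : rz E a = rz E (a - b) * rz E b := by rw [← rz_add, sub_add_cancel]
  constructor
  · intro hab
    exact mul_right_cancel₀ (rz_ne_zero E b) (by rw [← e, one_mul, hab])
  · intro h1; rw [e, h1, one_mul]

/-! ## Division series over the base -/

/-- `z / (1 - z)²`. -/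
def phiO (a : ℤ) : O := zO E a * Ring.inverse ((1 - zO E a) ^ 2)

include h in
theorem phiO_mul {a : ℤ} (ha : ¬ (m : ℤ) ∣ a) : phiO E a * (1 - zO E a) ^ 2 = zO E a := by
  rw [phiO, mul_assoc, Ring.inverse_mul_cancel _ ((isUnit_one_sub_zO h E ha).pow 2), mul_one]

/-- The division series over `O`. -/
def pI (u : ℤ × ℤ) : PowerSeries O :=
  PowerSeries.mk fun n =>
    if n = 0 then (if (M : ℤ) ∣ u.1 then phiO E u.2 else 0)
    else ∑ k ∈ n.divisors, (k : O) *
      ((if (M : ℤ) ∣ ((n / k : ℕ) : ℤ) - u.1 then zO E (u.2 * k) else 0) +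
        (if (M : ℤ) ∣ ((n / k : ℕ) : ℤ) + u.1 then zO E (-(u.2 * k)) else 0))

theorem constantCoeff_pI (u : ℤ × ℤ) :
    PowerSeries.constantCoeff (pI E u) = if (M : ℤ) ∣ u.1 then phiO E u.2 else 0 := by
  rw [← PowerSeries.coeff_zero_eq_constantCoeff_apply, pI, PowerSeries.coeff_mk, if_pos rfl]

include h in
theorem not_dvd_snd {u : ℤ × ℤ} (hu : NZ m u) (hd : (M : ℤ) ∣ u.1) : ¬ (m : ℤ) ∣ u.2 := fun h2 =>
  hu ⟨(dvd_level h).trans hd, h2⟩

include h in
theorem map_pI {u : ℤ × ℤ} (hu : NZ m u) :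
    PowerSeries.map E.φ (pI E u) = pSer M (zetaC M) u := by
  ext n
  simp only [PowerSeries.coeff_map, pI, pSer, PowerSeries.coeff_mk, apply_ite E.φ, map_zero,
    map_sum, map_mul, map_add, map_natCast, map_zO]
  refine if_congr Iff.rfl (ite_congr rfl (fun hd => ?_) fun _ => rfl) rfl
  have hb := not_dvd_snd h hu hd
  have hne : (E.φ ((1 - zO E u.2) ^ 2)) ≠ 0 :=
    (map_ne_zero_iff _ E.inj).mpr ((isUnit_one_sub_zO h E hb).pow 2).ne_zero
  have h2 := congrArg E.φ (phiO_mul h E hb)
  rw [map_mul, map_pow, map_sub, map_one, map_zO] at h2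
  rw [map_pow, map_sub, map_one, map_zO] at hne
  rw [eq_div_iff hne]
  exact h2

local notation "al" => algebraMap (PowerSeries O) (Model.SeriesField O)

theorem serF_eq {x : Fld E} {g : PowerSeries O} (hx : toLS E x = E.gO g) : serF E x = al g :=
  E.toC_injective (by rw [toC_serF, hx, E.toC_algebraMap])

theorem serAt_def (g : SL(2, ℤ)) (x : Fld E) : serAt E g x = serF E (fShift E g x) := rfl

theorem serAt_algebraMap (g : SL(2, ℤ)) (a : O) :
    serAt E g (algebraMap O (Fld E) a) = al (PowerSeries.C a) := by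
  rw [serAt_def, fShift_algebraMap, serF_algebraMap]

theorem serAt_wF (g : SL(2, ℤ)) : serAt E g (wF E) = al (wS O M) := by
  rw [serAt_def, map_inv₀ (fShift E g), fShift_jF]
  exact serF_eq E (toLS_wF E)

theorem serAt_one (x : Fld E) : serAt E 1 x = serF E x := by rw [serAt_def, fShift_one]

theorem serAt_fShift (g g' : SL(2, ℤ)) (x : Fld E) :
    serAt E g (fShift E g' x) = serAt E (g' * g) x := by rw [serAt_def, serAt_def, fShift_fShift]

theorem serAt_injective (g : SL(2, ℤ)) : Function.Injective (serAt E g) := (serAt E g).injective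

include h in
theorem serAt_zF {u t : ℤ × ℤ} (hu : NZ m u) (ht : NZ m t) (g : SL(2, ℤ)) :
    serAt E g (zF E u t (NZ.of_sub h hu) (NZ.of_sub h ht)) =
      al (cS O M * (pI E (rowMul u g) - pI E (rowMul t g))) := by
  rw [serAt_def, fShift_zF]
  refine serF_eq E ?_
  rw [toLS_zF, map_mul, ← map_pI h E (NZ.rowMul' h hu g), ← map_pI h E (NZ.rowMul' h ht g),
    ← map_sub]
  rfl

/-! ## Functions integral at the cusps -/

/-- No poles on the upper half plane except at `j = 0`, integral at every cusp. -/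
def cuspInt : Subring (Fld E) where
  carrier := {x | (∀ g, serAt E g x ∈ (al).range) ∧ ∃ k : ℕ, jF E ^ k * x ∈ (toFld E).range}
  one_mem' := ⟨fun g => by rw [map_one]; exact one_mem _,
    0, by rw [pow_zero, one_mul]; exact one_mem _⟩
  zero_mem' := ⟨fun g => by rw [map_zero]; exact zero_mem _,
    0, by rw [mul_zero]; exact zero_mem _⟩
  mul_mem' := fun {a b} ha hb => ⟨fun g => by rw [map_mul]; exact mul_mem (ha.1 g) (hb.1 g), by
    obtain ⟨k, hk⟩ := ha.2
    obtain ⟨l, hl⟩ := hb.2
    exact ⟨k + l, by rw [pow_add, mul_mul_mul_comm]; exact mul_mem hk hl⟩⟩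
  add_mem' := fun {a b} ha hb => ⟨fun g => by rw [map_add]; exact add_mem (ha.1 g) (hb.1 g), by
    obtain ⟨k, hk⟩ := ha.2
    obtain ⟨l, hl⟩ := hb.2
    refine ⟨k + l, ?_⟩
    have hj : jF E ∈ (toFld E).range := ⟨_, rfl⟩
    rw [mul_add, pow_add]
    refine add_mem ?_ ?_
    · rw [mul_comm (jF E ^ k), mul_assoc]; exact mul_mem (pow_mem hj l) hk
    · rw [mul_assoc]; exact mul_mem (pow_mem hj k) hl⟩
  neg_mem' := fun {a} ha => ⟨fun g => by rw [map_neg]; exact neg_mem (ha.1 g), by
    obtain ⟨k, hk⟩ := ha.2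
    exact ⟨k, by rw [mul_neg]; exact neg_mem hk⟩⟩

theorem algebraMap_mem_cuspInt (a : O) : algebraMap O (Fld E) a ∈ cuspInt E :=
  ⟨fun g => ⟨_, (serAt_algebraMap E g a).symm⟩,
    0, by rw [pow_zero, one_mul]; exact ⟨_, (algebraMap_eq E a).symm⟩⟩

theorem wF_mem_cuspInt : wF E ∈ cuspInt E :=
  ⟨fun g => ⟨_, (serAt_wF E g).symm⟩,
    1, by rw [pow_one, mul_inv_cancel₀ (jF_ne_zero E)]; exact one_mem _⟩

theorem fShift_mem_cuspInt {x : Fld E} (hx : x ∈ cuspInt E) (g : SL(2, ℤ)) :
    fShift E g x ∈ cuspInt E := by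
  refine ⟨fun g' => by rw [serAt_fShift]; exact hx.1 _, ?_⟩
  obtain ⟨k, a, ha⟩ := hx.2
  refine ⟨k, ?_⟩
  rw [← fShift_jF E g, ← map_pow, ← map_mul, ← ha, fShift_toFld]
  exact ⟨_, rfl⟩

include h in
theorem zF_mem_cuspInt {u t : ℤ × ℤ} (hu : NZ m u) (ht : NZ m t) :
    zF E u t (NZ.of_sub h hu) (NZ.of_sub h ht) ∈ cuspInt E :=
  ⟨fun g => ⟨_, (serAt_zF h E hu ht g).symm⟩,
    1, by rw [pow_one, zF, mul_inv_cancel_left₀ (jF_ne_zero E)]; exact ⟨_, rfl⟩⟩

/-- Polynomials in the parameter with integral values have integral coefficients. -/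
theorem exists_of_eval_wS (R : Polynomial ℂ) (g : PowerSeries O)
    (hR : Polynomial.aeval (PowerSeries.map E.φ (wS O M)) R = PowerSeries.map E.φ g) :
    ∃ R₀ : Polynomial O, R₀.map E.φ = R := by
  obtain ⟨U, hU⟩ := exists_wS (O := O) (M := M)
  induction hn : R.natDegree using Nat.strong_induction_on generalizing R g with
  | _ n ih =>
    set W := PowerSeries.map E.φ (wS O M) with hW
    have hW0 : PowerSeries.constantCoeff W = 0 := by
      rw [hW, hU, map_mul, map_pow, PowerSeries.map_X, map_mul, map_pow, PowerSeries.constantCoeff_X,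
        zero_pow (NeZero.ne M), zero_mul]
    have hdiv := R.X_mul_divX_add
    have e : R.coeff 0 = E.φ (PowerSeries.constantCoeff g) := by
      have h1 := congrArg PowerSeries.constantCoeff hR
      rw [← hdiv, map_add, map_mul, Polynomial.aeval_X, Polynomial.aeval_C, map_add, map_mul, hW0,
        zero_mul, zero_add] at h1
      simpa [PowerSeries.algebraMap_apply, ← PowerSeries.coeff_zero_eq_constantCoeff,
        PowerSeries.coeff_map] using h1
    set c := PowerSeries.constantCoeff g
    rcases eq_or_ne R.natDegree 0 with h0 | h0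
    · exact ⟨Polynomial.C c, by rw [Polynomial.map_C, ← e]; exact (Polynomial.eq_C_of_natDegree_eq_zero h0).symm⟩
    have hg : W * Polynomial.aeval W R.divX = PowerSeries.map E.φ (g - PowerSeries.C c) := by
      rw [map_sub, PowerSeries.map_C, ← hR, ← e]
      have h1 := congrArg (Polynomial.aeval W) hdiv
      simp only [map_add, map_mul, Polynomial.aeval_X, Polynomial.aeval_C,
        PowerSeries.algebraMap_apply, Algebra.algebraMap_self_apply] at h1
      linear_combination h1
    have hd : (PowerSeries.X : PowerSeries O) ^ M ∣ g - PowerSeries.C c :=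
      PowerSeries.X_pow_dvd_iff.mpr fun i hi => E.inj (by
        rw [map_zero, ← PowerSeries.coeff_map, ← hg, hW, hU, map_mul (PowerSeries.map E.φ),
          map_pow (PowerSeries.map E.φ), PowerSeries.map_X,
          mul_assoc, PowerSeries.coeff_X_pow_mul', if_neg (by omega)])
    obtain ⟨g', hg'⟩ := hd
    have h2 : Polynomial.aeval W R.divX = PowerSeries.map E.φ (↑U⁻¹ * g') := by
      have hWne : W ≠ 0 := by
        rw [hW, ne_eq, map_eq_zero_iff _ (PowerSeries.map_injective _ E.inj), hU]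
        exact mul_ne_zero (pow_ne_zero _ PowerSeries.X_ne_zero) U.ne_zero
      refine mul_left_cancel₀ hWne (hg.trans ?_)
      rw [hW, ← map_mul, hU, hg', mul_assoc, Units.mul_inv_cancel_left]
    obtain ⟨R', hR'⟩ := ih _ (by rw [Polynomial.natDegree_divX_eq_natDegree_tsub_one]; omega) _ _ h2 rfl
    refine ⟨Polynomial.X * R' + Polynomial.C c, ?_⟩
    rw [Polynomial.map_add, Polynomial.map_mul, Polynomial.map_X, hR', Polynomial.map_C, ← e, hdiv]

theorem X_pow_dvd_of_eval_wS (e : ℕ) (R : Polynomial O)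
    (hR : wS O M ^ e ∣ Polynomial.aeval (wS O M) R) : Polynomial.X ^ e ∣ R := by
  induction e generalizing R with
  | zero => simp
  | succ e ih =>
    obtain ⟨U, hU⟩ := exists_wS (O := O) (M := M)
    have hc : PowerSeries.constantCoeff (wS O M) = 0 := by
      rw [hU, map_mul, map_pow, PowerSeries.constantCoeff_X, zero_pow (NeZero.ne M), zero_mul]
    have hne : wS O M ≠ 0 := by
      rw [hU]; exact mul_ne_zero (pow_ne_zero _ PowerSeries.X_ne_zero) U.ne_zero
    have h0 : R.coeff 0 = 0 := by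
      obtain ⟨c, hc'⟩ := hR
      have h1 := congrArg PowerSeries.constantCoeff hc'
      have h2 := congrArg (fun Q => PowerSeries.constantCoeff (Polynomial.aeval (wS O M) Q))
        R.X_mul_divX_add
      simp only [map_add, map_mul, Polynomial.aeval_X, Polynomial.aeval_C,
        PowerSeries.algebraMap_apply, Algebra.algebraMap_self_apply, PowerSeries.constantCoeff_C, hc,
        zero_mul, zero_add] at h2
      rw [h2, h1, map_mul, map_pow, hc, zero_pow (Nat.succ_ne_zero e), zero_mul]
    have hR' : R = Polynomial.X * R.divX := by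
      conv_lhs => rw [← R.X_mul_divX_add, h0, map_zero, add_zero]
    rw [hR', map_mul, Polynomial.aeval_X, pow_succ', mul_dvd_mul_iff_left hne] at hR
    rw [hR', pow_succ']
    exact mul_dvd_mul_left _ (ih _ hR)

/-- An invariant function integral at the cusps is a polynomial in `1/j` over `O`. -/
theorem exists_aeval_of_invariant {x : Fld E} (hx : x ∈ cuspInt E)
    (hinv : ∀ g, fShift E g x = x) : ∃ P : Polynomial O, x = Polynomial.aeval (wF E) P := by
  obtain ⟨k, a, ha⟩ := hx.2
  obtain ⟨g₀, hg₀⟩ := hx.1 1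
  rw [serAt_one] at hg₀
  have hx1 : toLS E x = E.gO g₀ := by rw [← toC_serF, ← hg₀, E.toC_algebraMap]
  have hainv : ∀ g, shift M g (a : MF M) = a := fun g => by
    have h1 : fShift E g (toFld E a) = toFld E a := by
      rw [ha, map_mul, map_pow, fShift_jF, hinv]
    rw [fShift_toFld] at h1
    exact congrArg Subtype.val (toFld_injective E h1)
  obtain ⟨P, hP⟩ := exists_eval_of_invariant E a.2 hainv
  set P' := P.map E.K.subtype
  have hser : E.gO g₀ * jqN M ^ k = Polynomial.aeval (jqN M) P' := by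
    rw [← hx1, ← toLS_jF E, ← map_pow, ← map_mul, mul_comm, ← ha, toLS_toFld, hP,
      ← Polynomial.aeval_algHom_apply, serAlg_jMF, toLS_jF]
  set D := max P'.natDegree k with hD
  have hj : jqN M * E.gO (wS O M) = 1 := by rw [← toLS_jF E]; exact toLS_jF_mul E
  have hW : ∀ R : Polynomial ℂ, Polynomial.aeval (E.gO (wS O M)) R =
      HahnSeries.ofPowerSeries ℤ ℂ (Polynomial.aeval (PowerSeries.map E.φ (wS O M)) R) := fun R => by
    induction R using Polynomial.induction_on' with
    | add p r hp hr => rw [map_add, map_add, map_add, hp, hr]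
    | monomial n c =>
      rw [Polynomial.aeval_monomial, Polynomial.aeval_monomial, map_mul, map_pow,
        PowerSeries.algebraMap_apply]
      simp [Emb.gO, HahnSeries.algebraMap_apply']
  have hrefl : Polynomial.aeval (E.gO (wS O M)) (P'.reflect D) =
      E.gO (wS O M ^ (D - k) * g₀) := by
    letI : Invertible (jqN M) := invertibleOfNonzero (left_ne_zero_of_mul (hj ▸ one_ne_zero))
    have h1 := Polynomial.eval₂_reflect_mul_pow (algebraMap ℂ (LaurentSeries ℂ)) (jqN M) D P'
      (le_max_left _ _)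
    rw [invOf_eq_inv, inv_eq_of_mul_eq_one_right hj, ← Polynomial.aeval_def,
      ← Polynomial.aeval_def, ← hser] at h1
    have hk : k ≤ D := le_max_right _ _
    refine mul_right_cancel₀ (pow_ne_zero D (left_ne_zero_of_mul (hj ▸ one_ne_zero))) (h1.trans ?_)
    rw [map_mul, map_pow]
    have : E.gO (wS O M) ^ (D - k) * jqN M ^ D = jqN M ^ k := by
      rw [← Nat.sub_add_cancel hk, Nat.add_sub_cancel, pow_add, ← mul_assoc, ← mul_pow,
        mul_comm (E.gO (wS O M)), hj, one_pow, one_mul]
    rw [mul_right_comm, this, mul_comm]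
  obtain ⟨R₀, hR₀⟩ := exists_of_eval_wS E (P'.reflect D) (wS O M ^ (D - k) * g₀)
    (HahnSeries.ofPowerSeries_injective (Γ := ℤ) (by rw [← hW, hrefl]; rfl))
  have key : ∀ Q : Polynomial O, PowerSeries.map E.φ (Polynomial.aeval (wS O M) Q) =
      Polynomial.aeval (PowerSeries.map E.φ (wS O M)) (Q.map E.φ) := fun Q => by
    induction Q using Polynomial.induction_on' with
    | add p r hp hr => simp only [map_add, Polynomial.map_add, hp, hr]
    | monomial n c => simp [Polynomial.map_monomial, PowerSeries.algebraMap_apply]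
  have hR₁ : Polynomial.aeval (wS O M) R₀ = wS O M ^ (D - k) * g₀ := by
    apply PowerSeries.map_injective E.φ E.inj
    apply HahnSeries.ofPowerSeries_injective (Γ := ℤ)
    rw [key, hR₀, ← hW]
    exact hrefl
  obtain ⟨R, rfl⟩ := X_pow_dvd_of_eval_wS (D - k) R₀ ⟨g₀, hR₁⟩
  refine ⟨R, serAt_injective E 1 ?_⟩
  have hal : serAt E 1 (Polynomial.aeval (wF E) R) = al (Polynomial.aeval (wS O M) R) := by
    clear hR₀ hR₁
    induction R using Polynomial.induction_on' with
    | add p r hp hr => rw [map_add, map_add, map_add, map_add, hp, hr]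
    | monomial n c =>
      rw [Polynomial.aeval_monomial, Polynomial.aeval_monomial, map_mul, map_mul, map_pow, map_pow,
        serAt_algebraMap, serAt_wF, PowerSeries.algebraMap_apply, Algebra.algebraMap_self_apply]
  rw [serAt_one, ← hg₀, hal]
  congr 1
  rw [map_mul, map_pow, Polynomial.aeval_X] at hR₁
  refine mul_left_cancel₀ (pow_ne_zero _ ?_) hR₁.symm
  obtain ⟨U, hU⟩ := exists_wS (O := O) (M := M)
  rw [hU]; exact mul_ne_zero (pow_ne_zero _ PowerSeries.X_ne_zero) U.ne_zero

/-- Functions integral at the cusps are integral over `O[1/j]`. -/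
theorem mem_chartRing_of_cuspInt {x : Fld E} (hx : x ∈ cuspInt E) :
    x ∈ Model.chartRing O (wF E) := by
  classical
  haveI := Fintype.ofFinite (transG E)
  rw [Model.mem_chartRing_iff, Model.isIntegral_adjoin_iff]
  set p : Polynomial (Fld E) := ∏ σ : transG E, (Polynomial.X - Polynomial.C (σ • x)) with hp
  have hmem : ∀ σ : transG E, σ • x ∈ cuspInt E := fun σ => by
    obtain ⟨g, hg⟩ := (mem_transG E).mp σ.2
    rw [transG_smul_def, hg]
    exact fShift_mem_cuspInt E hx g
  have hlift : p ∈ Polynomial.lifts (cuspInt E).subtype := by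
    refine Subsemiring.prod_mem _ fun σ _ => ?_
    rw [Polynomial.lifts_iff_coeff_lifts]
    intro n
    rw [Polynomial.coeff_sub, Polynomial.coeff_X, Polynomial.coeff_C]
    refine ⟨⟨_, sub_mem ?_ ?_⟩, rfl⟩
    · split_ifs
      · exact one_mem _
      · exact zero_mem _
    · split_ifs
      · exact hmem σ
      · exact zero_mem _
  have hfix : ∀ g, ∀ n, fShift E g (p.coeff n) = p.coeff n := by
    intro g n
    let τ : transG E := ⟨shiftHom E g⁻¹, ⟨_, rfl⟩⟩
    have hτ : ∀ y, fShift E g y = τ • y := fun y => by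
      rw [transG_smul_def]
      show _ = shiftHom E g⁻¹ y
      rw [shiftHom_apply, inv_inv]
    have h' : τ • p = p := by
      rw [hp, Finset.smul_prod']
      refine Fintype.prod_equiv (Equiv.mulLeft τ) _ _ fun σ => ?_
      simp [smul_sub, mul_smul]
    rw [hτ, ← Polynomial.coeff_smul, h']
  have hcoef : ∀ n, ∃ P : Polynomial O, p.coeff n = Polynomial.aeval (wF E) P := fun n => by
    obtain ⟨c, hc⟩ := (Polynomial.lifts_iff_coeff_lifts _).mp hlift n
    exact exists_aeval_of_invariant E (hc ▸ c.2) fun g => hfix g n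
  have hpm : p.Monic := Polynomial.monic_prod_of_monic _ _ fun σ _ => Polynomial.monic_X_sub_C _
  have hl : p ∈ Polynomial.lifts (Polynomial.aeval (wF E) : Polynomial O →ₐ[O] Fld E).toRingHom := by
    rw [Polynomial.lifts_iff_coeff_lifts]
    intro n
    obtain ⟨P, hP⟩ := hcoef n
    exact ⟨P, hP.symm⟩
  obtain ⟨P, hP, -, hPm⟩ := Polynomial.lifts_and_natDegree_eq_and_monic hl hpm
  refine ⟨P, hPm, ?_⟩
  rw [← Polynomial.eval_map, hP, hp, Polynomial.eval_prod]
  exact Finset.prod_eq_zero (Finset.mem_univ (1 : transG E)) (by simp)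

end Fermat.Agent.CuspPt
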