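/-
Residues at the cusps separate the cusps: the cusp at infinity is fixed only by `±Tⁿ`.
-/
import Fermat.Agent.Moduli.CuspRing

set_option autoImplicit false
set_option linter.unusedSectionVars false

noncomputable section

namespace Fermat.Agent.CuspPt

open UpperHalfPlane CongruenceSubgroup IsLocalRing
open Fermat.Agent.GalRep Fermat.Agent.GalRep.Level Fermat.Agent.ModField
open Fermat.Agent.GalRep.Model (NZ PM pSer zetaC rowMul)
open scoped MatrixGroups

variable {O : Type} [CommRing O] [IsDomain O] [IsDiscreteValuationRing O] {M q m : ℕ} [NeZero M]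
  (E : Emb O M) (h : Setup O M q m)

local notation "al" => algebraMap (PowerSeries O) (Model.SeriesField O)

/-- The chart of `1/j`. -/
abbrev cB : Subalgebra O (Fld E) := Model.chartRing O (wF E)

theorem serAt_aeval (g : SL(2, ℤ)) (P : Polynomial O) :
    serAt E g (Polynomial.aeval (wF E) P) = al (Polynomial.aeval (wS O M) P) := by
  induction P using Polynomial.induction_on' with
  | add p r hp hr => rw [map_add, map_add, map_add, map_add, hp, hr]
  | monomial n c =>
    rw [Polynomial.aeval_monomial, Polynomial.aeval_monomial, map_mul, map_mul, map_pow, map_pow,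
      serAt_algebraMap, serAt_wF, PowerSeries.algebraMap_apply, Algebra.algebraMap_self_apply]

theorem exists_series (g : SL(2, ℤ)) (x : cB E) : ∃ f : PowerSeries O, al f = serAt E g x := by
  obtain ⟨P, hP, hPx⟩ := (Model.isIntegral_adjoin_iff _ _).mp (Model.mem_chartRing_iff.mp x.2)
  have hint : IsIntegral (PowerSeries O) (serAt E g x) := by
    refine ⟨P.map (Polynomial.aeval (wS O M)).toRingHom, hP.map _, ?_⟩
    have h2 := congrArg (serAt E g) hPx
    rw [Polynomial.hom_eval₂, map_zero] at h2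
    rw [Polynomial.eval₂_map, ← h2]
    congr 1
    exact RingHom.ext fun R => (serAt_aeval E g R).symm
  exact IsIntegrallyClosed.isIntegral_iff.mp hint

/-- The expansion at the cusp `g ∞` on the chart. -/
def serB (g : SL(2, ℤ)) : cB E →+* PowerSeries O where
  toFun x := (exists_series E g x).choose
  map_one' := IsFractionRing.injective _ (Model.SeriesField O) (by
    rw [(exists_series E g 1).choose_spec, OneMemClass.coe_one, map_one, map_one])
  map_zero' := IsFractionRing.injective _ (Model.SeriesField O) (by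
    rw [(exists_series E g 0).choose_spec, ZeroMemClass.coe_zero, map_zero, map_zero])
  map_add' x y := IsFractionRing.injective _ (Model.SeriesField O) (by
    rw [map_add, (exists_series E g x).choose_spec, (exists_series E g y).choose_spec,
      (exists_series E g (x + y)).choose_spec, AddMemClass.coe_add, map_add])
  map_mul' x y := IsFractionRing.injective _ (Model.SeriesField O) (by
    rw [map_mul, (exists_series E g x).choose_spec, (exists_series E g y).choose_spec,
      (exists_series E g (x * y)).choose_spec, MulMemClass.coe_mul, map_mul])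

theorem algebraMap_serB (g : SL(2, ℤ)) (x : cB E) : al (serB E g x) = serAt E g x :=
  (exists_series E g x).choose_spec

theorem serB_eq {g : SL(2, ℤ)} {x : cB E} {f : PowerSeries O} (hx : serAt E g x = al f) :
    serB E g x = f :=
  IsFractionRing.injective _ (Model.SeriesField O) ((algebraMap_serB E g x).trans hx)

/-- The value at the cusp `g ∞` modulo the maximal ideal. -/
def evc (g : SL(2, ℤ)) : cB E →+* ResidueField O :=
  (residue O).comp (PowerSeries.constantCoeff.comp (serB E g))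

theorem serB_algebraMap (g : SL(2, ℤ)) (a : O) :
    serB E g (algebraMap O (cB E) a) = PowerSeries.C a :=
  serB_eq E (x := algebraMap O (cB E) a) (by
    rw [Subalgebra.coe_algebraMap]; exact serAt_algebraMap E g a)

theorem evc_algebraMap (g : SL(2, ℤ)) (a : O) :
    evc E g (algebraMap O (cB E) a) = residue O a := by
  rw [evc, RingHom.comp_apply, RingHom.comp_apply, serB_algebraMap, PowerSeries.constantCoeff_C]

theorem evc_surjective (g : SL(2, ℤ)) : Function.Surjective (evc E g) := fun c => by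
  obtain ⟨a, rfl⟩ := residue_surjective (R := O) c
  exact ⟨_, evc_algebraMap E g a⟩

theorem fShift_neg (g : SL(2, ℤ)) (x : Fld E) : fShift E (-g) x = fShift E g x := by
  obtain ⟨a, b, -, rfl⟩ := exists_eq_div E x
  simp only [map_div₀, fShift_toFld, shift_neg]

theorem evc_neg (g : SL(2, ℤ)) : evc E (-g) = evc E g := RingHom.ext fun x => by
  simp only [evc, RingHom.comp_apply]
  rw [serB_eq E (g := -g) (f := serB E g x) (by
    rw [algebraMap_serB, serAt_def, serAt_def, fShift_neg])]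

include h

/-- A ratio as an element of the chart. -/
def zB (u t : ℤ × ℤ) (hu : NZ m u) (ht : NZ m t) : cB E :=
  ⟨zF E u t (NZ.of_sub h hu) (NZ.of_sub h ht), mem_chartRing_of_cuspInt E (zF_mem_cuspInt h E hu ht)⟩

theorem serB_zB {u t : ℤ × ℤ} (hu : NZ m u) (ht : NZ m t) (g : SL(2, ℤ)) :
    serB E g (zB E h u t hu ht) = cS O M * (pI E (rowMul u g) - pI E (rowMul t g)) :=
  serB_eq E (serAt_zF h E hu ht g)

omit h

/-- The residue of a constant term. -/
def c0 (v : ℤ × ℤ) : ResidueField O := if (M : ℤ) ∣ v.1 then residue O (phiO E v.2) else 0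

include h

theorem evc_zB {u t : ℤ × ℤ} (hu : NZ m u) (ht : NZ m t) (g : SL(2, ℤ)) :
    evc E g (zB E h u t hu ht) = c0 E (rowMul u g) - c0 E (rowMul t g) := by
  simp only [evc, RingHom.comp_apply, serB_zB, map_mul, constantCoeff_cS, one_mul, map_sub,
    constantCoeff_pI, c0, apply_ite (residue O), map_zero]

theorem residue_phiO {a : ℤ} (ha : ¬ (m : ℤ) ∣ a) :
    residue O (phiO E a) * (1 - rz E a) ^ 2 = rz E a := by
  have h1 := congrArg (residue O) (phiO_mul h E ha)
  rwa [map_mul, map_pow, map_sub, map_one] at h1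

theorem residue_phiO_ne_zero {a : ℤ} (ha : ¬ (m : ℤ) ∣ a) : residue O (phiO E a) ≠ 0 := fun h0 => by
  have := residue_phiO E h ha
  rw [h0, zero_mul] at this
  exact rz_ne_zero E a this.symm

theorem residue_phiO_inj {a b : ℤ} (ha : ¬ (m : ℤ) ∣ a) (hb : ¬ (m : ℤ) ∣ b)
    (he : residue O (phiO E a) = residue O (phiO E b)) : (m : ℤ) ∣ a - b ∨ (m : ℤ) ∣ a + b := by
  have h1 := residue_phiO E h ha
  have h2 := residue_phiO E h hb
  rw [he] at h1
  have h3 : (rz E a - rz E b) * (1 - rz E (a + b)) = 0 := by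
    rw [rz_add]
    linear_combination (1 - rz E a) ^ 2 * h2 - (1 - rz E b) ^ 2 * h1
  rcases mul_eq_zero.mp h3 with h4 | h4
  · exact Or.inl ((rz_eq_iff h E).mp (sub_eq_zero.mp h4))
  · exact Or.inr ((rz_eq_one_iff h E).mp (sub_eq_zero.mp h4).symm)

theorem not_m_dvd_one : ¬ (m : ℤ) ∣ 1 := by
  rw [← Nat.cast_one, Int.natCast_dvd_natCast]
  intro h1
  have := Nat.le_of_dvd one_pos h1
  have := h.three_le
  omega

theorem not_M_dvd {k : ℕ} (hk0 : 0 < k) (hk : k < 6) : ¬ (M : ℤ) ∣ k := by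
  rw [Int.natCast_dvd_natCast]
  intro h1
  have := Nat.le_of_dvd hk0 h1
  have := h.three_le
  have := h.prime.two_le
  have := h.level
  nlinarith

theorem coprime_qm : IsCoprime (q : ℤ) (m : ℤ) :=
  Int.isCoprime_iff_nat_coprime.mpr (by
    simpa using h.prime.coprime_iff_not_dvd.mpr h.notDvd)

theorem not_m_dvd_q : ¬ (m : ℤ) ∣ q := fun hd =>
  not_m_dvd_one h (by
    obtain ⟨x, y, hxy⟩ := coprime_qm h
    rw [← hxy]
    exact dvd_add (hd.mul_left x) (dvd_mul_left _ y))

/-- A cusp with the values of infinity has first column `(±1, 0)` modulo the auxiliary level. -/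
theorem dvd_of_evc_eq {g : SL(2, ℤ)} (he : evc E g = evc E 1) :
    (M : ℤ) ∣ g 1 0 ∧ ((m : ℤ) ∣ g 1 1 - 1 ∨ (m : ℤ) ∣ g 1 1 + 1) := by
  have h1 := not_m_dvd_one h
  have hn0 : NZ m ((0 : ℤ), (1 : ℤ)) := fun hd => h1 hd.2
  have hn1 : NZ m ((1 : ℤ), (0 : ℤ)) := fun hd => h1 hd.1
  have hn2 : NZ m ((1 : ℤ), (1 : ℤ)) := fun hd => h1 hd.1
  have hM1 : ¬ (M : ℤ) ∣ 1 := not_M_dvd h one_pos (by norm_num)
  have e1 := RingHom.congr_fun he (zB E h _ _ hn0 hn1)
  have e2 := RingHom.congr_fun he (zB E h _ _ hn0 hn2)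
  rw [evc_zB, evc_zB] at e1 e2
  simp only [c0, rowMul, zero_mul, one_mul, zero_add, add_zero, Matrix.SpecialLinearGroup.coe_one,
    Matrix.one_apply_eq, Matrix.one_apply_ne (show (1 : Fin 2) ≠ 0 by decide),
    Matrix.one_apply_ne (show (0 : Fin 2) ≠ 1 by decide), dvd_zero, if_true, hM1, if_false,
    sub_zero] at e1 e2
  have hne := residue_phiO_ne_zero E h h1
  have hc : (M : ℤ) ∣ g 1 0 := by
    by_contra hc
    rw [if_neg hc] at e1 e2
    by_cases ha : (M : ℤ) ∣ g 0 0
    · by_cases hac : (M : ℤ) ∣ g 0 0 + g 1 0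
      · exact hc ((dvd_add_right ha).mp hac)
      · rw [if_neg hac, sub_zero] at e2; exact hne e2.symm
    · rw [if_neg ha, sub_zero] at e1; exact hne e1.symm
  refine ⟨hc, ?_⟩
  have hdet := g.det_coe
  rw [Matrix.det_fin_two] at hdet
  have ha : ¬ (M : ℤ) ∣ g 0 0 := fun ha => hM1 (by
    rw [← hdet]; exact dvd_sub (ha.mul_right _) (hc.mul_left _))
  rw [if_pos hc, if_neg ha, sub_zero] at e1
  have hd : ¬ (m : ℤ) ∣ g 1 1 := fun hd => h1 (by
    rw [← hdet]; exact dvd_sub (hd.mul_left _) (((dvd_level h).trans hc).mul_left _))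
  exact residue_phiO_inj E h hd h1 e1

/-- `ζ_q - 1`. -/
theorem lam_ne_zero : zO E (m : ℤ) - 1 ≠ 0 := by
  rw [sub_ne_zero]
  intro h0
  have h1 := congrArg E.φ h0
  rw [map_zO, map_one, zpow_natCast] at h1
  have h2 := ((Complex.isPrimitiveRoot_exp M (NeZero.ne M)).pow_eq_one_iff_dvd m).mp h1
  rw [h.level] at h2
  have h3 := Nat.le_of_dvd (by have := h.three_le; omega) h2
  have := h.prime.two_le
  have := h.three_le
  nlinarith

theorem lam_dvd_sub {a b : ℤ} (hab : (m : ℤ) ∣ a - b) :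
    zO E (m : ℤ) - 1 ∣ zO E a - zO E b := by
  obtain ⟨k, hk⟩ := hab
  have hq : (q : ℤ) ≠ 0 := by exact_mod_cast h.prime.ne_zero
  have e : zO E a = zO E b * zO E (m : ℤ) ^ (k % (q : ℤ)).toNat := by
    rw [← zO_mul, ← zO_add, Int.toNat_of_nonneg (Int.emod_nonneg k hq)]
    refine zO_congr E ⟨k / q, ?_⟩
    rw [h.level]; push_cast
    linear_combination hk - (m : ℤ) * Int.emod_add_mul_ediv k q
  rw [e, show zO E b * zO E (m : ℤ) ^ (k % (q : ℤ)).toNat - zO E b =
    zO E b * (zO E (m : ℤ) ^ (k % (q : ℤ)).toNat - 1) by ring]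
  exact (sub_one_dvd_pow_sub_one _ _).mul_left _

theorem phiO_sub_mul {a b : ℤ} (ha : ¬ (m : ℤ) ∣ a) (hb : ¬ (m : ℤ) ∣ b) :
    (phiO E a - phiO E b) * ((1 - zO E a) ^ 2 * (1 - zO E b) ^ 2) =
      (zO E a - zO E b) * (1 - zO E a * zO E b) := by
  linear_combination (1 - zO E b) ^ 2 * phiO_mul h E ha - (1 - zO E a) ^ 2 * phiO_mul h E hb

theorem lam_dvd_phiO_sub {a b : ℤ} (ha : ¬ (m : ℤ) ∣ a) (hb : ¬ (m : ℤ) ∣ b)
    (hab : (m : ℤ) ∣ a - b) : zO E (m : ℤ) - 1 ∣ phiO E a - phiO E b := by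
  have hu := ((isUnit_one_sub_zO h E ha).pow 2).mul ((isUnit_one_sub_zO h E hb).pow 2)
  exact hu.dvd_mul_right.mp (by rw [phiO_sub_mul E h ha hb]; exact (lam_dvd_sub E h hab).mul_right _)

theorem lam_dvd_pI_sub {u t : ℤ × ℤ} (hu : NZ m u) (ht : NZ m t) (h1 : (M : ℤ) ∣ u.1 - t.1)
    (h2 : (m : ℤ) ∣ u.2 - t.2) :
    PowerSeries.C (zO E (m : ℤ) - 1) ∣ pI E u - pI E t := by
  rw [Model.C_dvd_series_iff]
  intro n
  have hiff : ∀ x : ℤ, ((M : ℤ) ∣ x - u.1 ↔ (M : ℤ) ∣ x - t.1) ∧
      ((M : ℤ) ∣ x + u.1 ↔ (M : ℤ) ∣ x + t.1) := fun x =>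
    ⟨dvd_iff_dvd_of_dvd_sub (by
        rw [show x - u.1 - (x - t.1) = -(u.1 - t.1) by ring]; exact dvd_neg.mpr h1),
      dvd_iff_dvd_of_dvd_sub (by rwa [show x + u.1 - (x + t.1) = u.1 - t.1 by ring])⟩
  rw [map_sub, pI, pI, PowerSeries.coeff_mk, PowerSeries.coeff_mk]
  rcases eq_or_ne n 0 with rfl | hn
  · rw [if_pos rfl, if_pos rfl]
    have h0 : (M : ℤ) ∣ u.1 ↔ (M : ℤ) ∣ t.1 := by simpa using (hiff 0).2
    by_cases hd : (M : ℤ) ∣ u.1
    · rw [if_pos hd, if_pos (h0.mp hd)]
      exact lam_dvd_phiO_sub E h (not_dvd_snd h hu hd) (not_dvd_snd h ht (h0.mp hd)) h2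
    · rw [if_neg hd, if_neg (mt h0.mpr hd), sub_zero]; exact dvd_zero _
  · rw [if_neg hn, if_neg hn, ← Finset.sum_sub_distrib]
    refine Finset.dvd_sum fun k _ => ?_
    rw [← mul_sub]
    refine Dvd.dvd.mul_left ?_ _
    simp only [fun x => (hiff x).1, fun x => (hiff x).2]
    rw [add_sub_add_comm]
    refine dvd_add ?_ ?_ <;> split_ifs
    · exact lam_dvd_sub E h (by rw [← sub_mul]; exact h2.mul_right _)
    · simp
    · exact lam_dvd_sub E h (by
        rw [show -(u.2 * (k : ℤ)) - -(t.2 * k) = -((u.2 - t.2) * k) by ring]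
        exact dvd_neg.mpr (h2.mul_right _))
    · simp

/-- The product separating the cusps over the same point of the auxiliary level. -/
theorem exists_separating : ∃ y : cB E, ∀ g : SL(2, ℤ), (M : ℤ) ∣ g 1 0 → ¬ (m : ℤ) ∣ g 1 1 →
    evc E g y * (1 - rz E (q * g 1 1)) ^ 4 =
      -((g 1 1 : ℤ) : ResidueField O) *
        (rz E (q * g 1 1) * (1 - rz E (q * g 1 1) ^ 2) *
          residue O (phiO E (q * g 1 1)) ^ q) := by
  classical
  haveI : NeZero q := ⟨h.prime.ne_zero⟩
  set u : ℤ × ℤ := (0, q)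
  set t : Option (Fin q) → ℤ × ℤ := fun i => i.elim (0, q + m) fun i => (m, q + m * (i : ℕ))
  have hu : NZ m u := fun hd => not_m_dvd_q h hd.2
  have ht : ∀ i, NZ m (t i) := fun i hd => not_m_dvd_q h (by
    cases i with
    | none => simpa [t] using hd.2
    | some i =>
      have h2 : (m : ℤ) ∣ (q : ℤ) + (m : ℤ) * ((i : ℕ) : ℤ) := hd.2
      exact (dvd_add_left (dvd_mul_right (m : ℤ) ((i : ℕ) : ℤ))).mp h2)
  set lam := zO E (m : ℤ) - 1 with hlam
  set z : Option (Fin q) → cB E := fun i => zB E h u (t i) hu (ht i) with hz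
  -- divisibility of one factor at every cusp
  have hdiv : ∀ g : SL(2, ℤ), ∃ i, PowerSeries.C lam ∣
      pI E (rowMul u g) - pI E (rowMul (t i) g) := by
    intro g
    have key : ∀ v : ℤ × ℤ, NZ m (u + ((m : ℤ) * v.1, (m : ℤ) * v.2)) →
        (q : ℤ) ∣ v.1 * g 0 0 + v.2 * g 1 0 →
        PowerSeries.C lam ∣ pI E (rowMul u g) -
          pI E (rowMul (u + ((m : ℤ) * v.1, (m : ℤ) * v.2)) g) := fun v hv hd =>
      lam_dvd_pI_sub E h (NZ.rowMul' h hu g) (NZ.rowMul' h hv g)
        (by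
          obtain ⟨k, hk⟩ := hd
          refine ⟨-k, ?_⟩
          simp only [rowMul, Prod.fst_add, Prod.snd_add]
          rw [h.level]; push_cast
          linear_combination -(m : ℤ) * hk)
        (by
          refine ⟨-(v.1 * g 0 1 + v.2 * g 1 1), ?_⟩
          simp only [rowMul, Prod.fst_add, Prod.snd_add]
          ring)
    by_cases hc : (q : ℤ) ∣ g 1 0
    · refine ⟨none, ?_⟩
      have e : t none = u + ((m : ℤ) * 0, (m : ℤ) * 1) := by simp [t, u]
      rw [e]
      exact key (0, 1) (e ▸ ht none) (by simpa using hc)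
    · haveI := Fact.mk h.prime
      have hc' : ((g 1 0 : ℤ) : ZMod q) ≠ 0 := fun h0 =>
        hc ((ZMod.intCast_zmod_eq_zero_iff_dvd _ q).mp h0)
      set i : Fin q := ⟨(-((g 0 0 : ℤ) : ZMod q) / (g 1 0 : ℤ)).val, ZMod.val_lt _⟩
      refine ⟨some i, ?_⟩
      have e : t (some i) = u + ((m : ℤ) * 1, (m : ℤ) * ((i : ℕ) : ℤ)) := by simp [t, u]
      rw [e]
      refine key (1, ((i : ℕ) : ℤ)) (e ▸ ht _) ((ZMod.intCast_zmod_eq_zero_iff_dvd _ q).mp ?_)
      simp only [i, one_mul, Int.cast_add, Int.cast_mul, Int.cast_natCast, ZMod.natCast_zmod_val]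
      rw [div_mul_cancel₀ _ hc', add_neg_cancel]
  set P := ∏ i, z i with hP
  have hser : ∀ g : SL(2, ℤ), ∃ G, serB E g P = PowerSeries.C lam * G := by
    intro g
    obtain ⟨i, hi⟩ := hdiv g
    rw [hP, map_prod]
    exact dvd_trans ((hi.mul_left (cS O M)).trans (by rw [hz, serB_zB]))
      (Finset.dvd_prod_of_mem _ (Finset.mem_univ i))
  choose G hG using hser
  have hlam0 : lam ≠ 0 := lam_ne_zero E h
  have hinj : algebraMap O (Fld E) lam ≠ 0 :=
    (map_ne_zero_iff _ (ModField.algebraMap_injective E)).mpr hlam0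
  have hPmem : (P : Fld E) ∈ cuspInt E := by
    rw [hP, SubmonoidClass.coe_finsetProd]
    exact prod_mem fun i _ => zF_mem_cuspInt h E hu (ht i)
  have hy : (algebraMap O (Fld E) lam)⁻¹ * P ∈ cuspInt E := by
    refine ⟨fun g => ⟨G g, ?_⟩, ?_⟩
    · rw [map_mul, map_inv₀, serAt_algebraMap, ← algebraMap_serB, hG, map_mul,
        inv_mul_cancel_left₀]
      rw [Ne, map_eq_zero_iff _ (IsFractionRing.injective _ _)]
      exact fun h0 => hlam0 (by simpa using congrArg PowerSeries.constantCoeff h0)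
    · obtain ⟨k, a, ha⟩ := hPmem.2
      refine ⟨k, ?_⟩
      rw [mul_left_comm, ← ha]
      refine mul_mem ?_ ⟨a, rfl⟩
      have e : (algebraMap O (Fld E) lam)⁻¹ = cstK E ⟨(E.φ lam)⁻¹, inv_mem (E.φ_mem lam)⟩ := by
        rw [← cstK_φ, ← map_inv₀]
        rfl
      rw [e]
      exact ⟨_, rfl⟩
  refine ⟨⟨_, mem_chartRing_of_cuspInt E hy⟩, fun g hc hd => ?_⟩
  set y : cB E := ⟨_, mem_chartRing_of_cuspInt E hy⟩
  have hmulP : algebraMap O (cB E) lam * y = P := Subtype.ext (by
    rw [MulMemClass.coe_mul, Subalgebra.coe_algebraMap]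
    exact mul_inv_cancel_left₀ hinj _)
  have hyser : serB E g y = G g := by
    have h1 := congrArg (serB E g) hmulP
    rw [map_mul, serB_algebraMap, hG] at h1
    exact mul_left_cancel₀ (fun h0 => hlam0 (by simpa using congrArg PowerSeries.constantCoeff h0)) h1
  -- the constant terms
  set d := g 1 1
  have hcq : (M : ℤ) ∣ (q : ℤ) * g 1 0 := hc.mul_left _
  have hcu : PowerSeries.constantCoeff (serB E g (z none)) =
      phiO E (q * d) - phiO E ((q + m) * d) := by
    rw [hz, serB_zB, map_mul, constantCoeff_cS, one_mul, map_sub, constantCoeff_pI, constantCoeff_pI]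
    simp only [rowMul, u, t, Option.elim, zero_mul, zero_add]
    rw [if_pos hcq, if_pos (hc.mul_left _)]
  have hn : ∀ i : Fin q, PowerSeries.constantCoeff (serB E g (z (some i))) = phiO E (q * d) := by
    intro i
    have hnd : ¬ (M : ℤ) ∣ m * g 0 0 + (q + m * ((i : ℕ) : ℤ)) * g 1 0 := fun hh => by
      have h1 := (dvd_add_left (hc.mul_left _)).mp hh
      rw [h.level, Nat.cast_mul, mul_comm (q : ℤ)] at h1
      have h2 : (q : ℤ) ∣ g 0 0 := Int.dvd_of_mul_dvd_mul_left
        (by have := h.three_le; omega) h1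
      have hdet := g.det_coe
      rw [Matrix.det_fin_two] at hdet
      have h3 : (q : ℤ) ∣ 1 := by
        rw [← hdet]
        refine dvd_sub (h2.mul_right _) (Dvd.dvd.mul_left ?_ _)
        exact (show (q : ℤ) ∣ (M : ℤ) from ⟨m, by rw [h.level]; push_cast; ring⟩).trans hc
      have h4 := Int.eq_one_of_dvd_one (by positivity) h3
      exact h.prime.one_lt.ne' (by exact_mod_cast h4)
    rw [hz, serB_zB, map_mul, constantCoeff_cS, one_mul, map_sub, constantCoeff_pI, constantCoeff_pI]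
    simp only [rowMul, u, t, Option.elim, zero_mul, zero_add]
    rw [if_pos hcq, if_neg hnd, sub_zero]
  have hcG : lam * PowerSeries.constantCoeff (G g) =
      (phiO E (q * d) - phiO E ((q + m) * d)) * phiO E (q * d) ^ q := by
    have h1 := congrArg PowerSeries.constantCoeff (hG g)
    rw [map_mul, PowerSeries.constantCoeff_C, hP, map_prod, map_prod, Fintype.prod_option, hcu,
      Finset.prod_congr rfl fun i _ => hn i, Finset.prod_const, Finset.card_univ,
      Fintype.card_fin] at h1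
    exact h1.symm
  have ha : ¬ (m : ℤ) ∣ q * d := fun hh => hd ((coprime_qm h).symm.dvd_of_dvd_mul_left hh)
  have hb : ¬ (m : ℤ) ∣ (q + m) * d := fun hh => ha (by
    rwa [add_mul, dvd_add_left (dvd_mul_right _ _)] at hh)
  set n := (d % (q : ℤ)).toNat
  have hq0 : (q : ℤ) ≠ 0 := by exact_mod_cast h.prime.ne_zero
  have hzb : zO E ((q + m) * d) = zO E (q * d) * zO E (m : ℤ) ^ n := by
    rw [← zO_mul, ← zO_add, Int.toNat_of_nonneg (Int.emod_nonneg d hq0)]
    refine zO_congr E ⟨d / q, ?_⟩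
    rw [h.level]; push_cast
    linear_combination -(m : ℤ) * Int.emod_add_mul_ediv d q
  set za := zO E (q * d)
  set zb := zO E ((q + m) * d)
  set S := ∑ i ∈ Finset.range n, zO E (m : ℤ) ^ i
  have hS : lam * S = zO E (m : ℤ) ^ n - 1 := by rw [hlam, mul_geom_sum]
  have hkey : PowerSeries.constantCoeff (G g) * ((1 - za) ^ 2 * (1 - zb) ^ 2) =
      -(za * S * (1 - za * zb)) * phiO E (q * d) ^ q := by
    refine mul_left_cancel₀ hlam0 ?_
    linear_combination ((1 - za) ^ 2 * (1 - zb) ^ 2) * hcG +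
      phiO E (q * d) ^ q * phiO_sub_mul E h ha hb -
      (1 - za * zb) * phiO E (q * d) ^ q * hzb + za * (1 - za * zb) * phiO E (q * d) ^ q * hS
  have hr : residue O (zO E (m : ℤ)) = 1 := (rz_eq_one_iff h E).mpr dvd_rfl
  have hrb : residue O zb = residue O za := by
    rw [hzb, map_mul, map_pow, hr, one_pow, mul_one]
  have hrS : residue O S = ((d : ℤ) : ResidueField O) := by
    rw [map_sum]
    simp only [map_pow, hr, one_pow, Finset.sum_const, Finset.card_range, nsmul_eq_mul, mul_one]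
    have e : ((n : ℕ) : ℤ) = d % (q : ℤ) := Int.toNat_of_nonneg (Int.emod_nonneg d hq0)
    conv_rhs => rw [← Int.emod_add_mul_ediv d q, ← e]
    simp [natCast_residue h]
  have h1 := congrArg (residue O) hkey
  simp only [map_mul, map_neg, map_pow, map_sub, map_one, hrb, hrS] at h1
  show residue O (PowerSeries.constantCoeff (serB E g y)) * _ = _
  rw [hyser]
  simp only [rz]
  linear_combination h1

theorem not_m_dvd_two_q : ¬ (m : ℤ) ∣ 2 * q := fun hd => by
  have h1 := (coprime_qm h).symm.dvd_of_dvd_mul_right hd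
  rw [show (2 : ℤ) = ((2 : ℕ) : ℤ) from rfl, Int.natCast_dvd_natCast] at h1
  have := Nat.le_of_dvd two_pos h1
  have := h.three_le
  omega

/-- The cusp at infinity is fixed only by `± Tⁿ`. -/
theorem exists_pow_of_evc_eq {g : SL(2, ℤ)} (he : evc E g = evc E 1) :
    ∃ n : Fin M, red M g = red M (ModularGroup.T ^ (n : ℤ)) ∨
      red M (-g) = red M (ModularGroup.T ^ (n : ℤ)) := by
  obtain ⟨y, hy⟩ := exists_separating E h
  -- normalise the sign
  suffices main : ∀ g' : SL(2, ℤ), evc E g' = evc E 1 → (m : ℤ) ∣ g' 1 1 - 1 →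
      ∃ n : Fin M, red M g' = red M (ModularGroup.T ^ (n : ℤ)) by
    obtain ⟨-, h1 | h1⟩ := dvd_of_evc_eq E h he
    · obtain ⟨n, hn⟩ := main g he h1
      exact ⟨n, Or.inl hn⟩
    · obtain ⟨n, hn⟩ := main (-g) (by rw [evc_neg, he]) (by
        rw [Matrix.SpecialLinearGroup.coe_neg, Matrix.neg_apply,
          show -(g 1 1) - 1 = -(g 1 1 + 1) by ring]
        exact dvd_neg.mpr h1)
      exact ⟨n, Or.inr hn⟩
  intro g hg hd1
  obtain ⟨hc, -⟩ := dvd_of_evc_eq E h hg
  have h1 := not_m_dvd_one h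
  have hdm : ¬ (m : ℤ) ∣ g 1 1 := fun hh => h1 (by
    have := dvd_sub hh hd1
    rwa [sub_sub_cancel] at this)
  have e := hy g hc hdm
  rw [hg] at e
  have e1 := hy 1 (by simp) (by simpa using h1)
  simp only [Matrix.SpecialLinearGroup.coe_one, Matrix.one_apply_eq, mul_one, Int.cast_one] at e1
  have hx : rz E (q * g 1 1) = rz E q := (rz_eq_iff h E).mpr (by
    rw [show (q : ℤ) * g 1 1 - q = q * (g 1 1 - 1) by ring]; exact hd1.mul_left _)
  have hph : residue O (phiO E (q * g 1 1)) = residue O (phiO E q) := by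
    have hq := not_m_dvd_q h
    have ha : ¬ (m : ℤ) ∣ q * g 1 1 := fun hh => hdm ((coprime_qm h).symm.dvd_of_dvd_mul_left hh)
    have a1 := residue_phiO E h ha
    have a2 := residue_phiO E h hq
    rw [hx] at a1
    have hne : (1 - rz E q) ^ 2 ≠ 0 := pow_ne_zero _ (sub_ne_zero.mpr fun h0 =>
      hq ((rz_eq_one_iff h E).mp h0.symm))
    exact mul_right_cancel₀ hne (a1.trans a2.symm)
  rw [hx, hph, e1] at e
  have hK : rz E q * (1 - rz E q ^ 2) * residue O (phiO E q) ^ q ≠ 0 := by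
    refine mul_ne_zero (mul_ne_zero (rz_ne_zero E _) (sub_ne_zero.mpr fun h0 => ?_))
      (pow_ne_zero _ (residue_phiO_ne_zero E h (not_m_dvd_q h)))
    rw [sq, ← rz_add] at h0
    exact not_m_dvd_two_q h (by
      rw [two_mul]; exact (rz_eq_one_iff h E).mp h0.symm)
  have hd : ((g 1 1 - 1 : ℤ) : ResidueField O) = 0 := by
    refine (mul_eq_zero.mp (?_ : ((g 1 1 - 1 : ℤ) : ResidueField O) *
      (rz E q * (1 - rz E q ^ 2) * residue O (phiO E q) ^ q) = 0)).resolve_right hK
    push_cast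
    linear_combination e
  haveI := Fact.mk h.prime
  haveI : CharP (ResidueField O) q :=
    (CharP.charP_iff_prime_eq_zero h.prime).mpr (natCast_residue h)
  have hdq : (q : ℤ) ∣ g 1 1 - 1 := (CharP.intCast_eq_zero_iff (ResidueField O) q _).mp hd
  have hdM : (M : ℤ) ∣ g 1 1 - 1 := by
    rw [h.level, Nat.cast_mul]
    exact (coprime_qm h).mul_dvd hdq hd1
  have haM : (M : ℤ) ∣ g 0 0 - 1 := by
    have hdet := g.det_coe
    rw [Matrix.det_fin_two] at hdet
    rw [show g 0 0 - 1 = g 0 1 * g 1 0 - g 0 0 * (g 1 1 - 1) by linarith]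
    exact dvd_sub (hc.mul_left _) (hdM.mul_left _)
  refine ⟨⟨((g 0 1 : ℤ) : ZMod M).val, ZMod.val_lt _⟩, Subtype.ext ?_⟩
  ext i j
  show ((g i j : ℤ) : ZMod M) = (((ModularGroup.T ^ ((((g 0 1 : ℤ) : ZMod M).val : ℕ) : ℤ) :
    SL(2, ℤ)) i j : ℤ) : ZMod M)
  rw [ModularGroup.coe_T_zpow]
  have hz : ∀ x : ℤ, (M : ℤ) ∣ x → (x : ZMod M) = 0 := fun x hx =>
    (ZMod.intCast_zmod_eq_zero_iff_dvd _ M).mpr hx
  fin_cases i <;> fin_cases j
  · have := hz _ haM
    push_cast at this
    simpa [sub_eq_zero] using this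
  · simp
  · simpa using hz _ hc
  · have := hz _ hdM
    push_cast at this
    simpa [sub_eq_zero] using this

end Fermat.Agent.CuspPt
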