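import Fermat.Agent.Moduli.Count

/-!
# The fibre over the closed point of a two dimensional base

`R` has maximal ideal `(q, t)`.  For a normal `B` integral over `R` the sequence `q, t` is regular,
so the fibre `B ⧸ (q, t)` has dimension at most the rank of `B`.
-/

set_option autoImplicit false
set_option linter.unusedSectionVars false
set_option linter.style.haveILetI false

namespace Fermat.Agent.Moduli

open Ideal Polynomial

variable {R B : Type*} [CommRing R] [IsDomain R] [IsIntegrallyClosed R] [CommRing B] [IsDomain B]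
  [IsIntegrallyClosed B] [Algebra R B] [FaithfulSMul R B] [Algebra.IsIntegral R B]

/-- The minimal polynomial of a multiple. -/
lemma minpoly_algebraMap_mul {t : R} (ht : t ≠ 0) (b : B) :
    minpoly R (algebraMap R B t * b) = (minpoly R b).scaleRoots t := by
  have hb := Algebra.IsIntegral.isIntegral (R := R) b
  have hc := Algebra.IsIntegral.isIntegral (R := R) (algebraMap R B t * b)
  set p := minpoly R b with hp
  set m := minpoly R (algebraMap R B t * b) with hm
  have hdvd : m ∣ p.scaleRoots t :=
    minpoly.isIntegrallyClosed_dvd hc (scaleRoots_aeval_eq_zero (minpoly.aeval R b))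
  have hne : m.comp (C t * X) ≠ 0 := by
    intro e
    have := natDegree_comp (p := m) (q := C t * X)
    rw [e, natDegree_zero, natDegree_C_mul_X t ht, mul_one] at this
    exact absurd this.symm (minpoly.natDegree_pos hc).ne'
  have hle : p.natDegree ≤ m.natDegree := by
    have h1 : p ∣ m.comp (C t * X) := minpoly.isIntegrallyClosed_dvd hb (by
      rw [aeval_comp, map_mul, aeval_C, aeval_X]; exact minpoly.aeval R _)
    have h2 := natDegree_le_of_dvd h1 hne
    rwa [natDegree_comp, natDegree_C_mul_X t ht, mul_one] at h2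
  refine (eq_of_monic_of_dvd_of_natDegree_le (minpoly.monic hc)
    ((monic_scaleRoots_iff t).2 (minpoly.monic hb)) hdvd ?_).symm
  rwa [natDegree_scaleRoots]

/-- `q, t` is a regular sequence on `B`. -/
theorem dvd_of_dvd_mul {q t : R} (hq : Prime q) (ht : ¬ q ∣ t) {b : B}
    (h : algebraMap R B q ∣ algebraMap R B t * b) : algebraMap R B q ∣ b := by
  obtain ⟨c, hc⟩ := h
  have ht0 : t ≠ 0 := by rintro rfl; exact ht (dvd_zero q)
  have hb := Algebra.IsIntegral.isIntegral (R := R) b
  have hc' := Algebra.IsIntegral.isIntegral (R := R) c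
  have e : (minpoly R b).scaleRoots t = (minpoly R c).scaleRoots q := by
    rw [← minpoly_algebraMap_mul ht0, ← minpoly_algebraMap_mul hq.ne_zero, hc]
  set p := minpoly R b with hp
  set P := minpoly R c
  have hdiv : ∀ i, q ^ (p.natDegree - i) ∣ p.coeff i := by
    intro i
    have h1 := congrArg (fun f : R[X] => f.coeff i) e
    simp only [coeff_scaleRoots] at h1
    have hd := congrArg natDegree e
    rw [natDegree_scaleRoots, natDegree_scaleRoots] at hd
    rw [← hd] at h1
    exact hq.pow_dvd_of_dvd_mul_right _
      (fun hh => ht (hq.dvd_of_dvd_pow hh)) ⟨P.coeff i, by rw [h1, mul_comm]⟩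
  choose a ha using hdiv
  set p' : R[X] := X ^ p.natDegree + ∑ i ∈ Finset.range p.natDegree, C (a i) * X ^ i with hp'
  have hdeg : (∑ i ∈ Finset.range p.natDegree, C (a i) * X ^ i).degree < (p.natDegree : WithBot ℕ) :=
    (degree_sum_le _ _).trans_lt ((Finset.sup_lt_iff (WithBot.bot_lt_coe p.natDegree)).2 fun i hi =>
      (degree_C_mul_X_pow_le i _).trans_lt (WithBot.coe_lt_coe.2 (Finset.mem_range.1 hi)))
  let L := FractionRing B
  let Q : L := algebraMap R L q
  have hQ : Q ≠ 0 := (map_ne_zero_iff _ (FaithfulSMul.algebraMap_injective R L)).2 hq.ne_zero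
  have hint : IsIntegral R (algebraMap B L b / Q) := by
    refine ⟨p', monic_X_pow_add hdeg, ?_⟩
    have h0 : aeval (algebraMap B L b) p = 0 := by
      rw [aeval_algebraMap_apply, hp, minpoly.aeval, map_zero]
    rw [aeval_eq_sum_range, Finset.sum_range_succ, (minpoly.monic hb).coeff_natDegree, one_smul,
      Finset.sum_congr rfl (g := fun i => Q ^ (p.natDegree - i) *
        (algebraMap R L (a i) * algebraMap B L b ^ i)) fun i _ => by
        rw [ha i, Algebra.smul_def, map_mul, map_pow]; ring] at h0
    rw [← aeval_def, hp', map_add, map_pow, aeval_X, map_sum]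
    simp only [map_mul, map_pow, aeval_C, aeval_X]
    apply mul_left_cancel₀ (pow_ne_zero p.natDegree hQ)
    rw [mul_zero, mul_add, ← mul_pow, mul_div_cancel₀ _ hQ, Finset.mul_sum, ← h0, add_comm]
    congr 1
    refine Finset.sum_congr rfl fun i hi => ?_
    have hi' := Nat.sub_add_cancel (Finset.mem_range.1 hi).le
    rw [show Q ^ p.natDegree = Q ^ (p.natDegree - i) * Q ^ i by rw [← pow_add, hi'], div_pow, mul_assoc, mul_left_comm (Q ^ i),
      mul_div_cancel₀ _ (pow_ne_zero i hQ)]
  obtain ⟨b', hb'⟩ := IsIntegrallyClosed.isIntegral_iff.1 (hint.tower_top (A := B))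
  refine ⟨b', IsFractionRing.injective B L ?_⟩
  rw [map_mul, hb', ← IsScalarTower.algebraMap_apply]
  exact (mul_div_cancel₀ _ hQ).symm

/-- A family independent modulo `(q, t)` is independent. -/
theorem linearIndependent_of_residual [IsNoetherianRing R] {q t : R} (hq : Prime q) (ht : ¬ q ∣ t)
    (hqR : span {q, t} ≠ ⊤) {ι : Type*} [Fintype ι] (b : ι → B)
    (hind : ∀ r : ι → R, ∑ i, r i • b i ∈ span {algebraMap R B q, algebraMap R B t} →
      ∀ i, r i ∈ span ({q, t} : Set R)) :
    LinearIndependent R b := by
  haveI : (span {q} : Ideal R).IsPrime := (span_singleton_prime hq.ne_zero).2 hq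
  have step : ∀ r : ι → R, ∑ i, r i • b i ∈ span {algebraMap R B q} →
      ∀ i, r i ∈ span ({q} : Set R) := by
    intro r hr
    have hpow : ∀ (n : ℕ) (r : ι → R), ∑ i, r i • b i ∈ span {algebraMap R B q} →
        ∀ i, r i ∈ span {q} ⊔ span {t ^ n} := by
      intro n
      induction n with
      | zero => intro r _ i; rw [pow_zero, span_singleton_one, sup_top_eq]; exact Submodule.mem_top
      | succ n ih =>
        intro r hr i
        choose c d hcd using fun i => mem_span_pair.1 (hind r (span_mono (by simp) hr) i)
        have h2 : ∑ i, d i • b i ∈ span {algebraMap R B q} := by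
          rw [mem_span_singleton] at hr ⊢
          refine dvd_of_dvd_mul hq ht ?_
          have e : ∑ i, r i • b i =
              algebraMap R B q * ∑ i, c i • b i + algebraMap R B t * ∑ i, d i • b i := by
            rw [Finset.mul_sum, Finset.mul_sum, ← Finset.sum_add_distrib]
            refine Finset.sum_congr rfl fun i _ => ?_
            rw [← hcd i, Algebra.smul_def, Algebra.smul_def, Algebra.smul_def, map_add, map_mul,
              map_mul]
            ring
          rw [e] at hr
          exact (dvd_add_right (dvd_mul_right _ _)).1 hr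
        obtain ⟨x, hx, y, hy, hxy⟩ := Submodule.mem_sup.1 (ih d h2 i)
        rw [← hcd i, ← hxy, add_mul]
        refine add_mem (mem_sup_left (mul_mem_left _ _ (mem_span_singleton_self q)))
          (add_mem (mem_sup_left (mul_mem_right _ _ hx)) (mem_sup_right ?_))
        rw [mem_span_singleton] at hy ⊢
        rw [pow_succ]
        exact mul_dvd_mul hy dvd_rfl
    intro i
    let π := Ideal.Quotient.mk (span ({q} : Set R))
    rw [← Ideal.Quotient.eq_zero_iff_mem]
    have hne : (span {π t} : Ideal (R ⧸ span ({q} : Set R))) ≠ ⊤ := by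
      rw [Ne, span_singleton_eq_top]
      rintro ⟨u, hu⟩
      obtain ⟨v, hv⟩ := Ideal.Quotient.mk_surjective (↑u⁻¹ : R ⧸ span ({q} : Set R))
      apply hqR
      rw [eq_top_iff_one, mem_span_pair]
      obtain ⟨c, hc⟩ := mem_span_singleton'.1 (Ideal.Quotient.eq.1
        (show π (1 : R) = π (t * v) by rw [map_one, map_mul π, hv, ← hu, Units.mul_inv]))
      exact ⟨c, v, by linear_combination hc⟩
    have hb : π (r i) ∈ (⨅ n : ℕ, span {π t} ^ n : Ideal (R ⧸ span ({q} : Set R))) := by
      rw [Submodule.mem_iInf]
      intro n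
      obtain ⟨x, hx, y, hy, hxy⟩ := Submodule.mem_sup.1 (hpow n r hr i)
      rw [← hxy, map_add, Ideal.Quotient.eq_zero_iff_mem.2 hx, zero_add, span_singleton_pow,
        mem_span_singleton, ← map_pow]
      exact map_dvd π (mem_span_singleton.1 hy)
    rwa [Ideal.iInf_pow_eq_bot_of_isDomain _ hne, Ideal.mem_bot] at hb
  rw [Fintype.linearIndependent_iff]
  intro r hr i
  have hpow : ∀ (n : ℕ) (r : ι → R), ∑ i, r i • b i = 0 → ∀ i, q ^ n ∣ r i := by
    intro n
    induction n with
    | zero => intro r _ i; rw [pow_zero]; exact one_dvd _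
    | succ n ih =>
      intro r hr i
      choose c hc using fun i => mem_span_singleton.1 (step r (by rw [hr]; exact zero_mem _) i)
      have h2 : ∑ i, c i • b i = 0 := by
        refine ((mul_eq_zero (a := algebraMap R B q)).1 ?_).resolve_left
          ((map_ne_zero_iff _ (FaithfulSMul.algebraMap_injective R B)).2 hq.ne_zero)
        rw [← hr, Finset.mul_sum]
        refine Finset.sum_congr rfl fun i _ => ?_
        rw [hc i, Algebra.smul_def, Algebra.smul_def, map_mul, mul_assoc]
      rw [hc i, pow_succ']
      exact mul_dvd_mul dvd_rfl (ih c h2 i)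
  have hne : (span {q} : Ideal R) ≠ ⊤ := by
    rw [Ne, span_singleton_eq_top]; exact hq.not_isUnit
  have hb : r i ∈ (⨅ n : ℕ, span {q} ^ n : Ideal R) := by
    rw [Submodule.mem_iInf]
    intro n
    rw [span_singleton_pow, mem_span_singleton]
    exact hpow n r hr i
  rwa [Ideal.iInf_pow_eq_bot_of_isDomain _ hne, Ideal.mem_bot] at hb

/-- The fibre over the closed point is at most as long as the rank. -/
theorem length_fibre_le [IsNoetherianRing R] {q t : R} (hq : Prime q)
    (ht : ¬ q ∣ t) (hmax : (span {q, t} : Ideal R).IsMaximal) {n : ℕ}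
    (hrank : Module.rank R B ≤ n) :
    Module.length R (B ⧸ span {algebraMap R B q, algebraMap R B t}) ≤ n := by
  set J : Ideal B := span {algebraMap R B q, algebraMap R B t} with hJ
  set m : Ideal R := span {q, t}
  haveI hm : m.IsMaximal := hmax
  have hmap : m.map (algebraMap R B) = J := by rw [Ideal.map_span, Set.image_pair]
  letI : Field (R ⧸ m) := Ideal.Quotient.field m
  letI : Algebra (R ⧸ m) (B ⧸ J) :=
    (Ideal.quotientMap J (algebraMap R B) (Ideal.map_le_iff_le_comap.1 hmap.le)).toAlgebra
  haveI : IsScalarTower R (R ⧸ m) (B ⧸ J) := IsScalarTower.of_algebraMap_eq fun _ => rfl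
  rw [Module.length_eq_of_surjective (S := R) (R := R ⧸ m) Ideal.Quotient.mk_surjective,
    Module.length_eq_rank]
  have h : Module.rank (R ⧸ m) (B ⧸ J) ≤ n := by
    refine rank_le fun s hs => ?_
    choose b hb using fun x : s => Ideal.Quotient.mk_surjective (x : B ⧸ J)
    have hl : LinearIndependent R b := by
      refine linearIndependent_of_residual hq ht hm.ne_top b fun r hr i => ?_
      · have := Fintype.linearIndependent_iff.1 hs (fun i => Ideal.Quotient.mk m (r i)) (by
          rw [← Ideal.Quotient.eq_zero_iff_mem.2 hr, map_sum]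
          refine Finset.sum_congr rfl fun x _ => ?_
          rw [← hb x, Algebra.smul_def, Algebra.smul_def, map_mul]
          rfl) i
        exact Ideal.Quotient.eq_zero_iff_mem.1 this
    have := hl.cardinal_lift_le_rank
    simp only [Cardinal.mk_fintype, Fintype.card_coe, Cardinal.lift_natCast] at this
    have h2 := this.trans (Cardinal.lift_le.2 hrank)
    simp only [Cardinal.lift_natCast, Nat.cast_le] at h2
    exact h2
  calc _ ≤ Cardinal.toENat ((n : ℕ) : Cardinal) := Cardinal.toENat.monotone' h
    _ = n := map_natCast _ n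

end Fermat.Agent.Moduli
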