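/-
The chart of `1/j` at level `Γ(qm)` is regular at every point over the special point of the cusps:
the maximal ideal is generated by a uniformiser of the base and one parameter.
-/
import Fermat.Agent.Moduli.CuspSep
import Fermat.Agent.Moduli.Free
import Fermat.Agent.Models.Field.ChartLemmas

set_option autoImplicit false
set_option linter.unusedSectionVars false
set_option linter.style.haveILetI false

noncomputable section

namespace Fermat.Agent.CuspPt

open UpperHalfPlane CongruenceSubgroup IsLocalRing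
open Fermat.Agent.GalRep Fermat.Agent.GalRep.Level Fermat.Agent.ModField
open Fermat.Agent.GalRep.Model (NZ PM pSer zetaC rowMul)
open scoped MatrixGroups Pointwise

variable {O : Type} [CommRing O] [IsDomain O] [IsDiscreteValuationRing O] {M q m : ℕ} [NeZero M]
  (E : Emb O M)

theorem smul_wF (σ : transG E) : σ • wF E = wF E := by
  obtain ⟨g, hg⟩ := (mem_transG E).mp σ.2
  rw [transG_smul_def, hg, map_inv₀ (fShift E g), fShift_jF]

theorem smul_algebraMap' (σ : transG E) (a : O) :
    σ • algebraMap O (Fld E) a = algebraMap O (Fld E) a := by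
  obtain ⟨g, hg⟩ := (mem_transG E).mp σ.2
  rw [transG_smul_def, hg, fShift_algebraMap]

theorem smul_aeval' (σ : transG E) (P : Polynomial O) :
    σ • Polynomial.aeval (wF E) P = Polynomial.aeval (wF E) P := by
  induction P using Polynomial.induction_on' with
  | add p r hp hr => rw [map_add, smul_add, hp, hr]
  | monomial n c => rw [Polynomial.aeval_monomial, smul_mul', smul_pow', smul_algebraMap', smul_wF]

theorem smul_mem_cB (σ : transG E) {x : Fld E} (hx : x ∈ cB E) : σ • x ∈ cB E := by
  obtain ⟨P, hP, hPx⟩ := (Model.isIntegral_adjoin_iff _ _).mp (Model.mem_chartRing_iff.mp hx)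
  rw [Model.mem_chartRing_iff, Model.isIntegral_adjoin_iff]
  refine ⟨P, hP, ?_⟩
  have h2 := congrArg (MulSemiringAction.toRingHom (transG E) (Fld E) σ) hPx
  rw [Polynomial.hom_eval₂, map_zero] at h2
  rw [show (MulSemiringAction.toRingHom (transG E) (Fld E) σ).comp
      (Polynomial.aeval (wF E)).toRingHom = (Polynomial.aeval (wF E)).toRingHom from
    RingHom.ext fun R => smul_aeval' E σ R] at h2
  exact h2

instance instSMulCB : SMul (transG E) (cB E) := ⟨fun σ b => ⟨σ • (b : Fld E), smul_mem_cB E σ b.2⟩⟩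

theorem coe_smul_cB (σ : transG E) (b : cB E) : ((σ • b : cB E) : Fld E) = σ • (b : Fld E) := rfl

instance instActionCB : MulSemiringAction (transG E) (cB E) where
  one_smul b := Subtype.ext (one_smul _ (b : Fld E))
  mul_smul σ τ b := Subtype.ext (mul_smul σ τ (b : Fld E))
  smul_zero σ := Subtype.ext (smul_zero σ)
  smul_add σ a b := Subtype.ext (smul_add σ (a : Fld E) (b : Fld E))
  smul_one σ := Subtype.ext (smul_one σ)
  smul_mul σ a b := Subtype.ext (smul_mul' σ (a : Fld E) (b : Fld E))

theorem smul_algebraMap_cB (σ : transG E) (a : O) :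
    σ • algebraMap O (cB E) a = algebraMap O (cB E) a :=
  Subtype.ext (by rw [coe_smul_cB, Subalgebra.coe_algebraMap, smul_algebraMap'])

theorem evc_smul {σ : transG E} {g : SL(2, ℤ)} (hg : ∀ x, (σ : RingAut (Fld E)) x = fShift E g x)
    (b : cB E) : evc E 1 (σ • b) = evc E g b := by
  simp only [evc, RingHom.comp_apply]
  rw [serB_eq E (x := σ • b) (g := 1) (f := serB E g b) (by
    rw [algebraMap_serB, coe_smul_cB, transG_smul_def, hg, serAt_fShift, mul_one])]

/-- The point at infinity of the special fibre. -/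
def mInf : Ideal (cB E) := RingHom.ker (evc E 1)

instance instIsMaximalMInf : (mInf E).IsMaximal :=
  RingHom.ker_isMaximal_of_surjective _ (evc_surjective E 1)

theorem mem_mInf {b : cB E} : b ∈ mInf E ↔ evc E 1 b = 0 := RingHom.mem_ker

theorem card_stabilizer_le (h : Setup O M q m) :
    Nat.card (MulAction.stabilizer (transG E) (mInf E)) ≤ M := by
  let τ : Fin M → transG E := fun n => ⟨shiftHom E (ModularGroup.T ^ ((n : ℕ) : ℤ))⁻¹, ⟨_, rfl⟩⟩
  have hτ : ∀ σ ∈ MulAction.stabilizer (transG E) (mInf E), ∃ n, τ n = σ := by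
    intro σ hσ
    obtain ⟨g, hg⟩ := (mem_transG E).mp σ.2
    have hker : ∀ b : cB E, evc E g b = 0 ↔ evc E 1 b = 0 := fun b => by
      rw [← evc_smul E hg b, ← mem_mInf, ← mem_mInf]
      conv_lhs => rw [← MulAction.mem_stabilizer_iff.mp hσ]
      exact Ideal.smul_mem_pointwise_smul_iff
    have he : evc E g = evc E 1 := RingHom.ext fun b => by
      obtain ⟨a, ha⟩ := residue_surjective (R := O) (evc E 1 b)
      have h1 : evc E 1 (b - algebraMap O (cB E) a) = 0 := by
        rw [map_sub, evc_algebraMap, ha, sub_self]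
      have h2 := (hker _).mpr h1
      rw [map_sub, evc_algebraMap, sub_eq_zero] at h2
      rw [h2, ha]
    obtain ⟨n, hn⟩ := exists_pow_of_evc_eq E h he
    refine ⟨n, Subtype.ext (RingEquiv.ext fun x => ?_)⟩
    show shiftHom E (ModularGroup.T ^ ((n : ℕ) : ℤ))⁻¹ x = (σ : RingAut (Fld E)) x
    rw [shiftHom_apply, inv_inv, hg]
    rcases hn with hn | hn
    · exact fShift_congr E hn.symm x
    · rw [fShift_congr E hn.symm x, fShift_neg]
  choose f hf using hτ
  refine le_trans (Nat.card_le_card_of_injective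
    (fun σ : MulAction.stabilizer (transG E) (mInf E) => f σ.1 σ.2) ?_) (Nat.card_fin M).le
  intro a b hab
  exact Subtype.ext ((hf a.1 a.2).symm.trans ((congrArg τ hab).trans (hf b.1 b.2)))

/-! ## The fibre -/

/-- `P ↦ P(1/j)`. -/
def polyHom : Polynomial O →+* cB E :=
  (Polynomial.aeval (⟨wF E, Model.self_mem_chartRing _⟩ : cB E)).toRingHom

theorem coe_polyHom (P : Polynomial O) : ((polyHom E P : cB E) : Fld E) = Polynomial.aeval (wF E) P :=
  (Polynomial.aeval_algHom_apply (cB E).val (⟨wF E, Model.self_mem_chartRing _⟩ : cB E) P).symm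

/-- `1/j` in the chart. -/
def wB : cB E := polyHom E Polynomial.X

theorem coe_wB : ((wB E : cB E) : Fld E) = wF E := by rw [wB, coe_polyHom, Polynomial.aeval_X]

theorem qlen_fibre_le (h : Setup O M q m) {π : O} (hπ : Irreducible π) :
    Moduli.qlen ((Ideal.span {algebraMap O (cB E) π, wB E}).map
      (algebraMap (cB E) (Localization.AtPrime (mInf E)))) ≤ M := by
  classical
  letI : Algebra (Polynomial O) (cB E) := (polyHom E).toAlgebra
  haveI : FaithfulSMul (Polynomial O) (cB E) :=
    (faithfulSMul_iff_algebraMap_injective _ _).mpr fun P Q hPQ =>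
      aeval_inv_jF_injective E (by
        rw [← coe_polyHom, ← coe_polyHom]; exact congrArg Subtype.val hPQ)
  haveI : Algebra.IsIntegral (Polynomial O) (cB E) := ⟨fun b => by
    obtain ⟨P, hP, hPb⟩ := (Model.isIntegral_adjoin_iff _ _).mp (Model.mem_chartRing_iff.mp b.2)
    refine ⟨P, hP, Subtype.ext ?_⟩
    rw [ZeroMemClass.coe_zero, ← hPb]
    show (cB E).val.toRingHom (Polynomial.eval₂ (polyHom E) b P) = _
    rw [Polynomial.hom_eval₂]
    congr 1
    exact RingHom.ext (coe_polyHom E)⟩
  haveI : IsIntegrallyClosed (cB E) := by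
    rw [isIntegrallyClosed_iff (FractionRing (cB E))]
    intro x hx
    let φ : FractionRing (cB E) →ₐ[cB E] Fld E :=
      IsFractionRing.liftAlgHom (g := Algebra.ofId (cB E) (Fld E)) Subtype.val_injective
    have hint : IsIntegral (cB E) (φ x) := hx.map φ
    have hmem : φ x ∈ cB E := chartRing_closed _ hint
    exact ⟨⟨φ x, hmem⟩, φ.toRingHom.injective (by
      show φ (algebraMap (cB E) _ ⟨φ x, hmem⟩) = φ x
      rw [AlgHom.commutes]; rfl)⟩
  have hgen : ∀ (σ : transG E) (P : Polynomial O),
      σ • algebraMap (Polynomial O) (cB E) P = algebraMap (Polynomial O) (cB E) P := fun σ P =>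
    Subtype.ext (by
      rw [coe_smul_cB, RingHom.algebraMap_toAlgebra, coe_polyHom, smul_aeval'])
  haveI : SMulCommClass (transG E) (Polynomial O) (cB E) := ⟨fun σ P b => by
    rw [Algebra.smul_def, Algebra.smul_def, smul_mul', hgen]⟩
  set J : Ideal (cB E) := Ideal.span {algebraMap O (cB E) π, wB E} with hJ
  have e : J = Ideal.span {algebraMap (Polynomial O) (cB E) (Polynomial.C π),
      algebraMap (Polynomial O) (cB E) Polynomial.X} := by
    have e1 : algebraMap (Polynomial O) (cB E) (Polynomial.C π) = algebraMap O (cB E) π := by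
      rw [RingHom.algebraMap_toAlgebra]; exact Polynomial.aeval_C _ _
    rw [hJ, e1]; rfl
  have hprime : Prime (Polynomial.C π) := Polynomial.prime_C_iff.mpr hπ.prime
  have hnd : ¬ Polynomial.C π ∣ (Polynomial.X : Polynomial O) := fun hd => hπ.not_isUnit (by
    have := (Polynomial.C_dvd_iff_dvd_coeff _ _).mp hd 1
    rw [Polynomial.coeff_X_one] at this
    exact isUnit_of_dvd_one this)
  have hmax : (Ideal.span {Polynomial.C π, Polynomial.X} : Ideal (Polynomial O)).IsMaximal := by
    have e : (Ideal.span {Polynomial.C π, Polynomial.X} : Ideal (Polynomial O)) =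
        RingHom.ker ((residue O).comp Polynomial.constantCoeff) := by
      ext P
      rw [RingHom.mem_ker, RingHom.comp_apply, residue_eq_zero_iff, hπ.maximalIdeal_eq,
        Ideal.mem_span_singleton, Ideal.mem_span_pair]
      constructor
      · rintro ⟨a, b, rfl⟩
        exact ⟨Polynomial.constantCoeff a, by simp [mul_comm]⟩
      · rintro ⟨c, hc⟩
        refine ⟨Polynomial.C c, P.divX, ?_⟩
        conv_rhs => rw [← P.X_mul_divX_add, show P.coeff 0 = π * c from hc, map_mul]
        ring
    rw [e]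
    exact RingHom.ker_isMaximal_of_surjective _
      (residue_surjective.comp fun a => ⟨Polynomial.C a, Polynomial.coeff_C_zero⟩)
  have hrank : Module.rank (Polynomial O) (cB E) ≤ (Nat.card (transG E) : Cardinal) := by
    refine rank_le fun s hs => ?_
    by_contra hlt
    obtain ⟨P, hP, hsum⟩ := Model.exists_dependence (fixedRational_inv_jF E)
      (ι := {x // x ∈ s}) (by rw [Fintype.card_coe]; omega) (fun x => ((x : cB E) : Fld E))
    refine hP (funext fun x => Fintype.linearIndependent_iff.mp hs P (Subtype.ext ?_) x)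
    rw [ZeroMemClass.coe_zero, ← hsum, AddSubmonoidClass.coe_finsetSum]
    refine Finset.sum_congr rfl fun x _ => ?_
    rw [Algebra.smul_def, MulMemClass.coe_mul, RingHom.algebraMap_toAlgebra, coe_polyHom]
  refine (Moduli.qlen_le_card_stabilizer (G := transG E) (R := Polynomial O) J (mInf E) ?_ ?_).trans ?_
  · rw [e]
    exact Moduli.length_fibre_le hprime hnd hmax hrank
  · intro σ b hb
    rw [e, Ideal.mem_span_pair] at hb ⊢
    obtain ⟨x, y, rfl⟩ := hb
    exact ⟨σ • x, σ • y, by rw [smul_add, smul_mul', smul_mul', hgen, hgen]⟩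
  · exact_mod_cast card_stabilizer_le E h

theorem qlen_add_one_le {C : Type*} [CommRing C] {I J : Ideal C} (hIJ : I < J) :
    Moduli.qlen J + 1 ≤ Moduli.qlen I := by
  let f : (C ⧸ I) →ₗ[C] (C ⧸ J) := Submodule.factor hIJ.le
  have hex := Module.length_eq_add_of_exact (LinearMap.ker f).subtype f
    (Submodule.injective_subtype _) (Submodule.factor_surjective hIJ.le)
    (LinearMap.exact_subtype_ker_map f)
  rw [Moduli.qlen, Moduli.qlen, hex, add_comm]
  refine add_le_add ?_ le_rfl
  obtain ⟨x, hxJ, hxI⟩ := SetLike.exists_of_lt hIJ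
  haveI : Nontrivial (LinearMap.ker f) := ⟨⟨⟨Submodule.Quotient.mk x, by
    rw [LinearMap.mem_ker]; exact (Submodule.Quotient.mk_eq_zero J).mpr hxJ⟩, 0, fun h0 =>
      hxI ((Submodule.Quotient.mk_eq_zero I).mp (congrArg Subtype.val h0))⟩⟩
  exact Order.one_le_iff_ne_zero.mpr (Module.length_pos (R := C) (M := LinearMap.ker f)).ne'

/-- The uniformiser at infinity. -/
theorem exists_parameter (h : Setup O M q m) :
    ∃ x : cB E, ∃ V : (PowerSeries (ResidueField O))ˣ,
      PowerSeries.map (residue O) (serB E 1 x) = PowerSeries.X * (V : PowerSeries (ResidueField O)) := by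
  have h1 := not_m_dvd_one h
  have hn1 : NZ m ((1 : ℤ), (0 : ℤ)) := fun hd => h1 hd.1
  have hn2 : NZ m ((2 : ℤ), (1 : ℤ)) := fun hd => h1 hd.2
  set f := PowerSeries.map (residue O) (serB E 1 (zB E h _ _ hn1 hn2)) with hf
  have hM1 : ¬ (M : ℤ) ∣ 1 := not_M_dvd h one_pos (by norm_num)
  have hM2 : ¬ (M : ℤ) ∣ 2 := not_M_dvd h two_pos (by norm_num)
  have hM3 : ¬ (M : ℤ) ∣ 3 := not_M_dvd h three_pos (by norm_num)
  have hne : ¬ (M : ℤ) ∣ -1 := by rwa [dvd_neg]
  have hp0 : PowerSeries.constantCoeff (pI E ((1 : ℤ), (0 : ℤ)) - pI E ((2 : ℤ), (1 : ℤ))) = 0 := by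
    rw [map_sub, constantCoeff_pI, constantCoeff_pI, if_neg hM1, if_neg hM2, sub_zero]
  have hp1 : PowerSeries.coeff 1 (pI E ((1 : ℤ), (0 : ℤ)) - pI E ((2 : ℤ), (1 : ℤ))) = 1 := by
    rw [map_sub, pI, pI, PowerSeries.coeff_mk, PowerSeries.coeff_mk]
    simp only [one_ne_zero, if_false, Nat.divisors_one, Finset.sum_singleton, Nat.cast_one,
      Nat.div_one, sub_self, dvd_zero, if_true, one_mul, mul_one, zO_zero]
    rw [show (1 : ℤ) + 1 = 2 by norm_num, show (1 : ℤ) - 2 = -1 by norm_num,
      show (1 : ℤ) + 2 = 3 by norm_num]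
    simp [hM2, hne, hM3]
  have hs : serB E 1 (zB E h _ _ hn1 hn2) =
      cS O M * (pI E ((1 : ℤ), (0 : ℤ)) - pI E ((2 : ℤ), (1 : ℤ))) := by
    rw [serB_zB, Model.rowMul_one, Model.rowMul_one]
  have hf0 : PowerSeries.constantCoeff f = 0 := by
    rw [hf, hs, ← PowerSeries.coeff_zero_eq_constantCoeff_apply, PowerSeries.coeff_map,
      PowerSeries.coeff_zero_eq_constantCoeff_apply, map_mul, hp0, mul_zero, map_zero]
  obtain ⟨v, hv⟩ := PowerSeries.X_dvd_iff.mpr hf0
  have hv0 : IsUnit v := by
    rw [PowerSeries.isUnit_iff_constantCoeff]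
    have e : PowerSeries.constantCoeff v = PowerSeries.coeff 1 f := by
      rw [hv, PowerSeries.coeff_succ_X_mul, PowerSeries.coeff_zero_eq_constantCoeff_apply]
    rw [e, hf, hs, PowerSeries.coeff_map, PowerSeries.coeff_mul, Finset.Nat.sum_antidiagonal_succ,
      Finset.Nat.antidiagonal_zero, Finset.sum_singleton]
    simp only [zero_add, PowerSeries.coeff_zero_eq_constantCoeff_apply, hp0, mul_zero, add_zero,
      constantCoeff_cS, one_mul, hp1, map_one]
    exact isUnit_one
  exact ⟨_, hv0.unit, hv⟩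

theorem mem_span_at_infinity (h : Setup O M q m) {π : O} (hπ : Irreducible π) :
    ∃ x ∈ mInf E, ∀ z ∈ mInf E, ∃ s ∉ mInf E,
      s * z ∈ Ideal.span {algebraMap O (cB E) π, x} := by
  classical
  obtain ⟨x, V, hx⟩ := exists_parameter E h
  let k := ResidueField O
  let C := Localization.AtPrime (mInf E)
  let ρ₀ : cB E →+* PowerSeries k := (PowerSeries.map (residue O)).comp (serB E 1)
  have hρ₀ : ∀ b, PowerSeries.constantCoeff (ρ₀ b) = evc E 1 b := fun b => by
    rw [RingHom.comp_apply, ← PowerSeries.coeff_zero_eq_constantCoeff_apply, PowerSeries.coeff_map,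
      PowerSeries.coeff_zero_eq_constantCoeff_apply]
    rfl
  have hunit : ∀ s : (mInf E).primeCompl, IsUnit (ρ₀ s) := fun s => by
    rw [PowerSeries.isUnit_iff_constantCoeff, hρ₀, isUnit_iff_ne_zero]
    exact fun h0 => s.2 ((mem_mInf E).mpr h0)
  let ρ : C →+* PowerSeries k := IsLocalization.lift (M := (mInf E).primeCompl) hunit
  let al' := algebraMap (cB E) C
  have hρ : ∀ b, ρ (al' b) = ρ₀ b := fun b => IsLocalization.lift_eq hunit b
  obtain ⟨U, hU⟩ := exists_wS (O := O) (M := M)
  have hρπ : ρ (al' (algebraMap O (cB E) π)) = 0 := by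
    rw [hρ, RingHom.comp_apply, serB_algebraMap, PowerSeries.map_C,
      (residue_eq_zero_iff π).mpr (by rw [hπ.maximalIdeal_eq]; exact Ideal.mem_span_singleton_self π),
      map_zero]
  have hρw : ρ (al' (wB E)) =
      PowerSeries.X ^ M * PowerSeries.map (residue O) (U : PowerSeries O) := by
    rw [hρ, RingHom.comp_apply, serB_eq E (x := wB E) (f := wS O M) (by
      rw [coe_wB]; exact serAt_wF E 1), hU, map_mul, map_pow, PowerSeries.map_X]
  have hρx : ρ (al' x) = PowerSeries.X * (V : PowerSeries k) := by rw [hρ]; exact hx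
  have hρc : ∀ a : O, ρ (al' (algebraMap O (cB E) a)) = PowerSeries.C (residue O a) := fun a => by
    rw [hρ, RingHom.comp_apply, serB_algebraMap, PowerSeries.map_C]
  let I : ℕ → Ideal C := fun i => (Ideal.span {(PowerSeries.X : PowerSeries k) ^ i}).comap ρ
  have hI : ∀ i z, z ∈ I i ↔ (PowerSeries.X : PowerSeries k) ^ i ∣ ρ z := fun i z => by
    rw [Ideal.mem_comap, Ideal.mem_span_singleton]
  set J : Ideal C := (Ideal.span {algebraMap O (cB E) π, wB E}).map al' with hJ
  have hJ' : J = Ideal.span {al' (algebraMap O (cB E) π), al' (wB E)} := by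
    rw [hJ, Ideal.map_span, Set.image_pair]
  have hJle : J ≤ I M := by
    rw [hJ', Ideal.span_le]
    rintro z (rfl | rfl)
    · rw [SetLike.mem_coe, hI, hρπ]; exact dvd_zero _
    · rw [SetLike.mem_coe, hI, hρw]; exact dvd_mul_right _ _
  have hchain : ∀ i : ℕ, (i : ℕ∞) ≤ Moduli.qlen (I i) := fun i => by
    induction i with
    | zero => simp
    | succ i ih =>
      refine le_trans ?_ (qlen_add_one_le (I := I (i + 1)) (J := I i) ?_)
      · push_cast; exact add_le_add ih le_rfl
      refine lt_of_le_of_ne (fun z hz => (hI _ _).mpr ((pow_dvd_pow _ i.le_succ).trans ((hI _ _).mp hz)))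
        fun he => ?_
      have h1 : al' x ^ i ∈ I i := (hI _ _).mpr (by
        rw [map_pow, hρx, mul_pow]; exact dvd_mul_right _ _)
      rw [← he, hI, map_pow, hρx, mul_pow, ← Units.val_pow_eq_pow_val,
        Units.dvd_mul_right] at h1
      have h2 := PowerSeries.X_pow_dvd_iff.mp h1 i i.lt_succ_self
      rw [PowerSeries.coeff_X_pow, if_pos rfl] at h2
      exact one_ne_zero h2
  have hJI : J = I M := by
    by_contra hne
    have h1 := (qlen_add_one_le (lt_of_le_of_ne hJle hne)).trans
      ((qlen_fibre_le E h hπ).trans (hchain M))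
    have h2 : Moduli.qlen (I M) ≠ ⊤ := fun ht => by
      have h3 := (qlen_add_one_le (lt_of_le_of_ne hJle hne)).trans (qlen_fibre_le E h hπ)
      rw [ht, top_add, top_le_iff] at h3
      exact ENat.natCast_ne_top M h3
    exact absurd h1 (not_le.mpr ((ENat.lt_add_one_iff h2).mpr le_rfl))
  set K : Ideal C := Ideal.span {al' (algebraMap O (cB E) π), al' x}
  have hw : al' (wB E) ∈ K := by
    have h1 : al' x ^ M ∈ J := by
      rw [hJI, hI, map_pow, hρx, mul_pow]; exact dvd_mul_right _ _
    rw [hJ', Ideal.mem_span_pair] at h1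
    obtain ⟨a, b, hab⟩ := h1
    have hb : IsUnit b := by
      have h2 := congrArg ρ hab
      rw [map_add, map_mul, map_mul, map_pow, hρπ, mul_zero, zero_add, hρw, hρx, mul_pow,
        mul_left_comm] at h2
      have h3 := mul_left_cancel₀ (pow_ne_zero _ PowerSeries.X_ne_zero) h2
      obtain ⟨⟨b₀, s⟩, hs⟩ := IsLocalization.surj (mInf E).primeCompl b
      have h5 : IsUnit (ρ b) := isUnit_of_mul_isUnit_left
        (y := PowerSeries.map (residue O) (U : PowerSeries O)) (by
          rw [h3]; exact (V ^ M).isUnit)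
      refine isUnit_of_mul_isUnit_left (y := al' s) ?_
      rw [hs]
      refine IsLocalization.map_units C (⟨b₀, fun hm => ?_⟩ : (mInf E).primeCompl)
      have h6 : IsUnit (ρ (al' b₀)) := by
        rw [← hs, map_mul]; exact h5.mul (by rw [hρ]; exact hunit s)
      rw [hρ, PowerSeries.isUnit_iff_constantCoeff, hρ₀, (mem_mInf E).mp hm] at h6
      exact not_isUnit_zero h6
    obtain ⟨u, rfl⟩ := hb
    rw [← u.inv_mul_cancel_left (al' (wB E)),
      show (u : C) * al' (wB E) = al' x ^ M - a * al' (algebraMap O (cB E) π) by rw [← hab]; ring]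
    exact Ideal.mul_mem_left _ _ (sub_mem
      (Ideal.pow_mem_of_mem _ (Ideal.subset_span (by simp)) _ (NeZero.pos M))
      (Ideal.mul_mem_left _ _ (Ideal.subset_span (by simp))))
  have hstep : ∀ n i, i + n = M → 1 ≤ i → I i ≤ K := by
    intro n
    induction n with
    | zero =>
      intro i hi _
      rw [add_zero] at hi
      rw [hi, ← hJI, hJ', Ideal.span_le]
      rintro z (rfl | rfl)
      · exact Ideal.subset_span (by simp)
      · exact hw
    | succ n ih =>
      intro i hi hi1 z hz
      obtain ⟨r, hr⟩ := (hI _ _).mp hz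
      obtain ⟨a, ha⟩ := residue_surjective (R := O)
        (PowerSeries.constantCoeff r / PowerSeries.constantCoeff (V : PowerSeries k) ^ i)
      set c := al' (algebraMap O (cB E) a)
      have hsub : z - c * al' x ^ i ∈ I (i + 1) := by
        rw [hI, map_sub, map_mul, map_pow, hρc, hρx, hr, mul_pow, mul_left_comm, ← mul_sub, pow_succ]
        refine mul_dvd_mul_left _ (PowerSeries.X_dvd_iff.mpr ?_)
        rw [map_sub, map_mul, map_pow, PowerSeries.constantCoeff_C, ha, div_mul_cancel₀, sub_self]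
        exact pow_ne_zero _ ((PowerSeries.isUnit_constantCoeff _ V.isUnit).ne_zero)
      rw [← sub_add_cancel z (c * al' x ^ i)]
      exact add_mem (ih (i + 1) (by omega) (by omega) hsub)
        (Ideal.mul_mem_left _ _ (Ideal.pow_mem_of_mem _ (Ideal.subset_span (by simp)) _ hi1))
  refine ⟨x, (mem_mInf E).mpr ?_, fun z hz => ?_⟩
  · rw [← hρ₀, ← hρ, hρx, map_mul, PowerSeries.constantCoeff_X, zero_mul]
  have hzI : al' z ∈ I 1 := by
    rw [hI, pow_one, PowerSeries.X_dvd_iff, hρ, hρ₀, (mem_mInf E).mp hz]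
  have hzK := hstep (M - 1) 1 (by have := NeZero.pos M; omega) le_rfl hzI
  have hK : K = (Ideal.span {algebraMap O (cB E) π, x}).map al' := by
    rw [Ideal.map_span, Set.image_pair]
  rw [hK, IsLocalization.algebraMap_mem_map_algebraMap_iff (mInf E).primeCompl] at hzK
  obtain ⟨s, hs, hsz⟩ := hzK
  exact ⟨s, hs, hsz⟩

/-- Regularity of the chart of `1/j` at the cusps of the special fibre. -/
theorem regularPoint_cusp (h : Setup O M q m) {π : O} (hπ : Irreducible π)
    (n : Ideal (Model.chartRing O (jF E)⁻¹)) [hn : n.IsMaximal]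
    (hπn : algebraMap O (Model.chartRing O (jF E)⁻¹) π ∈ n)
    (hwn : (⟨(jF E)⁻¹, Model.self_mem_chartRing _⟩ : Model.chartRing O (jF E)⁻¹) ∈ n) :
    ∃ x y : Model.chartRing O (jF E)⁻¹, x ∈ n ∧ y ∈ n ∧
      ∀ z ∈ n, ∃ s ∉ n, s * z ∈ Ideal.span {x, y} := by
  classical
  haveI := Fintype.ofFinite (transG E)
  -- every such point is a translate of the point at infinity
  have hsub : ∀ z ∈ n, ∃ σ : transG E, σ • z ∈ mInf E := by
    intro z hz
    set N : cB E := ∏ σ : transG E, σ • z with hN
    have hNn : N ∈ n := by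
      rw [hN, ← Finset.mul_prod_erase _ _ (Finset.mem_univ (1 : transG E)), one_smul]
      exact Ideal.mul_mem_right _ _ hz
    have hfix : ∀ σ : transG E, σ • (N : Fld E) = (N : Fld E) := fun σ => by
      rw [← coe_smul_cB, hN, Finset.smul_prod']
      exact congrArg Subtype.val (Fintype.prod_equiv (Equiv.mulLeft σ) _ _ fun τ => by
        simp [mul_smul])
    obtain ⟨P, Q, hQ, hPQ⟩ := fixedRational_inv_jF E (N : Fld E) hfix
    obtain ⟨R, hR⟩ : ∃ R : Polynomial O, (N : Fld E) = Polynomial.aeval (wF E) R := by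
      obtain ⟨p, hpm, hp⟩ := (Model.isIntegral_adjoin_iff _ _).mp (Model.mem_chartRing_iff.mp N.2)
      letI : Algebra (Polynomial O) (Fld E) := (Polynomial.aeval (wF E)).toRingHom.toAlgebra
      haveI : FaithfulSMul (Polynomial O) (Fld E) :=
        (faithfulSMul_iff_algebraMap_injective _ _).mpr (aeval_inv_jF_injective E)
      have hint : IsIntegral (Polynomial O) (N : Fld E) := ⟨p, hpm, hp⟩
      let φ : FractionRing (Polynomial O) →ₐ[Polynomial O] Fld E :=
        IsFractionRing.liftAlgHom (g := Algebra.ofId (Polynomial O) (Fld E))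
          (FaithfulSMul.algebraMap_injective _ _)
      have hQ' : algebraMap (Polynomial O) (Fld E) Q ≠ 0 := hQ
      have e : φ (algebraMap _ _ P / algebraMap _ _ Q) = N := by
        rw [map_div₀, AlgHom.commutes, AlgHom.commutes, div_eq_iff hQ']
        exact hPQ.symm
      rw [← e] at hint
      obtain ⟨R, hR⟩ := IsIntegrallyClosed.isIntegral_iff.mp
        ((isIntegral_algHom_iff φ φ.toRingHom.injective).mp hint)
      refine ⟨R, ?_⟩
      rw [← e, ← hR, AlgHom.commutes]
      rfl
    have hdecomp : polyHom E R = polyHom E R.divX * wB E + algebraMap O (cB E) (R.coeff 0) := by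
      conv_lhs => rw [← R.X_mul_divX_add, map_add, map_mul, mul_comm]
      congr 1
      exact Polynomial.aeval_C _ _
    have hNR : N = polyHom E R := Subtype.ext (by rw [coe_polyHom, hR])
    have hwB : wB E ∈ n := by
      rw [show wB E = (⟨(jF E)⁻¹, Model.self_mem_chartRing _⟩ : cB E) from Subtype.ext (coe_wB E)]
      exact hwn
    have h0 : R.coeff 0 ∈ maximalIdeal O := by
      by_contra hu
      rw [mem_maximalIdeal, mem_nonunits_iff, not_not] at hu
      refine hn.ne_top (n.eq_top_of_isUnit_mem ?_ (hu.map (algebraMap O (cB E))))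
      have h2 : algebraMap O (cB E) (R.coeff 0) = N - polyHom E R.divX * wB E := by
        rw [hNR, hdecomp]; ring
      rw [h2]
      exact sub_mem hNn (n.mul_mem_left _ hwB)
    have hN0 : evc E 1 N = 0 := by
      have hw0 : evc E 1 (wB E) = 0 := by
        simp only [evc, RingHom.comp_apply]
        obtain ⟨U, hU⟩ := exists_wS (O := O) (M := M)
        rw [serB_eq E (x := wB E) (f := wS O M) (by rw [coe_wB]; exact serAt_wF E 1), hU, map_mul,
          map_pow, PowerSeries.constantCoeff_X, zero_pow (NeZero.ne M), zero_mul, map_zero]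
      rw [hNR, hdecomp, map_add, map_mul, hw0, mul_zero, zero_add, evc_algebraMap,
        residue_eq_zero_iff]
      exact h0
    rw [hN, map_prod, Finset.prod_eq_zero_iff] at hN0
    obtain ⟨σ, -, hσ⟩ := hN0
    exact ⟨σ, (mem_mInf E).mpr hσ⟩
  obtain ⟨σ, -, hσ⟩ := (Ideal.subset_union_prime (R := cB E) (s := (Finset.univ : Finset (transG E)))
    (f := fun σ => σ⁻¹ • mInf E) (1 : transG E) (1 : transG E)
    (fun τ _ _ _ => (Moduli.isMaximal_smul τ⁻¹ (mInf E)).isPrime)).mp (fun z hz => by
      obtain ⟨τ, hτ⟩ := hsub z hz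
      simp only [Finset.coe_univ, Set.mem_iUnion, Set.mem_univ, SetLike.mem_coe]
      exact ⟨τ, trivial, Ideal.mem_inv_pointwise_smul_iff.mpr hτ⟩)
  haveI := Moduli.isMaximal_smul σ⁻¹ (mInf E)
  have heq : n = σ⁻¹ • mInf E := hn.eq_of_le (Ideal.IsMaximal.ne_top inferInstance) hσ
  obtain ⟨x, hx, hgen⟩ := mem_span_at_infinity E h hπ
  refine ⟨algebraMap O _ π, σ⁻¹ • x, hπn, ?_, fun z hz => ?_⟩
  · rw [heq]; exact Ideal.smul_mem_pointwise_smul _ _ _ hx
  have hz' : σ • z ∈ mInf E := Ideal.mem_inv_pointwise_smul_iff.mp (heq ▸ hz)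
  obtain ⟨s, hs, hsz⟩ := hgen _ hz'
  refine ⟨σ⁻¹ • s, fun hs' => hs ?_, ?_⟩
  · rw [heq] at hs'
    exact Ideal.smul_mem_pointwise_smul_iff.mp hs'
  obtain ⟨a, b, hab⟩ := Ideal.mem_span_pair.mp hsz
  refine Ideal.mem_span_pair.mpr ⟨σ⁻¹ • a, σ⁻¹ • b, ?_⟩
  have h1 := congrArg (σ⁻¹ • ·) hab
  simp only [smul_add, smul_mul', smul_algebraMap_cB, inv_smul_smul] at h1
  exact h1

end Fermat.Agent.CuspPt
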