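import Fermat.Agent.Moduli.AbsBridge
import Fermat.Agent.Models.Field.Fld

/-!
# The finite chart of the level field is regular over `q`

For odd `q` and level `2^a q (2j+1)` every maximal ideal of the integral closure of `O[j]` containing
`q` is locally generated by two elements.
-/

set_option autoImplicit false
set_option linter.style.haveILetI false
set_option linter.unusedSectionVars false

noncomputable section

namespace Fermat.Agent.Moduli

open Polynomial IsLocalRing WeierstrassCurve Fermat.Agent.EC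
open Fermat.Agent.GalRep Fermat.Agent.ModField
open Fermat.Agent.GalRep.Model (Lev NZ chartRing mem_chartRing_iff)

section Interior

variable {W : Type} [CommRing W] [IsDomain W] [IsDiscreteValuationRing W]
  [IsAlgClosed (ResidueField W)] {O : Type} [CommRing O] [IsDomain O] [Algebra W O]
  {M : ℕ} [NeZero M] (E : Emb O M)

/-- Over the base, integrality is membership of the finite chart. -/
theorem mem_chartRing_iff_isIntegral (L : Lev M) (hLm : L.m = 2)
    (hgen : Algebra.adjoin W {E.ζ} = ⊤) (h2W : IsUnit (2 : W))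
    (f : LegBase W →+* Fld E) [Algebra W (Fld E)] [IsScalarTower W O (Fld E)]
    (hfal : ∀ P : W[X], f (algebraMap W[X] (LegBase W) P) = aeval (lamF E L) P) (x : Fld E) :
    x ∈ chartRing O (jF E) ↔ @_root_.IsIntegral (LegBase W) (Fld E) _ _ f.toAlgebra x := by
  letI : Algebra (LegBase W) (Fld E) := f.toAlgebra
  set R := LegBase W
  let l : R := legVar W
  obtain ⟨hlu, hl1u⟩ := isUnit_legVar (W := W)
  set lam := lamF E L
  obtain ⟨hl0, hl1⟩ := lamF_ne E hLm
  have hfl : f (legVar W) = lam := by rw [legVar, hfal, aeval_X]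
  let ψ : W →+* Fld E := (algebraMap O (Fld E)).comp (algebraMap W O)
  have hWF : ∀ w, algebraMap W (Fld E) w = ψ w := fun w => IsScalarTower.algebraMap_apply W O (Fld E) w
  have hfC : ∀ w, algebraMap R (Fld E) (algebraMap W[X] R (C w)) = ψ w := fun w => by
    show f _ = _
    rw [hfal, aeval_C, hWF]
  have hjrel := jF_mul_lamF E hLm
  set J := jF E
  set A₁ := Algebra.adjoin O ({J} : Set (Fld E))
  obtain ⟨u256, hu256⟩ : ∃ u : W, u * 256 = 1 := by
    obtain ⟨u, hu⟩ := (h2W.pow 8).exists_left_inv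
    exact ⟨u, by rw [← hu]; norm_num⟩
  have hlamR : _root_.IsIntegral R lam := by
    rw [← hfl]; exact isIntegral_algebraMap
  -- constants and `j` are integral over the base
  have hO : ∀ o : O, _root_.IsIntegral R (algebraMap O (Fld E) o) := by
    intro o
    obtain ⟨P, rfl⟩ : ∃ P : W[X], aeval E.ζ P = o :=
      (Algebra.adjoin_singleton_eq_range_aeval W E.ζ).le
        (hgen ▸ Algebra.mem_top : o ∈ Algebra.adjoin W {E.ζ})
    have hz : _root_.IsIntegral R (algebraMap O (Fld E) E.ζ) := by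
      refine .of_pow (NeZero.pos M) ?_
      have hzM : E.ζ ^ M = 1 := E.inj (by
        rw [map_pow, E.map_ζ, map_one]; exact Level.zetaC_pow M)
      rw [← map_pow, hzM, map_one]
      exact isIntegral_one
    rw [aeval_eq_sum_range, map_sum]
    refine _root_.IsIntegral.sum _ fun i _ => ?_
    rw [Algebra.smul_def, map_mul, map_pow]
    refine (?_ : _root_.IsIntegral R _).mul (hz.pow i)
    rw [show algebraMap O (Fld E) (algebraMap W O (P.coeff i)) = ψ (P.coeff i) from rfl, ← hfC]
    exact isIntegral_algebraMap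
  have hJR : _root_.IsIntegral R J := by
    obtain ⟨v, hv⟩ := ((hlu.mul (isUnit_legVar (W := W)).2).pow 2).exists_left_inv
    have hv' : algebraMap R (Fld E) v * (lam * (1 - lam)) ^ 2 = 1 := by
      rw [← hfl, ← map_one f, ← map_sub, ← map_mul, ← map_pow]
      show f v * _ = _
      rw [← map_mul, hv]
    have e : J = algebraMap R (Fld E) v * (256 * (lam ^ 2 - lam + 1) ^ 3) := by
      rw [← hjrel]
      linear_combination -J * hv'
    rw [e]
    have h256 : _root_.IsIntegral R (256 : Fld E) := by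
      have h := isIntegral_algebraMap (R := R) (A := Fld E) (x := (256 : R))
      rwa [map_ofNat] at h
    exact isIntegral_algebraMap.mul
      (h256.mul ((((hlamR.pow 2).sub hlamR).add isIntegral_one).pow 3))
  have hA₁ : ∀ x ∈ A₁, _root_.IsIntegral R x := by
    intro x hx
    induction hx using Algebra.adjoin_induction with
    | mem x hx => rw [Set.mem_singleton_iff.1 hx]; exact hJR
    | algebraMap o => exact hO o
    | add _ _ _ _ ha hb => exact ha.add hb
    | mul _ _ _ _ ha hb => exact ha.mul hb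
  -- the base is integral over the chart ring
  have hJA : J ∈ A₁ := Algebra.self_mem_adjoin_singleton O J
  have hcA : _root_.IsIntegral A₁ (ψ u256 * J) :=
    (isIntegral_algebraMap (R := A₁) (x := ⟨algebraMap O (Fld E) (algebraMap W O u256),
      A₁.algebraMap_mem _⟩)).mul (isIntegral_algebraMap (R := A₁) (x := ⟨J, hJA⟩))
  have hc256 : ψ u256 * 256 = 1 := by
    rw [← map_ofNat ψ 256, ← map_mul, hu256, map_one]
  set c := ψ u256 * J
  have hcA' : c ∈ A₁ := A₁.mul_mem (A₁.algebraMap_mem _) hJA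
  have hlam : _root_.IsIntegral A₁ lam := by
    let cc : A₁ := ⟨c, hcA'⟩
    refine ⟨(X ^ 2 - X + 1) ^ 3 - Polynomial.C cc * (X ^ 2 * (X - 1) ^ 2), ?_, ?_⟩
    · refine (show ((X ^ 2 - X + 1 : A₁[X]) ^ 3).Monic by monicity!).sub_of_left ?_
      have h1 : ((X ^ 2 - X + 1 : A₁[X]) ^ 3).degree = 6 := by compute_degree!
      rw [h1]
      refine lt_of_le_of_lt (b := 4) (by compute_degree!) (by norm_num)
    · simp only [eval₂_sub, eval₂_mul, eval₂_pow, eval₂_add, eval₂_X, eval₂_C, eval₂_one]
      show (lam ^ 2 - lam + 1) ^ 3 - c * (lam ^ 2 * (lam - 1) ^ 2) = 0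
      linear_combination -ψ u256 * hjrel - (lam ^ 2 - lam + 1) ^ 3 * hc256
  set μ := lam * (1 - lam)
  have hμ0 : μ ≠ 0 := mul_ne_zero hl0 hl1
  have hinv : _root_.IsIntegral A₁ μ⁻¹ := by
    let cc : A₁ := ⟨c, hcA'⟩
    refine ⟨(X - 1) ^ 3 - Polynomial.C cc * X, ?_, ?_⟩
    · refine (show ((X - 1 : A₁[X]) ^ 3).Monic by monicity!).sub_of_left ?_
      have h1 : ((X - 1 : A₁[X]) ^ 3).degree = 3 := by compute_degree!
      rw [h1]
      refine lt_of_le_of_lt (b := 1) (by compute_degree!) (by norm_num)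
    · simp only [eval₂_sub, eval₂_mul, eval₂_pow, eval₂_X, eval₂_C, eval₂_one]
      show (μ⁻¹ - 1) ^ 3 - c * μ⁻¹ = 0
      field_simp
      linear_combination -ψ u256 * hjrel - (lam ^ 2 - lam + 1) ^ 3 * hc256
  have hψA : ∀ w, _root_.IsIntegral A₁ (ψ w) := fun w =>
    isIntegral_algebraMap (R := A₁) (x := ⟨algebraMap O (Fld E) (algebraMap W O w), A₁.algebraMap_mem _⟩)
  have hR : ∀ r : R, _root_.IsIntegral A₁ (algebraMap R (Fld E) r) := by
    intro r
    obtain ⟨P, n, hP⟩ := exists_legBase_mul r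
    have hPi : _root_.IsIntegral A₁ (aeval lam P) := by
      rw [aeval_eq_sum_range]
      refine _root_.IsIntegral.sum _ fun i _ => ?_
      rw [Algebra.smul_def, hWF]
      exact (hψA _).mul (hlam.pow i)
    have e : algebraMap R (Fld E) r = aeval lam P * μ⁻¹ ^ n := by
      rw [← hfal, ← hP, map_mul, hfal]
      rw [map_pow, show aeval lam (legDisc W) = μ from by simp [legDisc, μ], inv_pow,
        mul_inv_cancel_right₀ (pow_ne_zero _ hμ0)]
      rfl
    rw [e]
    exact hPi.mul (hinv.pow n)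
  show _root_.IsIntegral A₁ x ↔ _root_.IsIntegral R x
  constructor
  · intro hx
    let C := integralClosure R (Fld E)
    have : _root_.IsIntegral C x := by
      obtain ⟨P, hP, hPx⟩ := hx
      let i : A₁ →+* C := (algebraMap A₁ (Fld E)).codRestrict C fun y => hA₁ y y.2
      refine ⟨P.map i, hP.map _, ?_⟩
      rw [eval₂_map]
      exact hPx
    exact isIntegral_trans x this
  · intro hx
    let C := integralClosure A₁ (Fld E)
    have : _root_.IsIntegral C x := by
      obtain ⟨P, hP, hPx⟩ := hx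
      let i : R →+* C := (algebraMap R (Fld E)).codRestrict C fun r => hR r
      refine ⟨P.map i, hP.map _, ?_⟩
      rw [eval₂_map]
      exact hPx
    exact isIntegral_trans x this

/-- The transport of the regularity of the field of abscissae. -/
theorem exists_regular_of_base (L : Lev M) (hLm : L.m = 2) {R : Type} [CommRing R] [IsDomain R]
    [IsIntegrallyClosed R] [IsNoetherianRing R] {K₀ : Type} [Field K₀] [Algebra R K₀]
    [IsFractionRing R K₀] [Algebra R (Fld E)] [Algebra K₀ (Fld E)] [IsScalarTower R K₀ (Fld E)]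
    {l : R} {q k j a : ℕ} [Fact q.Prime] (hgen : Algebra.adjoin W {E.ζ} = ⊤)
    (hζ : ∃ c : W, algebraMap W O c = E.ζ ^ q) (hMq : ¬ M ∣ 2 * q) (hj : 0 < j)
    (hqj : ¬ q ∣ 2 * j + 1) (hM : M = 2 ^ a * (q * (2 * j + 1))) (h2R : IsUnit (2 : R))
    (hlu : IsUnit l) (hl1u : IsUnit (1 - l)) (hfl : algebraMap R (Fld E) l = lamF E L)
    (hconst : ∀ y ∈ Set.range ((algebraMap O (Fld E)).comp (algebraMap W O)),
      ∃ c : K₀, algebraMap K₀ (Fld E) c = y)
    (hiff : ∀ x : Fld E, x ∈ chartRing O (jF E) ↔ _root_.IsIntegral R x)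
    (hbase : ∀ I : Ideal R, I.IsMaximal → (q : R) ∈ I → ∃ t ∈ I, BasePoint R l k q t)
    (𝔪 : Ideal (chartRing O (jF E))) [h𝔪 : 𝔪.IsMaximal]
    (hqm : (q : chartRing O (jF E)) ∈ 𝔪) :
    ∃ x y : chartRing O (jF E), x ∈ 𝔪 ∧ y ∈ 𝔪 ∧
      ∀ z ∈ 𝔪, ∃ s ∉ 𝔪, s * z ∈ Ideal.span {x, y} := by
  classical
  obtain ⟨Br⟩ := nonempty_absBridge E L hLm hgen hζ hMq hlu hl1u hfl hconst
  -- transport
  let jA := Br.ι
  have hrange := Br.range_eq
  set F' := absField K₀ Br.Ω l M
  let jF' : Fld E →+* F' := jA.toRingHom.codRestrict F' fun x => hrange.le ⟨x, rfl⟩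
  have hjF'R : ∀ r : R, jF' (algebraMap R (Fld E) r) = algebraMap R F' r := fun r => Subtype.ext (by
    show jA (algebraMap R (Fld E) r) = algebraMap R Br.Ω r
    rw [IsScalarTower.algebraMap_apply R K₀ (Fld E), AlgHom.commutes,
      ← IsScalarTower.algebraMap_apply R K₀ Br.Ω])
  let jR : Fld E →ₐ[R] F' := { jF' with commutes' := hjF'R }
  have hjRinj : Function.Injective jR := jF'.injective
  let ψB : chartRing O (jF E) →+* integralClosure R F' :=
    (jF'.comp (chartRing O (jF E)).val.toRingHom).codRestrict _ fun b =>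
      (isIntegral_algHom_iff jR hjRinj).2 ((hiff _).1 b.2)
  have hbij : Function.Bijective ψB := by
    refine ⟨fun x y e => Subtype.ext (hjRinj (congrArg Subtype.val e)), fun y => ?_⟩
    obtain ⟨x, hx⟩ : ∃ x, jF' x = y.1 := by
      obtain ⟨x, hx⟩ : (y.1 : Br.Ω) ∈ jA.fieldRange := hrange.ge y.1.2
      exact ⟨x, Subtype.ext hx⟩
    have hxi : _root_.IsIntegral R x :=
      (isIntegral_algHom_iff jR hjRinj).1 (show _root_.IsIntegral R (jR x) from hx ▸ y.2)
    exact ⟨⟨x, (hiff x).2 hxi⟩, Subtype.ext hx⟩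
  let e : chartRing O (jF E) ≃+* integralClosure R F' := RingEquiv.ofBijective ψB hbij
  set p : Ideal (integralClosure R F') := 𝔪.map (e : chartRing O (jF E) →+* _)
  have hp_mem : ∀ z, z ∈ p ↔ e.symm z ∈ 𝔪 := fun z => by
    rw [show p = 𝔪.comap (e.symm : integralClosure R F' →+* _) from Ideal.map_comap_of_equiv e]
    rfl
  haveI : p.IsMaximal := Ideal.map_isMaximal_of_equiv e
  have hqp : (q : integralClosure R F') ∈ p := by rw [hp_mem, map_natCast]; exact hqm
  haveI : Algebra.IsIntegral R (integralClosure R F') := ⟨fun x => integralClosure.isIntegral x⟩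
  haveI : (p.comap (algebraMap R (integralClosure R F'))).IsMaximal :=
    Ideal.isMaximal_comap_of_isIntegral_of_isMaximal p
  obtain ⟨t, ht, hB⟩ := hbase (p.comap (algebraMap R (integralClosure R F'))) inferInstance
    (by rw [Ideal.mem_comap, map_natCast]; exact hqp)
  obtain ⟨x, y, hxy⟩ := exists_generators_absField (Ω := Br.Ω) (K := K₀) hB h2R hj hqj hM F' rfl p
    hqp ht (D := Localization.AtPrime p)
  have hx : x ∈ p := (IsLocalization.AtPrime.to_map_mem_maximal_iff (Localization.AtPrime p) p x).1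
    (hxy ▸ Ideal.mem_sup_left (Ideal.mem_span_singleton_self _))
  have hy : y ∈ p := (IsLocalization.AtPrime.to_map_mem_maximal_iff (Localization.AtPrime p) p y).1
    (hxy ▸ Ideal.mem_sup_right (Ideal.mem_span_singleton_self _))
  refine ⟨e.symm x, e.symm y, (hp_mem x).1 hx, (hp_mem y).1 hy, fun z hz => ?_⟩
  have hzp : e z ∈ p := by rw [hp_mem, RingEquiv.symm_apply_apply]; exact hz
  have h1 := (IsLocalization.AtPrime.to_map_mem_maximal_iff (Localization.AtPrime p) p (e z)).2 hzp
  rw [hxy, ← Ideal.span_union, Set.singleton_union, ← Set.image_pair, ← Ideal.map_span,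
    IsLocalization.algebraMap_mem_map_algebraMap_iff p.primeCompl] at h1
  obtain ⟨s, hs, hsz⟩ := h1
  refine ⟨e.symm s, fun h => hs ((hp_mem s).2 h), ?_⟩
  have h2 := Ideal.mem_map_of_mem (e.symm : integralClosure R F' →+* chartRing O (jF E)) hsz
  rw [Ideal.map_span, Set.image_pair, map_mul] at h2
  simpa using h2

/-- Every maximal ideal of the finite chart over `q` is locally generated by two elements. -/
theorem exists_regular_finite {q k j a : ℕ} (hq : q.Prime) (hk : q = 2 * k + 1)
    (hmax : maximalIdeal W = Ideal.span {(q : W)}) (hgen : Algebra.adjoin W {E.ζ} = ⊤)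
    (hζ : ∃ c : W, algebraMap W O c = E.ζ ^ q) (ha : 0 < a) (hj : 0 < j) (hqj : ¬ q ∣ 2 * j + 1)
    (hM : M = 2 ^ a * (q * (2 * j + 1))) (𝔪 : Ideal (chartRing O (jF E))) [h𝔪 : 𝔪.IsMaximal]
    (hqm : (q : chartRing O (jF E)) ∈ 𝔪) :
    ∃ x y : chartRing O (jF E), x ∈ 𝔪 ∧ y ∈ 𝔪 ∧
      ∀ z ∈ 𝔪, ∃ s ∉ 𝔪, s * z ∈ Ideal.span {x, y} := by
  classical
  haveI : Fact q.Prime := ⟨hq⟩
  have hk0 : 0 < k := by have := hq.two_le; omega
  -- the level
  let L : Lev M :=
    { m := 2, e := 2 ^ (a - 1) * (q * (2 * j + 1)), hm := Or.inl rfl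
      eq := by rw [hM]; conv_lhs => rw [show a = a - 1 + 1 by omega, pow_succ]
               ring
      five := by
        rw [hM]
        have h1 : 2 ≤ 2 ^ a := by
          calc 2 = 2 ^ 1 := rfl
            _ ≤ 2 ^ a := Nat.pow_le_pow_right (by norm_num) ha
        have h2 : 3 * 3 ≤ q * (2 * j + 1) := Nat.mul_le_mul (by omega) (by omega)
        nlinarith }
  have hLm : L.m = 2 := rfl
  have hMq : ¬ M ∣ 2 * q := by
    intro hd
    have := Nat.le_of_dvd (by have := hq.pos; omega) hd
    have h1 : 2 ≤ 2 ^ a := by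
      calc 2 = 2 ^ 1 := rfl
        _ ≤ 2 ^ a := Nat.pow_le_pow_right (by norm_num) ha
    have h2 : 2 * (q * (2 * j + 1)) ≤ M := hM ▸ Nat.mul_le_mul_right _ h1
    nlinarith [hq.two_le]
  -- constants
  let ψ : W →+* Fld E := (algebraMap O (Fld E)).comp (algebraMap W O)
  letI : Algebra W (Fld E) := ψ.toAlgebra
  haveI : IsScalarTower W O (Fld E) := IsScalarTower.of_algebraMap_eq fun w => rfl
  have hq0 : (q : W) ≠ 0 := fun h0 => by
    have := congrArg ψ h0
    rw [map_natCast, map_zero] at this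
    exact hq.ne_zero (Nat.cast_eq_zero.1 this)
  have hψ : Function.Injective ψ := by
    rw [injective_iff_map_eq_zero]
    intro w hw
    by_contra h0
    obtain ⟨ϖ, hϖ⟩ := IsDiscreteValuationRing.exists_irreducible W
    obtain ⟨n, u, rfl⟩ := IsDiscreteValuationRing.eq_unit_mul_pow_irreducible h0 hϖ
    have hπ : ψ ϖ = 0 := by
      rw [map_mul, mul_eq_zero, map_pow] at hw
      rcases hw with hw | hw
      · exact absurd hw (u.isUnit.map ψ).ne_zero
      · exact eq_zero_of_pow_eq_zero hw
    obtain ⟨b, hb⟩ : ϖ ∣ (q : W) := by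
      rw [← Ideal.mem_span_singleton, ← hϖ.maximalIdeal_eq, hmax]
      exact Ideal.subset_span rfl
    have := congrArg ψ hb
    rw [map_mul, hπ, zero_mul, map_natCast] at this
    exact hq.ne_zero (Nat.cast_eq_zero.1 this)
  have hWO : Function.Injective (algebraMap W O) := fun x y h => hψ (by simp [ψ, h])
  have hwu : ∀ n : ℕ, ¬ q ∣ n → IsUnit (n : W) := fun n hn => by
    refine notMem_maximalIdeal.1 fun h => hn ?_
    obtain ⟨u, v, huv⟩ : ∃ u v : ℤ, u * n + v * q = 1 := by
      have := ((Nat.coprime_comm.1 ((hq.coprime_iff_not_dvd).2 hn))).isCoprime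
      exact this
    by_contra
    have h1 : (1 : W) ∈ maximalIdeal W := by
      have e := congrArg (Int.cast : ℤ → W) huv
      push_cast at e
      rw [← e]
      exact add_mem (Ideal.mul_mem_left _ _ h)
        (Ideal.mul_mem_left _ _ (hmax ▸ Ideal.subset_span rfl))
    exact (maximalIdeal.isMaximal W).ne_top ((Ideal.eq_top_iff_one _).2 h1)
  have h2W : IsUnit (2 : W) := by
    have := hwu 2 fun h => by have := (Nat.prime_dvd_prime_iff_eq hq Nat.prime_two).1 h; omega
    simpa using this
  -- the base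
  set f := baseHom E L hLm hWO
  have hfal := baseHom_algebraMap E L hLm hWO
  have hfl : f (legVar W) = lamF E L := baseHom_legVar E L hLm hWO
  have hfinj : Function.Injective f := baseHom_injective E L hLm hWO
  set R := LegBase W
  set K₀ := FractionRing R
  letI : Algebra R (Fld E) := f.toAlgebra
  let g : K₀ →+* Fld E := IsFractionRing.lift (A := R) (K := K₀) hfinj
  letI : Algebra K₀ (Fld E) := g.toAlgebra
  haveI : IsScalarTower R K₀ (Fld E) :=
    IsScalarTower.of_algebraMap_eq fun r => (IsFractionRing.lift_algebraMap hfinj r).symm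
  have h2R : IsUnit (2 : R) := by
    have := h2W.map ((algebraMap W[X] R).comp C)
    rwa [map_ofNat] at this
  obtain ⟨hlu, hl1u⟩ := isUnit_legVar (W := W)
  refine exists_regular_of_base E L hLm (k := k) (R := R) (K₀ := K₀) (l := legVar W) hgen hζ hMq hj hqj hM
    h2R hlu hl1u hfl ?_ (mem_chartRing_iff_isIntegral E L hLm hgen h2W f hfal) ?_ 𝔪 hqm
  · rintro _ ⟨w, rfl⟩
    refine ⟨algebraMap R K₀ (algebraMap W[X] R (C w)), ?_⟩
    rw [← IsScalarTower.algebraMap_apply R K₀ (Fld E)]
    exact baseHom_C E L hLm hWO w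
  · exact fun I hI hqI => exists_basePoint hq hk hmax hq0 I hqI

end Interior

end Fermat.Agent.Moduli
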