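import Mathlib

/-!
# A maximal ideal moved by every nontrivial element

If no element but `1` of a finite group fixes the maximal ideal `m`, then locally `m` is generated
by its invariant elements: the regular representation splits at `m`.
-/

set_option autoImplicit false

namespace Fermat.Agent.Moduli

open Pointwise Polynomial

variable {B G : Type*} [CommRing B] [Group G] [Fintype G] [MulSemiringAction G B]

omit [Fintype G] in
lemma smul_mem_iff_mem_inv_smul (g : G) (m : Ideal B) (b : B) :
    g • b ∈ m ↔ b ∈ g⁻¹ • m := Ideal.mem_inv_pointwise_smul_iff.symm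

/-- An element outside `m` and inside all the other conjugates. -/
lemma exists_mem_conjugates (m : Ideal B) [hm : m.IsMaximal]
    (hfree : ∀ g : G, g • m = m → g = 1) :
    ∃ e : B, e ∉ m ∧ ∀ g : G, g ≠ 1 → g • e ∈ m := by
  classical
  have key : ∀ g : G, g ≠ 1 → ∃ b : B, b ∉ m ∧ g • b ∈ m := fun g hg => by
    by_contra hno
    push Not at hno
    have hle : g⁻¹ • m ≤ m := fun b hb => by
      by_contra hbm
      exact hno b hbm ((smul_mem_iff_mem_inv_smul g m b).2 hb)
    have : (g⁻¹ • m).IsMaximal :=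
      Ideal.map_isMaximal_of_equiv (MulSemiringAction.toRingEquiv G B g⁻¹) (p := m)
    exact hg (inv_eq_one.1 (hfree g⁻¹ (Ideal.IsMaximal.eq_of_le inferInstance hm.ne_top hle)))
  choose! f hf hf' using key
  refine ⟨∏ g ∈ Finset.univ.erase (1 : G), f g, ?_, fun g hg => ?_⟩
  · rw [hm.isPrime.prod_mem_iff]
    rintro ⟨g, hg, h⟩
    exact hf g (Finset.ne_of_mem_erase hg) h
  · rw [Finset.smul_prod', hm.isPrime.prod_mem_iff]
    exact ⟨g, Finset.mem_erase.2 ⟨hg, Finset.mem_univ g⟩, hf' g hg⟩

/-- The invariant elements of `m` generate it locally. -/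
theorem exists_mul_mem_span_invariant (m : Ideal B) [hm : m.IsMaximal]
    (hfree : ∀ g : G, g • m = m → g = 1) {x : B} (hx : x ∈ m) :
    ∃ s ∉ m, s * x ∈ Ideal.span {y | y ∈ m ∧ ∀ g : G, g • y = y} := by
  classical
  obtain ⟨e, he, hge⟩ := exists_mem_conjugates m hfree
  set x' := e * x
  have hx' : ∀ g : G, g • x' ∈ m := fun g => by
    rw [smul_mul']
    by_cases hg : g = 1
    · subst hg; rw [one_smul, one_smul]; exact m.mul_mem_left _ hx
    · exact m.mul_mem_right _ (hge g hg)
  set P : B[X] := ∏ g ∈ Finset.univ.erase (1 : G), (C (g • e) - X)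
  have hP : P.eval e ∉ m := by
    rw [eval_prod, hm.isPrime.prod_mem_iff]
    rintro ⟨g, hg, h⟩
    rw [eval_sub, eval_C, eval_X] at h
    have := sub_mem (hge g (Finset.ne_of_mem_erase hg)) h
    rw [sub_sub_cancel] at this
    exact he this
  have hP0 : ∀ h : G, h ≠ 1 → P.eval (h • e) = 0 := fun h hh => by
    rw [eval_prod]
    exact Finset.prod_eq_zero (Finset.mem_erase.2 ⟨hh, Finset.mem_univ h⟩) (by simp)
  have hsum : P.eval e * x' = ∑ i ∈ Finset.range (P.natDegree + 1),
      P.coeff i * ∑ h : G, h • (e ^ i * x') := by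
    calc P.eval e * x' = ∑ h : G, P.eval (h • e) * h • x' := by
          rw [Finset.sum_eq_single_of_mem (1 : G) (Finset.mem_univ _)
            (fun h _ hh => by rw [hP0 h hh, zero_mul]), one_smul, one_smul]
      _ = _ := by
          simp only [eval_eq_sum_range, Finset.sum_mul, Finset.mul_sum, smul_mul', smul_pow',
            mul_assoc]
          rw [Finset.sum_comm]
  refine ⟨P.eval e * e, fun h => (hm.isPrime.mem_or_mem h).elim hP he, ?_⟩
  rw [mul_assoc, hsum]
  refine Ideal.sum_mem _ fun i _ => Ideal.mul_mem_left _ _ (Ideal.subset_span ⟨?_, fun g => ?_⟩)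
  · exact Ideal.sum_mem _ fun h _ => by rw [smul_mul']; exact m.mul_mem_left _ (hx' h)
  · rw [Finset.smul_sum]
    simp only [smul_smul]
    exact Fintype.sum_equiv (Equiv.mulLeft g) _ _ fun h => rfl

/-- Two elements below generating a closed point generate the one above it, where the invariants
are locally below. -/
theorem exists_mul_mem_span_pair {S : Type*} [CommRing S] (φ : S →+* B) (m : Ideal B)
    [hm : m.IsMaximal] (hfree : ∀ g : G, g • m = m → g = 1)
    (hbelow : ∀ y : B, (∀ g : G, g • y = y) → ∃ s : S, φ s ∉ m ∧ ∃ y' : S, φ s * y = φ y')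
    {a b : S} (hab : ∀ z ∈ m.comap φ, ∃ s ∉ m.comap φ, s * z ∈ Ideal.span {a, b}) :
    ∀ z ∈ m, ∃ s ∉ m, s * z ∈ Ideal.span {φ a, φ b} := by
  intro z hz
  set J : Ideal B := Ideal.span {φ a, φ b}
  obtain ⟨s₀, hs₀, hz'⟩ := exists_mul_mem_span_invariant (G := G) m hfree hz
  obtain ⟨s, hs, hsz⟩ : ∃ s ∉ m, s * (s₀ * z) ∈ J := by
    refine Submodule.span_induction (p := fun x _ => ∃ s ∉ m, s * x ∈ J) ?_ ?_ ?_ ?_ hz'
    · rintro x ⟨hx, hxf⟩
      obtain ⟨s, hs, y', hy'⟩ := hbelow x hxf
      obtain ⟨s', hs', hsy⟩ := hab y' (by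
        rw [Ideal.mem_comap, ← hy']; exact m.mul_mem_left _ hx)
      refine ⟨φ s' * φ s, fun e => (hm.isPrime.mem_or_mem e).elim hs' hs, ?_⟩
      rw [mul_assoc, hy', ← map_mul]
      have := Ideal.mem_map_of_mem φ hsy
      rwa [Ideal.map_span, Set.image_pair] at this
    · exact ⟨1, fun e => hm.ne_top ((Ideal.eq_top_iff_one _).2 e), by simp⟩
    · rintro x y _ _ ⟨s, hs, e⟩ ⟨s', hs', e'⟩
      refine ⟨s * s', fun e'' => (hm.isPrime.mem_or_mem e'').elim hs hs', ?_⟩
      rw [mul_add, mul_right_comm, mul_assoc s s' y]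
      exact add_mem (J.mul_mem_right _ e) (J.mul_mem_left _ e')
    · rintro r x _ ⟨s, hs, e⟩
      exact ⟨s, hs, by rw [smul_eq_mul, mul_left_comm]; exact J.mul_mem_left _ e⟩
  exact ⟨s * s₀, fun e => (hm.isPrime.mem_or_mem e).elim hs hs₀, by rw [mul_assoc]; exact hsz⟩

/-- The field generated over the fractions of the base consists of fractions of the ring generated
over the base. -/
theorem exists_frac_of_mem_adjoin {R K F : Type*} [CommRing R] [IsDomain R] [Field K] [Field F]
    [Algebra R K] [IsFractionRing R K] [Algebra R F] [Algebra K F] [IsScalarTower R K F] (T : Set F)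
    {x : F} (hx : x ∈ IntermediateField.adjoin K T) :
    ∃ p q : Algebra.adjoin R T, q ≠ 0 ∧ (q : F) * x = p := by
  refine IntermediateField.adjoin_induction K
    (p := fun x _ => ∃ p q : Algebra.adjoin R T, q ≠ 0 ∧ (q : F) * x = p) ?_ ?_ ?_ ?_ ?_ hx
  · intro x hx
    exact ⟨⟨x, Algebra.subset_adjoin hx⟩, 1, one_ne_zero, by simp⟩
  · intro x
    obtain ⟨p, q, hq, rfl⟩ := IsFractionRing.div_surjective (A := R) x
    have hq0 : algebraMap R F q ≠ 0 := by
      rw [IsScalarTower.algebraMap_apply R K F, map_ne_zero_iff _ (algebraMap K F).injective]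
      exact IsFractionRing.to_map_ne_zero_of_mem_nonZeroDivisors hq
    refine ⟨algebraMap _ _ p, algebraMap _ _ q, fun h => hq0 (congrArg Subtype.val h), ?_⟩
    rw [map_div₀, ← IsScalarTower.algebraMap_apply, ← IsScalarTower.algebraMap_apply]
    show algebraMap R F q * _ = algebraMap R F p
    rw [mul_div_cancel₀ _ hq0]
  · rintro x y _ _ ⟨p, q, hq, e⟩ ⟨p', q', hq', e'⟩
    refine ⟨p * q' + p' * q, q * q', mul_ne_zero hq hq', ?_⟩
    push_cast
    linear_combination (q' : F) * e + (q : F) * e'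
  · rintro x _ ⟨p, q, hq, e⟩
    by_cases hp : p = 0
    · have hx : x = 0 := by
        rw [hp] at e
        exact (mul_eq_zero.1 (e.trans (ZeroMemClass.coe_zero _))).resolve_left
          fun h => hq (Subtype.ext h)
      exact ⟨0, 1, one_ne_zero, by simp [hx]⟩
    · refine ⟨q, p, hp, ?_⟩
      have hx : x ≠ 0 := by
        rintro rfl
        exact hp (Subtype.ext (by simpa using e.symm))
      rw [← e, mul_inv_cancel_right₀ hx]
  · rintro x y _ _ ⟨p, q, hq, e⟩ ⟨p', q', hq', e'⟩
    refine ⟨p * p', q * q', mul_ne_zero hq hq', ?_⟩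
    push_cast
    linear_combination ((q' : F) * y) * e + (p : F) * e'

end Fermat.Agent.Moduli
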