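import Fermat.Agent.Moduli.TwoGalois
import Fermat.Agent.Moduli.FreeDescent

/-!
# The interior of the finite chart at residue characteristic two

Over `W[t, 1/(t³ - 1)]` the ring of full level two is regular at `2`, and the odd torsion of
`y² + 3t xy + (t³ - 1) y = x³` is unramified: the maximal ideals of the finite chart containing `2`
are locally generated by two elements.
-/

set_option autoImplicit false
set_option linter.style.haveILetI false
set_option linter.unusedSectionVars false

noncomputable section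

namespace Fermat.Agent.Moduli

open Polynomial IsLocalRing WeierstrassCurve Fermat.Agent.EC Pointwise
open Fermat.Agent.GalRep Fermat.Agent.ModField
open Fermat.Agent.GalRep.Model (Lev NZ chartRing mem_chartRing_iff self_mem_chartRing)

/-- A closed point has residues from the base. -/
lemma exists_sub_mem_of_splitsMod {R B : Type*} [CommRing R] [IsDomain R] [IsIntegrallyClosed R]
    [IsNoetherianRing R] [CommRing B] [Algebra R B] [Algebra.IsIntegral R B] {I : Ideal R}
    (hI : SplitsMod I) (m : Ideal B) [hm : m.IsPrime] (hle : ∀ r ∈ I, algebraMap R B r ∈ m) (b : B) :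
    ∃ r : R, b - algebraMap R B r ∈ m := by
  obtain ⟨rs, hcoeff⟩ := hI _ (minpoly.monic (Algebra.IsIntegral.isIntegral (R := R) b))
  set P := (rs.map fun x => X - Polynomial.C x).prod
  have hmem : aeval b P ∈ m := by
    have h : aeval b (minpoly R b - P) ∈ m := by
      rw [aeval_eq_sum_range]
      refine Ideal.sum_mem m fun i _ => ?_
      rw [Algebra.smul_def]
      exact m.mul_mem_right _ (hle _ (hcoeff i))
    rw [map_sub, minpoly.aeval, zero_sub, neg_mem_iff] at h
    exact h
  rw [map_multiset_prod, Multiset.map_map, hm.multiset_prod_mem_iff_exists_mem] at hmem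
  obtain ⟨y, hy, hx⟩ := hmem
  obtain ⟨x, -, rfl⟩ := Multiset.mem_map.1 hy
  exact ⟨x, by simpa using hx⟩

variable {W : Type} [CommRing W] [IsDomain W] [IsDiscreteValuationRing W]
  [IsAlgClosed (ResidueField W)] {O : Type} [CommRing O] [IsDomain O] [Algebra W O]
  {M : ℕ} [NeZero M] (E : Emb O M)

/-- A parameter of the family is transcendental over the constants. -/
lemma aeval_ne_zero_of_jRel {t : Fld E} (hA : t ^ 3 - 1 ≠ 0)
    (hj : jF E * (t ^ 3 - 1) ^ 3 = 27 * t ^ 3 * (t ^ 3 + 8) ^ 3) {P : O[X]} (hP : P ≠ 0) :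
    aeval t P ≠ 0 := by
  intro h
  have ht : IsAlgebraic O t := ⟨P, hP, h⟩
  haveI : FaithfulSMul O (Fld E) :=
    (faithfulSMul_iff_algebraMap_injective O (Fld E)).2 (ModField.algebraMap_injective E)
  have e : jF E = 27 * t ^ 3 * (t ^ 3 + 8) ^ 3 * ((t ^ 3 - 1) ^ 3)⁻¹ := by
    rw [← hj, mul_inv_cancel_right₀ (pow_ne_zero _ hA)]
  have halg : IsAlgebraic O (jF E) := by
    rw [e]
    exact (((isAlgebraic_nat 27).mul (ht.pow 3)).mul (((ht.pow 3).add (isAlgebraic_nat 8)).pow 3)).mul
      (IsAlgebraic.inv (((ht.pow 3).sub isAlgebraic_one).pow 3))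
  obtain ⟨Q, hQ, hQj⟩ := halg
  exact hQ (aeval_jF_injective E (hQj.trans (map_zero _).symm))

/-- The finite chart is the integral closure of the base. -/
theorem mem_chartRing_iff_isIntegral_hesse [Algebra W (Fld E)] [IsScalarTower W O (Fld E)]
    (hgen : Algebra.adjoin W {E.ζ} = ⊤) (h3W : IsUnit (3 : W)) {t : Fld E}
    [Algebra (HesseBase W) (Fld E)]
    (hal : ∀ P : W[X], algebraMap (HesseBase W) (Fld E) (algebraMap W[X] (HesseBase W) P) =
      aeval t P)
    (hA : t ^ 3 - 1 ≠ 0) (hj : jF E * (t ^ 3 - 1) ^ 3 = 27 * t ^ 3 * (t ^ 3 + 8) ^ 3) (x : Fld E) :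
    x ∈ chartRing O (jF E) ↔ _root_.IsIntegral (HesseBase W) x := by
  set R := HesseBase W
  let al := algebraMap W[X] R
  have ht : algebraMap R (Fld E) (hesseVar W) = t := by rw [hesseVar, hal, aeval_X]
  have hC : ∀ w, algebraMap R (Fld E) (al (C w)) = algebraMap O (Fld E) (algebraMap W O w) :=
    fun w => by rw [hal, aeval_C, IsScalarTower.algebraMap_apply W O (Fld E)]
  obtain ⟨u, hu⟩ := (isUnit_hesseVar (W := W))
  have hu' : algebraMap R (Fld E) ↑u⁻¹ * (t ^ 3 - 1) = 1 := by
    rw [← ht, ← map_one (algebraMap R (Fld E)), ← map_pow, ← map_sub, ← map_mul, ← hu, Units.inv_mul]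
  obtain ⟨v, hv⟩ := h3W.exists_left_inv
  set w := algebraMap R (Fld E) ↑u⁻¹
  set J := jF E
  set A₁ := Algebra.adjoin O ({J} : Set (Fld E))
  set v' : Fld E := algebraMap W (Fld E) v
  have hv' : v' * 3 = 1 := by
    rw [← map_ofNat (algebraMap W (Fld E)) 3, ← map_mul, hv, map_one]
  show _root_.IsIntegral A₁ x ↔ _root_.IsIntegral R x
  constructor
  · intro hx
    set T := integralClosure R (Fld E)
    have hO : ∀ o : O, algebraMap O (Fld E) o ∈ T := by
      intro o
      obtain ⟨P, rfl⟩ : ∃ P : W[X], aeval E.ζ P = o :=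
        (Algebra.adjoin_singleton_eq_range_aeval W E.ζ).le
          (hgen ▸ Algebra.mem_top : o ∈ Algebra.adjoin W {E.ζ})
      rw [aeval_eq_sum_range, map_sum]
      refine sum_mem fun i _ => ?_
      rw [Algebra.smul_def, map_mul, map_pow, ← hC]
      refine mul_mem isIntegral_algebraMap (pow_mem ?_ i)
      refine IsIntegral.of_pow (n := M) (NeZero.pos M) ?_
      have hzM : E.ζ ^ M = 1 := E.inj (by
        rw [map_pow, E.map_ζ, map_one]; exact Level.zetaC_pow M)
      rw [← map_pow, hzM, map_one]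
      exact isIntegral_one
    have hJ : J ∈ T := by
      have e : J = algebraMap R (Fld E)
          (27 * hesseVar W ^ 3 * (hesseVar W ^ 3 + 8) ^ 3 * (↑u⁻¹ : R) ^ 3) := by
        simp only [map_mul, map_pow, map_add, map_ofNat, ht]
        rw [← hj, mul_assoc, ← mul_pow, mul_comm (t ^ 3 - 1), hu', one_pow, mul_one]
      rw [e]
      exact isIntegral_algebraMap
    have hle : ∀ a ∈ A₁, a ∈ T := fun a ha => by
      induction ha using Algebra.adjoin_induction with
      | mem y hy => rcases hy with rfl; exact hJ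
      | algebraMap o => exact hO o
      | add _ _ _ _ p q => exact add_mem p q
      | mul _ _ _ _ p q => exact mul_mem p q
    have hxT : _root_.IsIntegral T x := by
      obtain ⟨P, hP, hPx⟩ := hx
      let i : A₁ →+* T := A₁.val.toRingHom.codRestrict T fun a => hle a a.2
      refine ⟨P.map i, hP.map _, ?_⟩
      rw [eval₂_map]
      exact hPx
    exact isIntegral_trans x hxT
  · intro hx
    have hO : ∀ o : O, _root_.IsIntegral A₁ (algebraMap O (Fld E) o) := fun o =>
      isIntegral_algebraMap (x := algebraMap O A₁ o)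
    have hW : ∀ c : W, _root_.IsIntegral A₁ (algebraMap W (Fld E) c) := fun c => by
      rw [IsScalarTower.algebraMap_apply W O (Fld E)]; exact hO _
    let J' : A₁ := ⟨J, Algebra.self_mem_adjoin_singleton O J⟩
    let c : A₁ := algebraMap O A₁ (algebraMap W O v)
    have hc : (c : Fld E) = v' := (IsScalarTower.algebraMap_apply W O (Fld E) v).symm
    have htI : _root_.IsIntegral A₁ t := by
      refine ⟨X ^ 3 * (X ^ 3 + 8) ^ 3 - C (J' * c ^ 3) * (X ^ 3 - 1) ^ 3, by monicity!, ?_⟩
      simp only [eval₂_sub, eval₂_mul, eval₂_pow, eval₂_add, eval₂_X, eval₂_C, eval₂_one, eval₂_ofNat]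
      show t ^ 3 * (t ^ 3 + 8) ^ 3 - (J * (c : Fld E) ^ 3) * (t ^ 3 - 1) ^ 3 = 0
      rw [hc]
      linear_combination (-(v' ^ 3)) * hj -
        (t ^ 3 * (t ^ 3 + 8) ^ 3) * ((v' * 3) ^ 2 + v' * 3 + 1) * hv'
    have hwI : _root_.IsIntegral A₁ w := by
      refine ⟨(X + 1) * (X + C (c ^ 2)) ^ 3 - C (J' * c ^ 9) * X, by monicity!, ?_⟩
      simp only [eval₂_sub, eval₂_mul, eval₂_pow, eval₂_add, eval₂_X, eval₂_C, eval₂_one]
      show (w + 1) * (w + (c : Fld E) ^ 2) ^ 3 - (J * (c : Fld E) ^ 9) * w = 0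
      rw [hc]
      have key : 27 * (w + 1) * (9 * w + 1) ^ 3 = J * w := by
        have e1 : t ^ 3 * w = 1 + w := by linear_combination hu'
        have e2 : J = 27 * t ^ 3 * (t ^ 3 + 8) ^ 3 * w ^ 3 := by
          rw [← hj, mul_assoc, ← mul_pow, mul_comm (t ^ 3 - 1), hu', one_pow, mul_one]
        rw [e2]
        linear_combination (-27 * ((t ^ 3 + 8) * w) ^ 3 -
          27 * (w + 1) * (((t ^ 3 + 8) * w) ^ 2 + ((t ^ 3 + 8) * w) * (9 * w + 1) + (9 * w + 1) ^ 2)) *
            e1
      have e9 : v' ^ 9 * 19683 = 1 := by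
        have := congrArg (· ^ 9) hv'
        simp only [mul_pow, one_pow] at this
        linear_combination this
      have e : (9 : Fld E) * v' ^ 2 = 1 := by linear_combination (v' * 3 + 1) * hv'
      have e' : (w + v' ^ 2) * 9 = 9 * w + 1 := by linear_combination e
      linear_combination (-(w + 1) * (w + v' ^ 2) ^ 3) * e9 +
        (27 * v' ^ 9 * (w + 1)) * (((w + v' ^ 2) * 9) ^ 2 + (w + v' ^ 2) * 9 * (9 * w + 1) +
          (9 * w + 1) ^ 2) * e' + v' ^ 9 * key
    set T := integralClosure A₁ (Fld E)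
    have hR : ∀ r : R, algebraMap R (Fld E) r ∈ T := by
      intro r
      obtain ⟨P, m, hP⟩ := exists_hesseBase_mul r
      have hD : algebraMap R (Fld E) (al (hesseDisc W)) = t ^ 3 - 1 := by
        rw [hal]; simp [hesseDisc]
      have e : algebraMap R (Fld E) r = aeval t P * w ^ m := by
        have := congrArg (algebraMap R (Fld E)) hP
        rw [map_mul, map_pow, map_pow, hD, hal] at this
        rw [← this, mul_assoc, ← mul_pow, mul_comm (t ^ 3 - 1), hu', one_pow, mul_one]
      rw [e]
      refine mul_mem ?_ (pow_mem hwI m)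
      rw [aeval_eq_sum_range]
      refine sum_mem fun i _ => ?_
      rw [Algebra.smul_def]
      exact mul_mem (hW _) (pow_mem htI i)
    have hxT : _root_.IsIntegral T x := by
      obtain ⟨P, hP, hPx⟩ := hx
      let i : R →+* T := (algebraMap R (Fld E)).codRestrict T hR
      refine ⟨P.map i, hP.map _, ?_⟩
      rw [eval₂_map]
      exact hPx
    exact isIntegral_trans x hxT

/-- Every maximal ideal of the finite chart over `2` is locally generated by two elements. -/
theorem exists_regular_finite_two {n : ℕ} (hmax : maximalIdeal W = Ideal.span {(2 : W)})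
    (hgen : Algebra.adjoin W {E.ζ} = ⊤) (hζ : ∃ c : W, algebraMap W O c = E.ζ ^ 2)
    (hn : Odd n) (h3 : 3 ∣ n) (hM : M = 2 * n) (𝔪 : Ideal (chartRing O (jF E))) [h𝔪 : 𝔪.IsMaximal]
    (h2m : (2 : chartRing O (jF E)) ∈ 𝔪) :
    ∃ x y : chartRing O (jF E), x ∈ 𝔪 ∧ y ∈ 𝔪 ∧
      ∀ z ∈ 𝔪, ∃ s ∉ 𝔪, s * z ∈ Ideal.span {x, y} := by
  classical
  let L : Lev M :=
    { m := 2, e := n, hm := Or.inl rfl, eq := by rw [hM]; ring
      five := by
        have := Nat.le_of_dvd (by rcases hn with ⟨k, rfl⟩; omega) h3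
        omega }
  have hLm : L.m = 2 := rfl
  -- constants
  let ψ : W →+* Fld E := (algebraMap O (Fld E)).comp (algebraMap W O)
  letI : Algebra W (Fld E) := ψ.toAlgebra
  haveI : IsScalarTower W O (Fld E) := IsScalarTower.of_algebraMap_eq fun w => rfl
  have h20 : (2 : W) ≠ 0 := fun h0 => by
    have := congrArg ψ h0
    rw [map_ofNat, map_zero] at this
    exact two_ne_zero this
  have hψ : Function.Injective ψ := injective_of_maximalIdeal_two hmax ψ
  have hWO : Function.Injective (algebraMap W O) := fun x y h => hψ (by simp [ψ, h])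
  have hodd : ∀ k : ℕ, Odd k → IsUnit (k : W) := fun k hk => isUnit_odd_natCast hmax hk
  have h3W : IsUnit (3 : W) := by simpa using hodd 3 (by decide)
  obtain ⟨t, hj, H, -⟩ := exists_hesseData E L hLm hWO hgen hζ (dvd_trans h3 ⟨2, by rw [hM]; ring⟩)
  have hA := H.disc_ne
  -- the base
  obtain ⟨f, hfinj, hal'⟩ := exists_hesseBaseHom E hWO fun _ hP => aeval_ne_zero_of_jRel E hA hj hP
  letI : Algebra (HesseBase W) (Fld E) := f.toAlgebra
  have hal : ∀ P : W[X], algebraMap (HesseBase W) (Fld E) (algebraMap W[X] (HesseBase W) P) =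
      aeval t P := hal'
  haveI : FaithfulSMul (HesseBase W) (Fld E) := (faithfulSMul_iff_algebraMap_injective _ _).2 hfinj
  have htR : algebraMap (HesseBase W) (Fld E) (hesseVar W) = t := by rw [hesseVar, hal, aeval_X]
  have hiff := mem_chartRing_iff_isIntegral_hesse E hgen h3W hal hA hj
  let g₀ : FractionRing (HesseBase W) →+* Fld E :=
    IsFractionRing.lift (A := HesseBase W) (K := FractionRing (HesseBase W)) hfinj
  letI : Algebra (FractionRing (HesseBase W)) (Fld E) := g₀.toAlgebra
  haveI : IsScalarTower (HesseBase W) (FractionRing (HesseBase W)) (Fld E) :=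
    IsScalarTower.of_algebraMap_eq fun r => (IsFractionRing.lift_algebraMap hfinj r).symm
  haveI : DecidableEq (Fld E) := Classical.decEq _
  let tR := hesseVar W
  obtain ⟨hfd, hgal, -⟩ := hesseFld_galois hal H
  let F2 := IntermediateField.adjoin (FractionRing (HesseBase W)) ({H.z₁, H.z₂} : Set (Fld E))
  haveI : IsGalois F2 (Fld E) := IsGalois.tower_top_intermediateField F2
  -- the group on the chart
  have hgR : ∀ (g : Fld E ≃ₐ[F2] Fld E) (r : HesseBase W),
      g (algebraMap (HesseBase W) (Fld E) r) = algebraMap (HesseBase W) (Fld E) r := fun g r => by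
    rw [IsScalarTower.algebraMap_apply (HesseBase W) (FractionRing (HesseBase W)) (Fld E)]
    exact g.commutes (algebraMap (FractionRing (HesseBase W)) F2 _)
  let gR : (Fld E ≃ₐ[F2] Fld E) → (Fld E →ₐ[HesseBase W] Fld E) := fun g =>
    { (g : Fld E →+* Fld E) with commutes' := hgR g }
  have hgB : ∀ (g : Fld E ≃ₐ[F2] Fld E) (x : Fld E), x ∈ chartRing O (jF E) →
      g x ∈ chartRing O (jF E) := fun g x hx =>
    (hiff _).2 (((hiff x).1 hx).map (gR g))
  letI act : MulSemiringAction (Fld E ≃ₐ[F2] Fld E) (chartRing O (jF E)) :=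
    { smul := fun g x => ⟨g x, hgB g x x.2⟩
      one_smul := fun x => rfl
      mul_smul := fun g h x => rfl
      smul_zero := fun g => Subtype.ext (map_zero g)
      smul_add := fun g x y => Subtype.ext (map_add g _ _)
      smul_one := fun g => Subtype.ext (map_one g)
      smul_mul := fun g x y => Subtype.ext (map_mul g _ _) }
  let iR : HesseBase W →+* chartRing O (jF E) :=
    (algebraMap (HesseBase W) (Fld E)).codRestrict _ fun r => (hiff _).2 isIntegral_algebraMap
  letI : Algebra (HesseBase W) (chartRing O (jF E)) := iR.toAlgebra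
  haveI : IsScalarTower (HesseBase W) (chartRing O (jF E)) (Fld E) :=
    IsScalarTower.of_algebraMap_eq fun r => rfl
  haveI : Algebra.IsIntegral (HesseBase W) (chartRing O (jF E)) :=
    ⟨fun x => (isIntegral_algebraMap_iff (A := chartRing O (jF E)) (B := Fld E)
      Subtype.val_injective).1 ((hiff x).1 x.2)⟩
  -- residues
  set I := 𝔪.comap (algebraMap (HesseBase W) (chartRing O (jF E)))
  haveI : I.IsMaximal := Ideal.isMaximal_comap_of_isIntegral_of_isMaximal 𝔪
  obtain ⟨c₀, hIc, hsplit, -⟩ := exists_hessePoint hmax h20 I (by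
    show algebraMap (HesseBase W) (chartRing O (jF E)) 2 ∈ 𝔪
    rwa [map_ofNat])
  -- odd torsion has coordinates in the chart
  have hnR : IsUnit (n : HesseBase W) := by
    have := (hodd n hn).map ((algebraMap W[X] (HesseBase W)).comp C)
    rwa [map_natCast] at this
  have hB : CoordsFrom (chartRing O (jF E)) (algebraMap (HesseBase W) (Fld E) tR) n :=
    fun x y h hT =>
      let ⟨hx, hy⟩ := isIntegral_hesseFld H hnR h hT
      ⟨⟨x, (hiff x).2 hx⟩, ⟨y, (hiff y).2 hy⟩, rfl, rfl⟩
  -- the action is free at the point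
  have hfree : ∀ g : Fld E ≃ₐ[F2] Fld E, g • 𝔪 = 𝔪 → g = 1 := by
    intro g hg
    have hres : ∀ z : chartRing O (jF E), g • z - z ∈ 𝔪 := fun z => by
      obtain ⟨r, hr⟩ := exists_sub_mem_of_splitsMod hsplit 𝔪 (fun r hr => hr) z
      have h1 : g • (z - algebraMap _ _ r) ∈ 𝔪 := by
        rw [← hg]; exact Ideal.smul_mem_pointwise_smul g _ _ hr
      have e : g • algebraMap (HesseBase W) (chartRing O (jF E)) r =
          algebraMap (HesseBase W) (chartRing O (jF E)) r := Subtype.ext (hgR g r)
      rw [smul_sub, e] at h1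
      have := sub_mem h1 hr
      rwa [sub_sub_sub_cancel_right] at this
    let gA : Fld E →ₐ[HesseBase W] Fld E := gR g
    have hgF2 : ∀ z ∈ ({H.z₁, H.z₂} : Set (Fld E)), g z = z := fun z hz =>
      g.commutes ⟨z, IntermediateField.subset_adjoin _ _ hz⟩
    have hg1 := hesse_algEquiv_ext hal H hn hM (g := g.restrictScalars _) (g' := AlgEquiv.refl)
      (hgF2 _ (Set.mem_insert _ _)) (hgF2 _ (Set.mem_insert_of_mem _ rfl)) fun x y h hT => by
        obtain ⟨X', Y', rfl, rfl⟩ := hB x y h hT
        obtain ⟨h', e⟩ := hesseMap_some tR gA h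
        obtain ⟨e1, e2⟩ := eq_of_congr_odd 𝔪 h2m
          (t' := algebraMap (HesseBase W) (chartRing O (jF E)) tR) rfl (fun hmem => by
            refine h𝔪.ne_top (Ideal.eq_top_of_isUnit_mem 𝔪 hmem ?_)
            have := (isUnit_hesseVar (W := W)).map (algebraMap (HesseBase W) (chartRing O (jF E)))
            rwa [map_sub, map_pow, map_one] at this) hn hB
          (X := g • X') (Y := g • Y') (X' := X') (Y' := Y') h' h
          ((congrArg (n • ·) e).symm.trans ((map_nsmul _ _ _).symm.trans
            ((congrArg (hesseMap tR gA) hT).trans (map_zero _)))) hT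
          (hres X') (hres Y')
        exact ⟨congrArg Subtype.val e1, congrArg Subtype.val e2⟩
    exact AlgEquiv.ext fun x => DFunLike.congr_fun hg1 x
  haveI : Fintype (Fld E ≃ₐ[F2] Fld E) := Fintype.ofFinite _
  -- the ring of full level two
  obtain ⟨hQ, hP⟩ := two_torsion_vieta H.z_ne H.root₁ H.root₂
  replace hQ : (algebraMap (HesseBase W) (Fld E) (hesseVar W) ^ 3 - 1) *
      (H.z₁ ^ 2 + H.z₁ * H.z₂ + H.z₂ ^ 2) = 3 * algebraMap (HesseBase W) (Fld E) (hesseVar W) := by
    rw [htR]; exact hQ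
  replace hP : (algebraMap (HesseBase W) (Fld E) (hesseVar W) ^ 3 - 1) *
      (H.z₁ * H.z₂ * (H.z₁ + H.z₂)) = 2 := by
    rw [htR]; exact hP
  have hint := isIntegral_hesse_root (W := W) hQ hP
  let S := hesseRing (W := W) H.z₁ H.z₂
  have hSle : ∀ x ∈ S, x ∈ chartRing O (jF E) := fun x hx =>
    (hiff x).2 ((Algebra.adjoin_le (S := integralClosure (HesseBase W) (Fld E))
      (fun z hz => hint z hz)) hx)
  let φ : S →+* chartRing O (jF E) := S.val.toRingHom.codRestrict _ fun x => hSle x x.2
  letI : Algebra S (chartRing O (jF E)) := φ.toAlgebra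
  haveI : IsScalarTower (HesseBase W) S (chartRing O (jF E)) :=
    IsScalarTower.of_algebraMap_eq fun r => rfl
  haveI : Algebra.IsIntegral S (chartRing O (jF E)) := Algebra.IsIntegral.tower_top (HesseBase W)
  set 𝔫 := 𝔪.comap (algebraMap S (chartRing O (jF E))) with h𝔫
  haveI : 𝔫.IsMaximal := Ideal.isMaximal_comap_of_isIntegral_of_isMaximal 𝔪
  obtain ⟨a, b', ha, hb, hgenn, hnorm⟩ := hesseRing_regular (F := Fld E) hmax h20 hQ hP 𝔫 (by
    rw [h𝔫, Ideal.mem_comap, map_ofNat]; exact h2m)
  refine ⟨φ a, φ b', ha, hb,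
    exists_mul_mem_span_pair (G := Fld E ≃ₐ[F2] Fld E) φ 𝔪 hfree (fun y hfix => ?_) hgenn⟩
  have hyF : (y : Fld E) ∈ F2 := by
    have := (IsGalois.mem_bot_iff_fixed (y : Fld E)).2 fun g => congrArg Subtype.val (hfix g)
    obtain ⟨w, hw⟩ := IntermediateField.mem_bot.1 this
    exact hw ▸ w.2
  obtain ⟨s, hs, y', hy'⟩ := hnorm y ((hiff y).1 y.2) (exists_frac_of_mem_adjoin _ hyF)
  exact ⟨s, hs, y', Subtype.ext hy'⟩

end Fermat.Agent.Moduli
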