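import Fermat.Agent.Moduli.Uniform
import Fermat.Agent.Period.JInjective

/-!
# The invariant of the Legendre curve at three half periods

`j λ²(λ-1)² = 256 (λ²-λ+1)³`, from `g₂ = (4π⁴/3) E₄` and `g₃ = (8π⁶/27) E₆`.
-/

set_option autoImplicit false

noncomputable section

namespace Fermat.Agent.Moduli

open UpperHalfPlane EisensteinSeries ModularForm Real
open Fermat.Agent.GalRep.Model (tauPair latEquiv coe_latEquiv)

local notation "Δ" => ModularForm.discriminant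

lemma G_tauPair {k : ℕ} (τ : ℍ) :
    (tauPair τ).G k = ∑' v : Fin 2 → ℤ, eisSummand k v τ := by
  rw [PeriodPair.G, ← ((finTwoArrowEquiv ℤ).trans (latEquiv τ)).tsum_eq]
  refine tsum_congr fun v => ?_
  simp [eisSummand, coe_latEquiv]

lemma G_tauPair_eq {k : ℕ} (hk : 3 ≤ k) (τ : ℍ) :
    (tauPair τ).G k = 2 * riemannZeta k * E hk τ := by
  rw [G_tauPair, tsum_eisSummand_eq_riemannZeta_mul_eisensteinSeries hk]
  show _ = 2 * riemannZeta k * ((1 / 2 : ℂ) • eisensteinSeries (N := 1) 0 k τ)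
  rw [smul_eq_mul]
  ring

lemma g₂_tauPair (τ : ℍ) : (tauPair τ).g₂ = 4 * π ^ 4 / 3 * E₄ τ := by
  rw [PeriodPair.g₂, G_tauPair_eq (by norm_num : 3 ≤ 4)]
  push_cast
  rw [riemannZeta_four]
  ring

lemma g₃_tauPair (τ : ℍ) : (tauPair τ).g₃ = 8 * π ^ 6 / 27 * E₆ τ := by
  rw [PeriodPair.g₃, G_tauPair_eq (by norm_num : 3 ≤ 6)]
  have h := riemannZeta_two_mul_nat (k := 3) (by norm_num)
  rw [show bernoulli (2 * 3) = 1 / 42 by decide +kernel] at h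
  norm_num [Nat.factorial] at h
  push_cast
  rw [h]
  ring

/-- The invariant at three half periods. -/
theorem jFun_mul_lam (τ : ℍ) (P : HalfPeriods (tauPair τ)) :
    Fermat.Agent.Period.jFun τ * (P.lam ^ 2 * (P.lam - 1) ^ 2) =
      256 * (P.lam ^ 2 - P.lam + 1) ^ 3 := by
  have h0 := P.cubic_eq 0
  have h1 := P.cubic_eq 1
  have h2 := P.cubic_eq (-1)
  have hs : P.e 0 + P.e 1 + P.e 2 = 0 := by linear_combination (h1 + h2 - 2 * h0) / 8
  have e2 : P.e 2 = -P.e 0 - P.e 1 := by linear_combination hs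
  have hg3 : (tauPair τ).g₃ = 4 * P.e 0 * P.e 1 * P.e 2 := by linear_combination -h0
  have hg2 : (tauPair τ).g₂ = -4 * (P.e 0 * P.e 1 + P.e 0 * P.e 2 + P.e 1 * P.e 2) := by
    linear_combination (h2 - h1) / 2
  rw [e2] at hg2 hg3
  set a := P.e 1 - P.e 0 with ha
  set l := P.lam with hl
  have hla : l * a = P.e 2 - P.e 0 := by
    rw [hl, HalfPeriods.lam, div_mul_cancel₀ _ P.sub_ne]
  have hD : (tauPair τ).g₂ ^ 3 - 27 * (tauPair τ).g₃ ^ 2 = 16 * a ^ 6 * (l ^ 2 * (l - 1) ^ 2) := by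
    rw [show (16 : ℂ) * a ^ 6 * (l ^ 2 * (l - 1) ^ 2) = 16 * a ^ 2 * (l * a) ^ 2 * (l * a - a) ^ 2
      by ring, hla, e2, hg2, hg3, ha]
    ring
  have hG : (tauPair τ).g₂ = 4 / 3 * a ^ 2 * (l ^ 2 - l + 1) := by
    rw [show (4 : ℂ) / 3 * a ^ 2 * (l ^ 2 - l + 1) = 4 / 3 * ((l * a) ^ 2 - a * (l * a) + a ^ 2)
      by ring, hla, e2, hg2, ha]
    ring
  have hΔ0 : Δ τ ≠ 0 := discriminant_ne_zero τ
  have hdisc := discriminant_eq_E₄_cube_sub_E₆_sq τ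
  have hpi : (π : ℂ) ≠ 0 := by simp [pi_ne_zero]
  rw [g₂_tauPair, g₃_tauPair] at hD
  rw [g₂_tauPair] at hG
  have ha0 : a ≠ 0 := P.sub_ne
  rw [Fermat.Agent.Period.jFun, div_mul_eq_mul_div, div_eq_iff hΔ0]
  apply mul_left_cancel₀ (mul_ne_zero (pow_ne_zero 12 hpi) (pow_ne_zero 6 ha0))
  have hG3 := congrArg (· ^ 3) hG
  simp only [mul_pow] at hG3
  rw [hdisc] at *
  linear_combination (27 / 64 * (l ^ 2 * (l - 1) ^ 2) * a ^ 6) * hG3 -
    (1 / 16 * (l ^ 2 - l + 1) ^ 3 * a ^ 6) * hD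

end Fermat.Agent.Moduli
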