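import Fermat.Agent.Moduli.Germ
import Fermat.Agent.Moduli.JRelation
import Fermat.Agent.Models.Field.Conj
import Fermat.Agent.Hecke.ComplexAut
import Mathlib.NumberTheory.Cyclotomic.Basic

/-!
# The level field is generated by the division abscissae over the unramified constants

Over the constants this is Artin's lemma; a semilinear automorphism fixing the abscissae fixes the
root of unity, by its effect on the series.
-/

set_option autoImplicit false
set_option linter.style.haveILetI false
set_option linter.unusedSectionVars false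

noncomputable section

namespace Fermat.Agent.Moduli

open UpperHalfPlane CongruenceSubgroup Filter
open Fermat.Agent.GalRep Fermat.Agent.GalRep.Level Fermat.Agent.ModField
open Fermat.Agent.GalRep.Model (Quad Lev tauPair divPt wpDiff NZ PM wpDiff_ne_zero rowMul nz_rowMul)
open scoped MatrixGroups

variable {O : Type} [CommRing O] [IsDomain O] {M : ℕ} [NeZero M] (E : Emb O M)
  (L : Lev M)

/-- The abscissa of the division point `u` in the level field. -/
def absF (u : ℤ × ℤ) (hu : NZ M u) : Fld E := quadF E (absQuad L u hu)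

/-- All the abscissae. -/
def absFSet : Set (Fld E) := {x | ∃ (u : ℤ × ℤ) (hu : NZ M u), absF E L u hu = x}

lemma fldGerm_injective : Function.Injective (fldGerm E) := (fldGerm E).injective

lemma exists_eq_of_quadF_eq {a b : Quad M} (h : quadF E a = quadF E b) :
    ∃ τ, a.fn τ = b.fn τ := by
  have e := congrArg (fldGerm E) h
  rw [fldGerm_quadF, fldGerm_quadF] at e
  exact (Germ.coe_eq.1 e).exists

variable {L}

/-- `j` in terms of the parameter. -/
theorem jF_mul_lamF (hm : L.m = 2) :
    jF E * (lamF E L ^ 2 * (lamF E L - 1) ^ 2) = 256 * (lamF E L ^ 2 - lamF E L + 1) ^ 3 := by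
  apply fldGerm_injective E
  have hj : fldGerm E (jF E) = (((fun τ => Fermat.Agent.Period.jFun τ) : ℍ → ℂ) : GermC ultraInf) :=
    IsFractionRing.lift_algebraMap (A := bddMF E) (K := FractionRing (bddMF E))
      (evGerm_injective E) _
  simp only [map_mul, map_pow, map_sub, map_add, map_one, map_ofNat, hj]
  rw [show fldGerm E (lamF E L) = _ from lamG_eq E L hm]
  exact Germ.coe_eq.2 (Eventually.of_forall fun τ => jFun_mul_lam τ (halfPeriods L hm τ))

lemma lamF_ne (hm : L.m = 2) : lamF E L ≠ 0 ∧ 1 - lamF E L ≠ 0 :=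
  ⟨fun h => (lamG_ne E L hm).1 (by rw [lamG, h, map_zero]),
    fun h => (lamG_ne E L hm).2 (by rw [lamG, ← map_one (fldGerm E), ← map_sub, h, map_zero])⟩

/-- A polynomial over the constants vanishing at the parameter is zero. -/
lemma aeval_lamF_ne_zero (hm : L.m = 2) {P : Polynomial O} (hP : P ≠ 0) :
    Polynomial.aeval (lamF E L) P ≠ 0 := by
  intro h
  have hl : IsAlgebraic O (lamF E L) := ⟨P, hP, h⟩
  obtain ⟨h0, h1⟩ := lamF_ne E hm
  have h1' : lamF E L - 1 ≠ 0 := fun e => h1 (by linear_combination -e)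
  have hj : jF E = 256 * (lamF E L ^ 2 - lamF E L + 1) ^ 3 *
      (lamF E L ^ 2 * (lamF E L - 1) ^ 2)⁻¹ := by
    rw [← jF_mul_lamF E hm, mul_inv_cancel_right₀ (mul_ne_zero (pow_ne_zero _ h0)
      (pow_ne_zero _ h1'))]
  haveI : FaithfulSMul O (Fld E) :=
    (faithfulSMul_iff_algebraMap_injective O (Fld E)).2 (ModField.algebraMap_injective E)
  have hone : IsAlgebraic O (1 : Fld E) := isAlgebraic_one
  have halg : IsAlgebraic O (jF E) := by
    rw [hj]
    exact ((isAlgebraic_nat 256).mul (((hl.pow 2).sub hl).add hone |>.pow 3)).mul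
      (IsAlgebraic.inv ((hl.pow 2).mul ((hl.sub hone).pow 2)))
  obtain ⟨Q, hQ, hQj⟩ := halg
  exact hQ (aeval_jF_injective E (hQj.trans (map_zero _).symm))

lemma two_dvd_sub_of_even {a b : ℤ} (h : (2 : ℤ) ∣ a - b) (c : ℤ) : (2 : ℤ) ∣ a + b - 2 * c :=
  ⟨(a - b) / 2 + b - c, by omega⟩

/-- A point of order two is one of the three. -/
lemma exists_halfIdx (hm : L.m = 2) {x : ℤ × ℤ} (hx : ¬ ((2 : ℤ) ∣ x.1 ∧ (2 : ℤ) ∣ x.2)) :
    ∃ i : Fin 3, PM M ((L.e : ℤ) * x.1, (L.e : ℤ) * x.2) (L.V (halfIdx i)) := by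
  have hM : (M : ℤ) = L.e * 2 := by
    have := L.eq
    rw [hm] at this
    exact_mod_cast this
  have key : ∀ i : Fin 4, (2 : ℤ) ∣ x.1 - (Model.base i).1 → (2 : ℤ) ∣ x.2 - (Model.base i).2 →
      PM M ((L.e : ℤ) * x.1, (L.e : ℤ) * x.2) (L.V i) := fun i h1 h2 => by
    refine Or.inl ⟨?_, ?_⟩ <;> simp only [Lev.V, ← mul_sub, hM]
    · exact mul_dvd_mul_left _ h1
    · exact mul_dvd_mul_left _ h2
  by_cases h1 : (2 : ℤ) ∣ x.1
  · refine ⟨1, key 2 ?_ ?_⟩
    · simpa [Model.base] using h1
    · have h2 : ¬ (2 : ℤ) ∣ x.2 := fun h => hx ⟨h1, h⟩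
      simp [Model.base]; omega
  · by_cases h2 : (2 : ℤ) ∣ x.2
    · refine ⟨0, key 0 ?_ ?_⟩
      · simp [Model.base]; omega
      · simpa [Model.base] using h2
    · refine ⟨2, key 1 ?_ ?_⟩ <;> simp [Model.base] <;> omega

/-- A translation fixing all abscissae up to a diagonal change is `± ` that change. -/
theorem eq_of_fShift_absF (hm : L.m = 2) (a : (ZMod M)ˣ) (g : SL(2, ℤ))
    (h : ∀ u (hu : NZ M u), fShift E g (absF E L u hu) =
      absF E L (scaleV a u) (nz_scaleV _ hu)) :
    ∀ u, NZ M u → PM M (rowMul u g) (scaleV a u) := by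
  classical
  have hodd : ∀ i : Fin 4, PM M (scaleV a (L.V i)) (L.V i) := fun i => by
    have hM : (M : ℤ) = L.e * 2 := by
      have := L.eq
      rw [hm] at this
      exact_mod_cast this
    have h2 : (2 : ℤ) ∣ ((a : ZMod M).val : ℤ) - 1 := by
      have hcop := ZMod.val_coe_unit_coprime a
      have : ¬ (2 : ℕ) ∣ (a : ZMod M).val := fun hd => by
        have h2M : (2 : ℕ) ∣ M := ⟨L.e, by exact_mod_cast (hM.trans (mul_comm _ _))⟩
        exact absurd (Nat.dvd_gcd hd h2M) (by rw [hcop]; decide)
      omega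
    refine Or.inl ⟨by simp [scaleV], ?_⟩
    obtain ⟨c, hc⟩ := h2
    refine ⟨c * (Model.base i).2, ?_⟩
    simp only [scaleV, Lev.V, hM]
    linear_combination ((L.e : ℤ) * (Model.base i).2) * hc
  -- where the three points go
  have hp : ∀ i : Fin 3, ∃ j : Fin 3, PM M (rowMul (L.V (halfIdx i)) g) (L.V (halfIdx j)) := fun i => by
    have hnz := nz_rowMul g (L.nz_V (halfIdx i))
    have e : rowMul (L.V (halfIdx i)) g =
        ((L.e : ℤ) * (rowMul (Model.base (halfIdx i)) g).1,
          (L.e : ℤ) * (rowMul (Model.base (halfIdx i)) g).2) := by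
      simp only [rowMul, Lev.V]; ext <;> simp <;> ring
    rw [e] at hnz ⊢
    refine exists_halfIdx hm fun hd => hnz ?_
    simp only [L.dvd_e_mul_iff, hm]
    exact hd
  choose π hπ using hp
  have hπinj : Function.Injective π := fun i j hij => by
    by_contra hne
    have := (hπ i).trans ((hij ▸ hπ j).symm)
    rw [Model.pm_rowMul_iff] at this
    refine L.not_pm (halfIdx_valid L i) (halfIdx_valid L j) ?_ this
    revert hne
    fin_cases i <;> fin_cases j <;> decide
  -- the values of the three points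
  let val : Fin 3 → Fld E := fun i => absF E L (L.V (halfIdx i)) (L.nz_V _)
  have hv0 : ∀ τ, (absQuad L (L.V 0) (L.nz_V 0)).fn τ = 0 := fun τ => by
    simp [Quad.fn, absQuad, wpDiff]
  have hv1 : ∀ τ, (absQuad L (L.V 2) (L.nz_V 2)).fn τ = 1 := fun τ =>
    div_self (wpDiff_ne_zero (L.nz_V 2) (L.nz_V 0) (L.not_pm L.valid2 L.valid0 (by decide)) τ)
  have val0 : val 0 = 0 := fldGerm_injective E (by
    rw [map_zero, show val 0 = quadF E (absQuad L (L.V 0) (L.nz_V 0)) from rfl, fldGerm_quadF]
    exact Germ.coe_eq.2 (Eventually.of_forall hv0))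
  have val1 : val 1 = 1 := fldGerm_injective E (by
    rw [map_one, show val 1 = quadF E (absQuad L (L.V 2) (L.nz_V 2)) from rfl, fldGerm_quadF]
    exact Germ.coe_eq.2 (Eventually.of_forall hv1))
  have val2 : val 2 = lamF E L := rfl
  have hfix : fShift E g (lamF E L) = lamF E L := by
    have h0 := h (L.V 1) (L.nz_V 1)
    refine h0.trans (fldGerm_injective E ?_)
    rw [absF, lamF, fldGerm_quadF, fldGerm_quadF]
    refine Germ.coe_eq.2 (Eventually.of_forall fun τ => ?_)
    simp only [Quad.fn, absQuad]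
    rw [Model.wpDiff_congr (hodd 1) (PM.refl _)]
  have hrel : lamF E L * (val (π 1) - val (π 0)) = val (π 2) - val (π 0) := by
    have hq : fShift E g (lamF E L) * (val (π 1) - val (π 0)) = val (π 2) - val (π 0) := by
      rw [lamF, fShift_quadF]
      refine fldGerm_injective E ?_
      simp only [val, absF, map_mul, map_sub, fldGerm_quadF]
      refine Germ.coe_eq.2 (Eventually.of_forall fun τ => ?_)
      show ((absQuad L (L.V 1) (L.nz_V 1)).mul g).fn τ *
          ((absQuad L (L.V (halfIdx (π 1))) (L.nz_V _)).fn τ -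
            (absQuad L (L.V (halfIdx (π 0))) (L.nz_V _)).fn τ) = _
      simp only [Quad.fn, Quad.mul, absQuad, Model.wpDiff_congr (hπ 2) (hπ 0),
        show Model.wpDiff M (rowMul (L.V 1) g) (rowMul (L.V 0) g) =
          wpDiff M (L.V (halfIdx (π 2))) (L.V (halfIdx (π 0))) from
            Model.wpDiff_congr (hπ 2) (hπ 0),
        show Model.wpDiff M (rowMul (L.V 2) g) (rowMul (L.V 0) g) =
          wpDiff M (L.V (halfIdx (π 1))) (L.V (halfIdx (π 0))) from
            Model.wpDiff_congr (hπ 1) (hπ 0)]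
      have hne : wpDiff M (L.V (halfIdx (π 1))) (L.V (halfIdx (π 0))) τ ≠ 0 :=
        wpDiff_ne_zero (L.nz_V _) (L.nz_V _) (L.not_pm (halfIdx_valid L _) (halfIdx_valid L _)
          fun e => hπinj.ne (show (1 : Fin 3) ≠ 0 by decide)
            (by revert e; generalize π 1 = a; generalize π 0 = b
                fin_cases a <;> fin_cases b <;> decide)) τ
      have hD := wpDiff_ne_zero (L.nz_V 2) (L.nz_V 0) (L.not_pm L.valid2 L.valid0 (by decide)) τ
      have hsub : ∀ x y z : ℤ × ℤ, wpDiff M x z τ - wpDiff M y z τ = wpDiff M x y τ :=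
        fun x y z => by simp only [wpDiff, sub_div]; ring
      rw [← sub_div, ← sub_div, hsub, hsub, div_mul_div_comm]
      field_simp
    rwa [hfix] at hq
  -- the permutation is trivial
  have hid : π 0 = 0 ∧ π 1 = 1 ∧ π 2 = 2 := by
    have hnon : ∀ P : Polynomial O, P ≠ 0 → Polynomial.aeval (lamF E L) P ≠ 0 := fun P hP =>
      aeval_lamF_ne_zero E hm hP
    have hC : ∀ P : Polynomial O, P.coeff 0 ≠ 0 ∨ P.coeff 1 ≠ 0 ∨ P.coeff 2 ≠ 0 → P ≠ 0 := by
      rintro P h rfl; simp at h
    have c0 := hπinj.ne (show (0 : Fin 3) ≠ 1 by decide)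
    have c1 := hπinj.ne (show (0 : Fin 3) ≠ 2 by decide)
    have c2 := hπinj.ne (show (1 : Fin 3) ≠ 2 by decide)
    have e : ∀ v : Fin 3, v = 0 ∨ v = 1 ∨ v = 2 := by decide
    rcases e (π 0) with a0 | a0 | a0 <;> rcases e (π 1) with a1 | a1 | a1 <;>
      rcases e (π 2) with a2 | a2 | a2 <;>
      first
        | exact ⟨a0, a1, a2⟩
        | (rw [a0, a1] at c0; exact absurd rfl c0)
        | (rw [a0, a2] at c1; exact absurd rfl c1)
        | (rw [a1, a2] at c2; exact absurd rfl c2)
        | (exfalso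
           rw [a0, a1, a2, val0, val1, val2] at hrel
           first
             | exact hnon (Polynomial.X ^ 2 - 1) (hC _ (Or.inl (by simp)))
                 (by simp only [map_sub, map_pow, Polynomial.aeval_X, map_one]
                     linear_combination hrel)
             | exact hnon (Polynomial.X * 2 - 1) (hC _ (Or.inl (by simp [Polynomial.coeff_X_zero])))
                 (by simp only [map_sub, map_mul, map_ofNat, Polynomial.aeval_X, map_one]
                     linear_combination hrel)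
             | exact hnon (Polynomial.X * 2 - 1) (hC _ (Or.inl (by simp [Polynomial.coeff_X_zero])))
                 (by simp only [map_sub, map_mul, map_ofNat, Polynomial.aeval_X, map_one]
                     linear_combination -hrel)
             | exact hnon (Polynomial.X ^ 2 - Polynomial.X + 1) (hC _ (Or.inl (by simp)))
                 (by simp only [map_add, map_sub, map_pow, Polynomial.aeval_X, map_one]
                     linear_combination hrel)
             | exact hnon (Polynomial.X ^ 2 - Polynomial.X + 1) (hC _ (Or.inl (by simp)))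
                 (by simp only [map_add, map_sub, map_pow, Polynomial.aeval_X, map_one]
                     linear_combination -hrel)
             | exact hnon (Polynomial.X ^ 2 - Polynomial.X * 2) (hC _ (Or.inr (Or.inr (by simp [Polynomial.coeff_X]))))
                 (by simp only [map_sub, map_pow, map_mul, map_ofNat, Polynomial.aeval_X]
                     linear_combination hrel)
             | exact hnon (Polynomial.X ^ 2 - Polynomial.X * 2) (hC _ (Or.inr (Or.inr (by simp [Polynomial.coeff_X]))))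
                 (by simp only [map_sub, map_pow, map_mul, map_ofNat, Polynomial.aeval_X]
                     linear_combination -hrel))
  intro u hu
  have h0 := h u hu
  rw [absF, fShift_quadF, absF] at h0
  obtain ⟨τ, hτ⟩ := exists_eq_of_quadF_eq E h0
  have e0 : PM M (rowMul (L.V 0) g) (L.V 0) := by simpa [hid.1, halfIdx] using hπ 0
  have e1 : PM M (rowMul (L.V 2) g) (L.V 2) := by simpa [hid.2.1, halfIdx] using hπ 1
  simp only [Quad.fn, Quad.mul, absQuad, Model.wpDiff_congr e1 e0,
    Model.wpDiff_congr (PM.refl (rowMul u g)) e0] at hτ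
  by_contra hne
  refine wpDiff_ne_zero (nz_rowMul g hu) (nz_scaleV a hu) hne τ ?_
  have hD := wpDiff_ne_zero (L.nz_V 2) (L.nz_V 0) (L.not_pm L.valid2 L.valid0 (by decide)) τ
  rw [div_left_inj' hD] at hτ
  simp only [wpDiff, sub_div] at hτ ⊢
  linear_combination hτ

/-- An automorphism of a subfield of `ℂ` extends. -/
lemma exists_complexAut_extend (K : Subfield ℂ) (s : K ≃+* K) :
    ∃ σ : ℂ ≃+* ℂ, ∀ c : K, σ c = (s c : ℂ) := by
  obtain ⟨b, hb⟩ := exists_isTranscendenceBasis K ℂ
  let A := Algebra.adjoin K (Set.range (Subtype.val : b → ℂ))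
  haveI : IsAlgClosure A ℂ := IsAlgClosed.isAlgClosure_of_transcendence_basis _ hb
  let φ : MvPolynomial b K ≃ₐ[K] A := hb.1.aevalEquiv
  let e : A ≃+* A :=
    φ.symm.toRingEquiv.trans ((MvPolynomial.mapEquiv b s).trans φ.toRingEquiv)
  refine ⟨IsAlgClosure.equivOfEquiv ℂ ℂ e, fun c => ?_⟩
  have h := IsAlgClosure.equivOfEquiv_algebraMap ℂ ℂ e (algebraMap K A c)
  rw [← IsScalarTower.algebraMap_apply K A ℂ] at h
  refine h.trans ?_
  have : e (algebraMap K A c) = algebraMap K A (s c) := by
    show φ ((MvPolynomial.mapEquiv b s) (φ.symm (algebraMap K A c))) = _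
    rw [φ.symm.commutes]
    show φ (MvPolynomial.map (s : K →+* K) (MvPolynomial.C c)) = _
    rw [MvPolynomial.map_C]
    exact φ.commutes _
  rw [this, ← IsScalarTower.algebraMap_apply K A ℂ]
  rfl

/-- Translations congruent to `±` the identity are trivial. -/
lemma fShift_eq_self (g : SL(2, ℤ))
    (h : ∀ u, NZ M u → PM M (rowMul u g) u) (x : Fld E) : fShift E g x = x := by
  have h1 : M ≠ 1 → NZ M (1, 0) := fun hM => by
    rintro ⟨h', -⟩
    exact hM (by exact_mod_cast Int.eq_one_of_dvd_one (by positivity) h')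
  rcases eq_or_ne M 1 with hM | hM
  · subst hM
    rw [fShift_congr E (h := 1) (Subtype.ext (Subsingleton.elim _ _)), fShift_one]
  have h01 : NZ M (0, 1) := fun ⟨_, h'⟩ =>
    hM (by exact_mod_cast Int.eq_one_of_dvd_one (by positivity) h')
  have h11 : NZ M (1, 1) := fun ⟨h', _⟩ =>
    hM (by exact_mod_cast Int.eq_one_of_dvd_one (by positivity) h')
  have key := fun u hu => (Model.pm_iff (M := M)).1 (h u hu)
  have a := key _ (h1 hM)
  have b := key _ h01
  have c := key _ h11
  simp only [rowMul, Int.cast_add, Int.cast_mul, Int.cast_one, Int.cast_zero, zero_mul, one_mul,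
    zero_add, add_zero] at a b c
  have hpm : red M g = 1 ∨ red M (-g) = 1 := by
    rcases a with ⟨a1, a2⟩ | ⟨a1, a2⟩ <;> rcases b with ⟨b1, b2⟩ | ⟨b1, b2⟩
    · exact Or.inl (Subtype.ext (Matrix.ext fun i j => by
        fin_cases i <;> fin_cases j <;> simp [red, a1, a2, b1, b2]))
    · refine Or.inl (Subtype.ext (Matrix.ext fun i j => ?_))
      rw [a1, a2, b1, b2] at c
      have h2 : (2 : ZMod M) = 0 := by
        rcases c with ⟨c1, c2⟩ | ⟨c1, c2⟩
        · linear_combination -c2
        · linear_combination c1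
      have hneg : (-1 : ZMod M) = 1 := by linear_combination -h2
      fin_cases i <;> fin_cases j <;> simp [red, a1, a2, b1, b2, hneg]
    · refine Or.inl (Subtype.ext (Matrix.ext fun i j => ?_))
      rw [a1, a2, b1, b2] at c
      have h2 : (2 : ZMod M) = 0 := by
        rcases c with ⟨c1, c2⟩ | ⟨c1, c2⟩
        · linear_combination -c1
        · linear_combination c2
      have hneg : (-1 : ZMod M) = 1 := by linear_combination -h2
      fin_cases i <;> fin_cases j <;> simp [red, a1, a2, b1, b2, hneg]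
    · exact Or.inr (Subtype.ext (Matrix.ext fun i j => by
        fin_cases i <;> fin_cases j <;> simp [red, a1, a2, b1, b2]))
  rcases hpm with h' | h'
  · rw [fShift_congr E (h := 1) (h'.trans (map_one _).symm), fShift_one]
  · have : fShift E g x = fShift E (-g) x := by
      obtain ⟨a, b, -, rfl⟩ := exists_eq_div E x
      simp only [map_div₀, fShift_toFld, shift_neg]
    rw [this, fShift_congr E (h := 1) (h'.trans (map_one _).symm), fShift_one]

/-- Over all constants the abscissae generate. -/
theorem closure_absF_eq_top (hm : L.m = 2) :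
    Subfield.closure (Set.range (algebraMap O (Fld E)) ∪ absFSet E L) = ⊤ := by
  classical
  set S := Subfield.closure (Set.range (algebraMap O (Fld E)) ∪ absFSet E L)
  have hlam : lamF E L ∈ S := Subfield.subset_closure (Or.inr ⟨L.V 1, L.nz_V 1, rfl⟩)
  obtain ⟨h0, h1⟩ := lamF_ne E hm
  have h1' : lamF E L - 1 ≠ 0 := fun e => h1 (by linear_combination -e)
  have hj : jF E ∈ S := by
    have := jF_mul_lamF E hm
    rw [← eq_div_iff (mul_ne_zero (pow_ne_zero _ h0) (pow_ne_zero _ h1'))] at this
    rw [this]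
    exact div_mem (mul_mem (natCast_mem S 256) (pow_mem (add_mem (sub_mem (pow_mem hlam 2) hlam)
      (one_mem S)) 3)) (mul_mem (pow_mem hlam 2) (pow_mem (sub_mem hlam (one_mem S)) 2))
  have hP : ∀ P : Polynomial O, Polynomial.aeval (jF E) P ∈ S := fun P => by
    rw [Polynomial.aeval_eq_sum_range]
    exact sum_mem fun i _ => by
      rw [Algebra.smul_def]
      exact mul_mem (Subfield.subset_closure (Or.inl ⟨_, rfl⟩)) (pow_mem hj i)
  have hfixed : FixedPoints.subfield (transG E) (Fld E) ≤ S := fun x hx => by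
    obtain ⟨P, Q, hQ, he⟩ := fixedRational_jF E x hx
    rw [← eq_div_iff hQ] at he
    rw [he]
    exact div_mem (hP P) (hP Q)
  let S' : IntermediateField (FixedPoints.subfield (transG E) (Fld E)) (Fld E) :=
    S.toIntermediateField fun x => hfixed x.2
  have hS' : S'.fixingSubgroup = ⊥ := by
    rw [Subgroup.eq_bot_iff_forall]
    intro f hf
    obtain ⟨σ, rfl⟩ := FixedPoints.toAlgAut_surjective (transG E) (Fld E) f
    obtain ⟨g, hg⟩ := (mem_transG E).1 σ.2
    have hfix : ∀ u (hu : NZ M u), fShift E g (absF E L u hu) = absF E L u hu := fun u hu => by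
      rw [← hg]
      exact (IntermediateField.mem_fixingSubgroup_iff S' _).1 hf (absF E L u hu)
        (Subfield.subset_closure (Or.inr ⟨u, hu, rfl⟩))
    have hsc : ∀ u, scaleV (1 : (ZMod M)ˣ) u = u ∨ PM M (scaleV (1 : (ZMod M)ˣ) u) u := fun u => by
      refine Or.inr (Or.inl ⟨by simp [scaleV], ?_⟩)
      rw [← ZMod.intCast_zmod_eq_zero_iff_dvd]
      simp [scaleV]
    have hcongr : ∀ u (hu : NZ M u),
        absF E L (scaleV (1 : (ZMod M)ˣ) u) (nz_scaleV _ hu) = absF E L u hu := fun u hu => by
      apply fldGerm_injective E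
      rw [absF, absF, fldGerm_quadF, fldGerm_quadF]
      refine Germ.coe_eq.2 (Eventually.of_forall fun τ => ?_)
      simp only [Quad.fn, absQuad]
      rcases hsc u with h | h
      · rw [h]
      · rw [Model.wpDiff_congr h (PM.refl _)]
    have hg' : ∀ u, NZ M u → PM M (rowMul u g) u := fun u hu => by
      have := eq_of_fShift_absF E hm (1 : (ZMod M)ˣ) g
        (fun u hu => by rw [hfix u hu, hcongr u hu]) u hu
      rcases hsc u with h | h
      · rwa [h] at this
      · exact this.trans h
    refine AlgEquiv.ext fun x => ?_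
    show σ • x = x
    rw [transG_smul_def, hg, fShift_eq_self E g hg']
  have htop : S' = ⊤ := by
    rw [← IsGalois.fixedField_fixingSubgroup S', hS', IntermediateField.fixedField_bot]
  refine eq_top_iff.2 fun x _ => ?_
  have : x ∈ S' := htop ▸ IntermediateField.mem_top
  exact this

variable {W : Type} [CommRing W] [Algebra W O]

/-- Over the unramified constants the abscissae generate. -/
theorem closure_absF_base_eq_top (hm : L.m = 2) (hgen : Algebra.adjoin W {E.ζ} = ⊤)
    {q : ℕ} (hq : ∃ c : W, algebraMap W O c = E.ζ ^ q) (hMq : ¬ M ∣ 2 * q) :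
    Subfield.closure (Set.range ((algebraMap O (Fld E)).comp (algebraMap W O)) ∪ absFSet E L) =
      ⊤ := by
  classical
  set S := Subfield.closure (Set.range ((algebraMap O (Fld E)).comp (algebraMap W O)) ∪ absFSet E L)
  set z := algebraMap O (Fld E) E.ζ with hz
  have hOmem : ∀ (S₁ : Subfield (Fld E)), S ≤ S₁ → z ∈ S₁ → S₁ = ⊤ := fun S₁ hS hzS => by
    refine eq_top_iff.2 ((closure_absF_eq_top E hm).symm.le.trans (Subfield.closure_le.2 ?_))
    rintro x (⟨o, rfl⟩ | hx)
    · obtain ⟨P, rfl⟩ : ∃ P : Polynomial W, Polynomial.aeval E.ζ P = o :=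
        (Algebra.adjoin_singleton_eq_range_aeval W E.ζ).le (hgen ▸ Algebra.mem_top : o ∈ Algebra.adjoin W {E.ζ})
      rw [Polynomial.aeval_eq_sum_range, map_sum]
      refine sum_mem fun i _ => ?_
      rw [Algebra.smul_def, map_mul, map_pow]
      exact mul_mem (hS (Subfield.subset_closure (Or.inl ⟨_, rfl⟩))) (pow_mem hzS i)
    · exact hS (Subfield.subset_closure (Or.inr hx))
  suffices hzS : z ∈ S from hOmem S le_rfl hzS
  have hprimO : IsPrimitiveRoot E.ζ M := by
    refine IsPrimitiveRoot.of_map_of_injective (f := E.φ) ?_ E.inj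
    rw [E.map_ζ]
    exact Complex.isPrimitiveRoot_exp M (NeZero.ne M)
  have hprim : IsPrimitiveRoot z M := hprimO.map_of_injective (ModField.algebraMap_injective E)
  haveI : IsCyclotomicExtension {M} S (Fld E) := by
    rw [IsCyclotomicExtension.iff_adjoin_eq_top]
    refine ⟨fun n hn _ => ⟨z, by rwa [Set.mem_singleton_iff.1 hn]⟩, ?_⟩
    rw [← IsCyclotomicExtension.adjoin_roots_cyclotomic_eq_adjoin_nth_roots hprim,
      IsCyclotomicExtension.adjoin_roots_cyclotomic_eq_adjoin_root_cyclotomic hprim]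
    have halg : IsAlgebraic S z :=
      (hprim.isIntegral (NeZero.pos M)).tower_top.isAlgebraic
    rw [← IntermediateField.adjoin_simple_toSubalgebra_of_isAlgebraic halg,
      ← IntermediateField.top_toSubalgebra]
    congr 1
    refine eq_top_iff.2 fun x _ => ?_
    have h := hOmem (IntermediateField.adjoin S {z}).toSubfield
      (fun y hy => (IntermediateField.adjoin S {z}).algebraMap_mem ⟨y, hy⟩)
      (IntermediateField.subset_adjoin _ _ rfl)
    exact (h.ge (Subfield.mem_top x) : _)
  haveI : IsGalois S (Fld E) := IsCyclotomicExtension.isGalois (S := {M}) (K := S) (L := Fld E)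
  haveI : FiniteDimensional S (Fld E) := IsCyclotomicExtension.finiteDimensional {M} S (Fld E)
  suffices hzfix : ∀ τ : Fld E ≃ₐ[S] Fld E, τ z = z by
    obtain ⟨y, hy⟩ := IntermediateField.mem_bot.1 ((IsGalois.mem_bot_iff_fixed _).2 hzfix)
    rw [← hy]
    exact y.2
  intro τ
  obtain ⟨k, hk, hkz⟩ := hprim.eq_pow_of_pow_eq_one (ξ := τ z)
    (by rw [← map_pow, hprim.pow_eq_one, map_one])
  have hWfix : ∀ c : W, τ (algebraMap O (Fld E) (algebraMap W O c)) =
      algebraMap O (Fld E) (algebraMap W O c) := fun c =>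
    τ.commutes ⟨_, Subfield.subset_closure (Or.inl ⟨c, rfl⟩)⟩
  -- the action on the constants
  have hcO : ∀ o : O, ∃ o' : O, τ (algebraMap O (Fld E) o) = algebraMap O (Fld E) o' := fun o => by
    obtain ⟨P, rfl⟩ : ∃ P : Polynomial W, Polynomial.aeval E.ζ P = o :=
      (Algebra.adjoin_singleton_eq_range_aeval W E.ζ).le (hgen ▸ Algebra.mem_top : o ∈ Algebra.adjoin W {E.ζ})
    refine ⟨Polynomial.aeval (E.ζ ^ k) P, ?_⟩
    simp only [Polynomial.aeval_eq_sum_range, map_sum, Algebra.smul_def, map_mul, map_pow, hWfix,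
      ← hz, ← hkz]
  have hcK : ∀ c : E.K, ∃ c' : E.K, τ (cstK E c) = cstK E c' := fun c => by
    obtain ⟨x, y, hy, hc⟩ := exists_frac_of_mem E c.2
    obtain ⟨x', hx'⟩ := hcO x
    obtain ⟨y', hy'⟩ := hcO y
    refine ⟨⟨E.φ x', E.φ_mem x'⟩ / ⟨E.φ y', E.φ_mem y'⟩, ?_⟩
    have e : c = ⟨E.φ x, E.φ_mem x⟩ / ⟨E.φ y, E.φ_mem y⟩ := Subtype.ext hc
    rw [e, map_div₀, map_div₀, map_div₀, cstK_φ, cstK_φ, cstK_φ, cstK_φ, hx', hy']
  choose sK hsK using hcK
  let sHom : E.K →+* E.K :=
    { toFun := sK
      map_one' := (cstK E).injective (by rw [← hsK, map_one, map_one])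
      map_zero' := (cstK E).injective (by rw [← hsK, map_zero, map_zero])
      map_mul' := fun a b => (cstK E).injective (by
        rw [map_mul, ← hsK, ← hsK, ← hsK, map_mul, map_mul])
      map_add' := fun a b => (cstK E).injective (by
        rw [map_add, ← hsK, ← hsK, ← hsK, map_add, map_add]) }
  have hsurj : Function.Surjective sHom := by
    intro c
    -- the powers of `τ` return to the identity
    obtain ⟨m, hm0, hmτ⟩ : ∃ m, 0 < m ∧ τ ^ m = 1 :=
      ⟨orderOf τ, orderOf_pos τ, pow_orderOf_eq_one τ⟩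
    have hit : ∀ (n : ℕ) (d : E.K), (τ ^ n) (cstK E d) = cstK E (sHom^[n] d) := fun n => by
      induction n with
      | zero => intro d; rfl
      | succ n ih =>
        intro d
        rw [pow_succ, AlgEquiv.mul_apply, hsK, ih, Function.iterate_succ_apply]
        rfl
    refine ⟨sHom^[m - 1] c, (cstK E).injective ?_⟩
    rw [← Function.iterate_succ_apply' sHom, show (m - 1).succ = m by omega, ← hit, hmτ,
      AlgEquiv.one_apply]
  obtain ⟨σ, hσ⟩ := exists_complexAut_extend E.K (RingEquiv.ofBijective sHom ⟨sHom.injective, hsurj⟩)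
  have hσK : σ ∈ stabK E := fun c => by
    constructor
    · intro hc
      obtain ⟨d, hd⟩ := hsurj ⟨σ c, hc⟩
      have : σ (d : ℂ) = σ c := (hσ d).trans (congrArg Subtype.val hd)
      rw [← σ.injective this]
      exact d.2
    · intro hc
      rw [show σ c = _ from hσ ⟨c, hc⟩]
      exact (sHom ⟨c, hc⟩).2
  let σ' : stabK E := ⟨σ, hσK⟩
  set a := cycC M σ
  have hX : ∀ u (hu : NZ M u),
      fConj E σ' (absF E L u hu) = absF E L (scaleV a u) (nz_scaleV _ hu) := fun u hu => by
    apply toLS_injective E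
    rw [toLS_fConj, absF, absF, quadF, quadF, ofMF, ofMF, toLS_toFld, toLS_toFld]
    show lmap σ.toRingHom (serAlg M (quadMF (absQuad L u hu))) =
      serAlg M (quadMF (absQuad L (scaleV a u) (nz_scaleV _ hu)))
    rw [serAlg_quadMF, serAlg_quadMF]
    simp only [map_div₀, map_sub, conj_pSer, absQuad]
    have hV : ∀ i, PM M (scaleV a (L.V i)) (L.V i) := fun i => by
      have hM : (M : ℤ) = L.e * 2 := by
        have := L.eq
        rw [hm] at this
        exact_mod_cast this
      have h2 : (2 : ℤ) ∣ ((a : ZMod M).val : ℤ) - 1 := by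
        have hcop := ZMod.val_coe_unit_coprime a
        have : ¬ (2 : ℕ) ∣ (a : ZMod M).val := fun hd => by
          have h2M : (2 : ℕ) ∣ M := ⟨L.e, by exact_mod_cast (hM.trans (mul_comm _ _))⟩
          exact absurd (Nat.dvd_gcd hd h2M) (by rw [hcop]; decide)
        omega
      obtain ⟨c, hc⟩ := h2
      refine Or.inl ⟨by simp [scaleV], c * (Model.base i).2, ?_⟩
      simp only [scaleV, Lev.V, hM]
      linear_combination ((L.e : ℤ) * (Model.base i).2) * hc
    have hp : ∀ i, Model.pSer M (Model.zetaC M) (scaleV a (L.V i)) =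
        Model.pSer M (Model.zetaC M) (L.V i) := fun i => by
      rw [← Model.map_pO (cycComplex M), ← Model.map_pO (cycComplex M),
        Model.pO_congr (cycComplex M) (hV i)]
    rw [show Model.pSer M (Model.zetaC M) (scaleV (cycC M σ) (L.V 0)) = _ from hp 0,
      show Model.pSer M (Model.zetaC M) (scaleV (cycC M σ) (L.V 2)) = _ from hp 2]
  have hXfix : ∀ u (hu : NZ M u), τ (absF E L u hu) = absF E L u hu := fun u hu =>
    τ.commutes ⟨_, Subfield.subset_closure (Or.inr ⟨u, hu, rfl⟩)⟩
  have hlamfix : τ (lamF E L) = lamF E L := hXfix _ _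
  have hjfix : τ (jF E) = jF E := by
    obtain ⟨h0, h1⟩ := lamF_ne E hm
    have h1' : lamF E L - 1 ≠ 0 := fun e => h1 (by linear_combination -e)
    have := jF_mul_lamF E hm
    rw [← eq_div_iff (mul_ne_zero (pow_ne_zero _ h0) (pow_ne_zero _ h1'))] at this
    rw [this]
    simp only [map_div₀, map_mul, map_pow, map_sub, map_add, map_one, map_ofNat, hlamfix]
  have hOeq : ∀ o, fConj E σ' (algebraMap O (Fld E) o) = τ (algebraMap O (Fld E) o) := fun o => by
    rw [← cstK_φ, fConj_cstK, hsK]
    congr 1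
    exact Subtype.ext (hσ _)
  -- the difference is a translation
  let f : Fld E →+* Fld E := (fConj E σ').symm.toRingHom.comp τ.toRingEquiv.toRingHom
  have hfO : ∀ o, f (algebraMap O (Fld E) o) = algebraMap O (Fld E) o := fun o => by
    show (fConj E σ').symm (τ (algebraMap O (Fld E) o)) = _
    rw [← hOeq, RingEquiv.symm_apply_apply]
  have hfj : f (jF E) = jF E := by
    show (fConj E σ').symm (τ (jF E)) = _
    rw [hjfix, RingEquiv.symm_apply_eq, fConj_jF]
  have hfP : ∀ P : Polynomial O, f (Polynomial.aeval (jF E) P) = Polynomial.aeval (jF E) P :=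
    fun P => by
      rw [Polynomial.aeval_eq_sum_range, map_sum]
      exact Finset.sum_congr rfl fun i _ => by
        rw [Algebra.smul_def, map_mul, map_pow, hfO, hfj]
  let fA : Fld E →ₐ[FixedPoints.subfield (transG E) (Fld E)] Fld E :=
    { f with
      commutes' := fun x => by
        obtain ⟨P, Q, hQ, he⟩ := fixedRational_jF E (x : Fld E) x.2
        rw [← eq_div_iff hQ] at he
        show f (x : Fld E) = (x : Fld E)
        rw [he, map_div₀, hfP, hfP] }
  haveI : FaithfulSMul (transG E) (Fld E) := ⟨fun h => Subtype.ext (RingEquiv.ext h)⟩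
  obtain ⟨ρ, hρ⟩ := (FixedPoints.toAlgHom_bijective (transG E) (Fld E)).2 fA
  obtain ⟨g, hg⟩ := (mem_transG E).1 ρ.2
  have hgx : ∀ x, fShift E g x = f x := fun x =>
    (hg x).symm.trans ((DFunLike.congr_fun hρ x : _))
  have hgu : ∀ u (hu : NZ M u), fShift E g (absF E L u hu) =
      absF E L (scaleV a⁻¹ u) (nz_scaleV _ hu) := fun u hu => by
    rw [hgx]
    show (fConj E σ').symm (τ (absF E L u hu)) = _
    rw [hXfix, RingEquiv.symm_apply_eq, hX _ (nz_scaleV _ hu)]
    apply fldGerm_injective E
    rw [absF, absF, fldGerm_quadF, fldGerm_quadF]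
    refine Germ.coe_eq.2 (Eventually.of_forall fun τ => ?_)
    simp only [Quad.fn, absQuad]
    have hpm : PM M (scaleV a (scaleV a⁻¹ u)) u := by
      refine Or.inl ⟨by simp [scaleV], ?_⟩
      rw [← ZMod.intCast_zmod_eq_zero_iff_dvd]
      simp [scaleV, ← mul_assoc]
    rw [Model.wpDiff_congr hpm (PM.refl _)]
  -- determinants
  have hPM := eq_of_fShift_absF E hm a⁻¹ g hgu
  have hM3 : 3 ≤ M := by have := L.five; omega
  have h10 : NZ M (1, 0) := fun ⟨h', _⟩ => by
    have := Int.le_of_dvd one_pos h'; omega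
  have h01 : NZ M (0, 1) := fun ⟨_, h'⟩ => by
    have := Int.le_of_dvd one_pos h'; omega
  have r1 := (Model.pm_iff (M := M)).1 (hPM _ h10)
  have r2 := (Model.pm_iff (M := M)).1 (hPM _ h01)
  simp only [rowMul, scaleV, Int.cast_add, Int.cast_mul, Int.cast_one, Int.cast_zero, zero_mul,
    one_mul, zero_add, add_zero, mul_zero, mul_one, Int.cast_natCast, ZMod.natCast_zmod_val]
    at r1 r2
  have hdet := congrArg (Int.cast : ℤ → ZMod M) g.det_coe
  rw [Matrix.det_fin_two] at hdet
  push_cast at hdet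
  have hu : (a : ZMod M) = 1 ∨ (a : ZMod M) = -1 := by
    have hinv : ((a⁻¹ : (ZMod M)ˣ) : ZMod M) = 1 ∨ ((a⁻¹ : (ZMod M)ˣ) : ZMod M) = -1 := by
      rcases r1 with ⟨p1, p2⟩ | ⟨p1, p2⟩ <;> rcases r2 with ⟨s1, s2⟩ | ⟨s1, s2⟩ <;>
        rw [p1, p2, s2] at hdet <;>
        first
          | exact Or.inl (by linear_combination hdet)
          | exact Or.inr (by linear_combination -hdet)
    rcases hinv with e | e
    · left
      have := a.mul_inv
      rwa [e, mul_one] at this
    · right
      have := a.mul_inv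
      rw [e] at this
      linear_combination -this
  have hσζ : σ (Model.zetaC M) = Model.zetaC M ^ k := by
    have h1 : sHom ⟨_, E.φ_mem E.ζ⟩ = ⟨_, E.φ_mem (E.ζ ^ k)⟩ := (cstK E).injective (by
      rw [← show τ (cstK E ⟨_, E.φ_mem E.ζ⟩) = cstK E (sHom ⟨_, E.φ_mem E.ζ⟩) from hsK _,
        cstK_φ, cstK_φ, map_pow, ← hz, hkz])
    have h2 := hσ ⟨_, E.φ_mem E.ζ⟩
    rw [show (RingEquiv.ofBijective sHom ⟨sHom.injective, hsurj⟩) ⟨_, E.φ_mem E.ζ⟩ =
      sHom ⟨_, E.φ_mem E.ζ⟩ from rfl, h1] at h2
    simpa [E.map_ζ] using h2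
  have hspec := cycC_spec σ (zetaC_pow M)
  rcases hu with e | e
  · -- trivial on the root of unity
    have hk1 : (Model.zetaC M) ^ k = Model.zetaC M := by
      rw [← hσζ, hspec, show cycC M σ = a from rfl, e, ZMod.val_one'' (by omega), pow_one]
    have : E.ζ ^ k = E.ζ := E.inj (by rw [map_pow, E.map_ζ]; exact hk1)
    rw [← hkz, hz, ← map_pow, this]
  · -- impossible, as the part of order prime to `q` is fixed
    exfalso
    obtain ⟨c, hc⟩ := hq
    have hfixq : (Model.zetaC M ^ k) ^ q = Model.zetaC M ^ q := by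
      have h1 : algebraMap O (Fld E) ((E.ζ ^ k) ^ q) = algebraMap O (Fld E) (E.ζ ^ q) := by
        rw [map_pow, map_pow, ← hz, hkz, ← map_pow, hz, ← map_pow, ← hc, hWfix]
      have := congrArg E.φ (ModField.algebraMap_injective E h1)
      simpa [E.map_ζ] using this
    have hk2 : Model.zetaC M ^ k * Model.zetaC M = 1 := by
      rw [← hσζ, hspec, show cycC M σ = a from rfl, ← pow_succ]
      obtain ⟨d, hd⟩ : M ∣ ((a : ZMod M).val + 1) := by
        rw [← ZMod.natCast_eq_zero_iff]
        simp [e]
      rw [hd, pow_mul, zetaC_pow, one_pow]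
    have h2q : Model.zetaC M ^ (2 * q) = 1 := by
      have := congrArg (· ^ q) hk2
      simp only [mul_pow, one_pow, hfixq] at this
      rw [two_mul, pow_add]
      exact this
    exact hMq ((Complex.isPrimitiveRoot_exp M (NeZero.ne M)).dvd_of_pow_eq_one _ h2q)

end Fermat.Agent.Moduli
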