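import Fermat.Agent.Moduli.Length

/-!
# The conjugates of a point share the length of the fibre

For a group acting on `B` over `R` the localisation of `B ⧸ J B` at a maximal ideal has length at
most `length (B ⧸ J B)` divided by the size of the orbit.
-/

set_option autoImplicit false

namespace Fermat.Agent.Moduli

open Ideal
open scoped Pointwise

variable {R B : Type*} [CommRing R] [CommRing B] [Algebra R B]

/-- The elements killed modulo `J` by something outside `m`. -/
def saturation (J m : Ideal B) [m.IsPrime] : Ideal B where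
  carrier := {b | ∃ u, u ∉ m ∧ u * b ∈ J}
  zero_mem' := ⟨1, fun h => Ideal.IsPrime.ne_top' ((Ideal.eq_top_iff_one m).2 h),
    by rw [mul_zero]; exact J.zero_mem⟩
  add_mem' := by
    rintro a b ⟨u, hu, ha⟩ ⟨v, hv, hb⟩
    refine ⟨u * v, fun h => (Ideal.IsPrime.mem_or_mem ‹_› h).elim hu hv, ?_⟩
    rw [mul_add, show u * v * a = v * (u * a) by ring, show u * v * b = u * (v * b) by ring]
    exact J.add_mem (J.mul_mem_left _ ha) (J.mul_mem_left _ hb)
  smul_mem' := by
    rintro c b ⟨u, hu, hb⟩
    exact ⟨u, hu, by rw [smul_eq_mul, mul_left_comm]; exact J.mul_mem_left _ hb⟩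

lemma le_saturation (J m : Ideal B) [hm : m.IsPrime] : J ≤ saturation J m := fun b hb =>
  ⟨1, fun h => hm.ne_top ((Ideal.eq_top_iff_one m).2 h), by rwa [one_mul]⟩

/-- An element outside `m` is invertible modulo the saturation. -/
lemma exists_inv_mod_saturation (J m : Ideal B) [hm : m.IsPrime]
    (hJ : Module.length R (B ⧸ J) ≠ ⊤) {u : B} (hu : u ∉ m) :
    ∃ v, u * v - 1 ∈ saturation J m := by
  set I := saturation J m
  have hfl : IsFiniteLength R (B ⧸ I.restrictScalars R) := by
    have h1 : IsFiniteLength R (B ⧸ J.restrictScalars R) :=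
      Module.length_ne_top_iff.1 (by
        rwa [(Submodule.Quotient.restrictScalarsEquiv R J).length_eq])
    exact h1.of_surjective (f := Submodule.factor (show J.restrictScalars R ≤ I.restrictScalars R
      from le_saturation J m)) (Submodule.factor_surjective _)
  haveI : IsArtinian R (B ⧸ I.restrictScalars R) :=
    (isFiniteLength_iff_isNoetherian_isArtinian.1 hfl).2
  let f : (B ⧸ I.restrictScalars R) →ₗ[R] (B ⧸ I.restrictScalars R) :=
    Submodule.mapQ _ _ (LinearMap.mulLeft R u) fun b hb => by
      show u * b ∈ I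
      exact I.mul_mem_left u hb
  have hinj : Function.Injective f := by
    refine (injective_iff_map_eq_zero f).2 ?_
    intro y hy
    obtain ⟨b, rfl⟩ := Submodule.Quotient.mk_surjective _ y
    rw [Submodule.mapQ_apply, Submodule.Quotient.mk_eq_zero] at hy
    rw [Submodule.Quotient.mk_eq_zero]
    obtain ⟨w, hw, hwb⟩ := hy
    exact ⟨w * u, fun h => (hm.mem_or_mem h).elim hw hu, by
      rwa [LinearMap.mulLeft_apply, ← mul_assoc] at hwb⟩
  obtain ⟨y, hy⟩ := IsArtinian.surjective_of_injective_endomorphism f hinj (Submodule.Quotient.mk 1)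
  obtain ⟨v, rfl⟩ := Submodule.Quotient.mk_surjective _ y
  rw [Submodule.mapQ_apply, Submodule.Quotient.eq] at hy
  exact ⟨v, hy⟩

lemma saturation_sup_eq_top (J m n : Ideal B) [hm : m.IsMaximal] [hn : n.IsMaximal]
    (hJ : Module.length R (B ⧸ J) ≠ ⊤) (hmn : m ≠ n) :
    saturation J m ⊔ saturation J n = ⊤ := by
  by_contra hne
  obtain ⟨p, hp, hle⟩ := Ideal.exists_le_maximal _ hne
  have key : ∀ (a : Ideal B) [a.IsMaximal], saturation J a ≤ p → p = a := by
    intro a ha hle
    by_contra hpa
    obtain ⟨u, hup, hua⟩ : ∃ u ∈ p, u ∉ a :=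
      SetLike.not_le_iff_exists.1 fun h => hpa (hp.eq_of_le ha.ne_top h)
    obtain ⟨v, hv⟩ := exists_inv_mod_saturation J a hJ hua
    refine hp.ne_top ((Ideal.eq_top_iff_one p).2 ?_)
    rw [show (1 : B) = u * v - (u * v - 1) by ring]
    exact p.sub_mem (p.mul_mem_right v hup) (hle hv)
  exact hmn ((key m (le_sup_left.trans hle)).symm.trans (key n (le_sup_right.trans hle)))

/-- The localised fibre is a quotient of the saturated one. -/
lemma qlen_map_le_length_saturation (J m : Ideal B) [hm : m.IsPrime]
    (hJ : Module.length R (B ⧸ J) ≠ ⊤) {C : Type*} [CommRing C] [Algebra B C]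
    [IsLocalization.AtPrime C m] [Algebra R C] [IsScalarTower R B C] :
    qlen (J.map (algebraMap B C)) ≤ Module.length R (B ⧸ saturation J m) := by
  set J' := J.map (algebraMap B C)
  have hle : ∀ b ∈ saturation J m, algebraMap B C b ∈ J' := by
    rintro b ⟨u, hu, hub⟩
    have h1 := Ideal.mem_map_of_mem (algebraMap B C) hub
    rw [map_mul] at h1
    exact (J'.unit_mul_mem_iff_mem (IsLocalization.map_units C (⟨u, hu⟩ : m.primeCompl))).1 h1
  let f : (B ⧸ (saturation J m).restrictScalars R) →ₗ[R] (C ⧸ J'.restrictScalars R) :=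
    Submodule.mapQ _ _ (IsScalarTower.toAlgHom R B C).toLinearMap hle
  have hsurj : Function.Surjective f := by
    intro y
    obtain ⟨c, rfl⟩ := Submodule.Quotient.mk_surjective _ y
    obtain ⟨b, ⟨u, hu⟩, rfl⟩ := IsLocalization.exists_mk'_eq m.primeCompl c
    obtain ⟨v, hv⟩ := exists_inv_mod_saturation (R := R) J m hJ hu
    refine ⟨Submodule.Quotient.mk (v * b), ?_⟩
    show Submodule.Quotient.mk ((IsScalarTower.toAlgHom R B C).toLinearMap (v * b)) = _
    rw [Submodule.Quotient.eq]
    show algebraMap B C (v * b) - _ ∈ J'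
    refine (J'.unit_mul_mem_iff_mem (IsLocalization.map_units C (⟨u, hu⟩ : m.primeCompl))).1 ?_
    rw [mul_sub, mul_comm _ (IsLocalization.mk' C b _), IsLocalization.mk'_spec, ← map_mul,
      ← map_sub, show u * (v * b) - b = b * (u * v - 1) by ring, map_mul]
    exact J'.mul_mem_left _ (hle _ hv)
  calc qlen J' ≤ Module.length R (C ⧸ J') := by
        rw [qlen, ← Module.length_top (R := C), ← Module.length_top (R := R) (M := C ⧸ J')]
        exact Submodule.length_le_length_restrictScalars R (⊤ : Submodule C (C ⧸ J'))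
    _ = Module.length R (C ⧸ J'.restrictScalars R) :=
        ((Submodule.Quotient.restrictScalarsEquiv R J').length_eq).symm
    _ ≤ Module.length R (B ⧸ (saturation J m).restrictScalars R) :=
        Module.length_le_of_surjective f hsurj
    _ = _ := (Submodule.Quotient.restrictScalarsEquiv R (saturation J m)).length_eq

variable {G : Type*} [Group G] [Finite G] [MulSemiringAction G B] [SMulCommClass G R B]

omit [Finite G] in
lemma isMaximal_smul (g : G) (m : Ideal B) [hm : m.IsMaximal] : (g • m).IsMaximal := by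
  rw [Ideal.pointwise_smul_eq_comap]
  exact Ideal.comap_isMaximal_of_surjective _ (MulAction.surjective g⁻¹)

omit [Finite G] in
lemma saturation_smul (J : Ideal B) (hG : ∀ (g : G) b, b ∈ J → g • b ∈ J) (g : G) (m : Ideal B)
    [m.IsPrime] [(g • m).IsPrime] (b : B) :
    g • b ∈ saturation J (g • m) ↔ b ∈ saturation J m := by
  constructor
  · rintro ⟨u, hu, hub⟩
    refine ⟨g⁻¹ • u, fun h => hu ?_, ?_⟩
    · rw [← smul_inv_smul g u]
      exact Ideal.smul_mem_pointwise_smul g _ _ h
    · have := hG g⁻¹ _ hub
      rwa [smul_mul', inv_smul_smul] at this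
  · rintro ⟨u, hu, hub⟩
    refine ⟨g • u, fun h => hu ((Ideal.smul_mem_pointwise_smul_iff).1 h), ?_⟩
    rw [← smul_mul']
    exact hG g _ hub

/-- The orbit of `m` times the local length is at most the length of the fibre. -/
theorem card_orbit_mul_qlen_le (J m : Ideal B) [hm : m.IsMaximal]
    (hJ : Module.length R (B ⧸ J) ≠ ⊤) (hG : ∀ (g : G) b, b ∈ J → g • b ∈ J)
    {C : Type*} [CommRing C] [Algebra B C] [IsLocalization.AtPrime C m] [Algebra R C]
    [IsScalarTower R B C] :
    (Nat.card (MulAction.orbit G m) : ℕ∞) * qlen (J.map (algebraMap B C)) ≤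
      Module.length R (B ⧸ J) := by
  classical
  haveI : Finite (MulAction.orbit G m) :=
    Set.finite_range (fun g : G => g • m) |>.to_subtype
  letI : Fintype (MulAction.orbit G m) := Fintype.ofFinite _
  haveI hmax : ∀ n : MulAction.orbit G m, (n : Ideal B).IsMaximal := by
    rintro ⟨_, g, rfl⟩
    exact isMaximal_smul g m
  set I : MulAction.orbit G m → Ideal B := fun n => saturation J (n : Ideal B) with hI
  have hlen : ∀ n, Module.length R (B ⧸ saturation J m) = Module.length R (B ⧸ I n) := by
    rintro ⟨_, g, rfl⟩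
    haveI := isMaximal_smul g m
    let e : B ≃ₗ[R] B :=
      { (MulSemiringAction.toRingEquiv G B g).toAddEquiv with
        map_smul' := fun r b => smul_comm g r b }
    rw [← (Submodule.Quotient.restrictScalarsEquiv R (saturation J m)).length_eq,
      ← (Submodule.Quotient.restrictScalarsEquiv R (I ⟨g • m, g, rfl⟩)).length_eq]
    refine LinearEquiv.length_eq (Submodule.Quotient.equiv _ _ e ?_)
    ext b
    rw [Submodule.mem_map]
    constructor
    · rintro ⟨a, ha, rfl⟩
      exact (saturation_smul J hG g m a).2 ha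
    · intro hb
      refine ⟨g⁻¹ • b, (saturation_smul J hG g m _).1 ?_, smul_inv_smul g b⟩
      rw [smul_inv_smul]; exact hb
  have hcop : Pairwise fun i j => IsCoprime (I i) (I j) := fun i j hij =>
    Ideal.isCoprime_iff_sup_eq.2
      (saturation_sup_eq_top J i j hJ fun e => hij (Subtype.ext e))
  let f : (B ⧸ J.restrictScalars R) →ₗ[R] ∀ n, B ⧸ (I n).restrictScalars R :=
    LinearMap.pi fun n => Submodule.factor (show J.restrictScalars R ≤ (I n).restrictScalars R
      from fun b hb => le_saturation J (n : Ideal B) hb)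
  have hsurj : Function.Surjective f := by
    intro y
    choose c hc using fun n => Submodule.Quotient.mk_surjective _ (y n)
    obtain ⟨b, hb⟩ := Ideal.exists_forall_sub_mem_ideal hcop c
    refine ⟨Submodule.Quotient.mk b, funext fun n => ?_⟩
    show Submodule.Quotient.mk b = y n
    rw [← hc n, Submodule.Quotient.eq]
    exact hb n
  calc (Nat.card (MulAction.orbit G m) : ℕ∞) * qlen (J.map (algebraMap B C))
      ≤ (Nat.card (MulAction.orbit G m) : ℕ∞) * Module.length R (B ⧸ saturation J m) :=
        mul_le_mul_right (qlen_map_le_length_saturation J m hJ) _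
    _ = Module.length R (∀ n, B ⧸ (I n).restrictScalars R) := by
        rw [Module.length_pi_of_fintype, Finset.sum_congr rfl fun n _ =>
          ((Submodule.Quotient.restrictScalarsEquiv R (I n)).length_eq.trans (hlen n).symm),
          Finset.sum_const, nsmul_eq_mul, Nat.card_eq_fintype_card, Finset.card_univ]
    _ ≤ Module.length R (B ⧸ J.restrictScalars R) := Module.length_le_of_surjective f hsurj
    _ = _ := (Submodule.Quotient.restrictScalarsEquiv R J).length_eq

/-- The local length is at most the order of the stabiliser. -/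
theorem qlen_le_card_stabilizer (J m : Ideal B) [hm : m.IsMaximal]
    (hJ : Module.length R (B ⧸ J) ≤ Nat.card G) (hG : ∀ (g : G) b, b ∈ J → g • b ∈ J)
    {C : Type*} [CommRing C] [Algebra B C] [IsLocalization.AtPrime C m] [Algebra R C]
    [IsScalarTower R B C] :
    qlen (J.map (algebraMap B C)) ≤ Nat.card (MulAction.stabilizer G m) := by
  have h := card_orbit_mul_qlen_le (G := G) J m (ne_top_of_le_ne_top (by simp) hJ) hG (C := C)
  have hcard : Nat.card (MulAction.orbit G m) * Nat.card (MulAction.stabilizer G m) =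
      Nat.card G := by
    rw [← Nat.card_prod]
    exact Nat.card_congr (MulAction.orbitProdStabilizerEquivGroup G m)
  have hpos : 0 < Nat.card (MulAction.orbit G m) := by
    haveI : Finite (MulAction.orbit G m) :=
      Set.finite_range (fun g : G => g • m) |>.to_subtype
    exact Nat.card_pos_iff.2 ⟨⟨⟨m, MulAction.mem_orbit_self m⟩⟩, inferInstance⟩
  have h' := h.trans hJ
  rw [← hcard, Nat.cast_mul] at h'
  rcases eq_or_ne (qlen (J.map (algebraMap B C))) ⊤ with e | e
  · rw [e, ENat.mul_top (by exact_mod_cast hpos.ne'), top_le_iff, ← Nat.cast_mul] at h'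
    exact absurd h' (ENat.natCast_ne_top _)
  · obtain ⟨a, ha⟩ := ENat.ne_top_iff_exists.1 e
    rw [← ha] at h' ⊢
    norm_cast at h' ⊢
    exact Nat.le_of_mul_le_mul_left h' hpos

end Fermat.Agent.Moduli
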