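import Fermat.Agent.Moduli.Length

/-!
# Parameters at a point of the full level `q` structure

`M ≅ (ℤ/q)²` and `z : M → C` the parameters at infinity in a local domain `C`.  The length of
`C ⧸ (q, t)` being at most the order of the stabiliser forces the maximal ideal to be
`(z P, z Q)` at a supersingular point and `(z P, e)` with `e ^ q ≡ t` at an ordinary one.
-/

set_option autoImplicit false

namespace Fermat.Agent.Moduli

open Ideal IsLocalRing Finset

lemma enat_le_one_of_mul_le {n : ℕ} (hn : 0 < n) {x : ℕ∞} (h : (n : ℕ∞) * x ≤ n) : x ≤ 1 := by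
  rcases eq_or_ne x ⊤ with rfl | hx
  · rw [ENat.mul_top (by exact_mod_cast hn.ne'), top_le_iff] at h
    exact absurd h (ENat.natCast_ne_top n)
  · obtain ⟨a, rfl⟩ := ENat.ne_top_iff_exists.1 hx
    norm_cast at h ⊢
    exact Nat.le_of_mul_le_mul_left (by rwa [mul_one]) hn

lemma enat_eq_of_two_nsmul {x y : ℕ∞} (h : 2 • x = 2 • y) : x = y := by
  rw [two_nsmul, two_nsmul] at h
  rcases eq_or_ne x ⊤ with rfl | hx
  · rcases eq_or_ne y ⊤ with rfl | hy
    · rfl
    · obtain ⟨b, rfl⟩ := ENat.ne_top_iff_exists.1 hy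
      rw [top_add, ← Nat.cast_add] at h
      exact absurd h.symm (ENat.natCast_ne_top _)
  · obtain ⟨a, rfl⟩ := ENat.ne_top_iff_exists.1 hx
    rcases eq_or_ne y ⊤ with rfl | hy
    · rw [top_add, ← Nat.cast_add] at h
      exact absurd h (ENat.natCast_ne_top _)
    · obtain ⟨b, rfl⟩ := ENat.ne_top_iff_exists.1 hy
      norm_cast at h ⊢
      omega

lemma isRegularMod_swap {C : Type*} [CommRing C] [IsDomain C] {a b : C} (hb : b ≠ 0)
    (h : IsRegularMod (span {b}) a) : IsRegularMod (span {a}) b := by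
  intro c hc
  obtain ⟨d, hd⟩ := mem_span_singleton.1 hc
  obtain ⟨e, rfl⟩ := mem_span_singleton.1 (h d (mem_span_singleton.2 ⟨c, hd.symm⟩))
  exact mem_span_singleton.2 ⟨e, mul_left_cancel₀ hb (hd.trans (mul_left_comm a b e))⟩

/-- Parameters at infinity on the `q`-torsion in a local domain. -/
structure TorsionFamily (M C : Type*) [AddCommGroup M] [Fintype M] [DecidableEq M] [CommRing C]
    [IsLocalRing C] (q : ℕ) where
  z : M → C
  nsmul_eq : ∀ T : M, q • T = 0
  card_eq : Fintype.card M = q ^ 2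
  z_zero : z 0 = 0
  z_neg : ∀ T, z (-T) = -z T
  prod_eq : Associated (q : C) (∏ T ∈ (univ : Finset M).erase 0, z T)
  add_mem : ∀ P Q, z P ∈ maximalIdeal C → z Q ∈ maximalIdeal C →
    z (P + Q) - z P - z Q ∈ (span {z P, z Q} : Ideal C) ^ 2
  add_congr : ∀ P Q, z P ∈ maximalIdeal C → z Q ∉ maximalIdeal C →
    z (P + Q) - z Q ∈ span {z P}

namespace TorsionFamily

variable {M C : Type*} [AddCommGroup M] [Fintype M] [DecidableEq M] [CommRing C] [IsLocalRing C]
  {q : ℕ} [hq : Fact q.Prime] (F : TorsionFamily M C q)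

/-- The points in the kernel of reduction. -/
def kernel : AddSubgroup M where
  carrier := {T | F.z T ∈ maximalIdeal C}
  zero_mem' := by simp [F.z_zero]
  neg_mem' := fun {T} h => by
    simpa only [Set.mem_setOf_eq, F.z_neg, neg_mem_iff] using h
  add_mem' := fun {P Q} hP hQ => by
    have h := F.add_mem P Q hP hQ
    have hle : (span {F.z P, F.z Q} : Ideal C) ^ 2 ≤ maximalIdeal C :=
      (Ideal.pow_le_self two_ne_zero).trans (span_le.2 (by
        rintro x (rfl | rfl) <;> assumption))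
    have := AddMemClass.add_mem (hle h) (AddMemClass.add_mem hP hQ)
    simpa [sub_sub] using this

lemma mem_kernel {T : M} : T ∈ F.kernel ↔ F.z T ∈ maximalIdeal C := Iff.rfl

lemma z_nsmul {P : M} (hP : P ∈ F.kernel) (a : ℕ) :
    ∃ c, F.z (a • P) = F.z P * ((a : C) + c * F.z P) := by
  induction a with
  | zero => exact ⟨0, by simp [F.z_zero]⟩
  | succ a ih =>
    obtain ⟨c, hc⟩ := ih
    have h := F.add_mem (a • P) P (F.kernel.nsmul_mem hP a) hP
    have hle : (span {F.z (a • P), F.z P} : Ideal C) ≤ span {F.z P} := span_le.2 (by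
      rintro x (rfl | rfl)
      · exact mem_span_singleton.2 ⟨_, hc⟩
      · exact mem_span_singleton_self _)
    have h2 := Ideal.pow_right_mono hle 2 h
    rw [Ideal.span_singleton_pow, mem_span_singleton] at h2
    obtain ⟨d, hd⟩ := h2
    refine ⟨c + d, ?_⟩
    rw [succ_nsmul]
    push_cast
    linear_combination hd + hc

lemma natCast_mem : ∀ {P : M}, P ≠ 0 → (q : C) ∈ span {F.z P} := fun {P} hP => by
  obtain ⟨u, hu⟩ := F.prod_eq.symm
  rw [← hu]
  exact mul_mem_right _ _ (mem_span_singleton.2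
    (Finset.dvd_prod_of_mem F.z (Finset.mem_erase.2 ⟨hP, Finset.mem_univ P⟩)))

lemma isUnit_natCast (hqm : (q : C) ∈ maximalIdeal C) {a : ℕ} (ha : ¬ q ∣ a) :
    IsUnit (a : C) := by
  rw [← notMem_maximalIdeal]
  intro hm
  obtain ⟨x, y, hxy⟩ := Nat.isCoprime_iff_coprime.2 (hq.out.coprime_iff_not_dvd.2 ha)
  have h1 : ((x * (q : ℤ) + y * (a : ℤ) : ℤ) : C) ∈ maximalIdeal C := by
    push_cast
    exact AddMemClass.add_mem (mul_mem_left _ _ hqm) (mul_mem_left _ _ hm)
  rw [hxy, Int.cast_one] at h1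
  exact one_notMem_nonunits h1

include F in
lemma addOrderOf_eq {P : M} (hP : P ≠ 0) : addOrderOf P = q :=
  addOrderOf_eq_prime (F.nsmul_eq P) hP

include F in
lemma card_zmultiples {P : M} (hP : P ≠ 0) : Nat.card (AddSubgroup.zmultiples P) = q := by
  rw [Nat.card_zmultiples, F.addOrderOf_eq hP]

include F in
lemma exists_nsmul_add {P Q : M} (hP : P ≠ 0) (hQ : Q ∉ AddSubgroup.zmultiples P) (T : M) :
    ∃ a b : ℕ, T = a • Q + b • P ∧ (q ∣ a → T ∈ AddSubgroup.zmultiples P) := by
  set H := AddSubgroup.zmultiples P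
  haveI : Fact (Nat.card (M ⧸ H)).Prime := ⟨by
    have h := H.card_eq_card_quotient_mul_card_addSubgroup
    rw [Nat.card_eq_fintype_card, F.card_eq, F.card_zmultiples hP, pow_two] at h
    rw [← Nat.eq_of_mul_eq_mul_right hq.out.pos h]
    exact hq.out⟩
  have hQ' : (Q : M ⧸ H) ≠ 0 := fun e => hQ ((QuotientAddGroup.eq_zero_iff Q).1 e)
  obtain ⟨a, ha⟩ := mem_zmultiples_of_prime_card (g := (Q : M ⧸ H)) (g' := (T : M ⧸ H)) rfl hQ'
  set a' := (a % (q : ℤ)).toNat with ha'
  have hqz : (q : ℤ) ≠ 0 := by exact_mod_cast hq.out.ne_zero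
  have hnn : 0 ≤ a % (q : ℤ) := Int.emod_nonneg a hqz
  have e1 : a' • Q = a • Q := by
    rw [← natCast_zsmul, ha', Int.toNat_of_nonneg hnn, Int.emod_def, sub_smul, mul_smul,
      natCast_zsmul, F.nsmul_eq, sub_zero]
  have hT : T - a' • Q ∈ H := by
    rw [e1, ← QuotientAddGroup.eq_zero_iff]
    simp only [QuotientAddGroup.mk_sub, QuotientAddGroup.mk_zsmul]
    exact sub_eq_zero.2 ha.symm
  obtain ⟨b, hb⟩ := hT
  set b' := (b % (q : ℤ)).toNat with hb'
  have e2 : b' • P = b • P := by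
    rw [← natCast_zsmul, hb', Int.toNat_of_nonneg (Int.emod_nonneg b hqz), Int.emod_def, sub_smul,
      mul_smul, natCast_zsmul, F.nsmul_eq, sub_zero]
  refine ⟨a', b', ?_, fun hd => ?_⟩
  · rw [e2]
    show T = a' • Q + b • P
    rw [show b • P = T - a' • Q from hb]
    abel
  · obtain ⟨c, hc⟩ := hd
    rw [show T = (T - a' • Q) + a' • Q by abel]
    refine H.add_mem ⟨b, hb⟩ ?_
    rw [hc, mul_comm, mul_nsmul', F.nsmul_eq, nsmul_zero]
    exact H.zero_mem

/-- In the kernel: congruences off a line. -/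
lemma z_off_line {P Q : M} (hP : P ≠ 0) (hall : ∀ T, F.z T ∈ maximalIdeal C)
    (hQ : Q ∉ AddSubgroup.zmultiples P) {T : M} (hT : T ∉ AddSubgroup.zmultiples P) :
    ∃ u, IsUnit u ∧ F.z T - u * F.z Q ∈ span {F.z P} := by
  obtain ⟨a, b, rfl, hab⟩ := F.exists_nsmul_add hP hQ T
  have ha : ¬ q ∣ a := fun h => hT (hab h)
  obtain ⟨c, hc⟩ := F.z_nsmul (hall Q) a
  obtain ⟨c', hc'⟩ := F.z_nsmul (hall P) b
  have h := F.add_mem (a • Q) (b • P) (hall _) (hall _)
  obtain ⟨e, f, hef⟩ : ∃ e f, F.z (a • Q + b • P) - F.z (a • Q) - F.z (b • P) =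
      e * F.z P + f * (F.z Q * F.z Q) := by
    have hle : (span {F.z (a • Q), F.z (b • P)} : Ideal C) ^ 2 ≤ span {F.z P, F.z Q * F.z Q} := by
      rw [pow_two, Ideal.span_pair_mul_span_pair, span_le]
      rintro x (rfl | rfl | rfl | rfl) <;> rw [SetLike.mem_coe, mem_span_pair]
      · exact ⟨0, ((a : C) + c * F.z Q) ^ 2, by rw [hc]; ring⟩
      · exact ⟨((b : C) + c' * F.z P) * F.z (a • Q), 0, by rw [hc']; ring⟩
      · exact ⟨((b : C) + c' * F.z P) * F.z (a • Q), 0, by rw [hc']; ring⟩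
      · exact ⟨((b : C) + c' * F.z P) * F.z (b • P), 0, by rw [hc']; ring⟩
    obtain ⟨e, f, h'⟩ := mem_span_pair.1 (hle h)
    exact ⟨e, f, h'.symm⟩
  have hqm : (q : C) ∈ maximalIdeal C :=
    (span_singleton_le_iff_mem (maximalIdeal C)).2 (hall P) (F.natCast_mem hP)
  refine ⟨(a : C) + (c + f) * F.z Q, ?_, mem_span_singleton.2 ⟨(b : C) + c' * F.z P + e, ?_⟩⟩
  · rw [← notMem_maximalIdeal]
    intro hm
    refine notMem_maximalIdeal.2 (isUnit_natCast hqm ha) ?_
    have := sub_mem hm (mul_mem_left _ (c + f) (hall Q))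
    simpa using this
  · linear_combination hef + hc + hc'

/-- The supersingular point: the parameters of two independent points generate. -/
theorem maximalIdeal_eq_of_all_mem [IsDomain C] {t : C} (ht0 : t ≠ 0)
    (hall : ∀ T, F.z T ∈ maximalIdeal C) (hreg : ∀ T, T ≠ 0 → IsRegularMod (span {t}) (F.z T))
    (hHasse : ∀ P : M, P ≠ 0 → ∃ u, IsUnit u ∧
      t ^ 2 - u * ∏ T ∈ univ.filter (fun T => T ∉ AddSubgroup.zmultiples P), F.z T ^ 2 ∈
        span {F.z P})
    (hlen : qlen (span {t} ⊔ span {(q : C)}) ≤ ((q ^ 2 - 1) * (q ^ 2 - q) : ℕ))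
    {P Q : M} (hP : P ≠ 0) (hQ : Q ∉ AddSubgroup.zmultiples P) :
    maximalIdeal C = span {F.z P} ⊔ span {F.z Q} ∧
      qlen (span {t} ⊔ span {(q : C)}) = ((q ^ 2 - 1) * (q ^ 2 - q) : ℕ) := by
  classical
  have hq1 : 1 ≤ q := hq.out.one_le
  have key : ∀ T : M, T ≠ 0 → ∀ R : M, R ∉ AddSubgroup.zmultiples T →
      qlen (span {t} ⊔ span {F.z T}) = (q ^ 2 - q) • qlen (span {F.z T} ⊔ span {F.z R}) := by
    intro T hT R hR
    obtain ⟨u, hu, hH⟩ := hHasse T hT
    have hct : IsRegularMod (span {F.z T}) t := isRegularMod_swap ht0 (hreg T hT)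
    set S := univ.filter (fun X : M => X ∉ AddSubgroup.zmultiples T) with hS
    have hSc : S.card = q ^ 2 - q := by
      have h1 : (univ.filter (fun X : M => X ∈ AddSubgroup.zmultiples T)).card = q := by
        rw [← Fintype.card_subtype, ← Nat.card_eq_fintype_card]
        exact F.card_zmultiples hT
      have h2 := Finset.card_filter_add_card_filter_not
        (s := (univ : Finset M)) (fun X : M => X ∈ AddSubgroup.zmultiples T)
      rw [Finset.card_univ, F.card_eq, h1] at h2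
      rw [hS]
      omega
    choose v hv using fun X (hX : X ∈ S) => F.z_off_line hT hall hR (Finset.mem_filter.1 hX).2
    have hprod : ∃ w, IsUnit w ∧
        t ^ 2 - w * (F.z R ^ 2) ^ S.card ∈ span {F.z T} := by
      refine ⟨u * ∏ X ∈ S.attach, v X.1 X.2 ^ 2, hu.mul (IsUnit.prod_iff.2 fun X _ =>
        (hv X.1 X.2).1.pow 2), ?_⟩
      have h3 : ∏ X ∈ S, F.z X ^ 2 - (∏ X ∈ S.attach, v X.1 X.2 ^ 2) * (F.z R ^ 2) ^ S.card ∈
          span {F.z T} := by
        rw [← Finset.prod_attach S, ← Finset.card_attach (s := S), ← Finset.prod_const,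
          ← Finset.prod_mul_distrib, ← Ideal.Quotient.eq_zero_iff_mem, map_sub, map_prod, map_prod,
          sub_eq_zero]
        refine Finset.prod_congr rfl fun X _ => ?_
        rw [← mul_pow, map_pow, map_pow]
        congr 1
        exact Ideal.Quotient.eq.2 (hv X.1 X.2).2
      have := AddMemClass.add_mem hH (mul_mem_left _ u h3)
      convert this using 1
      ring
    obtain ⟨w, hw, hT2⟩ := hprod
    rw [← pow_mul, hSc] at hT2
    have hRreg : IsRegularMod (span {F.z T}) (F.z R) := by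
      intro b hb
      refine hct.pow 2 b ?_
      have hpos : 0 < 2 * (q ^ 2 - q) := by
        have : q < q ^ 2 := lt_self_pow₀ hq.out.one_lt one_lt_two
        omega
      obtain ⟨j, hj⟩ := Nat.exists_eq_add_of_le hpos
      rw [hj] at hT2
      rw [show t ^ 2 * b = b * (t ^ 2 - w * F.z R ^ (1 + j)) + w * F.z R ^ j * (F.z R * b) by ring]
      exact AddMemClass.add_mem (mul_mem_left _ _ hT2) (mul_mem_left _ _ hb)
    apply enat_eq_of_two_nsmul
    rw [sup_comm (span {t}), ← qlen_sup_pow hct, sup_span_congr hw hT2, qlen_sup_pow hRreg,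
      mul_smul]
  have hsum : qlen (span {t} ⊔ span {(q : C)}) =
      ∑ T ∈ (univ : Finset M).erase 0, qlen (span {t} ⊔ span {F.z T}) := by
    rw [span_singleton_eq_span_singleton.2 F.prod_eq,
      qlen_sup_prod _ _ fun T hT => hreg T (Finset.mem_erase.1 hT).1]
  have hlow : ∀ T R : M, 1 ≤ qlen (span {F.z T} ⊔ span {F.z R}) := fun T R =>
    qlen_pos fun e => (maximalIdeal.isMaximal C).ne_top (top_le_iff.1 (e ▸ sup_le
      ((span_singleton_le_iff_mem _).2 (hall T)) ((span_singleton_le_iff_mem _).2 (hall R))))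
  have hex : ∀ T : M, T ≠ 0 → ∃ R, R ∉ AddSubgroup.zmultiples T := by
    intro T hT
    by_contra hh
    push Not at hh
    have h1 := Nat.card_le_card_of_injective (fun X : M => (⟨X, hh X⟩ : AddSubgroup.zmultiples T))
      fun a b e => congrArg Subtype.val e
    rw [F.card_zmultiples hT, Nat.card_eq_fintype_card, F.card_eq] at h1
    exact absurd h1 (not_le.2 (lt_self_pow₀ hq.out.one_lt one_lt_two))
  have hterm : ∀ T ∈ (univ : Finset M).erase 0,
      ((q ^ 2 - q : ℕ) : ℕ∞) ≤ qlen (span {t} ⊔ span {F.z T}) := by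
    intro T hT
    obtain ⟨R, hR⟩ := hex T (Finset.mem_erase.1 hT).1
    rw [key T (Finset.mem_erase.1 hT).1 R hR, nsmul_eq_mul]
    exact le_mul_of_one_le_right zero_le (hlow T R)
  have hcard : ((univ : Finset M).erase 0).card = q ^ 2 - 1 := by
    rw [Finset.card_erase_of_mem (Finset.mem_univ _), Finset.card_univ, F.card_eq]
  have hge : (((q ^ 2 - 1) * (q ^ 2 - q) : ℕ) : ℕ∞) ≤ qlen (span {t} ⊔ span {(q : C)}) := by
    rw [hsum, ← hcard, Nat.cast_mul, ← nsmul_eq_mul]
    exact Finset.card_nsmul_le_sum _ _ _ hterm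
  refine ⟨?_, le_antisymm hlen hge⟩
  have hPmem : P ∈ (univ : Finset M).erase 0 := Finset.mem_erase.2 ⟨hP, Finset.mem_univ _⟩
  have hle1 : qlen (span {F.z P} ⊔ span {F.z Q}) ≤ 1 := by
    have hpos : 0 < q ^ 2 - q := by
      have : q < q ^ 2 := lt_self_pow₀ hq.out.one_lt one_lt_two
      omega
    refine enat_le_one_of_mul_le hpos ?_
    rw [← nsmul_eq_mul, ← key P hP Q hQ]
    by_contra hlt
    rw [not_le] at hlt
    have hfin : ∀ T ∈ (univ : Finset M).erase 0, qlen (span {t} ⊔ span {F.z T}) ≠ ⊤ :=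
      fun T hT e => by
        have := (Finset.single_le_sum (fun i _ => zero_le) hT).trans (hsum ▸ hlen :
          ∑ T ∈ (univ : Finset M).erase 0, qlen (span {t} ⊔ span {F.z T}) ≤ _)
        rw [e, top_le_iff] at this
        exact ENat.natCast_ne_top _ this
    choose! g hg using fun T hT => ENat.ne_top_iff_exists.1 (hfin T hT)
    have h1 : ∑ T ∈ (univ : Finset M).erase 0, g T ≤ (q ^ 2 - 1) * (q ^ 2 - q) := by
      have := hsum ▸ hlen
      rw [← Finset.sum_congr rfl hg] at this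
      exact_mod_cast this
    have h2 : ∑ _T ∈ (univ : Finset M).erase 0, (q ^ 2 - q) < ∑ T ∈ (univ : Finset M).erase 0, g T :=
      Finset.sum_lt_sum (fun T hT => by
        have := hterm T hT
        rw [← hg T hT] at this
        exact_mod_cast this)
        ⟨P, hPmem, by
          rw [← hg P hPmem] at hlt
          exact_mod_cast hlt⟩
    rw [Finset.sum_const, hcard, smul_eq_mul] at h2
    omega
  exact (eq_of_qlen_eq_one (le_antisymm hle1 (hlow P Q))).symm

/-- The ordinary point: the kernel is a line and `(z P, e)` generate. -/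
theorem maximalIdeal_eq_of_not_all_mem [IsDomain C] {t e : C} (ht0 : t ≠ 0)
    (hqm : (q : C) ∈ maximalIdeal C) (hnot : ∃ T, F.z T ∉ maximalIdeal C)
    (hreg : ∀ T, T ≠ 0 → IsRegularMod (span {t}) (F.z T))
    {P : M} (hP : P ≠ 0) (hPm : F.z P ∈ maximalIdeal C) (hem : e ∈ maximalIdeal C)
    (he : t - e ^ q ∈ span {F.z P})
    (hlen : qlen (span {t} ⊔ span {(q : C)}) ≤ ((q - 1) * q : ℕ)) :
    maximalIdeal C = span {F.z P} ⊔ span {e} ∧
      (∀ T, F.z T ∈ maximalIdeal C → T ∈ AddSubgroup.zmultiples P) ∧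
      qlen (span {t} ⊔ span {(q : C)}) = ((q - 1) * q : ℕ) := by
  classical
  have hker : ∀ T, F.z T ∈ maximalIdeal C → T ∈ AddSubgroup.zmultiples P := by
    intro T hT
    by_contra hT'
    obtain ⟨R, hR⟩ := hnot
    obtain ⟨a, b, rfl, -⟩ := F.exists_nsmul_add hP hT' R
    exact hR (F.kernel.add_mem (F.kernel.nsmul_mem (F.mem_kernel.2 hT) a)
      (F.kernel.nsmul_mem (F.mem_kernel.2 hPm) b))
  set H := ((univ : Finset M).filter fun X => X ∈ AddSubgroup.zmultiples P).erase 0 with hH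
  have hHc : H.card = q - 1 := by
    rw [hH, Finset.card_erase_of_mem (Finset.mem_filter.2 ⟨Finset.mem_univ _, zero_mem _⟩),
      ← Fintype.card_subtype, ← Nat.card_eq_fintype_card, F.card_zmultiples hP]
  have hassoc : ∀ T ∈ H, span {F.z T} = span {F.z P} := by
    intro T hT
    rw [hH, Finset.mem_erase, Finset.mem_filter] at hT
    obtain ⟨j, hj⟩ := AddSubgroup.mem_zmultiples_iff.1 hT.2.2
    set a := (j % (q : ℤ)).toNat
    have hqz : (q : ℤ) ≠ 0 := by exact_mod_cast hq.out.ne_zero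
    have ea : a • P = T := by
      rw [← hj, ← natCast_zsmul, Int.toNat_of_nonneg (Int.emod_nonneg j hqz), Int.emod_def,
        sub_smul, mul_smul, natCast_zsmul, F.nsmul_eq, sub_zero]
    obtain ⟨c, hc⟩ := F.z_nsmul hPm a
    rw [← ea, hc, mul_comm, span_singleton_mul_left_unit]
    rw [← notMem_maximalIdeal]
    intro hm
    have h1 : (a : C) ∈ maximalIdeal C := by simpa using sub_mem hm (mul_mem_left _ c hPm)
    refine notMem_maximalIdeal.2 (isUnit_natCast hqm fun hd => ?_) h1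
    obtain ⟨d, hd⟩ := hd
    exact hT.1 (by rw [← ea, hd, mul_comm, mul_nsmul', F.nsmul_eq, nsmul_zero])
  have hsum : qlen (span {t} ⊔ span {(q : C)}) = (q - 1) • qlen (span {t} ⊔ span {F.z P}) := by
    rw [span_singleton_eq_span_singleton.2 F.prod_eq,
      qlen_sup_prod _ _ fun T hT => hreg T (Finset.mem_erase.1 hT).1, ← hHc, ← Finset.sum_const,
      ← Finset.sum_subset (s₁ := H) (s₂ := (univ : Finset M).erase 0)]
    · exact Finset.sum_congr rfl fun T hT => by rw [hassoc T hT]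
    · exact Finset.erase_subset_erase _ (Finset.filter_subset _ _)
    · intro T hT hT'
      refine qlen_sup_of_isUnit (notMem_maximalIdeal.1 fun hm => hT' ?_)
      exact Finset.mem_erase.2 ⟨(Finset.mem_erase.1 hT).1,
        Finset.mem_filter.2 ⟨Finset.mem_univ _, hker T hm⟩⟩
  have hct : IsRegularMod (span {F.z P}) t := isRegularMod_swap ht0 (hreg P hP)
  have hereg : IsRegularMod (span {F.z P}) e := by
    intro b hb
    refine hct b ?_
    obtain ⟨j, hj⟩ := Nat.exists_eq_add_of_le hq.out.one_le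
    have he' : t - e ^ (1 + j) ∈ span {F.z P} := by rw [← hj]; exact he
    rw [show t * b = b * (t - e ^ (1 + j)) + e ^ j * (e * b) by ring]
    exact AddMemClass.add_mem (mul_mem_left _ _ he') (mul_mem_left _ _ hb)
  have hstep : qlen (span {t} ⊔ span {F.z P}) = q • qlen (span {F.z P} ⊔ span {e}) := by
    rw [sup_comm, sup_span_congr (b := e ^ q) isUnit_one (by rwa [one_mul]), qlen_sup_pow hereg]
  have hlow : 1 ≤ qlen (span {F.z P} ⊔ span {e}) :=
    qlen_pos fun h => (maximalIdeal.isMaximal C).ne_top (top_le_iff.1 (h ▸ sup_le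
      ((span_singleton_le_iff_mem _).2 hPm) ((span_singleton_le_iff_mem _).2 hem)))
  rw [hsum, hstep, ← mul_smul, nsmul_eq_mul] at hlen
  have hpos : 0 < (q - 1) * q := Nat.mul_pos (by have := hq.out.two_le; omega) hq.out.pos
  have h1 := le_antisymm (enat_le_one_of_mul_le hpos hlen) hlow
  exact ⟨(eq_of_qlen_eq_one h1).symm, hker,
    by rw [hsum, hstep, ← mul_smul, h1, nsmul_eq_mul, mul_one]⟩

end TorsionFamily

end Fermat.Agent.Moduli
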