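import Fermat.Agent.Moduli.LegPoint

/-!
# The Galois group of a field containing the torsion coordinates

`L` is finite Galois over `K = Frac R` inside `Ω` and contains the coordinates of the torsion of
odd order `2k + 1`; `B` is the integral closure of `R` in `L`.
-/

set_option autoImplicit false
set_option linter.unusedSectionVars false
set_option linter.style.haveILetI false

noncomputable section

namespace Fermat.Agent.Moduli

open WeierstrassCurve

variable {R : Type*} [CommRing R] [IsDomain R] [IsIntegrallyClosed R] [IsNoetherianRing R]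
  {K : Type*} [Field K] [Algebra R K] [IsFractionRing R K] {Ω : Type*} [Field Ω] [IsAlgClosed Ω]
  [CharZero Ω] [DecidableEq Ω] [Algebra K Ω] [Algebra.IsAlgebraic K Ω] [Algebra R Ω]
  [IsScalarTower R K Ω] [FaithfulSMul R Ω] {l : R} {k : ℕ}

/-- The coordinates of the torsion lie in `L`. -/
def CoordsIn (L : IntermediateField K Ω) (l : R) (n : ℕ) : Prop :=
  ∀ (T : LegTorsion Ω l n) (x y : Ω) (h : (legendreΩ Ω l).toAffine.Nonsingular x y),
    T.1 = Affine.Point.some x y h → x ∈ L ∧ y ∈ L

/-- The integral closure of `R` in `L`. -/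
abbrev IntCl (R : Type*) [CommRing R] [Algebra R Ω] [Algebra R K] [IsScalarTower R K Ω]
    (L : IntermediateField K Ω) : Subalgebra R L := integralClosure R L

variable (L : IntermediateField K Ω) [FiniteDimensional K L] [IsGalois K L]

instance instIsScalarTowerSubfield : IsScalarTower R L Ω :=
  IsScalarTower.of_algebraMap_eq fun r =>
    (IsScalarTower.algebraMap_apply R K Ω r).trans
      ((IsScalarTower.algebraMap_apply K L Ω _).trans
        (congrArg (algebraMap L Ω) (IsScalarTower.algebraMap_apply R K L r).symm))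

instance instIsScalarTowerIntCl : IsScalarTower R (IntCl R L) Ω :=
  IsScalarTower.of_algebraMap_eq fun r => IsScalarTower.algebraMap_apply R L Ω r

lemma isIntegrallyClosed_intCl : IsIntegrallyClosed (IntCl R L) :=
  integralClosure.isIntegrallyClosedOfFiniteExtension K

lemma isNoetherianRing_intCl : IsNoetherianRing (IntCl R L) := by
  haveI : CharZero K := ((algebraMap K Ω).charZero_iff (algebraMap K Ω).injective).2 inferInstance
  haveI : Module.Finite R (IntCl R L) := IsIntegralClosure.finite R K L _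
  exact IsNoetherianRing.of_finite R _

lemma faithfulSMul_intCl : FaithfulSMul R (IntCl R L) :=
  (faithfulSMul_iff_algebraMap_injective R _).2 fun a b h =>
    FaithfulSMul.algebraMap_injective R Ω (by
      rw [IsScalarTower.algebraMap_apply R (IntCl R L) Ω, h,
        ← IsScalarTower.algebraMap_apply R (IntCl R L) Ω])

lemma rank_intCl_le : Module.rank R (IntCl R L) ≤ Nat.card (L ≃ₐ[K] L) := by
  rw [IsGalois.card_aut_eq_finrank]
  refine rank_le fun s hs => ?_
  have h1 : LinearIndependent R fun i : s => ((i : IntCl R L) : L) :=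
    hs.map' (IntCl R L).val.toLinearMap (LinearMap.ker_eq_bot.2 Subtype.val_injective)
  have h2 := ((LinearIndependent.iff_fractionRing R K).1 h1).fintype_card_le_finrank
  rw [Fintype.card_coe] at h2
  exact h2

lemma smul_intCl_val (σ : L ≃ₐ[K] L) (b : IntCl R L) : ((σ • b : IntCl R L) : L) = σ b :=
  rfl

/-- Transport of points along an equality of curves. -/
def castPoint {F : Type*} [Field F] [DecidableEq F] {V V' : WeierstrassCurve F} (h : V = V') :
    V.toAffine.Point ≃+ V'.toAffine.Point := by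
  subst h; exact AddEquiv.refl _

lemma castPoint_some {F : Type*} [Field F] [DecidableEq F] {V V' : WeierstrassCurve F} (e : V = V')
    {x y : F} (h : V.toAffine.Nonsingular x y) :
    castPoint e (Affine.Point.some x y h) = Affine.Point.some x y (e ▸ h) := by
  subst e; rfl

/-- An automorphism of `Ω` on the points. -/
def autPoint (f : Ω →ₐ[K] Ω) : (legendreΩ Ω l).toAffine.Point →+ (legendreΩ Ω l).toAffine.Point :=
  (castPoint (map_legendre (algebraMap R Ω) l)).toAddMonoidHom.comp
    ((Affine.Point.map (W' := (legendre l).toAffine) f).comp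
      (castPoint (map_legendre (algebraMap R Ω) l)).symm.toAddMonoidHom)

lemma autPoint_some (f : Ω →ₐ[K] Ω) {x y : Ω} (h : (legendreΩ Ω l).toAffine.Nonsingular x y) :
    ∃ h', autPoint f (Affine.Point.some x y h) = Affine.Point.some (f x) (f y) h' := by
  set e := map_legendre (algebraMap R Ω) l
  have h0 : (castPoint e).symm (Affine.Point.some x y h) =
      Affine.Point.some x y (e.symm ▸ h) := by
    rw [AddEquiv.symm_apply_eq, castPoint_some]
  have h1 : autPoint f (Affine.Point.some x y h) =
      castPoint e (Affine.Point.map (W' := (legendre l).toAffine) f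
        ((castPoint e).symm (Affine.Point.some x y h))) := rfl
  rw [h0] at h1
  exact ⟨_, h1.trans ((congrArg _ (Affine.Point.map_some f _)).trans (castPoint_some _ _))⟩

/-- A fixed lift of an automorphism of `L`. -/
def liftAut (σ : L ≃ₐ[K] L) : Ω →ₐ[K] Ω :=
  haveI : IsAlgClosure K Ω := ⟨inferInstance, inferInstance⟩
  haveI : Normal K Ω := IsAlgClosure.normal K Ω
  (σ.liftNormal Ω).toAlgHom

lemma liftAut_coe (σ : L ≃ₐ[K] L) (x : L) : liftAut L σ x = (σ x : Ω) := by
  haveI : IsAlgClosure K Ω := ⟨inferInstance, inferInstance⟩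
  haveI : Normal K Ω := IsAlgClosure.normal K Ω
  exact σ.liftNormal_commutes Ω x

variable {L}

/-- The action on torsion. -/
def galTorsion (σ : L ≃ₐ[K] L) (n : ℕ) : LegTorsion Ω l n →+ LegTorsion Ω l n where
  toFun T := ⟨autPoint (liftAut L σ) T.1, by
    rw [Submodule.mem_torsionBy_iff, ← map_zsmul,
      (Submodule.mem_torsionBy_iff _ _).1 T.2, map_zero]⟩
  map_zero' := Subtype.ext (map_zero _)
  map_add' a b := Subtype.ext (map_add _ a.1 b.1)

lemma galTorsion_some {n : ℕ} (hL : CoordsIn L l n) (σ : L ≃ₐ[K] L) (T : LegTorsion Ω l n)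
    {x y : Ω} (h : (legendreΩ Ω l).toAffine.Nonsingular x y) (hT : T.1 = Affine.Point.some x y h) :
    ∃ (hx : x ∈ L) (hy : y ∈ L) (h' : (legendreΩ Ω l).toAffine.Nonsingular
        (σ ⟨x, hx⟩ : Ω) (σ ⟨y, hy⟩ : Ω)),
      (galTorsion σ n T).1 = Affine.Point.some _ _ h' := by
  obtain ⟨hx, hy⟩ := hL T x y h hT
  obtain ⟨h', e⟩ := autPoint_some (liftAut L σ) h
  have ex : liftAut L σ x = (σ ⟨x, hx⟩ : Ω) := liftAut_coe L σ ⟨x, hx⟩
  have ey : liftAut L σ y = (σ ⟨y, hy⟩ : Ω) := liftAut_coe L σ ⟨y, hy⟩
  refine ⟨hx, hy, ex ▸ ey ▸ h', ?_⟩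
  show autPoint (liftAut L σ) T.1 = _
  rw [hT, e, Affine.Point.some.injEq]
  exact ⟨ex, ey⟩

/-- The action of the Galois group on torsion with coordinates in `L`. -/
@[reducible]
def galAction {n : ℕ} (hL : CoordsIn L l n) : DistribMulAction (L ≃ₐ[K] L) (LegTorsion Ω l n) where
  smul σ T := galTorsion σ n T
  one_smul T := by
    apply Subtype.ext
    show (galTorsion 1 n T).1 = T.1
    rcases e : T.1 with _ | ⟨x, y, h⟩
    · show autPoint (liftAut L 1) T.1 = _
      rw [e]; exact map_zero _
    · obtain ⟨hx, hy, h', e'⟩ := galTorsion_some hL 1 T h e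
      rw [e', Affine.Point.some.injEq]
      exact ⟨rfl, rfl⟩
  mul_smul σ τ T := by
    apply Subtype.ext
    show (galTorsion (σ * τ) n T).1 = (galTorsion σ n (galTorsion τ n T)).1
    rcases e : T.1 with _ | ⟨x, y, h⟩
    · show autPoint (liftAut L (σ * τ)) T.1 =
        autPoint (liftAut L σ) (autPoint (liftAut L τ) T.1)
      rw [e]
      exact ((map_zero (autPoint (liftAut L (σ * τ)))).trans ((map_zero _).symm.trans
        (congrArg _ (map_zero (autPoint (liftAut L τ))).symm)))
    · obtain ⟨hx, hy, h', e'⟩ := galTorsion_some hL (σ * τ) T h e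
      obtain ⟨_, _, h₂, e₂⟩ := galTorsion_some hL τ T h e
      obtain ⟨_, _, h₃, e₃⟩ := galTorsion_some hL σ (galTorsion τ n T) h₂ e₂
      rw [e', e₃, Affine.Point.some.injEq]
      exact ⟨rfl, rfl⟩
  smul_zero σ := map_zero (galTorsion σ n)
  smul_add σ := map_add (galTorsion σ n)

/-- The coordinates at infinity in the integral closure. -/
theorem exists_hasCoords_intCl (hl : IsUnit l) (hl1 : IsUnit (1 - l))
    (hL : CoordsIn L l (2 * k + 1)) :
    Nonempty (HasCoords (Ω := Ω) (IntCl R L) k l) := by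
  classical
  have key : ∀ T : LegTorsion Ω l (2 * k + 1), tz T ∈ L ∧ ts T ∈ L := by
    intro T
    rcases e : T.1 with _ | ⟨x, y, h⟩
    · simp only [tz, ts, e]
      exact ⟨L.zero_mem, L.zero_mem⟩
    · obtain ⟨hx, hy⟩ := hL T x y h e
      simp only [tz, ts, e, zCoord_some, sCoord_some]
      exact ⟨L.div_mem (L.neg_mem hx) hy, L.inv_mem hx⟩
  have mk : ∀ x : Ω, x ∈ L → IsIntegral R x → ∃ b : IntCl R L, algebraMap (IntCl R L) Ω b = x :=
    fun x hx hi => ⟨⟨⟨x, hx⟩, (isIntegral_algHom_iff (IsScalarTower.toAlgHom R L Ω)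
      Subtype.val_injective).1 hi⟩, rfl⟩
  have hinj := FaithfulSMul.algebraMap_injective (IntCl R L) Ω
  have hi := fun T : LegTorsion Ω l (2 * k + 1) =>
    isIntegral_coords (k := k) hl hl1 T.1 (legTorsion_nsmul T)
  choose z hz using fun T => mk _ (key T).1 (hi T).2.1
  choose s hs using fun T => mk _ (key T).2 (hi T).1
  have hlΩ : algebraMap (IntCl R L) Ω (algebraMap R (IntCl R L) l) = algebraMap R Ω l :=
    (IsScalarTower.algebraMap_apply R (IntCl R L) Ω l).symm
  have hlL : algebraMap R Ω l ∈ L := by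
    rw [IsScalarTower.algebraMap_apply R K Ω]
    exact L.algebraMap_mem _
  choose u' hu' using fun T => mk _ (L.inv_mem (L.sub_mem L.one_mem (key T).2)) (hi T).2.2.1
  choose v' hv' using fun T =>
    mk _ (L.inv_mem (L.sub_mem L.one_mem (L.mul_mem hlL (key T).2))) (hi T).2.2.2
  have hne : ∀ T : LegTorsion Ω l (2 * k + 1),
      1 - ts T ≠ 0 ∧ 1 - algebraMap R Ω l * ts T ≠ 0 := by
    intro T
    rcases eq_or_ne T 0 with rfl | hT
    · simp [ts_zero]
    obtain ⟨x, y, h, -, -, es, hy, hx, hx1, hxl⟩ := exists_coord_of_ne_zero hT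
    rw [es]
    refine ⟨fun e => hx1 ?_, fun e => hxl ?_⟩
    · field_simp at e; linear_combination e
    · field_simp at e; linear_combination e
  refine ⟨⟨z, s, fun T => ⟨1 - s T, u' T, ?_, ?_⟩,
    fun T => ⟨1 - algebraMap R _ l * s T, v' T, ?_, ?_⟩, hz, hs, fun T => rfl, fun T => rfl⟩⟩
  all_goals apply hinj
  all_goals simp only [map_mul, map_sub, map_one, hu', hv', hs, hlΩ, ts]
  · exact mul_inv_cancel₀ (hne T).1
  · exact inv_mul_cancel₀ (hne T).1
  · exact mul_inv_cancel₀ (hne T).2
  · exact inv_mul_cancel₀ (hne T).2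

/-- The parameters commute with the action. -/
theorem coords_smul (hL : CoordsIn L l (2 * k + 1)) (H : HasCoords (Ω := Ω) (IntCl R L) k l)
    (σ : L ≃ₐ[K] L) (T : LegTorsion Ω l (2 * k + 1)) :
    letI := galAction (n := 2 * k + 1) hL
    H.z (σ • T) = σ • H.z T ∧ H.s (σ • T) = σ • H.s T := by
  letI := galAction (n := 2 * k + 1) hL
  have hval : ∀ b : IntCl R L, algebraMap (IntCl R L) Ω b = ((b : L) : Ω) := fun b => rfl
  have hz := H.map_z T
  have hs := H.map_s T
  rw [hval, tz] at hz
  rw [hval, ts] at hs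
  refine ⟨Subtype.ext (Subtype.ext ?_), Subtype.ext (Subtype.ext ?_)⟩
  all_goals rw [smul_intCl_val, ← hval]
  · rw [H.map_z, tz]
    rcases e : T.1 with _ | ⟨x, y, h⟩
    · have hT : T = 0 := Subtype.ext e
      have e0 : (H.z T : L) = 0 := Subtype.ext (hz.trans (by rw [e]; rfl))
      rw [e0, map_zero, hT, smul_zero]
      rfl
    · obtain ⟨hx, hy, h', e'⟩ := galTorsion_some hL σ T h e
      rw [show (σ • T).1 = _ from e', zCoord_some]
      have : (H.z T : L) = -⟨x, hx⟩ / ⟨y, hy⟩ := Subtype.ext (by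
        rw [hz, e, zCoord_some]; rfl)
      rw [this, map_div₀, map_neg]
      rfl
  · rw [H.map_s, ts]
    rcases e : T.1 with _ | ⟨x, y, h⟩
    · have hT : T = 0 := Subtype.ext e
      have e0 : (H.s T : L) = 0 := Subtype.ext (hs.trans (by rw [e]; rfl))
      rw [e0, map_zero, hT, smul_zero]
      rfl
    · obtain ⟨hx, hy, h', e'⟩ := galTorsion_some hL σ T h e
      rw [show (σ • T).1 = _ from e', sCoord_some]
      have : (H.s T : L) = (⟨x, hx⟩ : L)⁻¹ := Subtype.ext (by
        rw [hs, e, sCoord_some]; rfl)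
      rw [this, map_inv₀]
      rfl

/-- The numerical hypotheses at a closed point of the base. -/
structure BasePoint (R : Type*) [CommRing R] (l : R) (k q : ℕ) (t : R) : Prop where
  hq : q = 2 * k + 1
  prime_q : Prime (q : R)
  not_dvd : ¬ (q : R) ∣ t
  maximal : (Ideal.span {(q : R), t}).IsMaximal
  splits : SplitsMod (Ideal.span {(q : R), t})
  isUnit_l : IsUnit l
  isUnit_one_sub : IsUnit (1 - l)
  hasse : (hasse R k).eval l ∉ Ideal.span {(q : R), t} ∨
    ∃ u, u ∉ Ideal.span {(q : R), t} ∧
      (Fermat.Agent.Moduli.hasse R k).eval l - u * t ∈ Ideal.span {(q : R)}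
  root : ∃ μ₀ : R, t - (l - μ₀ ^ q) ∈ Ideal.span {(q : R)}

/-- A base point and a Galois field give all the hypotheses of the point theorems. -/
theorem legSetup_of_basePoint {q : ℕ} {t : R} (hB : BasePoint R l k q t)
    (hL : CoordsIn L l (2 * k + 1)) (H : HasCoords (Ω := Ω) (IntCl R L) k l) :
    letI := galAction (n := 2 * k + 1) hL
    LegSetup H (L ≃ₐ[K] L) q t :=
  letI := galAction (n := 2 * k + 1) hL
  { hq := hB.hq, prime_q := hB.prime_q, not_dvd := hB.not_dvd, maximal := hB.maximal
    splits := hB.splits, isUnit_l := hB.isUnit_l, isUnit_one_sub := hB.isUnit_one_sub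
    hasse := hB.hasse, root := hB.root, rank_le := rank_intCl_le L
    z_smul := fun σ T => (coords_smul hL H σ T).1
    s_smul := fun σ T => (coords_smul hL H σ T).2 }

end Fermat.Agent.Moduli
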