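import Fermat.Agent.Moduli.Family

/-!
# Bounds for groups acting faithfully on `(ℤ/q)²`
-/

set_option autoImplicit false
set_option linter.unusedSectionVars false
set_option linter.style.haveILetI false

namespace Fermat.Agent.Moduli

open Finset

variable {M G : Type*} [AddCommGroup M] [Fintype M] [DecidableEq M] [Group G]
  [DistribMulAction G M] {q : ℕ} [hq : Fact q.Prime]

lemma addOrderOf_eq_of_exponent (hexp : ∀ T : M, q • T = 0) {P : M} (hP : P ≠ 0) :
    addOrderOf P = q :=
  addOrderOf_eq_prime (hexp P) hP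

lemma card_filter_zmultiples (hexp : ∀ T : M, q • T = 0) {P : M} (hP : P ≠ 0)
    [DecidablePred (· ∈ AddSubgroup.zmultiples P)] :
    (univ.filter fun T => T ∈ AddSubgroup.zmultiples P).card = q := by
  rw [← Fintype.card_subtype, ← Nat.card_eq_fintype_card]
  exact (Nat.card_zmultiples P).trans (addOrderOf_eq_of_exponent hexp hP)

/-- The possible images of a basis. -/
noncomputable def basisPairs (M : Type*) [AddCommGroup M] [Fintype M] [DecidableEq M] :
    Finset (M × M) := by
  classical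
  exact univ.filter fun x => x.1 ≠ 0 ∧ x.2 ∉ AddSubgroup.zmultiples x.1

lemma mem_basisPairs {x : M × M} :
    x ∈ basisPairs M ↔ x.1 ≠ 0 ∧ x.2 ∉ AddSubgroup.zmultiples x.1 := by
  classical
  simp [basisPairs]

lemma card_basisPairs (hexp : ∀ T : M, q • T = 0) (hcard : Fintype.card M = q ^ 2) :
    (basisPairs M).card = (q ^ 2 - 1) * (q ^ 2 - q) := by
  classical
  have hfib : ∀ a ∈ (univ : Finset M).erase 0,
      ((basisPairs M).filter fun x => x.1 = a).card = q ^ 2 - q := by
    intro a ha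
    have e : (basisPairs M).filter (fun x => x.1 = a) =
        (univ.filter fun T => T ∉ AddSubgroup.zmultiples a).map
          ⟨fun T => (a, T), fun x y h => (Prod.ext_iff.1 h).2⟩ := by
      ext ⟨b, c⟩
      simp only [mem_filter, mem_basisPairs, mem_map, mem_univ, true_and]
      constructor
      · rintro ⟨⟨-, h⟩, rfl⟩; exact ⟨c, h, rfl⟩
      · rintro ⟨T, h, e⟩
        obtain ⟨rfl, rfl⟩ := Prod.mk.inj e
        exact ⟨⟨(Finset.mem_erase.1 ha).1, h⟩, rfl⟩
    rw [e, card_map]
    have h2 := Finset.card_filter_add_card_filter_not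
      (s := (univ : Finset M)) (fun T => T ∈ AddSubgroup.zmultiples a)
    rw [card_filter_zmultiples hexp (Finset.mem_erase.1 ha).1, Finset.card_univ, hcard] at h2
    omega
  have hmaps : ∀ x ∈ basisPairs M, x.1 ∈ (univ : Finset M).erase 0 := fun x hx =>
    Finset.mem_erase.2 ⟨(mem_basisPairs.1 hx).1, mem_univ _⟩
  rw [card_eq_sum_card_fiberwise hmaps, sum_congr rfl hfib, sum_const, smul_eq_mul,
    card_erase_of_mem (mem_univ _), card_univ, hcard]

lemma smul_mem_zmultiples_iff (g : G) {P T : M} :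
    g • T ∈ AddSubgroup.zmultiples (g • P) ↔ T ∈ AddSubgroup.zmultiples P := by
  simp only [AddSubgroup.mem_zmultiples_iff, ← smul_comm g, smul_left_cancel_iff]

/-- A group acting faithfully on a basis has order at most that of `GL₂`. -/
theorem card_le_of_faithful (hexp : ∀ T : M, q • T = 0) (hcard : Fintype.card M = q ^ 2)
    (S : Subgroup G) {P Q : M} (hP : P ≠ 0) (hQ : Q ∉ AddSubgroup.zmultiples P)
    (hgen : ∀ g ∈ S, g • P = P → g • Q = Q → g = 1) :
    Nat.card S ≤ (q ^ 2 - 1) * (q ^ 2 - q) := by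
  classical
  let f : S → {x // x ∈ basisPairs M} := fun g => ⟨((g : G) • P, (g : G) • Q),
    mem_basisPairs.2 ⟨by rwa [Ne, smul_eq_zero_iff_eq], fun h => hQ ((smul_mem_zmultiples_iff _).1 h)⟩⟩
  have hf : Function.Injective f := by
    intro a b h
    simp only [f, Subtype.mk.injEq, Prod.mk.injEq] at h
    have hmem : (b : G)⁻¹ * a ∈ S := S.mul_mem (S.inv_mem b.2) a.2
    have := hgen _ hmem (by rw [mul_smul, h.1, inv_smul_smul]) (by rw [mul_smul, h.2, inv_smul_smul])
    exact Subtype.ext (inv_mul_eq_one.1 this).symm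
  refine (Nat.card_le_card_of_injective f hf).trans ?_
  rw [Nat.card_eq_fintype_card, Fintype.card_coe, card_basisPairs hexp hcard]

/-- A group fixing a line and the quotient by it has order at most `(q - 1) q`. -/
theorem card_le_of_line (hexp : ∀ T : M, q • T = 0) (S : Subgroup G) {P Q : M} (hP : P ≠ 0)
    (hline : ∀ g ∈ S, g • P ∈ AddSubgroup.zmultiples P)
    (hquot : ∀ g ∈ S, g • Q - Q ∈ AddSubgroup.zmultiples P)
    (hgen : ∀ g ∈ S, g • P = P → g • Q = Q → g = 1) :
    Nat.card S ≤ (q - 1) * q := by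
  classical
  set H := univ.filter fun T => T ∈ AddSubgroup.zmultiples P with hH
  let f : S → {x // x ∈ H.erase 0 ×ˢ H} := fun g => ⟨((g : G) • P, (g : G) • Q - Q), by
    simp only [hH, mem_product, mem_erase, mem_filter, mem_univ, true_and]
    exact ⟨⟨by rwa [Ne, smul_eq_zero_iff_eq], hline _ g.2⟩, hquot _ g.2⟩⟩
  have hf : Function.Injective f := by
    intro a b h
    simp only [f, Subtype.mk.injEq, Prod.mk.injEq, sub_left_inj] at h
    have hmem : (b : G)⁻¹ * a ∈ S := S.mul_mem (S.inv_mem b.2) a.2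
    have := hgen _ hmem (by rw [mul_smul, h.1, inv_smul_smul]) (by rw [mul_smul, h.2, inv_smul_smul])
    exact Subtype.ext (inv_mul_eq_one.1 this).symm
  refine (Nat.card_le_card_of_injective f hf).trans ?_
  rw [Nat.card_eq_fintype_card, Fintype.card_coe, card_product,
    card_erase_of_mem (mem_filter.2 ⟨mem_univ _, zero_mem _⟩), card_filter_zmultiples hexp hP]

/-- If the bound for a basis is attained every basis occurs as image. -/
theorem exists_smul_eq_of_card (hexp : ∀ T : M, q • T = 0) (hcard : Fintype.card M = q ^ 2)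
    [Finite G] (S : Subgroup G) {P Q : M} (hP : P ≠ 0) (hQ : Q ∉ AddSubgroup.zmultiples P)
    (hgen : ∀ g ∈ S, g • P = P → g • Q = Q → g = 1)
    (hS : (q ^ 2 - 1) * (q ^ 2 - q) ≤ Nat.card S) {P' Q' : M} (hP' : P' ≠ 0)
    (hQ' : Q' ∉ AddSubgroup.zmultiples P') : ∃ g ∈ S, g • P = P' ∧ g • Q = Q' := by
  classical
  letI : Fintype S := Fintype.ofFinite S
  let f : S → {x // x ∈ basisPairs M} := fun g => ⟨((g : G) • P, (g : G) • Q),
    mem_basisPairs.2 ⟨by rwa [Ne, smul_eq_zero_iff_eq], fun h => hQ ((smul_mem_zmultiples_iff _).1 h)⟩⟩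
  have hf : Function.Injective f := by
    intro a b h
    simp only [f, Subtype.mk.injEq, Prod.mk.injEq] at h
    have hmem : (b : G)⁻¹ * a ∈ S := S.mul_mem (S.inv_mem b.2) a.2
    have := hgen _ hmem (by rw [mul_smul, h.1, inv_smul_smul]) (by rw [mul_smul, h.2, inv_smul_smul])
    exact Subtype.ext (inv_mul_eq_one.1 this).symm
  have hbij : Function.Bijective f := (Fintype.bijective_iff_injective_and_card f).2 ⟨hf,
    le_antisymm (Fintype.card_le_of_injective f hf) (by
      rw [Fintype.card_coe, card_basisPairs hexp hcard, ← Nat.card_eq_fintype_card]; exact hS)⟩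
  obtain ⟨g, hg⟩ := hbij.2 ⟨(P', Q'), mem_basisPairs.2 ⟨hP', hQ'⟩⟩
  simp only [f, Subtype.mk.injEq, Prod.mk.injEq] at hg
  exact ⟨g, g.2, hg⟩

/-- If the bound for a line is attained every allowed image occurs. -/
theorem exists_smul_eq_of_card_line (hexp : ∀ T : M, q • T = 0) [Finite G] (S : Subgroup G)
    {P Q : M} (hP : P ≠ 0) (hline : ∀ g ∈ S, g • P ∈ AddSubgroup.zmultiples P)
    (hquot : ∀ g ∈ S, g • Q - Q ∈ AddSubgroup.zmultiples P)
    (hgen : ∀ g ∈ S, g • P = P → g • Q = Q → g = 1) (hS : (q - 1) * q ≤ Nat.card S)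
    {P' Q' : M} (hP' : P' ≠ 0) (hP'm : P' ∈ AddSubgroup.zmultiples P)
    (hQ' : Q' - Q ∈ AddSubgroup.zmultiples P) : ∃ g ∈ S, g • P = P' ∧ g • Q = Q' := by
  classical
  letI : Fintype S := Fintype.ofFinite S
  set H := univ.filter fun T => T ∈ AddSubgroup.zmultiples P with hH
  let f : S → {x // x ∈ H.erase 0 ×ˢ H} := fun g => ⟨((g : G) • P, (g : G) • Q - Q), by
    simp only [hH, mem_product, mem_erase, mem_filter, mem_univ, true_and]
    exact ⟨⟨by rwa [Ne, smul_eq_zero_iff_eq], hline _ g.2⟩, hquot _ g.2⟩⟩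
  have hf : Function.Injective f := by
    intro a b h
    simp only [f, Subtype.mk.injEq, Prod.mk.injEq, sub_left_inj] at h
    have hmem : (b : G)⁻¹ * a ∈ S := S.mul_mem (S.inv_mem b.2) a.2
    have := hgen _ hmem (by rw [mul_smul, h.1, inv_smul_smul]) (by rw [mul_smul, h.2, inv_smul_smul])
    exact Subtype.ext (inv_mul_eq_one.1 this).symm
  have hbij : Function.Bijective f := (Fintype.bijective_iff_injective_and_card f).2 ⟨hf,
    le_antisymm (Fintype.card_le_of_injective f hf) (by
      rw [Fintype.card_coe, card_product,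
        card_erase_of_mem (mem_filter.2 ⟨mem_univ _, zero_mem _⟩), card_filter_zmultiples hexp hP,
        ← Nat.card_eq_fintype_card]
      exact hS)⟩
  obtain ⟨g, hg⟩ := hbij.2 ⟨(P', Q' - Q), by
    simp only [hH, mem_product, mem_erase, mem_filter, mem_univ, true_and]
    exact ⟨⟨hP', hP'm⟩, hQ'⟩⟩
  simp only [f, Subtype.mk.injEq, Prod.mk.injEq, sub_left_inj] at hg
  exact ⟨g, g.2, hg⟩

end Fermat.Agent.Moduli
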