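import Fermat.Agent.Moduli.Free
import Fermat.Agent.Moduli.Stab

/-!
# Points of the full level `q` model over a closed point of characteristic `q`

`B` is normal and integral over the two dimensional base `R`, `G` acts on it compatibly with the
parameters `z : M → B`.  Comparing the length of the fibre with the stabiliser gives regularity:
the maximal ideal of the local ring is `(z P, z Q)` or `(z P, e)`.
-/

set_option autoImplicit false
set_option linter.unusedSectionVars false
set_option linter.style.haveILetI false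

namespace Fermat.Agent.Moduli

open Ideal IsLocalRing Polynomial
open scoped Pointwise

variable {R B G : Type*} [CommRing R] [IsDomain R] [IsIntegrallyClosed R] [IsNoetherianRing R]
  [CommRing B] [IsDomain B] [IsIntegrallyClosed B] [Algebra R B] [FaithfulSMul R B]
  [Algebra.IsIntegral R B] [Group G] [Finite G] [MulSemiringAction G B] [SMulCommClass G R B]

/-- Monic polynomials split modulo `I`. -/
def SplitsMod (I : Ideal R) : Prop :=
  ∀ p : R[X], p.Monic → ∃ rs : Multiset R,
    ∀ i, (p - (rs.map fun x => X - Polynomial.C x).prod).coeff i ∈ I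

/-- An algebraically closed residue field gives splitting. -/
lemma splitsMod_of_isAlgClosed {I : Ideal R} {k : Type*} [Field k] [IsAlgClosed k] (ρ : R →+* k)
    (hρ : Function.Surjective ρ) (hI : RingHom.ker ρ ≤ I) : SplitsMod I := by
  intro p hp
  have hsplit := (IsAlgClosed.splits (p.map ρ)).eq_prod_roots_of_monic (hp.map ρ)
  choose lift hlift using hρ
  refine ⟨(p.map ρ).roots.map lift, fun i => hI ?_⟩
  rw [RingHom.mem_ker, ← coeff_map, Polynomial.map_sub, Polynomial.map_multiset_prod,
    Multiset.map_map, Multiset.map_map]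
  have e : ((Polynomial.map ρ ∘ fun x => X - Polynomial.C x) ∘ lift) =
      fun x => X - Polynomial.C x := by
    funext x
    simp [hlift]
  rw [e, ← hsplit, sub_self, coeff_zero]

/-- A closed point has the residue field of the base. -/
lemma exists_sub_algebraMap_mem {I : Ideal R} (hI : SplitsMod I) (m : Ideal B) [hm : m.IsPrime]
    (hle : ∀ r ∈ I, algebraMap R B r ∈ m) (b : B) :
    ∃ r : R, b - algebraMap R B r ∈ m := by
  set p := minpoly R b
  obtain ⟨rs, hcoeff⟩ := hI p (minpoly.monic (Algebra.IsIntegral.isIntegral (R := R) b))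
  set P : R[X] := (rs.map fun x => X - Polynomial.C x).prod
  have hmem : aeval b P ∈ m := by
    have h : aeval b (p - P) ∈ m := by
      rw [aeval_eq_sum_range]
      refine Ideal.sum_mem m fun i _ => ?_
      rw [Algebra.smul_def]
      exact m.mul_mem_right _ (hle _ (hcoeff i))
    rw [map_sub, minpoly.aeval, zero_sub, neg_mem_iff] at h
    exact h
  rw [map_multiset_prod, Multiset.map_map, hm.multiset_prod_mem_iff_exists_mem] at hmem
  obtain ⟨y, hy, hx⟩ := hmem
  obtain ⟨x, -, rfl⟩ := Multiset.mem_map.1 hy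
  exact ⟨x, by simpa using hx⟩

/-- An element of the decomposition group acts trivially on the closed point. -/
lemma smul_sub_mem_of_fix {I : Ideal R} (hI : SplitsMod I) {m : Ideal B} [m.IsPrime]
    (hle : ∀ r ∈ I, algebraMap R B r ∈ m) {g : G} (hg : g • m = m) (b : B) :
    g • b - b ∈ m := by
  obtain ⟨r, hr⟩ := exists_sub_algebraMap_mem hI m hle b
  have h : g • (b - algebraMap R B r) ∈ g • m := Ideal.smul_mem_pointwise_smul g _ _ hr
  rw [hg, smul_sub, Algebra.algebraMap_eq_smul_one, smul_comm, smul_one] at h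
  rw [Algebra.algebraMap_eq_smul_one] at hr
  have := sub_mem h hr
  rwa [sub_sub_sub_cancel_right] at this

variable {M : Type*} [AddCommGroup M] [Fintype M] [DecidableEq M] [DistribMulAction G M]
  {q : ℕ} [hq : Fact q.Prime] (z : M → B) (m : Ideal B) [hm : m.IsMaximal]
  {C : Type*} [CommRing C] [IsDomain C] [IsLocalRing C] [Algebra B C] [IsLocalization.AtPrime C m]
  [Algebra R C] [IsScalarTower R B C] (F : TorsionFamily M C q) {t : R}

include m in
lemma regular_fibre (hqR : Prime (q : R)) (ht : ¬ (q : R) ∣ t) :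
    IsRegularMod (span {algebraMap R C t}) (q : C) := by
  have hBC : Function.Injective (algebraMap B C) :=
    IsLocalization.injective C (Ideal.primeCompl_le_nonZeroDivisors m)
  have hq0 : algebraMap R B q ≠ 0 :=
    (map_ne_zero_iff _ (FaithfulSMul.algebraMap_injective R B)).2 hqR.ne_zero
  intro c hc
  obtain ⟨b, u, rfl⟩ := IsLocalization.exists_mk'_eq m.primeCompl c
  obtain ⟨c', hc'⟩ := mem_span_singleton.1 hc
  obtain ⟨d, v, rfl⟩ := IsLocalization.exists_mk'_eq m.primeCompl c'
  have e : algebraMap R B q * (b * v) = algebraMap R B t * (d * u) := by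
    apply hBC
    rw [map_natCast, map_mul, map_mul, map_mul, map_mul, map_natCast,
      ← IsScalarTower.algebraMap_apply, ← IsLocalization.mk'_spec C b u,
      ← IsLocalization.mk'_spec C d v]
    linear_combination (algebraMap B C u * algebraMap B C v) * hc'
  obtain ⟨w, hw⟩ := dvd_of_dvd_mul hqR ht ⟨b * v, e.symm⟩
  have e2 : b * v = algebraMap R B t * w := by
    apply mul_left_cancel₀ hq0
    rw [e, hw]; ring
  rw [mem_span_singleton]
  refine ⟨IsLocalization.mk' C w (u * v), ?_⟩
  rw [IsScalarTower.algebraMap_apply R B C, IsLocalization.mul_mk'_eq_mk'_of_mul, ← e2,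
    IsLocalization.mk'_cancel]

section Data

variable {m} (hF : ∀ T, F.z T = algebraMap B C (z T)) (hz : ∀ (g : G) T, z (g • T) = g • z T)

include hF in
lemma mem_kernel_iff (T : M) : F.z T ∈ maximalIdeal C ↔ z T ∈ m := by
  rw [hF, IsLocalization.AtPrime.to_map_mem_maximal_iff C m]

include m hF in
lemma regular_z (hqR : Prime (q : R)) (ht : ¬ (q : R) ∣ t) {T : M} (hT : T ≠ 0) :
    IsRegularMod (span {algebraMap R C t}) (F.z T) := by
  intro b hb
  refine regular_fibre (B := B) m hqR ht b ?_
  obtain ⟨d, hd⟩ := mem_span_singleton.1 (F.natCast_mem hT)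
  rw [hd, mul_comm (F.z T), mul_assoc]
  exact Ideal.mul_mem_left _ _ hb

include hF in
lemma qlen_fibre_le (hqR : Prime (q : R)) (ht : ¬ (q : R) ∣ t)
    (hmax : (span {(q : R), t} : Ideal R).IsMaximal) (hrank : Module.rank R B ≤ Nat.card G) :
    qlen (span {algebraMap R C t} ⊔ span {(q : C)}) ≤ Nat.card (MulAction.stabilizer G m) := by
  have h := qlen_le_card_stabilizer (R := R) (G := G) (span {algebraMap R B q, algebraMap R B t}) m
    (length_fibre_le hqR ht hmax hrank) (fun g b hb => ?_) (C := C)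
  · rwa [Ideal.map_span, Set.image_pair, ← IsScalarTower.algebraMap_apply, map_natCast,
      ← IsScalarTower.algebraMap_apply, Set.pair_comm, Ideal.span_insert] at h
  · obtain ⟨x, y, rfl⟩ := mem_span_pair.1 hb
    rw [mem_span_pair]
    refine ⟨g • x, g • y, ?_⟩
    simp only [smul_add, smul_mul', Algebra.algebraMap_eq_smul_one, smul_comm g, smul_one]

include hF in
lemma maximal_le (hqm : (q : B) ∈ m)
    (htm : algebraMap R B t ∈ m) : ∀ r ∈ span {(q : R), t}, algebraMap R B r ∈ m := by
  intro r hr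
  rw [mem_span_pair] at hr
  obtain ⟨x, y, rfl⟩ := hr
  rw [map_add, map_mul, map_mul, map_natCast]
  exact add_mem (m.mul_mem_left _ hqm) (m.mul_mem_left _ htm)

include hF in
lemma fix_of_basis (hfix : ∀ g : G, g • m = m → (∀ T : M, g • T = T) → g = 1) {P Q : M} (hP : P ≠ 0)
    (hQ : Q ∉ AddSubgroup.zmultiples P) :
    ∀ g ∈ MulAction.stabilizer G m, g • P = P → g • Q = Q → g = 1 := by
  intro g hg hgP hgQ
  refine hfix g hg fun T => ?_
  obtain ⟨a, b, rfl, -⟩ := F.exists_nsmul_add hP hQ T
  rw [smul_add, smul_comm g a, smul_comm g b, hgP, hgQ]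

include hF in
/-- The supersingular point. -/
theorem maximalIdeal_supersingular (hqR : Prime (q : R)) (ht : ¬ (q : R) ∣ t)
    (hmax : (span {(q : R), t} : Ideal R).IsMaximal) (hrank : Module.rank R B ≤ Nat.card G)
    (hfix : ∀ g : G, g • m = m → (∀ T : M, g • T = T) → g = 1)
    (hall : ∀ T, z T ∈ m)
    (hHasse : ∀ P : M, P ≠ 0 → ∃ u, IsUnit u ∧ algebraMap R C t ^ 2 -
      u * ∏ T ∈ Finset.univ.filter (fun T => T ∉ AddSubgroup.zmultiples P), F.z T ^ 2 ∈
        span {F.z P})
    {P Q : M} (hP : P ≠ 0) (hQ : Q ∉ AddSubgroup.zmultiples P) :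
    maximalIdeal C = span {F.z P} ⊔ span {F.z Q} ∧
      Nat.card (MulAction.stabilizer G m) = (q ^ 2 - 1) * (q ^ 2 - q) ∧
      (∀ P' Q' : M, P' ≠ 0 → Q' ∉ AddSubgroup.zmultiples P' →
        ∃ g : G, g • m = m ∧ g • P = P' ∧ g • Q = Q') := by
  have ht0 : algebraMap R C t ≠ 0 := by
    rw [IsScalarTower.algebraMap_apply R B C]
    refine (map_ne_zero_iff _ (IsLocalization.injective C
      (Ideal.primeCompl_le_nonZeroDivisors m))).2 ?_
    refine (map_ne_zero_iff _ (FaithfulSMul.algebraMap_injective R B)).2 fun e => ht ?_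
    rw [e]; exact dvd_zero _
  have hgen := fix_of_basis z F hF hfix hP hQ
  have hbound := card_le_of_faithful F.nsmul_eq F.card_eq (MulAction.stabilizer G m) hP hQ hgen
  have hle := qlen_fibre_le (m := m) z F hF hqR ht hmax hrank (C := C)
  obtain ⟨h1, h2⟩ := F.maximalIdeal_eq_of_all_mem ht0 (fun T => (mem_kernel_iff z F hF T).2 (hall T))
    (fun T hT => regular_z (m := m) z F hF hqR ht hT) hHasse (hle.trans (by exact_mod_cast hbound)) hP hQ
  have hge : (q ^ 2 - 1) * (q ^ 2 - q) ≤ Nat.card (MulAction.stabilizer G m) := by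
    rw [h2] at hle
    exact_mod_cast hle
  refine ⟨h1, le_antisymm hbound hge, fun P' Q' hP' hQ' => ?_⟩
  obtain ⟨g, hg, h⟩ := exists_smul_eq_of_card F.nsmul_eq F.card_eq _ hP hQ hgen hge hP' hQ'
  exact ⟨g, hg, h⟩

include hF hz in
/-- The ordinary point. -/
theorem maximalIdeal_ordinary (hsplit : SplitsMod (span {(q : R), t})) (hqR : Prime (q : R))
    (ht : ¬ (q : R) ∣ t) (hmax : (span {(q : R), t} : Ideal R).IsMaximal)
    (hrank : Module.rank R B ≤ Nat.card G)
    (hfix : ∀ g : G, g • m = m → (∀ T : M, g • T = T) → g = 1)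
    (hqm : (q : B) ∈ m) (htm : algebraMap R B t ∈ m)
    (hsep : ∀ g : G, (∀ b, g • b - b ∈ m) → ∀ T, z T ∉ m → z (g • T - T) ∈ m)
    {P Q : M} (hP : P ≠ 0) (hPm : z P ∈ m) (hQ : z Q ∉ m) {e : C}
    (he : algebraMap R C t - e ^ q ∈ span {F.z P}) :
    maximalIdeal C = span {F.z P} ⊔ span {e} ∧
      (∀ T, z T ∈ m ↔ T ∈ AddSubgroup.zmultiples P) ∧
      Nat.card (MulAction.stabilizer G m) = (q - 1) * q ∧
      (∀ P' Q' : M, P' ≠ 0 → P' ∈ AddSubgroup.zmultiples P →
        Q' - Q ∈ AddSubgroup.zmultiples P → ∃ g : G, g • m = m ∧ g • P = P' ∧ g • Q = Q') := by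
  have ht0 : algebraMap R C t ≠ 0 := by
    rw [IsScalarTower.algebraMap_apply R B C]
    refine (map_ne_zero_iff _ (IsLocalization.injective C
      (Ideal.primeCompl_le_nonZeroDivisors m))).2 ?_
    refine (map_ne_zero_iff _ (FaithfulSMul.algebraMap_injective R B)).2 fun e => ht ?_
    rw [e]; exact dvd_zero _
  have hline : ∀ T ∈ AddSubgroup.zmultiples P, z T ∈ m := by
    intro T hT
    obtain ⟨j, rfl⟩ := AddSubgroup.mem_zmultiples_iff.1 hT
    rw [← mem_kernel_iff z F hF]
    exact F.kernel.zsmul_mem ((mem_kernel_iff z F hF P).2 hPm) j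
  have hQP : Q ∉ AddSubgroup.zmultiples P := fun h => hQ (hline Q h)
  have hker : ∀ T, z T ∈ m → T ∈ AddSubgroup.zmultiples P := by
    intro T hT
    by_contra hT'
    obtain ⟨a, b, hab, -⟩ := F.exists_nsmul_add hP hT' Q
    apply hQ
    rw [hab, ← mem_kernel_iff z F hF]
    exact F.kernel.add_mem (F.kernel.nsmul_mem ((mem_kernel_iff z F hF T).2 hT) a)
      (F.kernel.nsmul_mem ((mem_kernel_iff z F hF P).2 hPm) b)
  have hle' := maximal_le z F hF hqm htm (C := C)
  have hlineS : ∀ g ∈ MulAction.stabilizer G m, g • P ∈ AddSubgroup.zmultiples P := by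
    intro g hg
    refine hker _ ?_
    rw [hz]
    have := Ideal.smul_mem_pointwise_smul g _ _ hPm
    rwa [MulAction.mem_stabilizer_iff.1 hg] at this
  have hquot : ∀ g ∈ MulAction.stabilizer G m, g • Q - Q ∈ AddSubgroup.zmultiples P := fun g hg =>
    hker _ (hsep g (smul_sub_mem_of_fix hsplit hle' (MulAction.mem_stabilizer_iff.1 hg)) Q hQ)
  have hgen := fix_of_basis z F hF hfix hP hQP
  have hbound := card_le_of_line F.nsmul_eq (MulAction.stabilizer G m) hP hlineS hquot hgen
  have hle := qlen_fibre_le (m := m) z F hF hqR ht hmax hrank (C := C)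
  have hqC : (q : C) ∈ maximalIdeal C := by
    rw [← map_natCast (algebraMap B C), IsLocalization.AtPrime.to_map_mem_maximal_iff C m]
    exact hqm
  have htC : algebraMap R C t ∈ maximalIdeal C := by
    rw [IsScalarTower.algebraMap_apply R B C, IsLocalization.AtPrime.to_map_mem_maximal_iff C m]
    exact htm
  have hPC := (mem_kernel_iff z F hF P).2 hPm
  have hem : e ∈ maximalIdeal C := by
    refine Ideal.IsPrime.mem_of_pow_mem inferInstance q ?_
    rw [show e ^ q = algebraMap R C t - (algebraMap R C t - e ^ q) by ring]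
    exact sub_mem htC ((span_singleton_le_iff_mem _).2 hPC he)
  obtain ⟨h1, -, h2⟩ := F.maximalIdeal_eq_of_not_all_mem ht0 hqC
    ⟨Q, fun h => hQ ((mem_kernel_iff z F hF Q).1 h)⟩ (fun T hT => regular_z (m := m) z F hF hqR ht hT) hP hPC
    hem he (hle.trans (by exact_mod_cast hbound))
  have hge : (q - 1) * q ≤ Nat.card (MulAction.stabilizer G m) := by
    rw [h2] at hle
    exact_mod_cast hle
  refine ⟨h1, fun T => ⟨hker T, hline T⟩, le_antisymm hbound hge, fun P' Q' hP' hP'm hQ' => ?_⟩
  obtain ⟨g, hg, h⟩ :=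
    exists_smul_eq_of_card_line F.nsmul_eq _ hP hlineS hquot hgen hge hP' hP'm hQ'
  exact ⟨g, hg, h⟩

end Data

end Fermat.Agent.Moduli
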