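import Fermat.Agent.Moduli.Mu
import Fermat.Agent.Moduli.Point

/-!
# The points in characteristic `q` of the full level `q` model of the Legendre curve
-/

set_option autoImplicit false
set_option linter.unusedSectionVars false
set_option linter.style.haveILetI false

namespace Fermat.Agent.Moduli

open WeierstrassCurve Polynomial Fermat.Agent.EC IsLocalRing
open scoped Pointwise

variable {R : Type*} [CommRing R] [IsDomain R] [IsIntegrallyClosed R] [IsNoetherianRing R]
  {Ω : Type*} [Field Ω] [IsAlgClosed Ω] [CharZero Ω] [DecidableEq Ω] [Algebra R Ω]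
  [FaithfulSMul R Ω] {l : R} {k q : ℕ} [hp : Fact q.Prime]

lemma isUnit_two_of_odd {S : Type*} [CommRing S] [IsLocalRing S] (hq : q = 2 * k + 1)
    (hqm : (q : S) ∈ maximalIdeal S) : IsUnit (2 : S) := by
  rw [← notMem_maximalIdeal]
  intro h2
  refine one_notMem_nonunits (?_ : (1 : S) ∈ maximalIdeal S)
  rw [show (1 : S) = (q : S) - 2 * (k : S) by rw [hq]; push_cast; ring]
  exact sub_mem hqm (Ideal.mul_mem_right _ _ h2)

/-- The Hasse invariant at a closed point `l ≡ c` is a unit or a parameter. -/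
theorem hasse_unit_or_parameter (hq : q = 2 * k + 1) {I : Ideal R} [hI : I.IsMaximal]
    (hqm : (q : R) ∈ I) (hl : IsUnit l) (hl1 : IsUnit (1 - l)) {c : R} (hc : l - c ∈ I)
    (hO : (hasse R k).eval c ∈ I → (hasse R k).eval c ∈ Ideal.span {(q : R)}) :
    (hasse R k).eval l ∉ I ∨
      ∃ u, u ∉ I ∧ (hasse R k).eval l - u * (l - c) ∈ Ideal.span {(q : R)} := by
  classical
  letI : Field (R ⧸ I) := Ideal.Quotient.field I
  set π := Ideal.Quotient.mk I
  set h := hasse R k
  have hres : π l = π c := Ideal.Quotient.eq.2 hc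
  by_cases hm : h.eval c ∈ I
  · right
    obtain ⟨w, hw⟩ := X_sub_C_dvd_sub_C_eval (a := c) (p := h)
    refine ⟨w.eval l, ?_, ?_⟩
    · intro hwm
      haveI : CharP (R ⧸ I) q := (CharP.charP_iff_prime_eq_zero hp.out).2 (by
        rw [← map_natCast π, Ideal.Quotient.eq_zero_iff_mem]; exact hqm)
      refine hasse_simple_root (E := R ⧸ I) hq hp.out (c := π c) ?_ ?_ ?_ ?_
      · rw [← hres]; exact (hl.map π).ne_zero
      · rw [← hres]; intro e
        exact (hl1.map π).ne_zero (by rw [map_sub, map_one, e, sub_self])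
      · rw [← map_hasse π, eval_map_apply, Ideal.Quotient.eq_zero_iff_mem]; exact hm
      · rw [← map_hasse π, derivative_map, eval_map_apply]
        have hd := congrArg derivative hw
        rw [derivative_sub, derivative_C, sub_zero, derivative_mul, derivative_X_sub_C, one_mul] at hd
        rw [hd, eval_add, eval_mul, eval_sub, eval_X, eval_C, sub_self, zero_mul, add_zero,
          ← eval_map_apply, ← hres, eval_map_apply, Ideal.Quotient.eq_zero_iff_mem]
        exact hwm
    · have h1 := congrArg (eval l) hw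
      rw [eval_sub, eval_C, eval_mul, eval_sub, eval_X, eval_C] at h1
      rw [show h.eval l - w.eval l * (l - c) = h.eval c by linear_combination h1]
      exact hO hm
  · left
    rw [← Ideal.Quotient.eq_zero_iff_mem, ← eval_map_apply, hres, eval_map_apply,
      Ideal.Quotient.eq_zero_iff_mem]
    exact hm

section Loc

variable (Ω) {B : Type*} [CommRing B] [IsDomain B] [Algebra B Ω] [FaithfulSMul B Ω] (m : Ideal B)
  [m.IsPrime] (C : Type*) [CommRing C] [Algebra B C] [IsLocalization.AtPrime C m]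

/-- The embedding of a local ring of `B` in the ambient field. -/
noncomputable def localToField : C →+* Ω :=
  IsLocalization.lift (M := m.primeCompl) (g := algebraMap B Ω) fun x =>
    isUnit_iff_ne_zero.2 ((map_ne_zero_iff _ (FaithfulSMul.algebraMap_injective B Ω)).2
      (nonZeroDivisors.ne_zero (Ideal.primeCompl_le_nonZeroDivisors m x.2)))

lemma localToField_algebraMap (x : B) : localToField Ω m C (algebraMap B C x) = algebraMap B Ω x :=
  IsLocalization.lift_eq (M := m.primeCompl) _ x

lemma localToField_injective : Function.Injective (localToField Ω m C) :=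
  (IsLocalization.lift_injective_iff _).2 fun x y => by
    constructor
    · exact fun e => congrArg _ ((IsLocalization.injective C
        (Ideal.primeCompl_le_nonZeroDivisors m)) e)
    · exact fun e => congrArg _ (FaithfulSMul.algebraMap_injective B Ω e)

end Loc

variable {B G : Type*} [CommRing B] [IsDomain B] [IsIntegrallyClosed B] [Algebra R B]
  [FaithfulSMul R B] [Algebra.IsIntegral R B] [Algebra B Ω] [FaithfulSMul B Ω]
  [IsScalarTower R B Ω] [Group G] [Finite G] [MulSemiringAction G B] [SMulCommClass G R B]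
  [Fintype (LegTorsion Ω l (2 * k + 1))] [DecidableEq (LegTorsion Ω l (2 * k + 1))]
  [DistribMulAction G (LegTorsion Ω l (2 * k + 1))]

/-- The coordinates in a local ring of `B`. -/
def HasCoords.toLocal (H : HasCoords (Ω := Ω) B k l) (C : Type*) [CommRing C] [Algebra B C]
    [Algebra C Ω] [IsScalarTower B C Ω] [Algebra R C] [IsScalarTower R B C] :
    HasCoords (Ω := Ω) C k l where
  z T := algebraMap B C (H.z T)
  s T := algebraMap B C (H.s T)
  u T := Units.map (algebraMap B C).toMonoidHom (H.u T)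
  v T := Units.map (algebraMap B C).toMonoidHom (H.v T)
  map_z T := by rw [← IsScalarTower.algebraMap_apply, H.map_z]
  map_s T := by rw [← IsScalarTower.algebraMap_apply, H.map_s]
  u_eq T := by
    show algebraMap B C (H.u T : B) = _
    rw [H.u_eq, map_sub, map_one]
  v_eq T := by
    show algebraMap B C (H.v T : B) = _
    rw [H.v_eq, map_sub, map_one, map_mul, ← IsScalarTower.algebraMap_apply]

/-- Everything a consumer supplies about the base, the level structure and the group. -/
structure LegSetup (H : HasCoords (Ω := Ω) B k l) (G : Type*) [Group G] [MulSemiringAction G B]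
    [DistribMulAction G (LegTorsion Ω l (2 * k + 1))] (q : ℕ) (t : R) : Prop where
  hq : q = 2 * k + 1
  prime_q : Prime (q : R)
  not_dvd : ¬ (q : R) ∣ t
  maximal : (Ideal.span {(q : R), t}).IsMaximal
  splits : SplitsMod (Ideal.span {(q : R), t})
  isUnit_l : IsUnit l
  isUnit_one_sub : IsUnit (1 - l)
  hasse : (hasse R k).eval l ∉ Ideal.span {(q : R), t} ∨
    ∃ u, u ∉ Ideal.span {(q : R), t} ∧ (Fermat.Agent.Moduli.hasse R k).eval l - u * t ∈ Ideal.span {(q : R)}
  root : ∃ μ₀ : R, t - (l - μ₀ ^ q) ∈ Ideal.span {(q : R)}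
  rank_le : Module.rank R B ≤ Nat.card G
  z_smul : ∀ (g : G) T, H.z (g • T) = g • H.z T
  s_smul : ∀ (g : G) T, H.s (g • T) = g • H.s T

namespace LegSetup

variable {H : HasCoords (Ω := Ω) B k l} {t : R} (S : LegSetup H G q t)
  {m : Ideal B} [hm : m.IsMaximal] (hqm : (q : B) ∈ m) (htm : algebraMap R B t ∈ m)

include S in
lemma isPrime : (Ideal.span {(q : R)}).IsPrime :=
  (Ideal.span_singleton_prime S.prime_q.ne_zero).2 S.prime_q

include S hqm htm in
lemma mem_m_iff (r : R) : algebraMap R B r ∈ m ↔ r ∈ Ideal.span {(q : R), t} := by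
  have hle : Ideal.span {(q : R), t} ≤ m.comap (algebraMap R B) := by
    rw [Ideal.span_le]
    rintro x (rfl | rfl)
    · simpa using hqm
    · exact htm
  rw [S.maximal.eq_of_le (Ideal.IsPrime.comap (algebraMap R B)).ne_top hle]
  rfl

include S hqm htm in
/-- Some nonzero point reduces to the origin. -/
theorem exists_mem_kernel : ∃ P : LegTorsion Ω l (2 * k + 1), P ≠ 0 ∧ H.z P ∈ m := by
  classical
  let C := Localization.AtPrime m
  letI : Algebra C Ω := (localToField Ω m C).toAlgebra
  haveI : IsScalarTower B C Ω := IsScalarTower.of_algebraMap_eq fun x =>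
    (localToField_algebraMap Ω m C x).symm
  haveI : IsScalarTower R C Ω := IsScalarTower.of_algebraMap_eq fun x => by
    rw [IsScalarTower.algebraMap_apply R B C, ← IsScalarTower.algebraMap_apply B C Ω,
      ← IsScalarTower.algebraMap_apply]
  haveI : FaithfulSMul C Ω := (faithfulSMul_iff_algebraMap_injective C Ω).2
    (localToField_injective Ω m C)
  haveI : IsIntegrallyClosed C :=
    isIntegrallyClosed_of_isLocalization C m.primeCompl (Ideal.primeCompl_le_nonZeroDivisors m)
  have hass := (H.toLocal C).associated_prod S.isUnit_l S.isUnit_one_sub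
  have hqC : ((2 * k + 1 : ℕ) : C) ∈ maximalIdeal C := by
    rw [← S.hq, ← map_natCast (algebraMap B C),
      IsLocalization.AtPrime.to_map_mem_maximal_iff C m]
    exact hqm
  obtain ⟨w, hw⟩ := hass
  rw [← Ideal.mul_unit_mem_iff_mem _ w.isUnit, hw, Ideal.IsPrime.prod_mem_iff] at hqC
  obtain ⟨P, hP, hPm⟩ := hqC
  exact ⟨P, (Finset.mem_erase.1 hP).1,
    (IsLocalization.AtPrime.to_map_mem_maximal_iff C m _).1 hPm⟩

include S hqm htm in
/-- All points reduce to the origin exactly at the zeros of the Hasse invariant. -/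
theorem all_mem_iff :
    (∀ T, H.z T ∈ m) ↔ (Fermat.Agent.Moduli.hasse R k).eval l ∈ Ideal.span {(q : R), t} := by
  classical
  let C := Localization.AtPrime m
  letI : Algebra C Ω := (localToField Ω m C).toAlgebra
  haveI : IsScalarTower B C Ω := IsScalarTower.of_algebraMap_eq fun x =>
    (localToField_algebraMap Ω m C x).symm
  haveI : IsScalarTower R C Ω := IsScalarTower.of_algebraMap_eq fun x => by
    rw [IsScalarTower.algebraMap_apply R B C, ← IsScalarTower.algebraMap_apply B C Ω,
      ← IsScalarTower.algebraMap_apply]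
  haveI : FaithfulSMul C Ω := (faithfulSMul_iff_algebraMap_injective C Ω).2
    (localToField_injective Ω m C)
  haveI : IsIntegrallyClosed C :=
    isIntegrallyClosed_of_isLocalization C m.primeCompl (Ideal.primeCompl_le_nonZeroDivisors m)
  have hqC : (q : C) ∈ maximalIdeal C := by
    rw [← map_natCast (algebraMap B C), IsLocalization.AtPrime.to_map_mem_maximal_iff C m]
    exact hqm
  have hRC : ∀ r : R, algebraMap R C r ∈ maximalIdeal C ↔ r ∈ Ideal.span {(q : R), t} := by
    intro r
    rw [IsScalarTower.algebraMap_apply R B C, IsLocalization.AtPrime.to_map_mem_maximal_iff C m,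
      S.mem_m_iff hqm htm]
  let H' := H.toLocal C
  constructor
  · intro hall
    obtain ⟨P, hP, hPm⟩ := S.exists_mem_kernel hqm htm
    have hPC := (IsLocalization.AtPrime.to_map_mem_maximal_iff C m _).2 hPm
    obtain ⟨u, -, hh⟩ := H'.hasse_sq_mem S.isUnit_l S.isUnit_one_sub S.hq S.isPrime hP hPC
      ((H'.toFamily S.isUnit_l S.isUnit_one_sub S.hq).natCast_mem hP)
    have hprod : u * ∏ T ∈ Finset.univ.filter (fun T => T ∉ AddSubgroup.zmultiples P),
        H'.z T ^ 2 ∈ maximalIdeal C := by
      obtain ⟨Q, hQ⟩ : ∃ Q : LegTorsion Ω l (2 * k + 1), Q ∉ AddSubgroup.zmultiples P := by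
        by_contra hh
        push Not at hh
        have h1 := Nat.card_le_card_of_injective
          (fun X : LegTorsion Ω l (2 * k + 1) => (⟨X, hh X⟩ : AddSubgroup.zmultiples P))
          fun a b e => congrArg Subtype.val e
        rw [(H'.toFamily S.isUnit_l S.isUnit_one_sub S.hq).card_zmultiples hP,
          Nat.card_eq_fintype_card, HasCoords.card_torsion S.isUnit_l S.isUnit_one_sub, ← S.hq] at h1
        exact absurd h1 (not_le.2 (lt_self_pow₀ hp.out.one_lt one_lt_two))
      refine Ideal.mul_mem_left _ _ (Ideal.IsPrime.prod_mem_iff.2 ⟨Q, by simpa using hQ, ?_⟩)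
      exact Ideal.pow_mem_of_mem _ ((IsLocalization.AtPrime.to_map_mem_maximal_iff C m _).2 (hall Q))
        2 two_pos
    have h2 := add_mem ((Ideal.span_singleton_le_iff_mem _).2 hPC hh) hprod
    rw [sub_add_cancel] at h2
    exact (hRC _).1 (Ideal.IsPrime.mem_of_pow_mem inferInstance 2 h2)
  · intro hu T
    refine (IsLocalization.AtPrime.to_map_mem_maximal_iff C m _).1 ?_
    exact H'.all_mem_of_hasse_mem S.isUnit_l S.isUnit_one_sub S.hq S.isPrime hqC
      ((hRC _).2 hu) T

variable {C : Type*} [CommRing C] [IsDomain C] [IsLocalRing C] [Algebra B C]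
  [IsLocalization.AtPrime C m] [Algebra R C] [IsScalarTower R B C]

include S hqm htm in
/-- The supersingular points. -/
theorem supersingular (hfix : ∀ g : G, g • m = m → (∀ T : LegTorsion Ω l (2 * k + 1), g • T = T) → g = 1)
    (hh : (Fermat.Agent.Moduli.hasse R k).eval l ∈ Ideal.span {(q : R), t}) {P Q : LegTorsion Ω l (2 * k + 1)}
    (hP : P ≠ 0) (hQ : Q ∉ AddSubgroup.zmultiples P) :
    maximalIdeal C = Ideal.span {algebraMap B C (H.z P)} ⊔ Ideal.span {algebraMap B C (H.z Q)} ∧
      Nat.card (MulAction.stabilizer G m) = (q ^ 2 - 1) * (q ^ 2 - q) ∧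
      (∀ P' Q' : LegTorsion Ω l (2 * k + 1), P' ≠ 0 → Q' ∉ AddSubgroup.zmultiples P' →
        ∃ g : G, g • m = m ∧ g • P = P' ∧ g • Q = Q') := by
  classical
  letI : Algebra C Ω := (localToField Ω m C).toAlgebra
  haveI : IsScalarTower B C Ω := IsScalarTower.of_algebraMap_eq fun x =>
    (localToField_algebraMap Ω m C x).symm
  haveI : IsScalarTower R C Ω := IsScalarTower.of_algebraMap_eq fun x => by
    rw [IsScalarTower.algebraMap_apply R B C, ← IsScalarTower.algebraMap_apply B C Ω,
      ← IsScalarTower.algebraMap_apply]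
  haveI : FaithfulSMul C Ω := (faithfulSMul_iff_algebraMap_injective C Ω).2
    (localToField_injective Ω m C)
  haveI : IsIntegrallyClosed C :=
    isIntegrallyClosed_of_isLocalization C m.primeCompl (Ideal.primeCompl_le_nonZeroDivisors m)
  let H' := H.toLocal C
  let F := H'.toFamily S.isUnit_l S.isUnit_one_sub S.hq
  have hall : ∀ T, H.z T ∈ m := (S.all_mem_iff hqm htm).2 hh
  refine maximalIdeal_supersingular (R := R) H.z F (fun T => rfl) S.prime_q S.not_dvd S.maximal
    S.rank_le hfix hall ?_ hP hQ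
  intro P' hP'
  have hPC : H'.z P' ∈ maximalIdeal C :=
    (IsLocalization.AtPrime.to_map_mem_maximal_iff C m _).2 (hall P')
  have hqP := F.natCast_mem hP'
  obtain ⟨u, hu, h1⟩ := H'.hasse_sq_mem S.isUnit_l S.isUnit_one_sub S.hq S.isPrime hP' hPC hqP
  obtain ⟨w, hw, h2⟩ := S.hasse.resolve_left (not_not.2 hh)
  obtain ⟨c, hc⟩ := Ideal.mem_span_singleton.1 h2
  set D := algebraMap R C ((Fermat.Agent.Moduli.hasse R k).eval l) with hD
  obtain ⟨v, hv⟩ : IsUnit (algebraMap R C w) := by
    rw [← notMem_maximalIdeal, IsScalarTower.algebraMap_apply R B C,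
      IsLocalization.AtPrime.to_map_mem_maximal_iff C m, S.mem_m_iff hqm htm]
    exact hw
  refine ⟨(↑v⁻¹ : C) ^ 2 * u, (v⁻¹.isUnit.pow 2).mul hu, ?_⟩
  have e : D - v * algebraMap R C t = (q : C) * algebraMap R C c := by
    rw [hv, hD, ← map_mul, ← map_sub, hc, map_mul, map_natCast]
  have h3 : D ^ 2 - ((v : C) * algebraMap R C t) ^ 2 ∈ Ideal.span {F.z P'} := by
    rw [sq_sub_sq, e]
    exact Ideal.mul_mem_left _ _ (Ideal.mul_mem_right _ _ hqP)
  have h4 := Ideal.mul_mem_left _ ((↑v⁻¹ : C) ^ 2) (sub_mem h1 h3)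
  have hvv := v.inv_mul
  have key : algebraMap R C t ^ 2 - (↑v⁻¹ : C) ^ 2 * u *
      ∏ T ∈ Finset.univ.filter (fun T => T ∉ AddSubgroup.zmultiples P'), H'.z T ^ 2 =
      (↑v⁻¹ : C) ^ 2 * (D ^ 2 - u *
        ∏ T ∈ Finset.univ.filter (fun T => T ∉ AddSubgroup.zmultiples P'), H'.z T ^ 2 -
        (D ^ 2 - ((v : C) * algebraMap R C t) ^ 2)) := by
    linear_combination -(algebraMap R C t ^ 2 * ((↑v⁻¹ : C) * (v : C) + 1)) * hvv
  rw [← key] at h4
  convert h4 using 4
  all_goals rfl

include S hqm htm in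
/-- The ordinary points. -/
theorem ordinary
    (hfix : ∀ g : G, g • m = m → (∀ T : LegTorsion Ω l (2 * k + 1), g • T = T) → g = 1)
    (hh : (Fermat.Agent.Moduli.hasse R k).eval l ∉ Ideal.span {(q : R), t}) {P Q : LegTorsion Ω l (2 * k + 1)}
    (hP : P ≠ 0) (hPm : H.z P ∈ m) (hQ : H.z Q ∉ m) :
    ∃ (e : C) (μ₀ : R), maximalIdeal C = Ideal.span {algebraMap B C (H.z P)} ⊔ Ideal.span {e} ∧
      (e + algebraMap R C μ₀) ^ q - algebraMap R C l ∈ Ideal.span {algebraMap B C (H.z P)} ∧
      (∀ T, H.z T ∈ m ↔ T ∈ AddSubgroup.zmultiples P) ∧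
      Nat.card (MulAction.stabilizer G m) = (q - 1) * q ∧
      (∀ P' Q' : LegTorsion Ω l (2 * k + 1), P' ≠ 0 → P' ∈ AddSubgroup.zmultiples P →
        Q' - Q ∈ AddSubgroup.zmultiples P → ∃ g : G, g • m = m ∧ g • P = P' ∧ g • Q = Q') := by
  classical
  letI : Algebra C Ω := (localToField Ω m C).toAlgebra
  haveI : IsScalarTower B C Ω := IsScalarTower.of_algebraMap_eq fun x =>
    (localToField_algebraMap Ω m C x).symm
  haveI : IsScalarTower R C Ω := IsScalarTower.of_algebraMap_eq fun x => by
    rw [IsScalarTower.algebraMap_apply R B C, ← IsScalarTower.algebraMap_apply B C Ω,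
      ← IsScalarTower.algebraMap_apply]
  haveI : FaithfulSMul C Ω := (faithfulSMul_iff_algebraMap_injective C Ω).2
    (localToField_injective Ω m C)
  haveI : IsIntegrallyClosed C :=
    isIntegrallyClosed_of_isLocalization C m.primeCompl (Ideal.primeCompl_le_nonZeroDivisors m)
  let H' := H.toLocal C
  let F := H'.toFamily S.isUnit_l S.isUnit_one_sub S.hq
  have hmem : ∀ T, H'.z T ∈ maximalIdeal C ↔ H.z T ∈ m := fun T =>
    IsLocalization.AtPrime.to_map_mem_maximal_iff C m _
  have hline : ∀ T ∈ AddSubgroup.zmultiples P, H'.z T ∈ maximalIdeal C := fun T hT =>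
    (Ideal.span_singleton_le_iff_mem _).2 ((hmem P).2 hPm)
      (H'.z_mem_of_mem_zmultiples ((hmem P).2 hPm) hT)
  have hQP : Q ∉ AddSubgroup.zmultiples P := fun h => hQ ((hmem Q).1 (hline Q h))
  have hker : ∀ T, H'.z T ∈ maximalIdeal C → T ∈ AddSubgroup.zmultiples P := by
    intro T hT
    by_contra hT'
    obtain ⟨a, b, hab, -⟩ := F.exists_nsmul_add hP hT' Q
    apply hQ
    rw [hab, ← hmem]
    exact F.kernel.add_mem (F.kernel.nsmul_mem hT a) (F.kernel.nsmul_mem ((hmem P).2 hPm) b)
  obtain ⟨μ₀, hμ₀⟩ := S.root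
  obtain ⟨μ, hμ, he⟩ := H'.exists_e S.isUnit_l S.isUnit_one_sub S.hq S.isPrime hP hQP
    ((hmem P).2 hPm) (F.natCast_mem hP) hker (by
      rw [← notMem_maximalIdeal, IsScalarTower.algebraMap_apply R B C,
        IsLocalization.AtPrime.to_map_mem_maximal_iff C m, S.mem_m_iff hqm htm]
      exact hh) hμ₀
  have hsep : ∀ g : G, (∀ b, g • b - b ∈ m) → ∀ T, H.z T ∉ m → H.z (g • T - T) ∈ m := by
    intro g hg T hT
    have h2 : IsUnit (2 : C) := isUnit_two_of_odd S.hq (by
      rw [← map_natCast (algebraMap B C), IsLocalization.AtPrime.to_map_mem_maximal_iff C m]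
      exact hqm)
    have hz1 : H'.z (g • T) - H'.z T ∈ maximalIdeal C := by
      show algebraMap B C _ - algebraMap B C _ ∈ _
      rw [← map_sub, IsLocalization.AtPrime.to_map_mem_maximal_iff C m, S.z_smul]
      exact hg _
    have hs1 : H'.s (g • T) - H'.s T ∈ maximalIdeal C := by
      show algebraMap B C _ - algebraMap B C _ ∈ _
      rw [← map_sub, IsLocalization.AtPrime.to_map_mem_maximal_iff C m, S.s_smul]
      exact hg _
    have hT' : H'.z T ∉ maximalIdeal C := fun h => hT ((hmem T).1 h)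
    have hgT : H'.z (g • T) ∉ maximalIdeal C := fun h => hT' (by
      simpa using sub_mem h hz1)
    rw [← hmem]
    refine (H'.sep h2 _ T hgT hT' hs1).resolve_right fun hplus => hT' ?_
    have h3 := (H'.congr_coords (g • T + T) (-T) hplus (by rwa [H'.z_neg, neg_mem_iff])).1
    rw [add_neg_cancel_right, H'.z_neg, sub_neg_eq_add] at h3
    have h4 := sub_mem ((Ideal.span_singleton_le_iff_mem _).2 hplus h3) hz1
    rw [show H'.z (g • T) + H'.z T - (H'.z (g • T) - H'.z T) = 2 * H'.z T by ring,
      Ideal.unit_mul_mem_iff_mem _ h2] at h4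
    exact h4
  obtain ⟨h1, h2, h3, h4⟩ := maximalIdeal_ordinary (R := R) H.z F (fun T => rfl) S.z_smul S.splits S.prime_q
    S.not_dvd S.maximal S.rank_le hfix hqm htm hsep hP hPm hQ he
  refine ⟨μ - algebraMap R C μ₀, μ₀, h1, ?_, h2, h3, h4⟩
  rw [sub_add_cancel]
  exact hμ

end LegSetup

end Fermat.Agent.Moduli
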