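import Fermat.Agent.Moduli.Point

/-!
# Regularity descends along a free action

If no element but `1` of a finite group fixes the maximal ideal `m`, two generators at `m` give two
invariant generators.
-/

set_option autoImplicit false
set_option linter.unusedSectionVars false
set_option linter.style.haveILetI false

namespace Fermat.Agent.Moduli

open Ideal IsLocalRing Finset
open scoped Pointwise

variable {A B H : Type*} [CommRing A] [CommRing B] [Algebra A B] [Group H] [Fintype H]
  [MulSemiringAction H B] [SMulCommClass H A B]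

lemma smul_algebraMap_eq (h : H) (a : A) : h • algebraMap A B a = algebraMap A B a := by
  rw [Algebra.algebraMap_eq_smul_one, smul_comm, smul_one]

/-- An element `≡ 1` at `m` to second order and vanishing to second order at its conjugates. -/
lemma exists_idempotent_lift (m : Ideal B) [hm : m.IsMaximal]
    (hfree : ∀ h : H, h • m = m → h = 1) :
    ∃ u : B, u - 1 ∈ m ^ 2 ∧ ∀ h : H, h ≠ 1 → h • u ∈ m ^ 2 := by
  classical
  set P : Ideal B := ∏ h ∈ (univ : Finset H).erase 1, (h • m) ^ 2
  have hcop : m ^ 2 ⊔ P = ⊤ := by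
    refine Ideal.sup_prod_eq_top fun h hh => ?_
    refine Ideal.isCoprime_iff_sup_eq.1 (IsCoprime.pow (Ideal.isCoprime_iff_sup_eq.2 ?_))
    haveI := isMaximal_smul h m
    exact hm.coprime_of_ne inferInstance fun e => (Finset.mem_erase.1 hh).1 (hfree h e.symm)
  obtain ⟨a, ha, u, hu, hau⟩ := Submodule.mem_sup.1 ((Ideal.eq_top_iff_one _).1 hcop)
  refine ⟨u, ?_, fun h hh => ?_⟩
  · rw [show u - 1 = -a by rw [← hau]; ring]
    exact neg_mem ha
  · have h1 : u ∈ (h⁻¹ • m) ^ 2 :=
      (Ideal.prod_le_inf.trans (Finset.inf_le (Finset.mem_erase.2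
        ⟨inv_ne_one.2 hh, Finset.mem_univ _⟩))) hu
    have h2 := Ideal.smul_mem_pointwise_smul h u _ h1
    rwa [Ideal.pointwise_smul_def, Ideal.map_pow, ← Ideal.pointwise_smul_def, smul_inv_smul] at h2

variable [IsDomain B]

/-- Two generators at a point with trivial stabiliser give two invariant ones. -/
theorem exists_generators_of_free
    (hinv : ∀ b : B, (∀ h : H, h • b = b) → ∃ a : A, algebraMap A B a = b)
    (hinj : Function.Injective (algebraMap A B)) (m : Ideal B) [hm : m.IsMaximal]
    (hfree : ∀ h : H, h • m = m → h = 1) (n : Ideal A) [n.IsPrime]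
    (hn : ∀ a, a ∈ n ↔ algebraMap A B a ∈ m)
    {C : Type*} [CommRing C] [IsLocalRing C] [Algebra B C] [IsLocalization.AtPrime C m]
    {D : Type*} [CommRing D] [IsLocalRing D] [Algebra A D] [IsLocalization.AtPrime D n]
    {a b : C} (hC : maximalIdeal C = span {a} ⊔ span {b}) :
    ∃ x y : A, maximalIdeal D = span {algebraMap A D x} ⊔ span {algebraMap A D y} ∧
      maximalIdeal C = span {algebraMap B C (algebraMap A B x)} ⊔
        span {algebraMap B C (algebraMap A B y)} := by
  classical
  obtain ⟨u, hu1, hu⟩ := exists_idempotent_lift m hfree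
  let tr : B → B := fun c => ∑ h : H, h • c
  have htr : ∀ c, ∃ x : A, algebraMap A B x = tr c := fun c => hinv _ fun g => by
    simp only [tr, Finset.smul_sum, smul_smul]
    exact Equiv.sum_comp (Equiv.mulLeft g) fun h => h • c
  choose T hT using htr
  have htru : ∀ c, tr (c * u) - c ∈ m ^ 2 := by
    intro c
    simp only [tr]
    rw [← Finset.add_sum_erase _ _ (Finset.mem_univ (1 : H)), one_smul, add_sub_right_comm]
    refine add_mem ?_ (Ideal.sum_mem _ fun h hh => ?_)
    · rw [show c * u - c = c * (u - 1) by ring]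
      exact Ideal.mul_mem_left _ _ hu1
    · rw [smul_mul']
      exact Ideal.mul_mem_left _ _ (hu h (Finset.mem_erase.1 hh).1)
  -- elements of `B` with the same span
  have hclear : ∀ c ∈ maximalIdeal C, ∃ c' ∈ m, span {c} = span {algebraMap B C c'} := by
    intro c hc
    obtain ⟨c', s, rfl⟩ := IsLocalization.exists_mk'_eq m.primeCompl c
    refine ⟨c', ?_, ?_⟩
    · rw [← IsLocalization.AtPrime.to_map_mem_maximal_iff C m,
        ← IsLocalization.mk'_spec C c' s]
      exact mul_mem_right _ _ hc
    · rw [← IsLocalization.mk'_spec C c' s,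
        span_singleton_mul_right_unit (IsLocalization.map_units C s)]
  obtain ⟨a', ha', hsa⟩ := hclear a (hC ▸ mem_sup_left (mem_span_singleton_self a))
  obtain ⟨b', hb', hsb⟩ := hclear b (hC ▸ mem_sup_right (mem_span_singleton_self b))
  rw [hsa, hsb] at hC
  set x := T (a' * u)
  set y := T (b' * u)
  set J : Ideal B := span {algebraMap A B x} ⊔ span {algebraMap A B y}
  have hsq : m ^ 2 ≤ (maximalIdeal C ^ 2).comap (algebraMap B C) := by
    rw [← Ideal.map_le_iff_le_comap, Ideal.map_pow]
    refine pow_right_mono (Ideal.map_le_iff_le_comap.2 fun c hc => Ideal.mem_comap.2 ?_) 2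
    exact (IsLocalization.AtPrime.to_map_mem_maximal_iff C m c).2 hc
  have hxm : algebraMap A B x ∈ m := by
    have := add_mem (Ideal.pow_le_self two_ne_zero (htru a')) ha'
    rwa [sub_add_cancel, ← hT] at this
  have hym : algebraMap A B y ∈ m := by
    have := add_mem (Ideal.pow_le_self two_ne_zero (htru b')) hb'
    rwa [sub_add_cancel, ← hT] at this
  have hJC : maximalIdeal C = span {algebraMap B C (algebraMap A B x)} ⊔
      span {algebraMap B C (algebraMap A B y)} := by
    refine le_antisymm ?_ (sup_le ((span_singleton_le_iff_mem _).2 ?_)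
      ((span_singleton_le_iff_mem _).2 ?_))
    · have hfg : (maximalIdeal C).FG := by
        rw [hC]; exact (Submodule.fg_span_singleton _).sup (Submodule.fg_span_singleton _)
      refine Submodule.le_of_le_smul_of_le_jacobson_bot (I := maximalIdeal C) hfg
        (jacobson_eq_maximalIdeal (⊥ : Ideal C) bot_ne_top).ge ?_
      rw [Ideal.smul_eq_mul, ← pow_two]
      conv_lhs => rw [hC]
      refine sup_le ((span_singleton_le_iff_mem _).2 ?_) ((span_singleton_le_iff_mem _).2 ?_)
      · have h1 := hsq (htru a')
        rw [mem_comap, map_sub, ← hT] at h1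
        rw [← sub_sub_cancel (algebraMap B C (algebraMap A B x)) (algebraMap B C a')]
        exact sub_mem (mem_sup_left (mem_sup_left (mem_span_singleton_self _))) (mem_sup_right h1)
      · have h1 := hsq (htru b')
        rw [mem_comap, map_sub, ← hT] at h1
        rw [← sub_sub_cancel (algebraMap B C (algebraMap A B y)) (algebraMap B C b')]
        exact sub_mem (mem_sup_left (mem_sup_right (mem_span_singleton_self _))) (mem_sup_right h1)
    · exact (IsLocalization.AtPrime.to_map_mem_maximal_iff C m _).2 hxm
    · exact (IsLocalization.AtPrime.to_map_mem_maximal_iff C m _).2 hym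
  refine ⟨x, y, le_antisymm ?_ (sup_le ((span_singleton_le_iff_mem _).2 ?_)
    ((span_singleton_le_iff_mem _).2 ?_)), hJC⟩
  rotate_left
  · exact (IsLocalization.AtPrime.to_map_mem_maximal_iff D n _).2 ((hn x).2 hxm)
  · exact (IsLocalization.AtPrime.to_map_mem_maximal_iff D n _).2 ((hn y).2 hym)
  intro d hd
  obtain ⟨z, t, rfl⟩ := IsLocalization.exists_mk'_eq n.primeCompl d
  have hz : algebraMap A B z ∈ m := by
    rw [← hn, ← IsLocalization.AtPrime.to_map_mem_maximal_iff D n, ← IsLocalization.mk'_spec D z t]
    exact mul_mem_right _ _ hd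
  -- the conductor of `z` into `J`
  let I : Ideal B := {
    carrier := {s | s * algebraMap A B z ∈ J}
    zero_mem' := by simp
    add_mem' := fun {s t} hs ht => by simpa [add_mul] using add_mem hs ht
    smul_mem' := fun c s hs => by simpa [mul_assoc] using J.mul_mem_left c hs }
  have hI : ¬ I ≤ m := by
    intro hle
    have h1 := (IsLocalization.AtPrime.to_map_mem_maximal_iff C m _).2 hz
    have hJmap : J.map (algebraMap B C) = maximalIdeal C := by
      rw [hJC, Ideal.map_sup, Ideal.map_span, Ideal.map_span, Set.image_singleton,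
        Set.image_singleton]
    rw [← hJmap, IsLocalization.mem_map_algebraMap_iff m.primeCompl C] at h1
    obtain ⟨⟨⟨j, hj⟩, s⟩, hjs⟩ := h1
    rw [← map_mul] at hjs
    refine s.2 (hle (?_ : (s : B) * algebraMap A B z ∈ J))
    rw [mul_comm, IsLocalization.injective C (Ideal.primeCompl_le_nonZeroDivisors m) hjs]
    exact hj
  have hIinv : ∀ (h : H) s, s ∈ I → h • s ∈ I := by
    intro h s hs
    obtain ⟨p, hp, r, hr, hpr⟩ := Submodule.mem_sup.1 (hs : s * algebraMap A B z ∈ J)
    obtain ⟨p', rfl⟩ := mem_span_singleton.1 hp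
    obtain ⟨r', rfl⟩ := mem_span_singleton.1 hr
    show h • s * algebraMap A B z ∈ J
    have e := congrArg (h • ·) hpr
    simp only [smul_add, smul_mul', smul_algebraMap_eq] at e
    rw [← e]
    exact add_mem (mem_sup_left (mul_mem_right _ _ (mem_span_singleton_self _)))
      (mem_sup_right (mul_mem_right _ _ (mem_span_singleton_self _)))
  obtain ⟨s, hsI, hs⟩ : ∃ s ∈ I, ∀ h : H, s ∉ h • m := by
    by_contra hh
    push Not at hh
    have hsub : (I : Set B) ⊆ ⋃ h ∈ ((univ : Finset H) : Set H), ((h • m : Ideal B) : Set B) :=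
      fun s hs => by
        obtain ⟨h, hh⟩ := hh s hs
        exact Set.mem_biUnion (Finset.mem_coe.2 (Finset.mem_univ h)) hh
    obtain ⟨h, -, hle⟩ := (Ideal.subset_union_prime (s := (univ : Finset H))
      (f := fun h : H => h • m) 1 1 fun h _ _ _ =>
        haveI := isMaximal_smul h m; Ideal.IsMaximal.isPrime inferInstance).1 hsub
    refine hI fun r hr => ?_
    rw [← Ideal.smul_mem_pointwise_smul_iff (a := h)]
    exact hle (hIinv h r hr)
  obtain ⟨s', hs'⟩ := hinv (∏ h : H, h • s) fun g => by
    rw [Finset.smul_prod']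
    simp only [smul_smul]
    exact Equiv.prod_comp (Equiv.mulLeft g) fun h => h • s
  have hs'n : s' ∉ n := by
    rw [hn, hs', Ideal.IsPrime.prod_mem_iff]
    rintro ⟨h, -, hh⟩
    apply hs h⁻¹
    have := Ideal.smul_mem_pointwise_smul h⁻¹ _ _ hh
    rwa [inv_smul_smul] at this
  have hzJ : algebraMap A B (s' * z) ∈ J := by
    have : algebraMap A B s' ∈ I := by
      rw [hs', ← Finset.mul_prod_erase _ _ (Finset.mem_univ (1 : H)), one_smul]
      exact I.mul_mem_right _ hsI
    rw [map_mul]
    exact this
  obtain ⟨p, hp, r, hr, hpr⟩ := Submodule.mem_sup.1 hzJ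
  obtain ⟨p', rfl⟩ := mem_span_singleton.1 hp
  obtain ⟨r', rfl⟩ := mem_span_singleton.1 hr
  have key : s' * z * T (1 * u) = x * T (p' * u) + y * T (r' * u) := by
    apply hinj
    rw [map_mul _ (s' * z), map_add, map_mul _ x, map_mul _ y, hT (1 * u), hT (p' * u),
      hT (r' * u), ← hpr]
    simp only [tr, Finset.mul_sum, ← Finset.sum_add_distrib]
    refine Finset.sum_congr rfl fun h _ => ?_
    have e : h • (algebraMap A B x * p' + algebraMap A B y * r') =
        algebraMap A B x * p' + algebraMap A B y * r' := by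
      rw [hpr, smul_algebraMap_eq]
    rw [one_mul]
    conv_lhs => rw [← e]
    simp only [smul_add, smul_mul', smul_algebraMap_eq]
    ring
  have hunit : IsUnit (algebraMap A D (s' * T (1 * u))) := by
    refine IsLocalization.map_units D (⟨_, ?_⟩ : n.primeCompl)
    show s' * T (1 * u) ∉ n
    intro hh
    refine (Ideal.IsPrime.mem_or_mem ‹_› hh).elim hs'n fun h1 => ?_
    rw [hn, hT] at h1
    have h2 := sub_mem h1 (Ideal.pow_le_self two_ne_zero (htru 1))
    rw [sub_sub_cancel] at h2
    exact hm.ne_top ((Ideal.eq_top_iff_one m).2 h2)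
  rw [← Ideal.unit_mul_mem_iff_mem _ (hunit.mul (IsLocalization.map_units D t)), mul_assoc,
    mul_comm (algebraMap A D t), IsLocalization.mk'_spec, ← map_mul,
    show s' * T (1 * u) * z = s' * z * T (1 * u) by ring, key, map_add, map_mul, map_mul]
  exact add_mem (mem_sup_left (mul_mem_right _ _ (mem_span_singleton_self _)))
    (mem_sup_right (mul_mem_right _ _ (mem_span_singleton_self _)))

end Fermat.Agent.Moduli
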