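import Fermat.Agent.Moduli.LegPoint

/-!
# Torsion of order prime to `q` is unramified

An element fixing a closed point in characteristic `q` fixes every torsion point of odd order prime
to `q`, as these points stay distinct in the special fibre.
-/

set_option autoImplicit false
set_option linter.unusedSectionVars false
set_option linter.style.haveILetI false

namespace Fermat.Agent.Moduli

open IsLocalRing
open scoped Pointwise

variable {R : Type*} [CommRing R] [IsDomain R] [IsIntegrallyClosed R] [IsNoetherianRing R]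
  {Ω : Type*} [Field Ω] [IsAlgClosed Ω] [CharZero Ω] [DecidableEq Ω] [Algebra R Ω]
  [FaithfulSMul R Ω] {l : R} {k q : ℕ} [hp : Fact q.Prime]
  {B G : Type*} [CommRing B] [IsDomain B] [IsIntegrallyClosed B] [Algebra R B] [FaithfulSMul R B]
  [Algebra.IsIntegral R B] [Algebra B Ω] [FaithfulSMul B Ω] [IsScalarTower R B Ω] [Group G]
  [Finite G] [MulSemiringAction G B] [SMulCommClass G R B]
  [Fintype (LegTorsion Ω l (2 * k + 1))] [DecidableEq (LegTorsion Ω l (2 * k + 1))]
  [DistribMulAction G (LegTorsion Ω l (2 * k + 1))]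

/-- The stabiliser fixes the torsion of order prime to `q`. -/
theorem smul_eq_of_not_dvd (hq2 : q ≠ 2) (hn : ¬ q ∣ 2 * k + 1)
    (hl : IsUnit l) (hl1 : IsUnit (1 - l)) (H : HasCoords (Ω := Ω) B k l)
    (hz : ∀ (g : G) T, H.z (g • T) = g • H.z T) (hs : ∀ (g : G) T, H.s (g • T) = g • H.s T)
    {I : Ideal R} (hI : SplitsMod I) {m : Ideal B} [hm : m.IsMaximal]
    (hle : ∀ r ∈ I, algebraMap R B r ∈ m) (hqm : (q : B) ∈ m) {g : G} (hg : g • m = m)
    (T : LegTorsion Ω l (2 * k + 1)) : g • T = T := by
  classical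
  rcases eq_or_ne T 0 with rfl | hT0
  · exact smul_zero g
  let C := Localization.AtPrime m
  letI : Algebra C Ω := (localToField Ω m C).toAlgebra
  haveI : IsScalarTower B C Ω := IsScalarTower.of_algebraMap_eq fun x =>
    (localToField_algebraMap Ω m C x).symm
  haveI : IsScalarTower R C Ω := IsScalarTower.of_algebraMap_eq fun x => by
    rw [IsScalarTower.algebraMap_apply R B C, ← IsScalarTower.algebraMap_apply B C Ω,
      ← IsScalarTower.algebraMap_apply]
  haveI : FaithfulSMul C Ω := (faithfulSMul_iff_algebraMap_injective C Ω).2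
    (localToField_injective Ω m C)
  haveI : IsIntegrallyClosed C :=
    isIntegrallyClosed_of_isLocalization C m.primeCompl (Ideal.primeCompl_le_nonZeroDivisors m)
  let H' := H.toLocal C
  have hqC : (q : C) ∈ maximalIdeal C := by
    rw [← map_natCast (algebraMap B C), IsLocalization.AtPrime.to_map_mem_maximal_iff C m]
    exact hqm
  have hu : ∀ a : ℕ, ¬ q ∣ a → IsUnit (a : C) := fun a ha =>
    TorsionFamily.isUnit_natCast hqC ha
  have h2 : IsUnit (2 : C) := by
    have := hu 2 fun h => hq2 ((Nat.prime_dvd_prime_iff_eq hp.out Nat.prime_two).1 h)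
    exact_mod_cast this
  have hne : ∀ S : LegTorsion Ω l (2 * k + 1), S ≠ 0 → H'.z S ∉ maximalIdeal C := by
    intro S hS hmem
    obtain ⟨w, hw⟩ := H'.associated_prod hl hl1
    have : ((2 * k + 1 : ℕ) : C) * w ∈ maximalIdeal C := by
      rw [hw]
      exact Ideal.IsPrime.prod_mem_iff.2 ⟨S, Finset.mem_erase.2 ⟨hS, Finset.mem_univ _⟩, hmem⟩
    exact notMem_maximalIdeal.2 ((hu _ hn).mul w.isUnit) this
  have hfix := smul_sub_mem_of_fix (G := G) hI hle hg
  have hz1 : H'.z (g • T) - H'.z T ∈ maximalIdeal C := by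
    show algebraMap B C _ - algebraMap B C _ ∈ _
    rw [← map_sub, IsLocalization.AtPrime.to_map_mem_maximal_iff C m, hz]
    exact hfix _
  have hs1 : H'.s (g • T) - H'.s T ∈ maximalIdeal C := by
    show algebraMap B C _ - algebraMap B C _ ∈ _
    rw [← map_sub, IsLocalization.AtPrime.to_map_mem_maximal_iff C m, hs]
    exact hfix _
  have hgT0 : g • T ≠ 0 := by rwa [Ne, smul_eq_zero_iff_eq]
  rcases H'.sep h2 _ T (hne _ hgT0) (hne _ hT0) hs1 with h | h
  · by_contra hne'
    exact hne _ (sub_ne_zero.2 hne') h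
  · exfalso
    have he : g • T + T = 0 := by
      by_contra hne'
      exact hne _ hne' h
    rw [eq_neg_of_add_eq_zero_left he, H'.z_neg] at hz1
    have h4 : 2 * H'.z T ∈ maximalIdeal C := by
      rw [show 2 * H'.z T = -(-H'.z T - H'.z T) by ring]
      exact neg_mem hz1
    exact hne _ hT0 ((Ideal.unit_mul_mem_iff_mem _ h2).1 h4)

end Fermat.Agent.Moduli
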