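import Fermat.Agent.Moduli.TwoPower
import Fermat.Agent.Moduli.Unramified
import Fermat.Agent.Moduli.Descent

/-!
# The field of abscissae of level `2^a q m'` is regular over a point of characteristic `q`

The field of all coordinates has two generators at such a point by the point theorems; the subgroup
fixing the abscissae acts freely on the points, so two generators descend.
-/

set_option autoImplicit false
set_option linter.unusedSectionVars false
set_option linter.style.haveILetI false

noncomputable section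

namespace Fermat.Agent.Moduli

open WeierstrassCurve Polynomial Fermat.Agent.EC IsLocalRing
open scoped Pointwise

variable {R : Type*} [CommRing R] [IsDomain R] [IsIntegrallyClosed R] [IsNoetherianRing R]
  {K : Type*} [Field K] [Algebra R K] [IsFractionRing R K] {Ω : Type*} [Field Ω] [IsAlgClosed Ω]
  [CharZero Ω] [DecidableEq Ω] [Algebra K Ω] [Algebra.IsAlgebraic K Ω] [Algebra R Ω]
  [IsScalarTower R K Ω] [FaithfulSMul R Ω] {l : R}

section Fields

variable (Ω l)

/-- The coordinates of the affine `M`-torsion points. -/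
def coordSet (M : ℕ) : Set Ω :=
  {z | ∃ (x y : Ω) (h : (legendreΩ Ω l).toAffine.Nonsingular x y),
    M • Affine.Point.some x y h = 0 ∧ (z = x ∨ z = y)}

/-- The abscissae of the affine `M`-torsion points. -/
def absSet (M : ℕ) : Set Ω :=
  {z | ∃ (x y : Ω) (h : (legendreΩ Ω l).toAffine.Nonsingular x y),
    M • Affine.Point.some x y h = 0 ∧ z = x}

variable (K) in
/-- The field of the coordinates. -/
def coordField (M : ℕ) : IntermediateField K Ω := IntermediateField.adjoin K (coordSet Ω l M)

variable (K) in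
/-- The field of the abscissae. -/
def absField (M : ℕ) : IntermediateField K Ω := IntermediateField.adjoin K (absSet Ω l M)

variable {Ω l}

lemma absField_le (M : ℕ) : absField K Ω l M ≤ coordField K Ω l M :=
  IntermediateField.adjoin.mono K _ _ fun _ ⟨x, y, h, hT, hz⟩ => ⟨x, y, h, hT, Or.inl hz⟩

lemma coordsIn_coordField {M n : ℕ} (hd : n ∣ M) : CoordsIn (coordField K Ω l M) l n := by
  intro T x y h hT
  obtain ⟨c, rfl⟩ := hd
  have h0 : (n * c) • Affine.Point.some x y h = 0 := by
    rw [mul_comm, mul_nsmul', ← hT, legTorsion_mem_iff.1 T.2, nsmul_zero]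
  exact ⟨IntermediateField.subset_adjoin K _ ⟨x, y, h, h0, Or.inl rfl⟩,
    IntermediateField.subset_adjoin K _ ⟨x, y, h, h0, Or.inr rfl⟩⟩

variable (hl : IsUnit l) (hl1 : IsUnit (1 - l))

include hl hl1 in
lemma finite_coordSet {M : ℕ} (hM : 1 ≤ M) : (coordSet Ω l M).Finite := by
  classical
  haveI := legendreΩ_isElliptic (Ω := Ω) hl hl1
  haveI := finite_torsionBy (legendreΩ Ω l) M hM
  let f : Submodule.torsionBy ℤ (legendreΩ Ω l).toAffine.Point (M : ℤ) → Set Ω := fun T =>
    match T.1 with
    | .zero => ∅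
    | .some x y _ => {x, y}
  refine (Set.finite_iUnion (f := f) fun T => ?_).subset ?_
  · rcases e : T.1 with _ | ⟨x, y, h⟩ <;> simp [f, e]
  · rintro z ⟨x, y, h, hT, hz⟩
    exact Set.mem_iUnion.2 ⟨⟨_, legTorsion_mem_iff.2 hT⟩, hz⟩

lemma aut_mem_coordSet (f : Ω →ₐ[K] Ω) {M : ℕ} {z : Ω} (hz : z ∈ coordSet Ω l M) :
    f z ∈ coordSet Ω l M := by
  obtain ⟨x, y, h, hT, hz⟩ := hz
  obtain ⟨h', e⟩ := autPoint_some (l := l) f h
  refine ⟨f x, f y, h', by rw [← e, ← map_nsmul, hT, map_zero], ?_⟩
  rcases hz with rfl | rfl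
  exacts [Or.inl rfl, Or.inr rfl]

lemma normal_coordField (M : ℕ) : Normal K (coordField K Ω l M) := by
  haveI : CharZero K := ((algebraMap K Ω).charZero_iff (algebraMap K Ω).injective).2 inferInstance
  haveI : IsAlgClosure K Ω := ⟨inferInstance, inferInstance⟩
  haveI : Normal K Ω := IsAlgClosure.normal K Ω
  rw [IntermediateField.normal_iff_forall_map_le]
  intro σ
  rw [coordField, IntermediateField.adjoin_map]
  exact IntermediateField.adjoin.mono K _ _ (by
    rintro _ ⟨z, hz, rfl⟩; exact aut_mem_coordSet σ hz)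

include hl hl1 in
lemma finiteDimensional_coordField {M : ℕ} (hM : 1 ≤ M) :
    FiniteDimensional K (coordField K Ω l M) := by
  haveI := (finite_coordSet (Ω := Ω) hl hl1 hM).to_subtype
  exact IntermediateField.finiteDimensional_adjoin fun x _ =>
    (Algebra.IsAlgebraic.isAlgebraic x).isIntegral

lemma isGalois_coordField (M : ℕ) : IsGalois K (coordField K Ω l M) := by
  haveI : CharZero K := ((algebraMap K Ω).charZero_iff (algebraMap K Ω).injective).2 inferInstance
  haveI := normal_coordField (K := K) (Ω := Ω) (l := l) M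
  exact ⟨⟩

end Fields

section Fix

variable (L : IntermediateField K Ω) [FiniteDimensional K L] [IsGalois K L]

/-- The points fixed by an automorphism of `L`. -/
def fixedPts (g : L ≃ₐ[K] L) : AddSubgroup (legendreΩ Ω l).toAffine.Point :=
  (autPoint (l := l) (liftAut L g)).eqLocus (AddMonoidHom.id _)

lemma mem_fixedPts {g : L ≃ₐ[K] L} {T : (legendreΩ Ω l).toAffine.Point} :
    T ∈ fixedPts (l := l) L g ↔ autPoint (liftAut L g) T = T :=
  Iff.rfl

variable {L}

/-- Fixing two coprime parts of the torsion fixes it. -/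
lemma fixedPts_coprime {g : L ≃ₐ[K] L} {a b : ℕ} (hab : Nat.Coprime a b)
    (ha : ∀ T, a • T = 0 → T ∈ fixedPts (l := l) L g)
    (hb : ∀ T, b • T = 0 → T ∈ fixedPts (l := l) L g) {T : (legendreΩ Ω l).toAffine.Point}
    (hT : (a * b) • T = 0) : T ∈ fixedPts (l := l) L g := by
  obtain ⟨u, v, huv⟩ : ∃ u v : ℤ, u * a + v * b = 1 := by
    have := hab.isCoprime
    exact this
  have h1 : a • T ∈ fixedPts (l := l) L g := hb _ (by rw [← mul_nsmul, hT])
  have h2 : b • T ∈ fixedPts (l := l) L g := ha _ (by rw [← mul_nsmul', hT])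
  have e : T = u • (a • T) + v • (b • T) := by
    rw [← natCast_zsmul T a, ← natCast_zsmul T b, smul_smul, smul_smul, ← add_smul, huv, one_smul]
  rw [e]
  exact add_mem ((fixedPts (l := l) L g).zsmul_mem h1 u) ((fixedPts (l := l) L g).zsmul_mem h2 v)

end Fix

/-- The data at a point of the field of abscissae. -/
theorem exists_generators_absField {q k j a M : ℕ} [Fact q.Prime] {t : R} (hB : BasePoint R l k q t)
    (h2 : IsUnit (2 : R)) (hj : 0 < j) (hqm : ¬ q ∣ 2 * j + 1)
    (hM : M = 2 ^ a * (q * (2 * j + 1))) (F : IntermediateField K Ω)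
    (hF : F = absField K Ω l M) (p : Ideal (integralClosure R F)) [p.IsMaximal]
    (hpq : (q : integralClosure R F) ∈ p) (hpt : algebraMap R (integralClosure R F) t ∈ p)
    {D : Type*} [CommRing D] [IsLocalRing D] [Algebra (integralClosure R F) D]
    [IsLocalization.AtPrime D p] :
    ∃ x y : integralClosure R F, maximalIdeal D =
      Ideal.span {algebraMap _ D x} ⊔ Ideal.span {algebraMap _ D y} := by
  classical
  have hqodd : q ≠ 2 := fun e => by have := hB.hq; omega
  have hl := hB.isUnit_l
  have hl1 := hB.isUnit_one_sub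
  haveI := legendreΩ_isElliptic (Ω := Ω) hl hl1
  have hM1 : 1 ≤ M := by
    have : 0 < 2 ^ a * (q * (2 * j + 1)) := by
      have := (Fact.out : q.Prime).pos
      positivity
    omega
  set L := coordField K Ω l M with hLdef
  haveI : FiniteDimensional K L := finiteDimensional_coordField hl hl1 hM1
  haveI : IsGalois K L := isGalois_coordField M
  have hFL : F ≤ L := hF ▸ absField_le M
  have hdq : 2 * k + 1 ∣ M := ⟨2 ^ a * (2 * j + 1), by rw [hM, ← hB.hq]; ring⟩
  have hdm : 2 * j + 1 ∣ M := ⟨2 ^ a * q, by rw [hM]; ring⟩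
  have hda : 2 ^ a ∣ M := ⟨q * (2 * j + 1), hM⟩
  have hLq : CoordsIn L l (2 * k + 1) := coordsIn_coordField hdq
  have hLm : CoordsIn L l (2 * j + 1) := coordsIn_coordField hdm
  obtain ⟨H⟩ := exists_hasCoords_intCl (k := k) hl hl1 hLq
  obtain ⟨H'⟩ := exists_hasCoords_intCl (k := j) hl hl1 hLm
  letI actq := galAction (n := 2 * k + 1) hLq
  letI actm := galAction (n := 2 * j + 1) hLm
  haveI := finite_torsionBy (legendreΩ Ω l) (2 * k + 1) (by omega)
  haveI := finite_torsionBy (legendreΩ Ω l) (2 * j + 1) (by omega)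
  letI : Fintype (LegTorsion Ω l (2 * k + 1)) := Fintype.ofFinite _
  letI : Fintype (LegTorsion Ω l (2 * j + 1)) := Fintype.ofFinite _
  haveI : IsIntegrallyClosed (IntCl R L) := isIntegrallyClosed_intCl L
  haveI : IsNoetherianRing (IntCl R L) := isNoetherianRing_intCl L
  haveI : FaithfulSMul R (IntCl R L) := faithfulSMul_intCl L
  -- the inclusion
  let ι : integralClosure R F →+* IntCl R L :=
    ((IntermediateField.inclusion hFL).toRingHom.comp
      (integralClosure R F).val.toRingHom).codRestrict (IntCl R L) fun b => by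
        exact (isIntegral_algHom_iff ((IntermediateField.inclusion hFL).restrictScalars R)
          (IntermediateField.inclusion_injective hFL)).2 b.2
  letI : Algebra (integralClosure R F) (IntCl R L) := ι.toAlgebra
  have hιR : ∀ r : R, ι (algebraMap R _ r) = algebraMap R (IntCl R L) r := fun r =>
    Subtype.ext (Subtype.ext rfl)
  have hinj : Function.Injective ι := fun x y e => Subtype.ext
    (IntermediateField.inclusion_injective hFL (congrArg Subtype.val e))
  haveI : Algebra.IsIntegral (integralClosure R F) (IntCl R L) := ⟨fun b => by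
    obtain ⟨P, hP, hPe⟩ := integralClosure.isIntegral b
    refine ⟨P.map (algebraMap R _), hP.map _, ?_⟩
    rw [eval₂_map, show (algebraMap (integralClosure R F) (IntCl R L)).comp (algebraMap R _) =
      algebraMap R (IntCl R L) from RingHom.ext hιR]
    exact hPe⟩
  obtain ⟨m, hm, hmp⟩ := Ideal.exists_ideal_over_maximal_of_isIntegral (S := IntCl R L) p
    (le_of_eq_of_le ((RingHom.injective_iff_ker_eq_bot _).1 hinj) bot_le)
  have hn : ∀ b, b ∈ p ↔ algebraMap (integralClosure R F) (IntCl R L) b ∈ m := fun b => by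
    rw [← hmp]; rfl
  have hqm' : (q : IntCl R L) ∈ m := by
    have := (hn _).1 hpq
    rwa [map_natCast] at this
  have htm : algebraMap R (IntCl R L) t ∈ m := by
    have := (hn _).1 hpt
    rwa [show algebraMap (integralClosure R F) (IntCl R L) (algebraMap R _ t) = _ from hιR t] at this
  have S := legSetup_of_basePoint hB hLq H
  have hle : ∀ r ∈ Ideal.span {(q : R), t}, algebraMap R (IntCl R L) r ∈ m := fun r hr =>
    (S.mem_m_iff hqm' htm r).2 hr
  -- the stabiliser acts faithfully on the torsion of order `q`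
  have hfix : ∀ g : L ≃ₐ[K] L, g • m = m →
      (∀ T : LegTorsion Ω l (2 * k + 1), g • T = T) → g = 1 := by
    intro g hg hT
    have hq' : ∀ T : (legendreΩ Ω l).toAffine.Point, q • T = 0 → T ∈ fixedPts (l := l) L g :=
      fun T hTq => congrArg Subtype.val (hT ⟨T, legTorsion_mem_iff.2 (hB.hq ▸ hTq)⟩)
    have hm' : ∀ T : (legendreΩ Ω l).toAffine.Point, (2 * j + 1) • T = 0 →
        T ∈ fixedPts (l := l) L g := fun T hTm => congrArg Subtype.val
      (smul_eq_of_not_dvd (q := q) hqodd hqm hl hl1 H' (fun σ T => (coords_smul hLm H' σ T).1)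
        (fun σ T => (coords_smul hLm H' σ T).2) hB.splits hle hqm' hg ⟨T, legTorsion_mem_iff.2 hTm⟩)
    have h2a := autPoint_two_power L hl hl1 h2 hB.splits hle hg a (coordsIn_coordField hda)
    have hall : ∀ T : (legendreΩ Ω l).toAffine.Point, M • T = 0 → T ∈ fixedPts (l := l) L g := by
      intro T hTM
      have hodd : Nat.Coprime (2 ^ a) (q * (2 * j + 1)) := by
        refine Nat.Coprime.pow_left a ((Nat.coprime_two_left).2 ?_)
        rw [hB.hq]
        exact (odd_two_mul_add_one k).mul (odd_two_mul_add_one j)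
      refine fixedPts_coprime hodd h2a (fun S hS => ?_) (hM ▸ hTM)
      exact fixedPts_coprime ((Fact.out : q.Prime).coprime_iff_not_dvd.2 hqm) hq' hm' hS
    refine AlgEquiv.ext fun z => Subtype.ext ?_
    rw [← liftAut_coe L g z]
    show liftAut L g (z : Ω) = z
    refine IntermediateField.adjoin_induction K (p := fun z _ => liftAut L g z = z) ?_ ?_ ?_ ?_ ?_
      (z.2 : (z : Ω) ∈ IntermediateField.adjoin K (coordSet Ω l M))
    · rintro _ ⟨x, y, h, hTM, hz⟩
      obtain ⟨h', e⟩ := autPoint_some (l := l) (liftAut L g) h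
      have := hall _ hTM
      rw [mem_fixedPts, e, Affine.Point.some.injEq] at this
      rcases hz with rfl | rfl
      exacts [this.1, this.2]
    · exact fun x => (liftAut L g).commutes x
    · intro x y _ _ hx hy; rw [map_add, hx, hy]
    · intro x _ hx; rw [map_inv₀, hx]
    · intro x y _ _ hx hy; rw [map_mul, hx, hy]
  -- two generators upstairs
  obtain ⟨P, hP, hPm⟩ := S.exists_mem_kernel hqm' htm
  obtain ⟨A, B, hC⟩ : ∃ A B : Localization.AtPrime m,
      maximalIdeal (Localization.AtPrime m) = Ideal.span {A} ⊔ Ideal.span {B} := by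
    by_cases hh : (Fermat.Agent.Moduli.hasse R k).eval l ∈ Ideal.span {(q : R), t}
    · obtain ⟨Q, hQ⟩ : ∃ Q : LegTorsion Ω l (2 * k + 1), Q ∉ AddSubgroup.zmultiples P := by
        by_contra hall
        push Not at hall
        have hcard : Nat.card (LegTorsion Ω l (2 * k + 1)) ≤ 2 * k + 1 := by
          have h1 : Nat.card (LegTorsion Ω l (2 * k + 1)) = Nat.card (AddSubgroup.zmultiples P) :=
            Nat.card_congr (Equiv.subtypeUnivEquiv hall).symm
          rw [h1, Nat.card_zmultiples]
          exact Nat.le_of_dvd (by omega) (addOrderOf_dvd_of_nsmul_eq_zero (legTorsion_nsmul' P))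
        rw [natCard_torsionBy (legendreΩ Ω l) _ (by omega), sq] at hcard
        have h3 : 3 ≤ 2 * k + 1 := by
          have := (Fact.out : q.Prime).two_le; have := hB.hq; omega
        have := le_of_mul_le_mul_left (hcard.trans (le_of_eq (mul_one _).symm)) (by omega)
        omega
      exact ⟨_, _, (S.supersingular (C := Localization.AtPrime m) hqm' htm hfix hh hP hQ).1⟩
    · obtain ⟨Q, hQ⟩ : ∃ Q, H.z Q ∉ m :=
        not_forall.1 fun hall => hh ((S.all_mem_iff hqm' htm).1 hall)
      obtain ⟨e, μ₀, he, -⟩ := S.ordinary (C := Localization.AtPrime m) hqm' htm hfix hh hP hPm hQ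
      exact ⟨_, _, he⟩
  -- the group fixing the abscissae
  let FL : IntermediateField K L := IntermediateField.restrict hFL
  let Hs : Subgroup (L ≃ₐ[K] L) := FL.fixingSubgroup
  haveI : Fintype Hs := Fintype.ofFinite _
  have hfixF : ∀ (h : Hs) (z : L), (z : Ω) ∈ F → (h : L ≃ₐ[K] L) z = z := fun h z hz =>
    (IntermediateField.mem_fixingSubgroup_iff FL h.1).1 h.2 z ((IntermediateField.mem_restrict hFL z).2 hz)
  haveI : SMulCommClass Hs (integralClosure R F) (IntCl R L) := ⟨fun h b c => by
    rw [Algebra.smul_def, Algebra.smul_def, smul_mul']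
    congr 1
    exact Subtype.ext (hfixF h _ b.1.2)⟩
  have hinv : ∀ b : IntCl R L, (∀ h : Hs, h • b = b) →
      ∃ x : integralClosure R F, algebraMap (integralClosure R F) (IntCl R L) x = b := by
    intro b hb
    have hbF : (b : L) ∈ IntermediateField.fixedField Hs :=
      (IntermediateField.mem_fixedField_iff _ _).2 fun f hf => congrArg Subtype.val (hb ⟨f, hf⟩)
    rw [show IntermediateField.fixedField Hs = FL from IsGalois.fixedField_fixingSubgroup FL,
      IntermediateField.mem_restrict] at hbF
    refine ⟨⟨⟨_, hbF⟩, ?_⟩, Subtype.ext (Subtype.ext rfl)⟩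
    refine (isIntegral_algHom_iff ((IntermediateField.inclusion hFL).restrictScalars R)
      (IntermediateField.inclusion_injective hFL)).1 ?_
    exact b.2
  have hfree : ∀ h : Hs, h • m = m → h = 1 := by
    intro h hh
    refine Subtype.ext (hfix h.1 hh fun T => ?_)
    by_contra hne
    obtain ⟨S', hS'⟩ : ∃ S' : LegTorsion Ω l (2 * j + 1), S' ≠ 0 := by
      by_contra hall
      push Not at hall
      haveI : Subsingleton (LegTorsion Ω l (2 * j + 1)) := ⟨fun x y => (hall x).trans (hall y).symm⟩
      have := natCard_torsionBy (legendreΩ Ω l) (2 * j + 1) (by omega)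
      rw [Nat.card_of_subsingleton (0 : LegTorsion Ω l (2 * j + 1))] at this
      nlinarith
    have hS'fix : autPoint (liftAut L h.1) S'.1 = S'.1 := congrArg Subtype.val
      (smul_eq_of_not_dvd (q := q) hqodd hqm hl hl1 H' (fun σ T => (coords_smul hLm H' σ T).1)
        (fun σ T => (coords_smul hLm H' σ T).2) hB.splits hle hqm' hh S')
    set U := T.1 + S'.1
    have hU : M • U = 0 := by
      obtain ⟨c, hc⟩ := hdq
      obtain ⟨c', hc'⟩ := hdm
      rw [nsmul_add]
      conv_lhs =>
        congr
        · rw [hc, mul_comm, mul_nsmul', legTorsion_nsmul T, nsmul_zero]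
        · rw [hc', mul_comm, mul_nsmul', legTorsion_nsmul S', nsmul_zero]
      exact add_zero _
    have hpm : autPoint (liftAut L h.1) U = U ∨ autPoint (liftAut L h.1) U = -U := by
      rcases eU : U with _ | ⟨x, y, hxy⟩
      · exact Or.inl (map_zero _)
      · obtain ⟨hxy', e⟩ := autPoint_some (l := l) (liftAut L h.1) hxy
        have hx : x ∈ F := hF ▸ IntermediateField.subset_adjoin K _ ⟨x, y, hxy, eU ▸ hU, rfl⟩
        have ex : liftAut L h.1 x = x := by
          rw [show x = ((⟨x, hFL hx⟩ : L) : Ω) from rfl, liftAut_coe, hfixF h _ hx]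
        have he2 := equation_legendre hxy'.1
        rw [ex, ← equation_legendre hxy.1] at he2
        rw [e, Affine.Point.neg_some, Affine.Point.some.injEq, Affine.Point.some.injEq,
          negY_legendre]
        rcases eq_or_eq_neg_of_sq_eq_sq _ _ he2 with e' | e'
        exacts [Or.inl ⟨ex, e'⟩, Or.inr ⟨ex, e'⟩]
    rcases hpm with e | e
    · rw [map_add, hS'fix, add_left_inj] at e
      exact hne (Subtype.ext e)
    · rw [map_add, hS'fix] at e
      have h2S : autPoint (liftAut L h.1) T.1 = -T.1 - 2 • S'.1 := by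
        rw [eq_sub_of_add_eq e, neg_add, two_nsmul]; abel
      have hq2 : (2 * k + 1) • (2 • S'.1) = 0 := by
        have h0 := congrArg ((2 * k + 1) • ·) h2S
        simp only [← map_nsmul, nsmul_sub, smul_neg, legTorsion_nsmul T, map_zero, neg_zero,
          zero_sub] at h0
        exact neg_eq_zero.1 h0.symm
      apply hS'
      apply Subtype.ext
      refine AddMonoid.addOrderOf_eq_one_iff.1 ?_
      have d1 : addOrderOf S'.1 ∣ (2 * k + 1) * 2 :=
        addOrderOf_dvd_of_nsmul_eq_zero (by rw [mul_nsmul', hq2])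
      have d2 : addOrderOf S'.1 ∣ 2 * j + 1 := addOrderOf_dvd_of_nsmul_eq_zero (legTorsion_nsmul S')
      refine Nat.eq_one_of_dvd_coprimes ?_ d1 d2
      rw [← hB.hq]
      exact Nat.Coprime.mul_left ((Fact.out : q.Prime).coprime_iff_not_dvd.2 hqm)
        (Nat.coprime_two_left.2 (odd_two_mul_add_one j))
  obtain ⟨x, y, hD, -⟩ := exists_generators_of_free (H := Hs) (D := D) hinv hinj m hfree p hn hC
  exact ⟨x, y, hD⟩

end Fermat.Agent.Moduli
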