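import Fermat.Agent.Moduli.LegBase
import Fermat.Agent.Moduli.Level
import Fermat.Agent.Moduli.FieldGen

/-!
# The level field as the field of abscissae of the Legendre curve

For a base `R` with fraction field `K₀` inside the level field, containing the parameter and the
unramified constants, there are an algebraic closure of `K₀`, an embedding of the level field onto
the field of abscissae of `M`-torsion, and the division points as a homomorphism.
-/

set_option autoImplicit false
set_option linter.style.haveILetI false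
set_option linter.unusedSectionVars false

noncomputable section

namespace Fermat.Agent.Moduli

open Polynomial IsLocalRing WeierstrassCurve Fermat.Agent.EC
open Fermat.Agent.GalRep Fermat.Agent.ModField
open Fermat.Agent.GalRep.Model (Lev NZ)

section PointMap

variable {R : Type*} [CommRing R] {A B : Type*} [Field A] [Field B] [DecidableEq A] [DecidableEq B]
  [Algebra R A] [Algebra R B] (l : R) (f : A →ₐ[R] B)

/-- A change of field on the Legendre points. -/
def legMap : (legendreΩ A l).toAffine.Point →+ (legendreΩ B l).toAffine.Point :=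
  (castPoint (map_legendre (algebraMap R B) l)).toAddMonoidHom.comp
    ((Affine.Point.map (W' := (legendre l).toAffine) f).comp
      (castPoint (map_legendre (algebraMap R A) l)).symm.toAddMonoidHom)

lemma legMap_some {x y : A} (h : (legendreΩ A l).toAffine.Nonsingular x y) :
    ∃ h', legMap l f (Affine.Point.some x y h) = Affine.Point.some (f x) (f y) h' := by
  set e := map_legendre (algebraMap R A) l
  have h0 : (castPoint e).symm (Affine.Point.some x y h) =
      Affine.Point.some x y (e.symm ▸ h) := by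
    rw [AddEquiv.symm_apply_eq, castPoint_some]
  have h1 : legMap l f (Affine.Point.some x y h) =
      castPoint (map_legendre (algebraMap R B) l)
        (Affine.Point.map (W' := (legendre l).toAffine) f
          ((castPoint e).symm (Affine.Point.some x y h))) := rfl
  rw [h0] at h1
  exact ⟨_, h1.trans ((congrArg _ (Affine.Point.map_some f _)).trans (castPoint_some _ _))⟩

lemma legMap_injective : Function.Injective (legMap l f) := by
  rw [injective_iff_map_eq_zero]
  intro P hP
  rcases P with _ | ⟨x, y, h⟩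
  · rfl
  · obtain ⟨h', e⟩ := legMap_some l f h
    rw [e] at hP
    exact absurd hP (Affine.Point.some_ne_zero _)

end PointMap

variable {W : Type} [CommRing W] {O : Type} [CommRing O] [IsDomain O] [Algebra W O]
  {M : ℕ} [NeZero M] (E : Emb O M)

/-- The level field inside an algebraic closure of the base, with the division points. -/
structure AbsBridge (L : Lev M) (R : Type) [CommRing R] (K₀ : Type) [Field K₀] [Algebra R K₀]
    [Algebra K₀ (Fld E)] (l : R) where
  /-- The algebraic closure. -/
  Ω : Type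
  [instField : Field Ω]
  [instIsAlgClosed : IsAlgClosed Ω]
  [instCharZero : CharZero Ω]
  [instDecEq : DecidableEq Ω]
  [instAlgK : Algebra K₀ Ω]
  [instAlgR : Algebra R Ω]
  [instTower : IsScalarTower R K₀ Ω]
  [instFaithful : FaithfulSMul R Ω]
  [instIsAlgebraic : Algebra.IsAlgebraic K₀ Ω]
  /-- The embedding. -/
  ι : Fld E →ₐ[K₀] Ω
  range_eq : ι.fieldRange = absField K₀ Ω l M
  /-- The division points. -/
  P : ℤ × ℤ →+ (legendreΩ Ω l).toAffine.Point
  P_eq_zero : ∀ u, P u = 0 ↔ ¬ NZ M u
  P_surj : ∀ T, M • T = 0 → ∃ u, P u = T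
  P_abs : ∀ u (hu : NZ M u), ∃ y h, P u = Affine.Point.some (ι (absF E L u hu)) y h

attribute [instance] AbsBridge.instField AbsBridge.instIsAlgClosed AbsBridge.instCharZero
  AbsBridge.instDecEq AbsBridge.instAlgK AbsBridge.instAlgR AbsBridge.instTower
  AbsBridge.instFaithful AbsBridge.instIsAlgebraic

/-- The bridge exists. -/
theorem nonempty_absBridge (L : Lev M) (hLm : L.m = 2) {R : Type} [CommRing R] [IsDomain R]
    [IsIntegrallyClosed R] [IsNoetherianRing R] {K₀ : Type} [Field K₀] [Algebra R K₀]
    [IsFractionRing R K₀] [Algebra R (Fld E)] [Algebra K₀ (Fld E)] [IsScalarTower R K₀ (Fld E)]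
    {l : R} {q : ℕ} (hgen : Algebra.adjoin W {E.ζ} = ⊤)
    (hζ : ∃ c : W, algebraMap W O c = E.ζ ^ q) (hMq : ¬ M ∣ 2 * q)
    (hlu : IsUnit l) (hl1u : IsUnit (1 - l)) (hfl : algebraMap R (Fld E) l = lamF E L)
    (hconst : ∀ y ∈ Set.range ((algebraMap O (Fld E)).comp (algebraMap W O)),
      ∃ c : K₀, algebraMap K₀ (Fld E) c = y) :
    Nonempty (AbsBridge E L R K₀ l) := by
  classical
  have hRF : Function.Injective (algebraMap R (Fld E)) := by
    rw [IsScalarTower.algebraMap_eq R K₀ (Fld E)]
    exact (algebraMap K₀ (Fld E)).injective.comp (IsFractionRing.injective R K₀)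
  -- the ambient field
  haveI := charZero_germC ultraInf
  let Ω₀ := AlgebraicClosure (GermC ultraInf)
  haveI : CharZero Ω₀ := charZero_of_injective_ringHom (algebraMap (GermC ultraInf) Ω₀).injective
  letI : Algebra R (GermC ultraInf) := ((fldGerm E).comp (algebraMap R (Fld E))).toAlgebra
  letI : Algebra K₀ (GermC ultraInf) := ((fldGerm E).comp (algebraMap K₀ (Fld E))).toAlgebra
  haveI : IsScalarTower R K₀ (GermC ultraInf) := IsScalarTower.of_algebraMap_eq fun r =>
    congrArg (fldGerm E) (IsScalarTower.algebraMap_apply R K₀ (Fld E) r)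
  let i₀ : Fld E →+* Ω₀ := (algebraMap (GermC ultraInf) Ω₀).comp (fldGerm E)
  have hR₀ : ∀ r, algebraMap R Ω₀ r = i₀ (algebraMap R (Fld E) r) := fun r =>
    IsScalarTower.algebraMap_apply R (GermC ultraInf) Ω₀ r
  have hK₀ : ∀ x, algebraMap K₀ Ω₀ x = i₀ (algebraMap K₀ (Fld E) x) := fun x =>
    IsScalarTower.algebraMap_apply K₀ (GermC ultraInf) Ω₀ x
  haveI : IsScalarTower R K₀ Ω₀ := IsScalarTower.of_algebraMap_eq fun r => by
    rw [hR₀, hK₀]
    exact congrArg i₀ (IsScalarTower.algebraMap_apply R K₀ (Fld E) r)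
  haveI : FaithfulSMul R Ω₀ :=
    (faithfulSMul_iff_algebraMap_injective R Ω₀).2 fun x y e =>
      hRF (i₀.injective (by rw [← hR₀, ← hR₀, e]))
  let gG : GermC ultraInf →ₐ[R] Ω₀ :=
    { algebraMap (GermC ultraInf) Ω₀ with commutes' := fun r => (hR₀ r).symm }
  have hlG : algebraMap R (GermC ultraInf) l = lamG E L := by
    show fldGerm E (algebraMap R (Fld E) l) = _
    rw [hfl]
  let iK : Fld E →ₐ[K₀] Ω₀ := { i₀ with commutes' := fun x => (hK₀ x).symm }
  let Ωs : IntermediateField K₀ Ω₀ := algebraicClosure K₀ Ω₀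
  haveI : IsAlgClosure K₀ Ωs := algebraicClosure.isAlgClosure K₀ Ω₀
  haveI : IsAlgClosed Ωs := IsAlgClosure.isAlgClosed K₀
  haveI : Algebra.IsAlgebraic K₀ Ωs := algebraicClosure.isAlgebraic K₀ Ω₀
  haveI : CharZero K₀ :=
    ((algebraMap K₀ Ω₀).charZero_iff (algebraMap K₀ Ω₀).injective).2 inferInstance
  haveI : CharZero Ωs := charZero_of_injective_ringHom (algebraMap K₀ Ωs).injective
  haveI : FaithfulSMul R Ωs := (faithfulSMul_iff_algebraMap_injective R Ωs).2 fun x y e =>
    FaithfulSMul.algebraMap_injective R Ω₀ (congrArg Subtype.val e)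
  let jΩ : Ωs →ₐ[R] Ω₀ := Ωs.val.restrictScalars R
  have hΩs : ∀ r, ((algebraMap R Ωs r : Ωs) : Ω₀) = algebraMap R Ω₀ r := fun r => rfl
  haveI := legendreΩ_isElliptic (Ω := Ω₀) hlu hl1u
  haveI := legendre_isElliptic (Ω := Ω₀) hlu hl1u
  haveI := legendreΩ_isElliptic (Ω := Ωs) hlu hl1u
  have hM1 : 1 ≤ M := NeZero.pos M
  -- division points over `Ω₀`
  obtain ⟨P, hP0, hPx⟩ := exists_divisionHom E L hLm
  have ecurve : legendre (lamG E L) = legendreΩ (GermC ultraInf) l := by rw [legendreΩ, hlG]
  let P₀ : ℤ × ℤ →+ (legendreΩ Ω₀ l).toAffine.Point :=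
    (legMap l gG).comp ((castPoint ecurve).toAddMonoidHom.comp P)
  have hP₀0 : ∀ u, P₀ u = 0 ↔ ¬ NZ M u := fun u => by
    rw [← hP0 u]
    exact ⟨fun h => (castPoint ecurve).injective
      ((legMap_injective l gG (h.trans (map_zero _).symm)).trans (map_zero _).symm),
      fun h => by simp [P₀, h]⟩
  have hP₀x : ∀ u (hu : NZ M u), ∃ y h,
      P₀ u = Affine.Point.some (iK (absF E L u hu)) y h := fun u hu => by
    obtain ⟨y, h, e⟩ := hPx u hu
    have e1 : castPoint ecurve (P u) = Affine.Point.some _ y (ecurve ▸ h) := by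
      rw [e, castPoint_some]
    obtain ⟨h', e2⟩ := legMap_some l gG (ecurve ▸ h :
      (legendreΩ (GermC ultraInf) l).toAffine.Nonsingular (fldGerm E (quadF E (absQuad L u hu))) y)
    refine ⟨_, h', ?_⟩
    show legMap l gG (castPoint ecurve (P u)) = _
    rw [e1]
    exact e2
  have hPM : ∀ u, M • P₀ u = 0 := fun u => by
    rw [← map_nsmul, hP₀0]
    rw [NZ, not_not]
    simp only [Prod.smul_fst, Prod.smul_snd, nsmul_eq_mul] at *
    exact ⟨dvd_mul_right _ _, dvd_mul_right _ _⟩
  have hsurj : ∀ T : (legendreΩ Ω₀ l).toAffine.Point, M • T = 0 → ∃ u, P₀ u = T := by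
    haveI := finite_torsionBy (legendreΩ Ω₀ l) M hM1
    let ι : ZMod M × ZMod M → Submodule.torsionBy ℤ (legendreΩ Ω₀ l).toAffine.Point (M : ℤ) :=
      fun p => ⟨P₀ ((p.1.val : ℤ), (p.2.val : ℤ)), legTorsion_mem_iff.2 (hPM _)⟩
    have hι : Function.Injective ι := fun p p' h => by
      have h' : P₀ (((p.1.val : ℤ), (p.2.val : ℤ)) - ((p'.1.val : ℤ), (p'.2.val : ℤ))) = 0 := by
        rw [map_sub, sub_eq_zero]; exact congrArg Subtype.val h
      rw [hP₀0, NZ, not_not] at h'
      simp only [Prod.fst_sub, Prod.snd_sub, ← ZMod.intCast_zmod_eq_zero_iff_dvd, Int.cast_sub,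
        Int.cast_natCast, ZMod.natCast_zmod_val, sub_eq_zero] at h'
      exact Prod.ext h'.1 h'.2
    have hbij := hι.bijective_of_nat_card_le (by
      rw [natCard_torsionBy (legendreΩ Ω₀ l) M hM1, Nat.card_prod, Nat.card_zmod, sq])
    intro T hT
    obtain ⟨p, hp⟩ := hbij.2 ⟨T, legTorsion_mem_iff.2 hT⟩
    exact ⟨_, congrArg Subtype.val hp⟩
  -- the level field is algebraic over the base
  obtain ⟨A, b, hab⟩ := exists_mulPair (W := legendre l)
    (FaithfulSMul.algebraMap_injective R Ω₀) M hM1
  have halg : ∀ {x y : Ω₀} (h : (legendreΩ Ω₀ l).toAffine.Nonsingular x y),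
      M • Affine.Point.some x y h = 0 → x ∈ Ωs ∧ y ∈ Ωs := by
    intro x y h hT
    have hb := (eval_b_eq_zero_iff_of_eq hlu hl1u hab (map_legendre _ _) h).2 hT
    have hbne : b ≠ 0 := fun e => by
      have := hab.coeff_b
      rw [e, coeff_zero, eq_comm, pow_eq_zero_iff two_ne_zero] at this
      have h' := congrArg (algebraMap R Ω₀) this
      rw [map_natCast, map_zero] at h'
      exact NeZero.ne M (Nat.cast_eq_zero.1 h')
    have hx : IsAlgebraic K₀ x := by
      refine ⟨b.map (algebraMap R K₀),
        (Polynomial.map_ne_zero_iff (IsFractionRing.injective R K₀)).2 hbne, ?_⟩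
      rw [aeval_map_algebraMap, aeval_def, eval₂_eq_eval_map]
      exact hb
    refine ⟨mem_algebraicClosure_iff.2 hx, mem_algebraicClosure_iff'.2 (.of_pow two_pos ?_)⟩
    have hxi := hx.isIntegral
    rw [equation_legendre h.1, IsScalarTower.algebraMap_apply R K₀ Ω₀]
    exact ((hxi.pow 3).sub ((isIntegral_one.add isIntegral_algebraMap).mul (hxi.pow 2))).add
      (isIntegral_algebraMap.mul hxi)
  have hiKmem : ∀ x, iK x ∈ Ωs := by
    intro x
    have htop : (⊤ : Subfield (Fld E)) ≤ (Ωs.comap iK).toSubfield := by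
      rw [← closure_absF_base_eq_top E hLm hgen hζ hMq, Subfield.closure_le]
      rintro y (hy | ⟨u, hu, rfl⟩)
      · show iK y ∈ Ωs
        obtain ⟨c, rfl⟩ := hconst y hy
        rw [AlgHom.commutes]
        exact Ωs.algebraMap_mem _
      · obtain ⟨y', h', e⟩ := hP₀x u hu
        exact (halg h' (e ▸ hPM u)).1
    exact htop (Subfield.mem_top x)
  let jA : Fld E →ₐ[K₀] Ωs := iK.codRestrict Ωs.toSubalgebra hiKmem
  have hrange : jA.fieldRange = absField K₀ Ωs l M := by
    apply le_antisymm
    · rintro _ ⟨x, rfl⟩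
      have htop : (⊤ : Subfield (Fld E)) ≤ ((absField K₀ Ωs l M).comap jA).toSubfield := by
        rw [← closure_absF_base_eq_top E hLm hgen hζ hMq, Subfield.closure_le]
        rintro y (hy | ⟨u, hu, rfl⟩)
        · show jA y ∈ absField K₀ Ωs l M
          obtain ⟨c, rfl⟩ := hconst y hy
          rw [AlgHom.commutes]
          exact (absField K₀ Ωs l M).algebraMap_mem _
        · obtain ⟨y', h', e⟩ := hP₀x u hu
          obtain ⟨hxm, hym⟩ := halg h' (e ▸ hPM u)
          have hns : (legendreΩ Ωs l).toAffine.Nonsingular (⟨_, hxm⟩ : Ωs) ⟨y', hym⟩ := by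
            refine Affine.equation_iff_nonsingular.1 ((Affine.equation_iff ..).2 (Subtype.ext ?_))
            have he := (Affine.equation_iff ..).1 h'.1
            simp only [legendre] at he ⊢
            simp only [hΩs, MulMemClass.coe_mul, AddMemClass.coe_add,
              NegMemClass.coe_neg, SubmonoidClass.coe_pow, ZeroMemClass.coe_zero,
              OneMemClass.coe_one]
            linear_combination he
          refine IntermediateField.subset_adjoin K₀ _ ⟨_, _, hns, ?_, rfl⟩
          apply legMap_injective l jΩ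
          rw [map_nsmul, map_zero]
          obtain ⟨hn', en⟩ := legMap_some l jΩ hns
          rw [en]
          exact (congrArg (M • ·) e).symm.trans (hPM u)
      exact htop (Subfield.mem_top x)
    · refine IntermediateField.adjoin_le_iff.2 ?_
      rintro z ⟨x, y, h, hT, hz⟩
      obtain ⟨hn', en⟩ := legMap_some l jΩ h
      obtain ⟨u, hu⟩ := hsurj (legMap l jΩ (Affine.Point.some x y h))
        (by rw [← map_nsmul, hT, map_zero])
      have hu' : NZ M u := by
        by_contra h0
        rw [← hP₀0] at h0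
        rw [h0, en] at hu
        exact Affine.Point.some_ne_zero _ hu.symm
      obtain ⟨y', h', e⟩ := hP₀x u hu'
      rw [e, en, Affine.Point.some.injEq] at hu
      exact ⟨absF E L u hu', hz ▸ Subtype.ext hu.1⟩
  have hP₀mem : ∀ u, ∃ T : (legendreΩ Ωs l).toAffine.Point, legMap l jΩ T = P₀ u := fun u => by
    by_cases hu : NZ M u
    · obtain ⟨y', h', e⟩ := hP₀x u hu
      obtain ⟨hxm, hym⟩ := halg h' (e ▸ hPM u)
      have hns : (legendreΩ Ωs l).toAffine.Nonsingular (⟨_, hxm⟩ : Ωs) ⟨y', hym⟩ := by
        refine Affine.equation_iff_nonsingular.1 ((Affine.equation_iff ..).2 (Subtype.ext ?_))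
        have he := (Affine.equation_iff ..).1 h'.1
        simp only [legendre] at he ⊢
        simpa [hΩs] using he
      obtain ⟨hn', en⟩ := legMap_some l jΩ hns
      exact ⟨_, en.trans e.symm⟩
    · exact ⟨0, (map_zero _).trans ((hP₀0 u).2 hu).symm⟩
  choose PΩ hPΩ using hP₀mem
  refine ⟨{
    Ω := Ωs
    ι := jA
    range_eq := hrange
    P := AddMonoidHom.mk' PΩ fun u v => legMap_injective l jΩ (by
      rw [map_add, hPΩ, hPΩ, hPΩ, map_add])
    P_eq_zero := fun u => by
      rw [← hP₀0 u, ← hPΩ u]
      exact ⟨fun h => by rw [show PΩ u = 0 from h, map_zero],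
        fun h => legMap_injective l jΩ (h.trans (map_zero _).symm)⟩
    P_surj := fun T hT => by
      obtain ⟨u, hu⟩ := hsurj (legMap l jΩ T) (by rw [← map_nsmul, hT, map_zero])
      exact ⟨u, legMap_injective l jΩ (by
        show legMap l jΩ (PΩ u) = _
        rw [hPΩ, hu])⟩
    P_abs := fun u hu => by
      obtain ⟨y', h', e⟩ := hP₀x u hu
      rcases hT : PΩ u with _ | ⟨x, y, h⟩
      · have := hPΩ u
        rw [hT, e] at this
        exact absurd ((map_zero _).symm.trans this).symm (Affine.Point.some_ne_zero _)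
      · obtain ⟨hn', en⟩ := legMap_some l jΩ h
        have := hPΩ u
        rw [hT, en, e, Affine.Point.some.injEq] at this
        have hx : x = jA (absF E L u hu) := Subtype.ext this.1
        subst hx
        exact ⟨y, h, hT⟩ }⟩

/-! ## The base inside the level field -/

section Base

variable [IsDomain W] [IsDiscreteValuationRing W] [Algebra W (Fld E)] [IsScalarTower W O (Fld E)]
  (L : Lev M) (hLm : L.m = 2) (hWO : Function.Injective (algebraMap W O))

include hLm hWO in
lemma aeval_lamF_injective : Function.Injective (aeval (lamF E L) : W[X] → Fld E) := by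
  rw [injective_iff_map_eq_zero]
  intro P hP
  by_contra h0
  refine aeval_lamF_ne_zero E hLm (P := P.map (algebraMap W O))
    ((Polynomial.map_ne_zero_iff hWO).2 h0) ?_
  rwa [aeval_map_algebraMap]

include hLm hWO in
lemma isUnit_aeval_legDisc : IsUnit ((aeval (lamF E L) : W[X] →ₐ[W] Fld E).toRingHom (legDisc W)) := by
  rw [isUnit_iff_ne_zero]
  exact (map_ne_zero_iff _ (aeval_lamF_injective E L hLm hWO)).2 legDisc_ne_zero

/-- The base inside the level field. -/
def baseHom : LegBase W →+* Fld E :=
  IsLocalization.Away.lift (legDisc W) (isUnit_aeval_legDisc E L hLm hWO)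

lemma baseHom_algebraMap (P : W[X]) :
    baseHom E L hLm hWO (algebraMap W[X] (LegBase W) P) = aeval (lamF E L) P :=
  IsLocalization.Away.lift_eq _ _ P

lemma baseHom_legVar : baseHom E L hLm hWO (legVar W) = lamF E L := by
  rw [legVar, baseHom_algebraMap, aeval_X]

lemma baseHom_C (w : W) :
    baseHom E L hLm hWO (algebraMap W[X] (LegBase W) (C w)) =
      algebraMap O (Fld E) (algebraMap W O w) := by
  rw [baseHom_algebraMap, aeval_C, IsScalarTower.algebraMap_apply W O (Fld E)]

lemma baseHom_injective : Function.Injective (baseHom E L hLm hWO) := by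
  rw [injective_iff_map_eq_zero]
  intro r hr
  obtain ⟨P, n, hP⟩ := exists_legBase_mul r
  have : aeval (lamF E L) P = 0 := by
    rw [← baseHom_algebraMap E L hLm hWO, ← hP, map_mul, hr, zero_mul]
  rw [← map_zero (aeval (lamF E L) : W[X] →ₐ[W] Fld E),
    (aeval_lamF_injective E L hLm hWO).eq_iff] at this
  rw [this, map_zero] at hP
  exact (mul_eq_zero.1 hP).resolve_right (by
    rw [map_pow]
    exact (IsLocalization.Away.algebraMap_isUnit (S := LegBase W) (legDisc W)).pow n |>.ne_zero)

end Base

end Fermat.Agent.Moduli
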