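import Fermat.Agent.EC.Torsion

/-!
# The level three family at residue characteristic two

`y² + 3t xy + (t³ - 1) y = x³` has discriminant `27 (t³ - 1)³`.  Its points of order two are
`(-1/z², 1/z³)` for the roots of `(t³ - 1) z³ - 3t z + 2`; torsion of odd order stays distinct in
characteristic two.
-/

set_option autoImplicit false
set_option linter.style.haveILetI false
set_option linter.unusedSectionVars false

noncomputable section

namespace Fermat.Agent.Moduli

open WeierstrassCurve Polynomial Fermat.Agent.EC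

section Curve

variable {R : Type*} [CommRing R]

/-- The curve. -/
def hesseCurve (t : R) : WeierstrassCurve R := ⟨3 * t, 0, t ^ 3 - 1, 0, 0⟩

lemma map_hesseCurve {S : Type*} [CommRing S] (f : R →+* S) (t : R) :
    (hesseCurve t).map f = hesseCurve (f t) := by
  ext <;> simp [hesseCurve, map_ofNat]

lemma hesseCurve_Δ (t : R) : (hesseCurve t).Δ = 27 * (t ^ 3 - 1) ^ 3 := by
  simp only [hesseCurve, WeierstrassCurve.Δ, WeierstrassCurve.b₂, WeierstrassCurve.b₄,
    WeierstrassCurve.b₆, WeierstrassCurve.b₈]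
  ring

lemma equation_hesse_iff {t x y : R} : (hesseCurve t).toAffine.Equation x y ↔
    y ^ 2 + 3 * t * x * y + (t ^ 3 - 1) * y = x ^ 3 := by
  rw [Affine.equation_iff]
  simp [hesseCurve]

lemma negY_hesse (t x y : R) :
    (hesseCurve t).toAffine.negY x y = -y - 3 * t * x - (t ^ 3 - 1) := rfl

/-- A point meeting the tangent conditions in characteristic two. -/
lemma false_of_psi2_mem {m : Ideal R} [m.IsPrime] (h2 : (2 : R) ∈ m) {t x y N : R}
    (hA : t ^ 3 - 1 ∉ m) (he : y ^ 2 + 3 * t * x * y + (t ^ 3 - 1) * y = x ^ 3)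
    (hψ : 2 * y + 3 * t * x + (t ^ 3 - 1) ∈ m)
    (hN : (3 * x ^ 2 - 3 * t * y) ^ 2 + 3 * t * (3 * x ^ 2 - 3 * t * y) *
      (2 * y + 3 * t * x + (t ^ 3 - 1)) = N * (2 * y + 3 * t * x + (t ^ 3 - 1)) ^ 2) : False := by
  set q := Ideal.Quotient.mk m
  have e2 : (2 : R ⧸ m) = 0 := by
    rw [← map_ofNat q]; exact Ideal.Quotient.eq_zero_iff_mem.2 h2
  have eψ : q (2 * y + 3 * t * x + (t ^ 3 - 1)) = 0 := Ideal.Quotient.eq_zero_iff_mem.2 hψ
  have eN := congrArg q hN
  simp only [map_add, map_mul, map_pow, eψ, mul_zero, add_zero, zero_pow two_ne_zero] at eN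
  have enum := eq_zero_of_pow_eq_zero eN
  have ee := congrArg q he
  simp only [map_add, map_sub, map_mul, map_pow, map_one, map_ofNat] at eψ enum ee
  apply hA
  rw [← Ideal.Quotient.eq_zero_iff_mem]
  show q (t ^ 3 - 1) = 0
  rw [map_sub, map_pow, map_one]
  set T := q t
  set X' := q x
  set Y := q y
  have h1 : T * X' + (T ^ 3 - 1) = 0 := by linear_combination eψ - (Y + T * X') * e2
  have h2' : Y ^ 2 = X' ^ 3 := by linear_combination ee - Y * h1 - (T * X' * Y) * e2
  have h3 : X' ^ 2 = T * Y := by linear_combination enum - (X' ^ 2 - T * Y) * e2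
  have h4 : X' ^ 3 * (X' - T ^ 2) = 0 := by
    linear_combination (X' ^ 2 + T * Y) * h3 + T ^ 2 * h2'
  rcases mul_eq_zero.1 h4 with h | h
  · rw [eq_zero_of_pow_eq_zero h, mul_zero, zero_add] at h1
    exact h1
  · have h5 : (1 : R ⧸ m) = 0 := by linear_combination -h1 + T * h + (T ^ 3) * e2
    exact absurd h5 (by
      haveI : Nontrivial (R ⧸ m) := Ideal.Quotient.nontrivial_iff.2 (Ideal.IsPrime.ne_top ‹_›)
      exact one_ne_zero)

end Curve

section Points

variable {F : Type*} [Field F] {t : F}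

/-- The parameter `z = -x/y` of a point of order two. -/
lemma two_torsion_param (h2 : (2 : F) ≠ 0) (hA : t ^ 3 - 1 ≠ 0) {x y : F}
    (he : (hesseCurve t).toAffine.Equation x y) (hy : y = (hesseCurve t).toAffine.negY x y) :
    ∃ z : F, z ≠ 0 ∧ (t ^ 3 - 1) * z ^ 3 - 3 * t * z + 2 = 0 ∧ x = -(z ^ 2)⁻¹ ∧ y = (z ^ 3)⁻¹ := by
  rw [equation_hesse_iff] at he
  rw [negY_hesse] at hy
  have hx : x ≠ 0 := fun h => by
    subst h
    have : (t ^ 3 - 1) ^ 2 = 0 := by
      linear_combination -4 * he + (2 * y + (t ^ 3 - 1)) * hy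
    exact hA (eq_zero_of_pow_eq_zero this)
  have hy0 : y ≠ 0 := fun h => by
    subst h
    exact hx (eq_zero_of_pow_eq_zero (n := 3) (by linear_combination -he))
  obtain ⟨z, hzdef⟩ : ∃ z, z = -x / y := ⟨_, rfl⟩
  have hz : z ≠ 0 := by rw [hzdef]; exact div_ne_zero (neg_ne_zero.2 hx) hy0
  have hxz : z * y = -x := by rw [hzdef, div_mul_cancel₀ _ hy0]
  have hA' : t ^ 3 - 1 = -2 * y - 3 * t * x := by linear_combination hy
  have e1 : x * z ^ 2 = -1 := by
    have e : x ^ 2 * (x * z ^ 2 + 1) = 0 := by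
      linear_combination (-z ^ 2) * he + (z ^ 2 * y) * hA' - (z * y - x) * hxz
    have := (mul_eq_zero.1 e).resolve_left (pow_ne_zero 2 hx)
    linear_combination this
  have e2 : y * z ^ 3 = 1 := by linear_combination z ^ 2 * hxz - e1
  refine ⟨z, hz, ?_, ?_, ?_⟩
  · linear_combination z ^ 3 * hA' - 2 * e2 - 3 * t * z * e1
  · field_simp
    linear_combination e1
  · field_simp
    linear_combination e2

/-- The symmetric functions of two distinct roots. -/
lemma two_torsion_vieta {z₁ z₂ : F} (hne : z₁ ≠ z₂)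
    (h1 : (t ^ 3 - 1) * z₁ ^ 3 - 3 * t * z₁ + 2 = 0)
    (h2 : (t ^ 3 - 1) * z₂ ^ 3 - 3 * t * z₂ + 2 = 0) :
    (t ^ 3 - 1) * (z₁ ^ 2 + z₁ * z₂ + z₂ ^ 2) = 3 * t ∧
      (t ^ 3 - 1) * (z₁ * z₂ * (z₁ + z₂)) = 2 := by
  have e : (t ^ 3 - 1) * (z₁ ^ 2 + z₁ * z₂ + z₂ ^ 2) - 3 * t = 0 :=
    (mul_eq_zero.1 (show (z₁ - z₂) * ((t ^ 3 - 1) * (z₁ ^ 2 + z₁ * z₂ + z₂ ^ 2) - 3 * t) = 0 by
      linear_combination h1 - h2)).resolve_left (sub_ne_zero.2 hne)
  exact ⟨by linear_combination e, by linear_combination z₁ * e - h1⟩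

variable [DecidableEq F] {B : Type*} [CommRing B] [Algebra B F] (m : Ideal B) [m.IsPrime]

/-- The nonzero points killed by `n` have coordinates from `B`. -/
def CoordsFrom (B : Type*) [CommRing B] [Algebra B F] (t : F) (n : ℕ) : Prop :=
  ∀ (x y : F) (h : (hesseCurve t).toAffine.Nonsingular x y),
    n • Affine.Point.some x y h = 0 →
      ∃ X Y : B, algebraMap B F X = x ∧ algebraMap B F Y = y

variable [FaithfulSMul B F] {n : ℕ}

lemma psi2_notMem (h2 : (2 : B) ∈ m) {t' : B} (ht : algebraMap B F t' = t) (hA : t' ^ 3 - 1 ∉ m)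
    (hn : Odd n) (hB : CoordsFrom B t n) {X Y : B}
    (h : (hesseCurve t).toAffine.Nonsingular (algebraMap B F X) (algebraMap B F Y))
    (hT : n • Affine.Point.some _ _ h = 0) :
    2 * Y + 3 * t' * X + (t' ^ 3 - 1) ∉ m := by
  set T := Affine.Point.some _ _ h
  intro hmem
  have hTT : T + T ≠ 0 := fun e => by
    obtain ⟨k, rfl⟩ := hn
    rw [succ_nsmul, mul_nsmul, two_nsmul, e, nsmul_zero, zero_add] at hT
    exact Affine.Point.some_ne_zero _ hT
  have hy : algebraMap B F Y ≠ (hesseCurve t).toAffine.negY (algebraMap B F X) (algebraMap B F Y) := fun e =>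
    hTT (Affine.Point.add_self_of_Y_eq e)
  have hsum : T + T = Affine.Point.some _ _ _ := Affine.Point.add_self_of_Y_ne hy
  obtain ⟨X2, Y2, hX2, -⟩ := hB _ _ _ (by rw [← hsum, nsmul_add, hT, add_zero])
  have hψ : algebraMap B F (2 * Y + 3 * t' * X + (t' ^ 3 - 1)) =
      algebraMap B F Y - (hesseCurve t).toAffine.negY (algebraMap B F X) (algebraMap B F Y) := by
    simp only [negY_hesse, map_add, map_sub, map_mul, map_pow, map_one, map_ofNat, ← ht]
    ring
  refine false_of_psi2_mem h2 hA (N := X2 + 2 * X) ?_ hmem ?_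
  · apply FaithfulSMul.algebraMap_injective B F
    have := equation_hesse_iff.1 h.1
    simp only [map_add, map_sub, map_mul, map_pow, map_one, map_ofNat]
    rw [ht]
    exact this
  · apply FaithfulSMul.algebraMap_injective B F
    have hd : algebraMap B F Y - (hesseCurve t).toAffine.negY (algebraMap B F X) (algebraMap B F Y) ≠ 0 := sub_ne_zero.2 hy
    obtain ⟨P, hP⟩ : ∃ P, P = 2 * Y + 3 * t' * X + (t' ^ 3 - 1) := ⟨_, rfl⟩
    rw [← hP] at hψ ⊢
    simp only [map_add, map_pow, map_mul, map_sub, map_ofNat, hψ, hX2]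
    rw [Affine.slope_of_Y_ne rfl hy]
    obtain ⟨D, hD⟩ : ∃ D, D = algebraMap B F Y - (hesseCurve t).toAffine.negY (algebraMap B F X) (algebraMap B F Y) := ⟨_, rfl⟩
    rw [← hD] at hd ⊢
    simp only [Affine.addX, hesseCurve, map_sub, map_mul, map_pow, map_ofNat, ht] at *
    field_simp
    ring

/-- Torsion of odd order stays distinct in characteristic two. -/
theorem eq_of_congr_odd (h2 : (2 : B) ∈ m) {t' : B} (ht : algebraMap B F t' = t)
    (hA : t' ^ 3 - 1 ∉ m) (hn : Odd n) (hB : CoordsFrom B t n) {X Y X' Y' : B}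
    (h : (hesseCurve t).toAffine.Nonsingular (algebraMap B F X) (algebraMap B F Y))
    (h' : (hesseCurve t).toAffine.Nonsingular (algebraMap B F X') (algebraMap B F Y'))
    (hT : n • Affine.Point.some _ _ h = 0) (hT' : n • Affine.Point.some _ _ h' = 0)
    (hX : X - X' ∈ m) (hY : Y - Y' ∈ m) : X = X' ∧ Y = Y' := by
  have hinj := FaithfulSMul.algebraMap_injective B F
  have hψ := psi2_notMem m h2 ht hA hn hB h hT
  have hψ' := psi2_notMem m h2 ht hA hn hB h' hT'
  by_cases hx : X = X'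
  · subst hx
    refine ⟨rfl, ?_⟩
    rcases Affine.Y_eq_of_X_eq h.1 h'.1 rfl with e | e
    · exact hinj e
    · exfalso
      apply hψ
      have : 2 * Y + 3 * t' * X + (t' ^ 3 - 1) = Y - Y' := hinj (by
        simp only [map_add, map_sub, map_mul, map_pow, map_one, map_ofNat, ht]
        rw [negY_hesse] at e
        linear_combination e)
      rwa [this]
  · exfalso
    have hx' : algebraMap B F X ≠ algebraMap B F X' := fun e => hx (hinj e)
    have hne : ¬(algebraMap B F X = algebraMap B F X' ∧ algebraMap B F Y = (hesseCurve t).toAffine.negY (algebraMap B F X') (algebraMap B F Y')) :=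
      fun e => hx' e.1
    have hne' : ¬(algebraMap B F X = algebraMap B F X' ∧ algebraMap B F Y = (hesseCurve t).toAffine.negY (algebraMap B F X')
        ((hesseCurve t).toAffine.negY (algebraMap B F X') (algebraMap B F Y'))) := fun e => hx' e.1
    obtain ⟨S, _, hS, -⟩ := hB _ _ _ (by
      rw [← Affine.Point.add_some (h₁ := h) (h₂ := h') hne, nsmul_add, hT, hT', add_zero])
    obtain ⟨D, _, hD, -⟩ := hB _ _ _ (by
      rw [← Affine.Point.add_some (h₁ := h)
        (h₂ := (Affine.nonsingular_neg (W' := (hesseCurve t).toAffine) _ _).2 h') hne',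
        ← Affine.Point.neg_some h', nsmul_add, hT, zero_add, smul_neg, hT', neg_zero])
    have e : (X - X') ^ 2 * (D - S) =
        (2 * Y + 3 * t' * X + (t' ^ 3 - 1)) * (2 * Y' + 3 * t' * X' + (t' ^ 3 - 1)) := by
      apply hinj
      simp only [map_add, map_sub, map_mul, map_pow, map_one, map_ofNat, hD, hS, ht,
        Affine.slope_of_X_ne hx', negY_hesse]
      simp only [Affine.addX, hesseCurve]
      have hd : algebraMap B F X - algebraMap B F X' ≠ 0 := sub_ne_zero.2 hx'
      field_simp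
      ring
    rcases Ideal.IsPrime.mem_or_mem ‹_› (e ▸ m.mul_mem_right _ (Ideal.pow_mem_of_mem m hX 2 two_pos)
      : (2 * Y + 3 * t' * X + (t' ^ 3 - 1)) * (2 * Y' + 3 * t' * X' + (t' ^ 3 - 1)) ∈ m) with h | h
    exacts [hψ h, hψ' h]

end Points

section Integral

variable {R : Type*} [CommRing R] [IsDomain R] {Ω : Type*} [Field Ω] [IsAlgClosed Ω] [CharZero Ω]
  [DecidableEq Ω] [Algebra R Ω] [FaithfulSMul R Ω]

/-- Torsion of order invertible in the base is integral. -/
theorem isIntegral_hesse_torsion {t : R} (hA : IsUnit (t ^ 3 - 1)) {n : ℕ}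
    (hn : IsUnit (n : R)) {x y : Ω}
    (h : (hesseCurve (algebraMap R Ω t)).toAffine.Nonsingular x y)
    (hT : n • Affine.Point.some x y h = 0) : _root_.IsIntegral R x ∧ _root_.IsIntegral R y := by
  haveI : ((hesseCurve t).map (algebraMap R Ω)).IsElliptic := by
    refine ⟨?_⟩
    rw [map_Δ, hesseCurve_Δ, map_mul, map_ofNat]
    exact (isUnit_iff_ne_zero.2 (by norm_num)).mul ((hA.pow 3).map _)
  have hn1 : 1 ≤ n := by
    rcases Nat.eq_zero_or_pos n with rfl | h0
    · simp at hn
    · exact h0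
  obtain ⟨a, b, hab⟩ := exists_mulPair (W := hesseCurve t)
    (FaithfulSMul.algebraMap_injective R Ω) n hn1
  have key : ∀ (V : WeierstrassCurve Ω) (_ : (hesseCurve t).map (algebraMap R Ω) = V)
      (h : V.toAffine.Nonsingular x y), n • Affine.Point.some x y h = 0 →
      (b.map (algebraMap R Ω)).eval x = 0 := by
    rintro V rfl h hT
    exact hab.spec_zero x y h hT
  have hb := key _ (map_hesseCurve _ _) h hT
  have hu : IsUnit b.leadingCoeff := by
    rw [leadingCoeff, natDegree_eq_of_le_of_coeff_ne_zero hab.natDegree_b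
      (by rw [hab.coeff_b]; exact (hn.pow 2).ne_zero), hab.coeff_b]
    exact hn.pow 2
  obtain ⟨u, hu⟩ := hu
  have hx : _root_.IsIntegral R x := ⟨C (↑u⁻¹ : R) * b, by
    simp only [Monic.def, leadingCoeff_mul, leadingCoeff_C, ← hu, Units.inv_mul], by
    rw [eval₂_mul, eval₂_eq_eval_map (p := b), hb, mul_zero]⟩
  refine ⟨hx, ?_⟩
  have h3 : _root_.IsIntegral R (3 * algebraMap R Ω t * x + ((algebraMap R Ω t) ^ 3 - 1)) := by
    refine ((IsIntegral.mul ?_ hx).add ((isIntegral_algebraMap.pow 3).sub isIntegral_one))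
    rw [← map_ofNat (algebraMap R Ω) 3, ← map_mul]
    exact isIntegral_algebraMap
  refine isIntegral_trans (A := integralClosure R Ω) y ⟨X ^ 2 +
    C (⟨_, h3⟩ : integralClosure R Ω) * X - C ⟨_, hx.pow 3⟩, by monicity!, ?_⟩
  simp only [eval₂_add, eval₂_sub, eval₂_mul, eval₂_pow, eval₂_X, eval₂_C]
  show y ^ 2 + (3 * algebraMap R Ω t * x + ((algebraMap R Ω t) ^ 3 - 1)) * y - x ^ 3 = 0
  linear_combination equation_hesse_iff.1 h.1

end Integral

end Fermat.Agent.Moduli
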