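import Fermat.Agent.Moduli.InteriorTwo

/-!
# One point of order two on the level three family in characteristic two

`S = R[u]` with `(t³ - 1) u³ - 3t u + 2 = 0`, that is `(t³ - 1) u v = 2` with
`(t³ - 1)(v + u²) = 3t`: over `2` the parameters are `u, v` where both vanish, and `2` and a second
function transversal to the fibre elsewhere.
-/

set_option autoImplicit false
set_option linter.style.haveILetI false
set_option linter.unusedSectionVars false

noncomputable section

namespace Fermat.Agent.Moduli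

open Polynomial IsLocalRing

variable {W : Type} [CommRing W] [IsDomain W] [IsDiscreteValuationRing W]
  [IsAlgClosed (ResidueField W)]

/-- A constant of the base. -/
def hesseConst : W →+* HesseBase W := (algebraMap W[X] (HesseBase W)).comp C

/-- Constants give the residues at a point. -/
lemma exists_sub_hesseConst_mem (hmax : maximalIdeal W = Ideal.span {(2 : W)})
    (I : Ideal (HesseBase W)) [I.IsMaximal] (h2I : (2 : HesseBase W) ∈ I) {c : W}
    (hI : I = Ideal.span {(2 : HesseBase W), hesseVar W - hesseConst c}) (r : HesseBase W) :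
    ∃ w : W, r - hesseConst w ∈ I := by
  set al := algebraMap W[X] (HesseBase W)
  have hτ : hesseVar W - hesseConst c ∈ I := hI ▸ Ideal.subset_span (Or.inr rfl)
  have hev : ∀ P : W[X], al P - hesseConst (P.eval c) ∈ I := fun P => by
    obtain ⟨Q, hQ⟩ := X_sub_C_dvd_sub_C_eval (a := c) (p := P)
    rw [show hesseConst (P.eval c) = al (C (P.eval c)) from rfl, ← map_sub, hQ, map_mul, map_sub]
    exact I.mul_mem_right _ hτ
  have hu : IsUnit ((hesseDisc W).eval c) := by
    by_contra hu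
    rw [← mem_nonunits_iff, ← mem_maximalIdeal, hmax, Ideal.mem_span_singleton] at hu
    obtain ⟨e, he⟩ := hu
    refine Ideal.IsMaximal.ne_top ‹_› (Ideal.eq_top_of_isUnit_mem I ?_
      (IsLocalization.Away.algebraMap_isUnit (S := HesseBase W) (hesseDisc W)))
    have := I.add_mem (hev (hesseDisc W)) (show hesseConst ((hesseDisc W).eval c) ∈ I by
      rw [he, map_mul, map_ofNat]; exact I.mul_mem_right _ h2I)
    rwa [sub_add_cancel] at this
  obtain ⟨P, k, hP⟩ := exists_hesseBase_mul r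
  obtain ⟨v, hv⟩ := (hu.pow k).exists_left_inv
  refine ⟨v * P.eval c, ?_⟩
  rw [← eval_pow] at hv
  have h1 : hesseConst v * hesseConst ((hesseDisc W ^ k).eval c) = 1 := by
    rw [← map_mul, hv, map_one]
  have e : r - hesseConst (v * P.eval c) = hesseConst v * (al P - hesseConst (P.eval c)) -
      r * hesseConst v * (al (hesseDisc W ^ k) - hesseConst ((hesseDisc W ^ k).eval c)) := by
    rw [map_mul hesseConst]
    linear_combination hesseConst v * hP - r * h1
  rw [e]
  exact sub_mem (I.mul_mem_left _ (hev _)) (I.mul_mem_left _ (hev _))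

lemma exists_two_mul_of_mem (hmax : maximalIdeal W = Ideal.span {(2 : W)}) {S : Type*} [CommRing S]
    (k : W →+* S) {n : Ideal S} (hn : n ≠ ⊤) {w : W} (hw : k w ∈ n) : ∃ d : S, k w = 2 * d := by
  by_cases hu : IsUnit w
  · exact absurd (Ideal.eq_top_of_isUnit_mem n hw (hu.map k)) hn
  · rw [← mem_nonunits_iff, ← mem_maximalIdeal, hmax, Ideal.mem_span_singleton] at hu
    obtain ⟨e, rfl⟩ := hu
    exact ⟨k e, by rw [map_mul, map_ofNat]⟩

/-- The fibre over `2` is irreducible through each of its points. -/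
lemma exists_prime_two_le (hmax : maximalIdeal W = Ideal.span {(2 : W)})
    (I : Ideal (HesseBase W)) (h2I : (2 : HesseBase W) ∈ I) :
    ∃ P : Ideal (HesseBase W), P.IsPrime ∧ P ≤ I ∧ (2 : HesseBase W) ∈ P ∧
      ∀ c : W, hesseVar W - hesseConst c ∉ P := by
  set res := residue W
  set al := algebraMap W[X] (HesseBase W)
  let ψ₀ : W[X] →+* FractionRing (ResidueField W)[X] :=
    (algebraMap (ResidueField W)[X] _).comp (mapRingHom res)
  have hψ₀ : ∀ P, ψ₀ P = 0 ↔ P.map res = 0 := fun P =>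
    map_eq_zero_iff _ (IsFractionRing.injective (ResidueField W)[X] (FractionRing (ResidueField W)[X]))
  have hu : IsUnit (ψ₀ (hesseDisc W)) := by
    rw [isUnit_iff_ne_zero, Ne, hψ₀]
    exact ((monic_hesseDisc (W := W)).map res).ne_zero
  let ψ : HesseBase W →+* FractionRing (ResidueField W)[X] :=
    IsLocalization.Away.lift (hesseDisc W) hu
  have hψ : ∀ P, ψ (al P) = ψ₀ P := fun P => IsLocalization.Away.lift_eq _ hu P
  refine ⟨RingHom.ker ψ, RingHom.ker_isPrime ψ, fun r hr => ?_, ?_, fun c => ?_⟩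
  · obtain ⟨P, k, hP⟩ := exists_hesseBase_mul r
    have h0 : P.map res = 0 := by
      rw [← hψ₀, ← hψ, ← hP, map_mul, (RingHom.mem_ker).1 hr, zero_mul]
    obtain ⟨Q, rfl⟩ : C (2 : W) ∣ P := (C_dvd_iff_dvd_coeff _ _).2 fun i => by
      rw [← Ideal.mem_span_singleton, ← hmax, ← residue_eq_zero_iff, ← coeff_map, h0, coeff_zero]
    have hu' : IsUnit (al (hesseDisc W ^ k)) := by
      rw [map_pow]
      exact (IsLocalization.Away.algebraMap_isUnit (S := HesseBase W) (hesseDisc W)).pow k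
    rw [← Ideal.mul_unit_mem_iff_mem _ hu', hP, map_mul, map_ofNat, map_ofNat]
    exact I.mul_mem_right _ h2I
  · rw [RingHom.mem_ker, ← map_ofNat al, hψ, hψ₀, Polynomial.map_ofNat, ← map_ofNat (C (R := ResidueField W)),
      C_eq_zero, ← map_ofNat res, residue_eq_zero_iff, hmax]
    exact Ideal.mem_span_singleton_self _
  · rw [RingHom.mem_ker, hesseVar, show hesseConst c = al (C c) from rfl, ← map_sub, hψ, hψ₀,
      Polynomial.map_sub, map_X, map_C]
    exact X_sub_C_ne_zero _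

/-- The parameters at the points over `2`. -/
lemma node_or_smooth {S : Type*} [CommRing S] {n : Ideal S} [hn : n.IsMaximal] {T U V c ρ : S}
    (h2 : (2 : S) ∈ n) (hA : T ^ 3 - 1 ∉ n) (hQ : (T ^ 3 - 1) * (V + U ^ 2) = 3 * T)
    (hP : (T ^ 3 - 1) * (U * V) = 2) (hτ : T - c ∈ n) (he : U - ρ ∈ n)
    (hρ : ρ ∈ n → ∃ d : S, ρ = 2 * d) (hc : c ∈ n → ∃ d : S, c = 2 * d)
    (hG : 3 * c - (c ^ 3 - 1) * ρ ^ 2 ∈ n → ∃ d : S, 3 * c - (c ^ 3 - 1) * ρ ^ 2 = 2 * d)
    (hspan : ∀ z ∈ n, z ∈ Ideal.span {2, T - c, U - ρ}) :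
    (U ∈ n ∧ V ∈ n ∧ ∀ z ∈ n, ∃ s ∉ n, s * z ∈ Ideal.span {U, V}) ∨
      ∃ b : S, b ∈ n ∧ (∀ z ∈ n, ∃ s ∉ n, s * z ∈ Ideal.span {2, b}) ∧
        ∀ P : Ideal S, P.IsPrime → P ≤ n → (2 : S) ∈ P → b ∈ P → T - c ∈ P := by
  have hp := hn.isPrime
  have hlc : ∀ (J : Ideal S) (s : S), s ∉ n → s * 2 ∈ J → s * (T - c) ∈ J → s * (U - ρ) ∈ J →
      ∀ z ∈ n, ∃ s ∉ n, s * z ∈ J := fun J s hs h1 h2 h3 z hz => by
    refine ⟨s, hs, ?_⟩
    obtain ⟨α, w, hw, rfl⟩ := Ideal.mem_span_insert.1 (hspan z hz)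
    obtain ⟨β, γ, rfl⟩ := Ideal.mem_span_pair.1 hw
    rw [mul_add, mul_add, mul_left_comm s α, mul_left_comm s β, mul_left_comm s γ]
    exact add_mem (J.mul_mem_left _ h1) (add_mem (J.mul_mem_left _ h2) (J.mul_mem_left _ h3))
  by_cases hU : U ∈ n
  · have hρn : ρ ∈ n := by
      have := sub_mem hU he
      rwa [sub_sub_cancel] at this
    obtain ⟨d, hd⟩ := hρ hρn
    by_cases hV : V ∈ n
    · left
      refine ⟨hU, hV, ?_⟩
      set J := Ideal.span {U, V}
      have hUJ : U ∈ J := Ideal.subset_span (Or.inl rfl)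
      have hVJ : V ∈ J := Ideal.subset_span (Or.inr rfl)
      have h2J : (2 : S) ∈ J := hP ▸ J.mul_mem_left _ (J.mul_mem_right _ hUJ)
      have h3T : 3 * T ∈ J := hQ ▸ J.mul_mem_left _ (add_mem hVJ (sq U ▸ J.mul_mem_left _ hUJ))
      have hT : T ∈ J := by
        rw [show T = 3 * T - 2 * T by ring]
        exact sub_mem h3T (J.mul_mem_right _ h2J)
      have hJn : J ≤ n := Ideal.span_le.2 (by rintro x (rfl | rfl); exacts [hU, hV])
      obtain ⟨e, he'⟩ := hc (by
        have := sub_mem (hJn hT) hτ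
        rwa [sub_sub_cancel] at this)
      refine hlc J 1 (fun h => hn.ne_top ((Ideal.eq_top_iff_one n).2 h)) ?_ ?_ ?_
      · rwa [one_mul]
      · rw [one_mul, he']; exact sub_mem hT (J.mul_mem_right _ h2J)
      · rw [one_mul, hd]; exact sub_mem hUJ (J.mul_mem_right _ h2J)
    · right
      refine ⟨T - c, hτ, hlc _ ((T ^ 3 - 1) * V) (fun h => (hp.mem_or_mem h).elim hA hV) ?_ ?_ ?_,
        fun P _ _ _ h => h⟩
      · exact Ideal.mul_mem_left _ _ (Ideal.subset_span (Or.inl rfl))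
      · exact Ideal.mul_mem_left _ _ (Ideal.subset_span (Or.inr rfl))
      · rw [hd, show (T ^ 3 - 1) * V * (U - 2 * d) =
          2 * (1 - (T ^ 3 - 1) * V * d) by linear_combination hP]
        exact Ideal.mul_mem_right _ _ (Ideal.subset_span (Or.inl rfl))
  · right
    have hV : V ∈ n := (hp.mem_or_mem ((hp.mem_or_mem (hP ▸ h2 : (T ^ 3 - 1) * (U * V) ∈ n))
      |>.resolve_left hA)).resolve_left hU
    obtain ⟨D, hDdef⟩ : ∃ D, D = 3 - ρ ^ 2 * (T ^ 2 + T * c + c ^ 2) := ⟨_, rfl⟩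
    have hrel : (T - c) * D = (T ^ 3 - 1) * V + (T ^ 3 - 1) * (U + ρ) * (U - ρ) -
        (3 * c - (c ^ 3 - 1) * ρ ^ 2) := by
      rw [hDdef]
      linear_combination -hQ
    have hG0 : 3 * c - (c ^ 3 - 1) * ρ ^ 2 ∈ n := by
      rw [show 3 * c - (c ^ 3 - 1) * ρ ^ 2 = (T ^ 3 - 1) * V + (T ^ 3 - 1) * (U + ρ) * (U - ρ) -
        (T - c) * D by rw [hrel]; ring]
      exact sub_mem (add_mem (n.mul_mem_left _ hV) (n.mul_mem_left _ he)) (n.mul_mem_right _ hτ)
    obtain ⟨d, hd⟩ := hG hG0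
    have hD : D ∉ n := by
      intro h
      have h3 : (3 : S) ∈ n := by
        have e : (3 : S) = 3 * c ^ 2 * (3 * c - (c ^ 3 - 1) * ρ ^ 2) -
            (c ^ 3 - 1) * (D + ρ ^ 2 * (T + 2 * c) * (T - c)) - 2 * (3 * c ^ 3) := by
          rw [hDdef]; ring
        rw [e]
        exact sub_mem (sub_mem (n.mul_mem_left _ hG0)
          (n.mul_mem_left _ (add_mem h (n.mul_mem_left _ hτ)))) (n.mul_mem_right _ h2)
      exact hn.ne_top ((Ideal.eq_top_iff_one n).2
        (by have := sub_mem h3 h2; norm_num at this; exact this))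
    refine ⟨U - ρ, he, hlc _ ((T ^ 3 - 1) * U * D) (fun h => (hp.mem_or_mem h).elim
      (fun h => (hp.mem_or_mem h).elim hA hU) hD) ?_ ?_ ?_, fun P hPp hPn h2P heP => ?_⟩
    · exact Ideal.mul_mem_left _ _ (Ideal.subset_span (Or.inl rfl))
    · rw [Ideal.mem_span_pair]
      exact ⟨T ^ 3 - 1 - (T ^ 3 - 1) * U * d, (T ^ 3 - 1) ^ 2 * U * (U + ρ), by
        linear_combination (-(T ^ 3 - 1) * U) * hrel + ((T ^ 3 - 1) * U) * hd - (T ^ 3 - 1) * hP⟩
    · exact Ideal.mul_mem_left _ _ (Ideal.subset_span (Or.inr rfl))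
    · have hVP : V ∈ P := (hPp.mem_or_mem ((hPp.mem_or_mem (hP ▸ h2P : (T ^ 3 - 1) * (U * V) ∈ P))
        |>.resolve_left fun h => hA (hPn h))).resolve_left fun h => hU (hPn h)
      refine (hPp.mem_or_mem ?_).resolve_right fun h => hD (hPn h)
      rw [hrel, hd]
      exact sub_mem (add_mem (P.mul_mem_left _ hVP) (P.mul_mem_left _ heP)) (P.mul_mem_right _ h2P)

variable {F : Type*} [Field F] [Algebra (HesseBase W) F] [FaithfulSMul (HesseBase W) F] {u : F}

/-- The ring of one point of order two. -/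
abbrev nodeRing (u : F) : Subalgebra (HesseBase W) F := Algebra.adjoin (HesseBase W) ({u} : Set F)

local notation "tF" => algebraMap (HesseBase W) F (hesseVar W)
local notation "S₁" => nodeRing (W := W) u

/-- A maximal ideal over `2`: a node or a smooth point of the fibre, and the local ring is
normal. -/
theorem nodeRing_regular (hmax : maximalIdeal W = Ideal.span {(2 : W)}) (h20 : (2 : W) ≠ 0)
    (hroot : (tF ^ 3 - 1) * u ^ 3 - 3 * tF * u + 2 = 0)
    (n : Ideal (nodeRing (W := W) u)) [hn : n.IsMaximal]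
    (h2 : (2 : nodeRing (W := W) u) ∈ n) :
    ((∃ a b e : nodeRing (W := W) u, e ∉ n ∧ a * b = 2 * e ∧ a ∈ n ∧ b ∈ n ∧
        ∀ z ∈ n, ∃ s ∉ n, s * z ∈ Ideal.span {a, b}) ∨
      ∃ b : nodeRing (W := W) u, b ∈ n ∧ (∀ z ∈ n, ∃ s ∉ n, s * z ∈ Ideal.span {2, b}) ∧
        ∃ c : W, ∀ P : Ideal (nodeRing (W := W) u), P.IsPrime → P ≤ n →
          (2 : nodeRing (W := W) u) ∈ P → b ∈ P →
          algebraMap (HesseBase W) (nodeRing (W := W) u) (hesseVar W - hesseConst c) ∈ P) ∧
      ∀ x : F, IsIntegral (HesseBase W) x →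
        (∃ p q : nodeRing (W := W) u, q ≠ 0 ∧ (q : F) * x = p) →
        ∃ s ∉ n, ∃ y : nodeRing (W := W) u, (s : F) * x = y := by
  classical
  obtain ⟨A', hA'⟩ := (isUnit_hesseVar (W := W)).exists_left_inv
  have hint : IsIntegral (HesseBase W) u := by
    refine ⟨X ^ 3 - C (A' * (3 * hesseVar W)) * X + C (A' * 2), by monicity!, ?_⟩
    have h' := congrArg (algebraMap (HesseBase W) F) hA'
    simp only [map_mul, map_sub, map_pow, map_one] at h'
    simp only [eval₂_add, eval₂_sub, eval₂_mul, eval₂_pow, eval₂_X, eval₂_C, eval₂_ofNat, map_mul, map_ofNat]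
    linear_combination (algebraMap (HesseBase W) F A') * hroot - u ^ 3 * h'
  haveI : Module.Finite (HesseBase W) S₁ :=
    Module.Finite.iff_fg.2 (fg_adjoin_of_finite (Set.finite_singleton u) (by simpa using hint))
  haveI : IsNoetherianRing S₁ := IsNoetherianRing.of_finite (HesseBase W) S₁
  haveI : Algebra.IsIntegral (HesseBase W) S₁ := Algebra.IsIntegral.of_finite _ _
  haveI : FaithfulSMul (HesseBase W) S₁ := (faithfulSMul_iff_algebraMap_injective _ _).2
    fun x y e => FaithfulSMul.algebraMap_injective (HesseBase W) F (congrArg Subtype.val e)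
  set I := n.under (HesseBase W)
  haveI : I.IsMaximal := Ideal.isMaximal_comap_of_isIntegral_of_isMaximal n
  have hI2 : (2 : HesseBase W) ∈ I := by
    show algebraMap (HesseBase W) S₁ 2 ∈ n
    rwa [map_ofNat]
  obtain ⟨c, hIc, hsplit, P₀, hP₀, hP₀0, hP₀I⟩ := exists_hessePoint hmax h20 I hI2
  haveI := hP₀
  haveI : n.LiesOver I := ⟨rfl⟩
  obtain ⟨Pn, hPn, hPp, hPo⟩ := Ideal.exists_ideal_lt_liesOver_of_lt n hP₀I
  haveI := hPp
  have hPn0 : Pn ≠ ⊥ := fun h => hP₀0 (by
    rw [hPo.over, h]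
    exact Ideal.comap_bot_of_injective _ (FaithfulSMul.algebraMap_injective (HesseBase W) S₁))
  set al := algebraMap (HesseBase W) S₁
  let k : W →+* S₁ := al.comp hesseConst
  set U : S₁ := ⟨u, Algebra.self_mem_adjoin_singleton _ u⟩
  obtain ⟨r₀, hr₀⟩ := exists_sub_mem_of_splitsMod hsplit n (fun r hr => hr) U
  obtain ⟨w, hw⟩ := exists_sub_hesseConst_mem hmax I hI2 hIc r₀
  have hUk : U - k w ∈ n := by
    have := add_mem hr₀ (show al (r₀ - hesseConst w) ∈ n from hw)
    rwa [map_sub, sub_add_sub_cancel] at this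
  set T : S₁ := al (hesseVar W)
  set V : S₁ := al A' * (3 * T) - U ^ 2
  have hA1 : al A' * (T ^ 3 - 1) = 1 := by
    have := congrArg al hA'
    rwa [map_mul, map_sub, map_pow, map_one] at this
  have hroot' : (T ^ 3 - 1) * U ^ 3 - 3 * T * U + 2 = 0 := Subtype.ext hroot
  have hQ : (T ^ 3 - 1) * (V + U ^ 2) = 3 * T := by
    simp only [V]
    linear_combination (3 * T) * hA1
  have hP : (T ^ 3 - 1) * (U * V) = 2 := by
    simp only [V]
    linear_combination (3 * T * U) * hA1 - hroot'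
  have hA : T ^ 3 - 1 ∉ n := fun h => hn.ne_top
    ((Ideal.eq_top_iff_one n).2 (hA1 ▸ n.mul_mem_left _ h))
  have hτ : T - k c ∈ n := by
    show al (hesseVar W) - al (hesseConst c) ∈ n
    rw [← map_sub]
    show hesseVar W - hesseConst c ∈ I
    rw [hIc]; exact Ideal.subset_span (Or.inr rfl)
  -- generation
  have hspan : ∀ z ∈ n, z ∈ Ideal.span {2, T - k c, U - k w} := by
    intro z hz
    set J := Ideal.span {2, T - k c, U - k w}
    have hJn : J ≤ n := Ideal.span_le.2 (by rintro x (rfl | rfl | rfl); exacts [h2, hτ, hUk])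
    have key : ∀ y : S₁, ∃ r : HesseBase W, y - al r ∈ J := by
      rintro ⟨y, hy⟩
      induction hy using Algebra.adjoin_induction with
      | mem x hx =>
        rcases hx with rfl
        exact ⟨hesseConst w, Ideal.subset_span (Or.inr (Or.inr rfl))⟩
      | algebraMap r =>
        exact ⟨r, by
          rw [show (⟨algebraMap (HesseBase W) F r, _⟩ : S₁) = al r from rfl, sub_self]
          exact J.zero_mem⟩
      | add x y hx hy hx' hy' =>
        obtain ⟨r, hr⟩ := hx'
        obtain ⟨r', hr'⟩ := hy'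
        refine ⟨r + r', ?_⟩
        rw [map_add, show (⟨x + y, _⟩ : S₁) = ⟨x, hx⟩ + ⟨y, hy⟩ from rfl, add_sub_add_comm]
        exact add_mem hr hr'
      | mul x y hx hy hx' hy' =>
        obtain ⟨r, hr⟩ := hx'
        obtain ⟨r', hr'⟩ := hy'
        refine ⟨r * r', ?_⟩
        rw [map_mul, show (⟨x * y, _⟩ : S₁) = ⟨x, hx⟩ * ⟨y, hy⟩ from rfl,
          show (⟨x, hx⟩ : S₁) * ⟨y, hy⟩ - al r * al r' =
            (⟨x, hx⟩ - al r) * ⟨y, hy⟩ + al r * (⟨y, hy⟩ - al r') by ring]
        exact add_mem (J.mul_mem_right _ hr) (J.mul_mem_left _ hr')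
    obtain ⟨r, hr⟩ := key z
    have hrI : r ∈ I := by
      show al r ∈ n
      have := sub_mem hz (hJn hr)
      rwa [sub_sub_cancel] at this
    rw [hIc] at hrI
    have := Ideal.mem_map_of_mem al hrI
    rw [Ideal.map_span, Set.image_pair, map_ofNat, map_sub] at this
    have h' := add_mem hr (Ideal.span_mono (t := {2, T - k c, U - k w})
      (by intro x; simp only [Set.mem_insert_iff, Set.mem_singleton_iff]; tauto) this)
    rwa [sub_add_cancel] at h'
  have hk : ∀ w : W, k w ∈ n → ∃ d : S₁, k w = 2 * d := fun w hw =>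
    exists_two_mul_of_mem hmax k hn.ne_top hw
  have main := node_or_smooth h2 hA hQ hP hτ hUk (hk w) (hk c) (fun h => by
    have e : (3 : S₁) * k c - (k c ^ 3 - 1) * k w ^ 2 = k (3 * c - (c ^ 3 - 1) * w ^ 2) := by
      simp only [map_sub, map_mul, map_pow, map_one, map_ofNat]
    rw [e] at h ⊢
    exact hk _ h) hspan
  have hnorm : ∀ a b : S₁, a ∈ n → b ∈ n → (∀ z ∈ n, ∃ s ∉ n, s * z ∈ Ideal.span {a, b}) →
      ∀ x : F, IsIntegral (HesseBase W) x → (∃ p q : S₁, q ≠ 0 ∧ (q : F) * x = p) →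
        ∃ s ∉ n, ∃ y : S₁, (s : F) * x = y := fun a b ha hb hab x hx hfr =>
    exists_mul_eq_algebraMap_of_isIntegral (F := F) n ha hb hab hPn0 hPn (x := x) hx.tower_top hfr
  rcases main with ⟨hU, hV, hgen⟩ | ⟨b, hb, hgen, hcond⟩
  · refine ⟨Or.inl ⟨U, V, al A', fun h => hn.ne_top ((Ideal.eq_top_iff_one n).2
      (hA1 ▸ n.mul_mem_right _ h)), ?_, hU, hV, hgen⟩, hnorm U V hU hV hgen⟩
    linear_combination (al A') * hP - (U * V) * hA1
  · refine ⟨Or.inr ⟨b, hb, hgen, c, fun P hP' hPn' h2P hbP => ?_⟩, hnorm 2 b h2 hb hgen⟩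
    rw [map_sub]
    exact hcond P hP' hPn' h2P hbP

end Fermat.Agent.Moduli
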