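import Fermat.Agent.Moduli.Regular2
import Mathlib.RingTheory.Ideal.KrullsHeightTheorem

/-!
# A closed point with two generators above a curve is normal

A maximal ideal `n` of a noetherian domain, locally generated by two elements and strictly
containing a nonzero prime, has height two; its local ring is factorial, hence normal.
-/

set_option autoImplicit false
set_option linter.style.haveILetI false

namespace Fermat.Agent.Moduli

open Ideal IsLocalRing

variable {S : Type*} [CommRing S] [IsDomain S] [IsNoetherianRing S] (n : Ideal S) [hn : n.IsMaximal]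
  {a b : S}

/-- No power of the second generator is locally a multiple of the first. -/
lemma mul_pow_notMem_span (ha : a ∈ n) (hgen : ∀ z ∈ n, ∃ s ∉ n, s * z ∈ span {a, b})
    {P : Ideal S} [hP : P.IsPrime] (hP0 : P ≠ ⊥) (hPn : P < n) {s : S} (hs : s ∉ n) (N : ℕ) :
    s * b ^ N ∉ span {a} := by
  intro h
  have hmin : n ∈ (span {a}).minimalPrimes := by
    refine ⟨⟨hn.isPrime, (span_singleton_le_iff_mem _).2 ha⟩, fun Q hQ hQn z hz => ?_⟩
    obtain ⟨hQp, haQ⟩ := hQ
    have hbQ : b ∈ Q := hQp.mem_of_pow_mem N
      ((hQp.mem_or_mem (haQ h)).resolve_left fun hsQ => hs (hQn hsQ))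
    obtain ⟨s', hs', hz'⟩ := hgen z hz
    refine (hQp.mem_or_mem (span_le.2 ?_ hz')).resolve_left fun hsQ => hs' (hQn hsQ)
    rintro x (rfl | rfl)
    exacts [haQ (mem_span_singleton_self _), hbQ]
  have h1 : n.height ≤ ((1 : ℕ) : ℕ∞) := by
    simpa using Ideal.height_le_one_of_isPrincipal_of_mem_minimalPrimes (span {a}) n hmin
  have h2 := Ideal.height_le_iff.1 h1 P hP hPn
  have h3 : P.height = 0 := by simpa using h2
  rw [Ideal.height_eq_zero_iff, IsDomain.minimalPrimes_eq_singleton_bot] at h3
  exact hP0 h3

/-- In a local ring with maximal ideal `(a, b)`, the first is prime if no power of the second is a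
multiple of it. -/
lemma isPrime_span_of_pow_notMem {C : Type*} [CommRing C] [IsNoetherianRing C] [IsLocalRing C]
    {a b : C} (hmax : maximalIdeal C = span {a} ⊔ span {b}) (hb : ∀ N : ℕ, b ^ N ∉ span {a}) :
    (span {a}).IsPrime := by
  classical
  set q := Ideal.Quotient.mk (span {a})
  have hq : ∀ x, q x = 0 ↔ x ∈ span {a} := fun x => Ideal.Quotient.eq_zero_iff_mem
  have hne : span {a} ≠ ⊤ := fun h => hb 0 (h ▸ Submodule.mem_top)
  haveI : Nontrivial (C ⧸ span {a}) := Ideal.Quotient.nontrivial_iff.2 hne
  haveI : IsLocalRing (C ⧸ span {a}) :=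
    IsLocalRing.of_surjective' q Ideal.Quotient.mk_surjective
  have hpow : ∀ x, x ∉ span {a} → ∃ k u, IsUnit u ∧ x - b ^ k * u ∈ span {a} := by
    intro x hx
    have hex : ∃ k, q x ∉ span {q b} ^ k := by
      by_contra hall
      push Not at hall
      refine hx ((hq x).1 ?_)
      have hproper : span {q b} ≠ ⊤ := fun h => by
        rw [span_singleton_eq_top] at h
        obtain ⟨c, hc⟩ := h.exists_left_inv
        obtain ⟨c, rfl⟩ := Ideal.Quotient.mk_surjective c
        rw [← map_mul, ← map_one q, Ideal.Quotient.mk_eq_mk_iff_sub_mem] at hc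
        have h1 : (1 : C) ∈ maximalIdeal C := by
          rw [hmax, show (1 : C) = c * b - (c * b - 1) by ring]
          exact sub_mem (mem_sup_right (mul_mem_left _ _ (mem_span_singleton_self b)))
            (mem_sup_left hc)
        exact (maximalIdeal.isMaximal C).ne_top ((eq_top_iff_one _).2 h1)
      have := Ideal.iInf_pow_eq_bot_of_isLocalRing (span {q b}) hproper
      exact (Submodule.mem_bot _).1 (this ▸ (Submodule.mem_iInf _).2 hall)
    obtain ⟨k, hk⟩ : ∃ k, Nat.find hex = k + 1 := by
      refine Nat.exists_eq_succ_of_ne_zero fun h => ?_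
      have := Nat.find_spec hex
      simp [h] at this
    have hmem := Nat.find_min hex (m := k) (by omega)
    rw [not_not, span_singleton_pow, mem_span_singleton] at hmem
    obtain ⟨u, hu⟩ := hmem
    obtain ⟨u, rfl⟩ := Ideal.Quotient.mk_surjective u
    refine ⟨k, u, ?_, ?_⟩
    · by_contra hu'
      rw [← mem_nonunits_iff, ← mem_maximalIdeal, hmax] at hu'
      obtain ⟨c, hc, d, hd, rfl⟩ := Submodule.mem_sup.1 hu'
      obtain ⟨d, rfl⟩ := mem_span_singleton.1 hd
      have hspec := Nat.find_spec hex
      rw [hk, span_singleton_pow, mem_span_singleton] at hspec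
      refine hspec ⟨q d, ?_⟩
      rw [hu, map_add, (hq c).2 hc, zero_add, map_mul, pow_succ, mul_assoc]
    · rw [← hq, map_sub, map_mul, map_pow, hu, sub_self]
  refine ⟨hne, fun {x y} hxy => ?_⟩
  by_contra! h
  obtain ⟨k, u, hu, hx⟩ := hpow x h.1
  obtain ⟨m, v, hv, hy⟩ := hpow y h.2
  refine hb (k + m) ((Ideal.mul_unit_mem_iff_mem _ (hu.mul hv)).1 ?_)
  have : b ^ (k + m) * (u * v) =
      x * y - (x - b ^ k * u) * y - (b ^ k * u) * (y - b ^ m * v) := by ring
  rw [this]
  exact sub_mem (sub_mem hxy (mul_mem_right _ _ hx)) (mul_mem_left _ _ hy)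

/-- An element of the fraction field integral over a normal domain is in it. -/
lemma exists_algebraMap_eq_of_isIntegral {C F : Type*} [CommRing C] [IsDomain C]
    [IsIntegrallyClosed C] [Field F] [Algebra C F] (hg : Function.Injective (algebraMap C F))
    {x : F} (hx : IsIntegral C x) {u v : C} (hv : v ≠ 0)
    (huv : algebraMap C F v * x = algebraMap C F u) : ∃ c, algebraMap C F c = x := by
  let ι : FractionRing C →+* F := IsFractionRing.lift (A := C) (K := FractionRing C) hg
  letI : Algebra (FractionRing C) F := ι.toAlgebra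
  haveI : IsScalarTower C (FractionRing C) F :=
    IsScalarTower.of_algebraMap_eq fun c => (IsFractionRing.lift_algebraMap hg c).symm
  have hvF : algebraMap C F v ≠ 0 := fun h => hv (hg (h.trans (map_zero _).symm))
  have hw : algebraMap (FractionRing C) F
      (algebraMap C (FractionRing C) u / algebraMap C (FractionRing C) v) = x := by
    rw [map_div₀, ← IsScalarTower.algebraMap_apply, ← IsScalarTower.algebraMap_apply,
      div_eq_iff hvF, ← huv, mul_comm]
  obtain ⟨c, hc⟩ := IsIntegrallyClosed.isIntegral_iff.1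
    ((isIntegral_algebraMap_iff (algebraMap (FractionRing C) F).injective).1 (hw ▸ hx))
  exact ⟨c, by rw [IsScalarTower.algebraMap_apply C (FractionRing C) F, hc, hw]⟩

/-- An element integral over `S` lies in the local ring of `n`. -/
theorem exists_mul_eq_algebraMap_of_isIntegral (ha : a ∈ n) (hb : b ∈ n)
    (hgen : ∀ z ∈ n, ∃ s ∉ n, s * z ∈ span {a, b}) {P : Ideal S} [P.IsPrime] (hP0 : P ≠ ⊥)
    (hPn : P < n) {F : Type*} [Field F] [Algebra S F] [FaithfulSMul S F] {x : F}
    (hx : IsIntegral S x) (hfr : ∃ u v : S, v ≠ 0 ∧ algebraMap S F v * x = algebraMap S F u) :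
    ∃ s ∉ n, ∃ y : S, algebraMap S F s * x = algebraMap S F y := by
  classical
  let C := Localization.AtPrime n
  let al := algebraMap S C
  have hinj : Function.Injective (algebraMap S F) := FaithfulSMul.algebraMap_injective S F
  haveI : IsDomain C := IsLocalization.isDomain_localization n.primeCompl_le_nonZeroDivisors
  haveI : IsNoetherianRing C := IsLocalization.isNoetherianRing n.primeCompl C inferInstance
  have hmem : ∀ z, al z ∈ maximalIdeal C ↔ z ∈ n := fun z =>
    IsLocalization.AtPrime.to_map_mem_maximal_iff C n z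
  have hunit : ∀ s, s ∉ n → IsUnit (al s) := fun s hs => IsLocalization.map_units C (⟨s, hs⟩ : n.primeCompl)
  have hmax : maximalIdeal C = span {al a} ⊔ span {al b} := by
    rw [← span_insert]
    apply le_antisymm
    · rw [← Localization.AtPrime.map_eq_maximalIdeal, map_le_iff_le_comap]
      intro z hz
      obtain ⟨s, hs, hsz⟩ := hgen z hz
      rw [mem_comap, ← Ideal.unit_mul_mem_iff_mem _ (hunit s hs), ← map_mul]
      have := mem_map_of_mem al hsz
      rwa [map_span, Set.image_pair] at this
    · rw [span_le]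
      rintro _ (rfl | rfl)
      exacts [(hmem _).2 ha, (hmem _).2 hb]
  have hpow : ∀ N : ℕ, al b ^ N ∉ span {al a} := by
    intro N h
    rw [← map_pow, ← Set.image_singleton, ← map_span,
      IsLocalization.algebraMap_mem_map_algebraMap_iff n.primeCompl] at h
    obtain ⟨s, hs, hsb⟩ := h
    exact mul_pow_notMem_span n ha hgen hP0 hPn hs N hsb
  have hprime := isPrime_span_of_pow_notMem hmax hpow
  have ha0 : al a ≠ 0 := by
    intro h
    have ha' : a = 0 := IsLocalization.injective C n.primeCompl_le_nonZeroDivisors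
      (h.trans (map_zero al).symm)
    obtain ⟨p, hpP, hp0⟩ := Submodule.exists_mem_ne_zero_of_ne_bot hP0
    -- `n` is then locally principal
    apply hP0
    by_contra
    obtain ⟨z, hz, hzP⟩ := SetLike.exists_of_lt hPn
    obtain ⟨s, hs, hsp⟩ := hgen p (hPn.le hpP)
    obtain ⟨s', hs', hsz⟩ := hgen z hz
    rw [ha', span_insert, show span ({0} : Set S) = ⊥ from span_singleton_eq_bot.2 rfl, bot_sup_eq,
      mem_span_singleton] at hsp hsz
    obtain ⟨c, hc⟩ := hsz
    have hbP : b ∉ P := fun hb' => hzP
      ((‹P.IsPrime›.mem_or_mem (hc ▸ P.mul_mem_right c hb')).resolve_left fun h => hs' (hPn.le h))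
    -- infinitely divisible
    have key : ∀ N : ℕ, ∀ w ∈ P, al (b ^ N) ∣ al w := by
      intro N
      induction N with
      | zero => intro w _; rw [pow_zero, map_one]; exact one_dvd _
      | succ N ih =>
        intro w hw
        obtain ⟨s, hs, hsw⟩ := hgen w (hPn.le hw)
        rw [ha', span_insert, show span ({0} : Set S) = ⊥ from span_singleton_eq_bot.2 rfl,
          bot_sup_eq, mem_span_singleton] at hsw
        obtain ⟨c, hc⟩ := hsw
        have hcP : c ∈ P := ((‹P.IsPrime›.mem_or_mem (hc ▸ P.mul_mem_left s hw)).resolve_left hbP)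
        rw [← (hunit s hs).dvd_mul_left, ← map_mul, hc, pow_succ', map_mul, map_mul]
        exact mul_dvd_mul dvd_rfl (ih c hcP)
    refine hp0 (IsLocalization.injective C n.primeCompl_le_nonZeroDivisors
      ((Ideal.mem_bot.1 (?_ : al p ∈ (⊥ : Ideal C))).trans (map_zero al).symm))
    have hinf : ⨅ N : ℕ, maximalIdeal C ^ N = ⊥ :=
      Ideal.iInf_pow_eq_bot_of_isLocalRing (maximalIdeal C) (maximalIdeal.isMaximal C).ne_top
    rw [← hinf, Submodule.mem_iInf]
    intro N
    obtain ⟨c, hc⟩ := key N p hpP
    rw [hc, map_pow]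
    exact mul_mem_right _ _ (pow_mem_pow ((hmem b).2 hb) N)
  have hreg : IsRegularTwo (al a) (al b) (al b) (al a) :=
    { maximal := hmax
      q_mem := (hmem b).2 hb
      t_mem := (hmem a).2 ha
      t_ne := ha0
      reg := fun c hc => (hprime.mem_or_mem hc).resolve_left fun h => hpow 1 (by rwa [pow_one]) }
  haveI := hreg.uniqueFactorizationMonoid
  haveI : IsIntegrallyClosed C := inferInstance
  let g : C →+* F := IsLocalization.lift (M := n.primeCompl) (g := algebraMap S F) fun y =>
    isUnit_iff_ne_zero.2 fun h => y.2 (by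
      rw [(map_eq_zero_iff _ hinj).1 h]; exact n.zero_mem)
  letI : Algebra C F := g.toAlgebra
  haveI : IsScalarTower S C F :=
    IsScalarTower.of_algebraMap_eq fun y => (IsLocalization.lift_eq _ y).symm
  obtain ⟨u, v, hv, huv⟩ := hfr
  have hg : Function.Injective g := by
    rw [injective_iff_map_eq_zero]
    intro c hc
    obtain ⟨⟨z, s⟩, e⟩ := IsLocalization.surj n.primeCompl c
    have : algebraMap S F z = 0 := by
      rw [← IsLocalization.lift_eq (M := n.primeCompl) (g := algebraMap S F) (S := C) _ z, ← e]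
      exact (map_mul g _ _).trans (by rw [hc, zero_mul])
    rw [(map_eq_zero_iff _ hinj).1 this, map_zero] at e
    exact (mul_eq_zero.1 e).resolve_right (hunit s s.2).ne_zero
  obtain ⟨c, hc⟩ := exists_algebraMap_eq_of_isIntegral (C := C) hg (x := x) hx.tower_top
    (u := al u) (v := al v) (fun h => hv (IsLocalization.injective C n.primeCompl_le_nonZeroDivisors
      (h.trans (map_zero al).symm))) (by
      rw [← IsScalarTower.algebraMap_apply S C F, ← IsScalarTower.algebraMap_apply S C F, huv])
  obtain ⟨⟨z, s⟩, e⟩ := IsLocalization.surj n.primeCompl c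
  refine ⟨s, s.2, z, ?_⟩
  rw [← hc, IsScalarTower.algebraMap_apply S C F,
    IsScalarTower.algebraMap_apply S C F, ← map_mul, mul_comm, e]

end Fermat.Agent.Moduli
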