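import Fermat.Agent.Moduli.TwoBase
import Fermat.Agent.Moduli.RegularPlane
import Mathlib.RingTheory.IntegralClosure.GoingDown

/-!
# Full level two on the level three family is regular in characteristic two

`S = R[z₁, z₂]` with `(t³ - 1)(z₁² + z₁ z₂ + z₂²) = 3t` and `(t³ - 1) z₁ z₂ (z₁ + z₂) = 2`: at a
supersingular point the parameters are `z₁, z₂`, at the others `2` and a nonzero root minus its
value.
-/

set_option autoImplicit false
set_option linter.style.haveILetI false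

noncomputable section

namespace Fermat.Agent.Moduli

open Polynomial IsLocalRing

/-- An ordinary point: `2` and the nonzero root. -/
lemma local_generators_ordinary {S : Type*} [CommRing S] {n : Ideal S} [hn : n.IsMaximal]
    {T u v c ρ : S} (h2 : (2 : S) ∈ n) (hA : T ^ 3 - 1 ∉ n)
    (hQ : (T ^ 3 - 1) * (u ^ 2 + u * v + v ^ 2) = 3 * T)
    (hP : (T ^ 3 - 1) * (u * v * (u + v)) = 2)
    (hu : u ∈ n) (hv : v ∉ n) (huv : u + v ∉ n) (hτ : T - c ∈ n) (he : v - ρ ∈ n)
    (hconst : ∃ d : S, 3 * c - (c ^ 3 - 1) * ρ ^ 2 ∈ n → 3 * c - (c ^ 3 - 1) * ρ ^ 2 = 2 * d)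
    (hspan : ∀ z ∈ n, z ∈ Ideal.span {2, T - c, u, v - ρ}) :
    ∀ z ∈ n, ∃ s ∉ n, s * z ∈ Ideal.span {2, v - ρ} := by
  have hs1 : (T ^ 3 - 1) * (v * (u + v)) ∉ n := fun h =>
    ((hn.isPrime.mem_or_mem h).elim hA fun h => (hn.isPrime.mem_or_mem h).elim hv huv)
  have hG0 : 3 * c - (c ^ 3 - 1) * ρ ^ 2 ∈ n := by
    have e : 3 * c - (c ^ 3 - 1) * ρ ^ 2 = (T - c) * (ρ ^ 2 * (T ^ 2 + T * c + c ^ 2) - 3) +
        (T ^ 3 - 1) * (u + v) * u + (T ^ 3 - 1) * (v + ρ) * (v - ρ) := by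
      linear_combination (-1 : S) * hQ
    rw [e]
    exact add_mem (add_mem (n.mul_mem_right _ hτ) (n.mul_mem_left _ hu)) (n.mul_mem_left _ he)
  obtain ⟨d, hd⟩ := hconst
  have hd' := hd hG0
  set D := 3 - ρ ^ 2 * (T ^ 2 + T * c + c ^ 2)
  have hD : D ∉ n := by
    intro h
    have h3 : (3 : S) ∈ n := by
      have e : (3 : S) = 3 * c ^ 2 * (3 * c - (c ^ 3 - 1) * ρ ^ 2) -
          (c ^ 3 - 1) * (D + ρ ^ 2 * (T + 2 * c) * (T - c)) - 2 * (3 * c ^ 3) := by
        simp only [D]; ring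
      rw [e]
      exact sub_mem (sub_mem (n.mul_mem_left _ hG0)
        (n.mul_mem_left _ (add_mem h (n.mul_mem_left _ hτ)))) (n.mul_mem_right _ h2)
    exact hn.ne_top ((Ideal.eq_top_iff_one n).2
      (by have := sub_mem h3 h2; norm_num at this; exact this))
  intro z hz
  obtain ⟨α, w, hw, hzw⟩ := Ideal.mem_span_insert.1 (hspan z hz)
  obtain ⟨β, w', hw', hww⟩ := Ideal.mem_span_insert.1 hw
  obtain ⟨γ, w'', hw'', hwww⟩ := Ideal.mem_span_insert.1 hw'
  obtain ⟨δ, rfl⟩ := Ideal.mem_span_singleton'.1 hw''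
  refine ⟨(T ^ 3 - 1) * (v * (u + v)) * D, fun h => (hn.isPrime.mem_or_mem h).elim hs1 hD, ?_⟩
  rw [Ideal.mem_span_pair]
  refine ⟨(T ^ 3 - 1) * (v * (u + v)) * D * α + β * (T ^ 3 - 1) * (v * (u + v)) * (-d) +
      D * γ + β * ((T ^ 3 - 1) * (u + v)),
    (T ^ 3 - 1) * (v * (u + v)) * (D * δ + β * (T ^ 3 - 1) * (v + ρ)), ?_⟩
  subst hwww hww hzw
  simp only [D]
  linear_combination (β * (T ^ 3 - 1) * (v * (u + v))) * hd' -
    (D * γ + β * ((T ^ 3 - 1) * (u + v))) * hP + (β * (T ^ 3 - 1) * (v * (u + v))) * hQ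

variable {W : Type} [CommRing W] [IsDomain W] [IsDiscreteValuationRing W]
  [IsAlgClosed (ResidueField W)] {F : Type*} [Field F] [Algebra (HesseBase W) F]
  [FaithfulSMul (HesseBase W) F] {z₁ z₂ : F}

/-- The full level two ring. -/
abbrev hesseRing (z₁ z₂ : F) : Subalgebra (HesseBase W) F :=
  Algebra.adjoin (HesseBase W) ({z₁, z₂} : Set F)

local notation "tF" => algebraMap (HesseBase W) F (hesseVar W)

local notation "S₂" => hesseRing (W := W) z₁ z₂

/-- The roots are integral. -/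
lemma isIntegral_hesse_root (hQ : (tF ^ 3 - 1) * (z₁ ^ 2 + z₁ * z₂ + z₂ ^ 2) = 3 * tF)
    (hP : (tF ^ 3 - 1) * (z₁ * z₂ * (z₁ + z₂)) = 2) :
    ∀ z ∈ ({z₁, z₂} : Set F), IsIntegral (HesseBase W) z := by
  obtain ⟨u, hu⟩ := (isUnit_hesseVar (W := W))
  intro z hz
  have hroot : (tF ^ 3 - 1) * z ^ 3 - 3 * tF * z + 2 = 0 := by
    rcases hz with rfl | rfl
    · linear_combination z * hQ - hP
    · linear_combination z * hQ - hP
  refine ⟨X ^ 3 - C ((↑u⁻¹ : HesseBase W) * (3 * hesseVar W)) * X + C ((↑u⁻¹ : HesseBase W) * 2), by monicity!, ?_⟩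
  have hu' : algebraMap (HesseBase W) F ↑u⁻¹ * (tF ^ 3 - 1) = 1 := by
    rw [← map_one (algebraMap (HesseBase W) F), ← map_pow, ← map_sub, ← map_mul, ← hu,
      Units.inv_mul]
  simp only [eval₂_add, eval₂_sub, eval₂_mul, eval₂_pow, eval₂_X, eval₂_C, eval₂_ofNat, map_mul, map_ofNat]
  linear_combination (algebraMap (HesseBase W) F ↑u⁻¹) * hroot - z ^ 3 * hu'

/-- A maximal ideal over `2`: two local generators, and the local ring is normal. -/
theorem hesseRing_regular (hmax : maximalIdeal W = Ideal.span {(2 : W)}) (h20 : (2 : W) ≠ 0)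
    (hQ : (tF ^ 3 - 1) * (z₁ ^ 2 + z₁ * z₂ + z₂ ^ 2) = 3 * tF)
    (hP : (tF ^ 3 - 1) * (z₁ * z₂ * (z₁ + z₂)) = 2)
    (n : Ideal (hesseRing (W := W) z₁ z₂)) [hn : n.IsMaximal]
    (h2 : (2 : hesseRing (W := W) z₁ z₂) ∈ n) :
    ∃ a b : hesseRing (W := W) z₁ z₂, a ∈ n ∧ b ∈ n ∧
      (∀ z ∈ n, ∃ s ∉ n, s * z ∈ Ideal.span {a, b}) ∧
      ∀ x : F, IsIntegral (HesseBase W) x →
        (∃ u v : hesseRing (W := W) z₁ z₂, v ≠ 0 ∧ (v : F) * x = u) →
        ∃ s ∉ n, ∃ y : hesseRing (W := W) z₁ z₂, (s : F) * x = y := by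
  classical
  have hint := isIntegral_hesse_root hQ hP
  have hfg : Subalgebra.toSubmodule S₂ |>.FG :=
    fg_adjoin_of_finite (Set.toFinite _) hint
  haveI : Module.Finite (HesseBase W) S₂ := Module.Finite.iff_fg.2 hfg
  haveI : IsNoetherianRing S₂ := IsNoetherianRing.of_finite (HesseBase W) S₂
  haveI : Algebra.IsIntegral (HesseBase W) S₂ := Algebra.IsIntegral.of_finite _ _
  haveI : FaithfulSMul (HesseBase W) S₂ := (faithfulSMul_iff_algebraMap_injective _ _).2
    fun x y e => FaithfulSMul.algebraMap_injective (HesseBase W) F (congrArg Subtype.val e)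
  set I := n.under (HesseBase W)
  haveI : I.IsMaximal := Ideal.isMaximal_comap_of_isIntegral_of_isMaximal n
  have hI2 : (2 : HesseBase W) ∈ I := by
    show algebraMap (HesseBase W) S₂ 2 ∈ n
    rwa [map_ofNat]
  obtain ⟨c, hIc, hsplit, P₀, hP₀, hP₀0, hP₀I⟩ := exists_hessePoint hmax h20 I hI2
  haveI := hP₀
  haveI : n.LiesOver I := ⟨rfl⟩
  obtain ⟨Pn, hPn, hPp, hPo⟩ := Ideal.exists_ideal_lt_liesOver_of_lt n hP₀I
  haveI := hPp
  have hPn0 : Pn ≠ ⊥ := by
    intro h
    apply hP₀0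
    rw [hPo.over, h]
    exact Ideal.comap_bot_of_injective _ (FaithfulSMul.algebraMap_injective (HesseBase W) S₂)
  -- residues
  let al := algebraMap W[X] (HesseBase W)
  let k : W →+* S₂ := (algebraMap (HesseBase W) S₂).comp (al.comp C)
  have hresW : ∀ b : S₂, ∃ w : W, b - k w ∈ n := by
    intro b
    obtain ⟨rs, hcoeff⟩ := hsplit _ (minpoly.monic (Algebra.IsIntegral.isIntegral (R := HesseBase W) b))
    set Q := (rs.map fun x => X - Polynomial.C x).prod
    have hmem : aeval b Q ∈ n := by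
      have h : aeval b (minpoly (HesseBase W) b - Q) ∈ n := by
        rw [aeval_eq_sum_range]
        refine Ideal.sum_mem n fun i _ => ?_
        rw [Algebra.smul_def]
        exact n.mul_mem_right _ (hcoeff i)
      rw [map_sub, minpoly.aeval, zero_sub, neg_mem_iff] at h
      exact h
    rw [map_multiset_prod, Multiset.map_map, hn.isPrime.multiset_prod_mem_iff_exists_mem] at hmem
    obtain ⟨y, hy, hx⟩ := hmem
    obtain ⟨r, -, rfl⟩ := Multiset.mem_map.1 hy
    obtain ⟨P', m', hP'⟩ := exists_hesseBase_mul r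
    -- reduce the base element to a constant
    have hτ : hesseVar W - al (C c) ∈ I := by rw [hIc]; exact Ideal.subset_span (Or.inr rfl)
    obtain ⟨Q', hQ'⟩ := X_sub_C_dvd_sub_C_eval (a := c) (p := hesseDisc W ^ m')
    obtain ⟨Q'', hQ''⟩ := X_sub_C_dvd_sub_C_eval (a := c) (p := P')
    have hsub : ∀ (p q : W[X]), p - C (p.eval c) = (X - C c) * q →
        al p - al (C (p.eval c)) ∈ I := fun p q e => by
      rw [← map_sub, e, map_mul, map_sub]
      exact I.mul_mem_right _ hτ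
    have hu : IsUnit ((hesseDisc W ^ m').eval c) := by
      by_contra hu
      rw [← mem_nonunits_iff, ← mem_maximalIdeal, hmax, Ideal.mem_span_singleton] at hu
      obtain ⟨e, he⟩ := hu
      refine (inferInstance : I.IsMaximal).ne_top (Ideal.eq_top_of_isUnit_mem I ?_
        ((IsLocalization.Away.algebraMap_isUnit (S := HesseBase W) (hesseDisc W)).pow m'))
      rw [← map_pow]
      have := I.add_mem (hsub _ _ hQ') (show al (C ((hesseDisc W ^ m').eval c)) ∈ I by
        rw [he, map_mul C, map_mul, map_ofNat, map_ofNat]; exact I.mul_mem_right _ hI2)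
      rwa [sub_add_cancel] at this
    obtain ⟨v, hv⟩ := hu.exists_left_inv
    refine ⟨v * P'.eval c, ?_⟩
    have hr : r - al (C (v * P'.eval c)) ∈ I := by
      have h1 : (r * al (hesseDisc W ^ m') - al P') * al (C v) = 0 := by rw [hP', sub_self, zero_mul]
      have e : r - al (C (v * P'.eval c)) = (al P' - al (C (P'.eval c))) * al (C v) -
          r * al (C v) * (al (hesseDisc W ^ m') - al (C ((hesseDisc W ^ m').eval c))) := by
        have h2 : al (C v) * al (C ((hesseDisc W ^ m').eval c)) = 1 := by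
          rw [← map_mul, ← map_mul, hv, map_one, map_one]
        rw [map_mul C, map_mul]
        linear_combination h1 - r * h2
      rw [e]
      exact sub_mem (I.mul_mem_right _ (hsub _ _ hQ'')) (I.mul_mem_left _ (hsub _ _ hQ'))
    have hx' : b - algebraMap (HesseBase W) S₂ r ∈ n := by simpa using hx
    have := add_mem hx' (show algebraMap (HesseBase W) S₂ (r - al (C (v * P'.eval c))) ∈ n from hr)
    rw [map_sub, sub_add_sub_cancel] at this
    exact this
  have hconst : ∀ w : W, k w ∈ n → ∃ d : S₂, k w = 2 * d := by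
    intro w hw
    by_cases hu : IsUnit w
    · exact absurd (Ideal.eq_top_of_isUnit_mem n hw (hu.map k)) hn.ne_top
    · rw [← mem_nonunits_iff, ← mem_maximalIdeal, hmax, Ideal.mem_span_singleton] at hu
      obtain ⟨e, rfl⟩ := hu
      exact ⟨k e, by rw [map_mul, map_ofNat]⟩
  set T : S₂ := algebraMap (HesseBase W) S₂ (hesseVar W)
  set Z₁ : S₂ := ⟨z₁, Algebra.subset_adjoin (Set.mem_insert _ _)⟩
  set Z₂ : S₂ := ⟨z₂, Algebra.subset_adjoin (Set.mem_insert_of_mem _ rfl)⟩
  have hQS : (T ^ 3 - 1) * (Z₁ ^ 2 + Z₁ * Z₂ + Z₂ ^ 2) = 3 * T := Subtype.ext hQ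
  have hPS : (T ^ 3 - 1) * (Z₁ * Z₂ * (Z₁ + Z₂)) = 2 := Subtype.ext hP
  have hAu : IsUnit (T ^ 3 - 1) := by
    have := (isUnit_hesseVar (W := W)).map (algebraMap (HesseBase W) S₂)
    rwa [map_sub, map_pow, map_one] at this
  have hA : T ^ 3 - 1 ∉ n := fun h => hn.ne_top (Ideal.eq_top_of_isUnit_mem n h hAu)
  obtain ⟨w₁, hw₁⟩ := hresW Z₁
  obtain ⟨w₂, hw₂⟩ := hresW Z₂
  have hτn : T - k c ∈ n := by
    show T - algebraMap (HesseBase W) S₂ (al (C c)) ∈ n
    rw [← map_sub]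
    show hesseVar W - al (C c) ∈ I
    rw [hIc]; exact Ideal.subset_span (Or.inr rfl)
  -- `n` is generated by the base and the two roots
  have hspan : ∀ z ∈ n, z ∈ Ideal.span {2, T - k c, Z₁ - k w₁, Z₂ - k w₂} := by
    intro z hz
    have key : ∀ y : S₂, ∃ r : HesseBase W, y - algebraMap (HesseBase W) S₂ r ∈
        Ideal.span {Z₁ - k w₁, Z₂ - k w₂} := by
      rintro ⟨y, hy⟩
      induction hy using Algebra.adjoin_induction with
      | mem x hx =>
        rcases hx with rfl | rfl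
        · exact ⟨_, Ideal.subset_span (Or.inl rfl)⟩
        · exact ⟨_, Ideal.subset_span (Or.inr rfl)⟩
      | algebraMap r =>
        refine ⟨r, ?_⟩
        rw [show (⟨algebraMap (HesseBase W) F r, _⟩ : S₂) = algebraMap (HesseBase W) S₂ r from rfl,
          sub_self]
        exact Ideal.zero_mem _
      | add x y hx hy hx' hy' =>
        obtain ⟨r, hr⟩ := hx'
        obtain ⟨r', hr'⟩ := hy'
        refine ⟨r + r', ?_⟩
        rw [map_add, show (⟨x + y, _⟩ : S₂) = ⟨x, hx⟩ + ⟨y, hy⟩ from rfl, add_sub_add_comm]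
        exact add_mem hr hr'
      | mul x y hx hy hx' hy' =>
        obtain ⟨r, hr⟩ := hx'
        obtain ⟨r', hr'⟩ := hy'
        refine ⟨r * r', ?_⟩
        rw [map_mul, show (⟨x * y, _⟩ : S₂) = ⟨x, hx⟩ * ⟨y, hy⟩ from rfl,
          show (⟨x, hx⟩ : S₂) * ⟨y, hy⟩ - algebraMap _ S₂ r * algebraMap _ S₂ r' =
            (⟨x, hx⟩ - algebraMap _ S₂ r) * ⟨y, hy⟩ +
              algebraMap _ S₂ r * (⟨y, hy⟩ - algebraMap _ S₂ r') by ring]
        exact add_mem (Ideal.mul_mem_right _ _ hr) (Ideal.mul_mem_left _ _ hr')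
    obtain ⟨r, hr⟩ := key z
    have hrn : algebraMap (HesseBase W) S₂ r ∈ n := by
      have h' : z - algebraMap (HesseBase W) S₂ r ∈ n := by
        refine (Ideal.span_le.2 ?_) hr
        rintro x (rfl | rfl)
        exacts [hw₁, hw₂]
      have := sub_mem hz h'
      rwa [sub_sub_cancel] at this
    have hr' : algebraMap (HesseBase W) S₂ r ∈ Ideal.span {(2 : S₂), T - k c} := by
      have h1 : r ∈ I := hrn
      rw [hIc] at h1
      have := Ideal.mem_map_of_mem (algebraMap (HesseBase W) S₂) h1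
      rwa [Ideal.map_span, Set.image_pair, map_ofNat, map_sub] at this
    have := add_mem (Ideal.span_mono (t := {2, T - k c, Z₁ - k w₁, Z₂ - k w₂})
        (by intro x; simp only [Set.mem_insert_iff, Set.mem_singleton_iff]; tauto) hr)
      (Ideal.span_mono (t := {2, T - k c, Z₁ - k w₁, Z₂ - k w₂})
        (by intro x; simp only [Set.mem_insert_iff, Set.mem_singleton_iff]; tauto) hr')
    rwa [sub_add_cancel] at this
  obtain ⟨a, b, ha, hb, hab⟩ : ∃ a b : S₂, a ∈ n ∧ b ∈ n ∧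
      ∀ z ∈ n, ∃ s ∉ n, s * z ∈ Ideal.span {a, b} := by
    have hone : (Z₁ * Z₂ * (Z₁ + Z₂)) ∈ n := by
      refine (hn.isPrime.mem_or_mem (x := T ^ 3 - 1) ?_).resolve_left hA
      rw [hPS]; exact h2
    -- an ordinary point
    have ord : ∀ (u v : S₂) (w : W), (T ^ 3 - 1) * (u ^ 2 + u * v + v ^ 2) = 3 * T →
        (T ^ 3 - 1) * (u * v * (u + v)) = 2 → u ∈ n → v ∉ n → u + v ∉ n → v - k w ∈ n →
        Ideal.span {Z₁ - k w₁, Z₂ - k w₂} ≤ Ideal.span {2, T - k c, u, v - k w} →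
        ∃ a b : S₂, a ∈ n ∧ b ∈ n ∧ ∀ z ∈ n, ∃ s ∉ n, s * z ∈ Ideal.span {a, b} := by
      intro u v w hQ' hP' hu hv huv he hle
      refine ⟨2, v - k w, h2, he, local_generators_ordinary h2 hA hQ' hP' hu hv huv hτn he ?_ ?_⟩
      · have ek : (3 : S₂) * k c - (k c ^ 3 - 1) * k w ^ 2 = k (3 * c - (c ^ 3 - 1) * w ^ 2) := by
          simp only [map_sub, map_mul, map_pow, map_one, map_ofNat]
        by_cases h : (3 : S₂) * k c - (k c ^ 3 - 1) * k w ^ 2 ∈ n
        · obtain ⟨d, hd⟩ := hconst _ (ek ▸ h)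
          exact ⟨d, fun _ => ek.trans hd⟩
        · exact ⟨0, fun h' => absurd h' h⟩
      · intro z hz
        refine (Ideal.span_le.2 ?_) (hspan z hz)
        rintro x (rfl | rfl | h)
        · exact Ideal.subset_span (Or.inl rfl)
        · exact Ideal.subset_span (Or.inr (Or.inl rfl))
        · exact hle (Ideal.subset_span h)
    -- a constant congruent to a member of `n`
    have hkz : ∀ (Z : S₂) (w : W), Z ∈ n → Z - k w ∈ n → ∃ d : S₂, k w = 2 * d := fun Z w hZ hw => by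
      refine hconst w ?_
      have := sub_mem hZ hw
      rwa [sub_sub_cancel] at this
    by_cases hz1 : Z₁ ∈ n <;> by_cases hz2 : Z₂ ∈ n
    · -- supersingular
      refine ⟨Z₁, Z₂, hz1, hz2, fun z hz => ⟨1, fun h => hn.ne_top ((Ideal.eq_top_iff_one n).2 h), ?_⟩⟩
      rw [one_mul]
      set J := Ideal.span {Z₁, Z₂}
      have h1 : Z₁ ∈ J := Ideal.subset_span (Or.inl rfl)
      have h2' : Z₂ ∈ J := Ideal.subset_span (Or.inr rfl)
      have h2J : (2 : S₂) ∈ J := by
        rw [← hPS]; exact J.mul_mem_left _ (J.mul_mem_right _ (J.mul_mem_right _ h1))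
      have hk : ∀ w, k w ∈ n → k w ∈ J := fun w hw => by
        obtain ⟨d, hd⟩ := hconst w hw
        rw [hd]; exact J.mul_mem_right _ h2J
      have h3T : 3 * T ∈ J := by
        rw [← hQS]
        refine J.mul_mem_left _ ?_
        rw [sq, sq]
        exact add_mem (add_mem (J.mul_mem_left _ h1) (J.mul_mem_left _ h2')) (J.mul_mem_left _ h2')
      have hT : T ∈ J := by
        have e : T = 3 * T - 2 * T := by ring
        rw [e]; exact sub_mem h3T (J.mul_mem_right _ h2J)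
      have hJn : J ≤ n := by
        rw [Ideal.span_le]; rintro x (rfl | rfl); exacts [hz1, hz2]
      refine (Ideal.span_le.2 ?_) (hspan z hz)
      rintro x (rfl | rfl | rfl | rfl)
      · exact h2J
      · refine sub_mem hT (hk c ?_)
        have := sub_mem (hJn hT) hτn
        rwa [sub_sub_cancel] at this
      · obtain ⟨d, hd⟩ := hkz _ _ hz1 hw₁
        exact sub_mem h1 (hd ▸ J.mul_mem_right _ h2J)
      · obtain ⟨d, hd⟩ := hkz _ _ hz2 hw₂
        exact sub_mem h2' (hd ▸ J.mul_mem_right _ h2J)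
    · refine ord Z₁ Z₂ w₂ hQS hPS hz1 hz2 (fun h => hz2 ?_) hw₂ (Ideal.span_le.2 ?_)
      · simpa using sub_mem h hz1
      rintro x (rfl | rfl)
      · obtain ⟨d, hd⟩ := hkz _ _ hz1 hw₁
        exact sub_mem (Ideal.subset_span (Or.inr (Or.inr (Or.inl rfl))))
          (hd ▸ Ideal.mul_mem_right _ _ (Ideal.subset_span (Or.inl rfl)))
      · exact Ideal.subset_span (Or.inr (Or.inr (Or.inr rfl)))
    · refine ord Z₂ Z₁ w₁ (by linear_combination hQS) (by linear_combination hPS) hz2 hz1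
        (fun h => hz1 ?_) hw₁ (Ideal.span_le.2 ?_)
      · simpa using sub_mem h hz2
      rintro x (rfl | rfl)
      · exact Ideal.subset_span (Or.inr (Or.inr (Or.inr rfl)))
      · obtain ⟨d, hd⟩ := hkz _ _ hz2 hw₂
        exact sub_mem (Ideal.subset_span (Or.inr (Or.inr (Or.inl rfl))))
          (hd ▸ Ideal.mul_mem_right _ _ (Ideal.subset_span (Or.inl rfl)))
    · have hsum : Z₁ + Z₂ ∈ n := (hn.isPrime.mem_or_mem hone).resolve_left fun h =>
        (hn.isPrime.mem_or_mem h).elim hz1 hz2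
      refine ord (-(Z₁ + Z₂)) Z₂ w₂ (by linear_combination hQS) (by linear_combination hPS)
        (n.neg_mem hsum) hz2 (fun h => hz1 ?_) hw₂ (Ideal.span_le.2 ?_)
      · have := n.neg_mem h
        ring_nf at this
        exact this
      rintro x (rfl | rfl)
      · obtain ⟨d, hd⟩ := hconst (w₁ + w₂) (by
          have := sub_mem hsum (add_mem hw₁ hw₂)
          rw [map_add]
          ring_nf at this ⊢
          exact this)
        set J := Ideal.span {2, T - k c, -(Z₁ + Z₂), Z₂ - k w₂}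
        have e : Z₁ - k w₁ = -(-(Z₁ + Z₂)) - (Z₂ - k w₂) - k (w₁ + w₂) := by rw [map_add]; ring
        show Z₁ - k w₁ ∈ J
        rw [e, hd]
        exact sub_mem (sub_mem (J.neg_mem (Ideal.subset_span (Or.inr (Or.inr (Or.inl rfl)))))
          (Ideal.subset_span (Or.inr (Or.inr (Or.inr rfl)))))
          (J.mul_mem_right _ (Ideal.subset_span (Or.inl rfl)))
      · exact Ideal.subset_span (Or.inr (Or.inr (Or.inr rfl)))
  refine ⟨a, b, ha, hb, hab, fun x hx hfr => ?_⟩
  obtain ⟨s, hs, y, hy⟩ := exists_mul_eq_algebraMap_of_isIntegral (F := F) n ha hb hab hPn0 hPn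
    (x := x) hx.tower_top hfr
  exact ⟨s, hs, y, hy⟩

end Fermat.Agent.Moduli
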