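import Fermat.Agent.Moduli.TwoField
import Fermat.Agent.Moduli.TwoRing
import Fermat.Agent.Models.Field.Fld

/-!
# The level field over the base of the level three family

Over the fractions of `W[t, 1/(t³ - 1)]` the level field is Galois, generated by the torsion
abscissae of the family; an automorphism is determined by the two parameters of points of order two
and the torsion of odd order.
-/

set_option autoImplicit false
set_option linter.style.haveILetI false
set_option linter.unusedSectionVars false

noncomputable section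

namespace Fermat.Agent.Moduli

open Polynomial IsLocalRing WeierstrassCurve Fermat.Agent.EC
open Fermat.Agent.GalRep Fermat.Agent.ModField
open Fermat.Agent.GalRep.Model (Lev NZ)

section Map

variable {R : Type*} [CommRing R] {A B : Type*} [Field A] [Field B] [DecidableEq A] [DecidableEq B]
  [Algebra R A] [Algebra R B] (t : R) (f : A →ₐ[R] B)

/-- A change of field on the points of the family. -/
def hesseMap : (hesseCurve (algebraMap R A t)).toAffine.Point →+
    (hesseCurve (algebraMap R B t)).toAffine.Point :=
  (castPoint (map_hesseCurve (algebraMap R B) t)).toAddMonoidHom.comp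
    ((Affine.Point.map (W' := (hesseCurve t).toAffine) f).comp
      (castPoint (map_hesseCurve (algebraMap R A) t)).symm.toAddMonoidHom)

lemma hesseMap_some {x y : A} (h : (hesseCurve (algebraMap R A t)).toAffine.Nonsingular x y) :
    ∃ h', hesseMap t f (Affine.Point.some x y h) = Affine.Point.some (f x) (f y) h' := by
  set e := map_hesseCurve (algebraMap R A) t
  have h0 : (castPoint e).symm (Affine.Point.some x y h) =
      Affine.Point.some x y (e.symm ▸ h) := by
    rw [AddEquiv.symm_apply_eq, castPoint_some]
  have h1 : hesseMap t f (Affine.Point.some x y h) =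
      castPoint (map_hesseCurve (algebraMap R B) t)
        (Affine.Point.map (W' := (hesseCurve t).toAffine) f
          ((castPoint e).symm (Affine.Point.some x y h))) := rfl
  rw [h0] at h1
  exact ⟨_, h1.trans ((congrArg _ (Affine.Point.map_some f _)).trans (castPoint_some _ _))⟩

lemma hesseMap_injective : Function.Injective (hesseMap t f) := by
  rw [injective_iff_map_eq_zero]
  intro P hP
  rcases P with _ | ⟨x, y, h⟩
  · rfl
  · obtain ⟨h', e⟩ := hesseMap_some t f h
    rw [e] at hP
    exact absurd hP (Affine.Point.some_ne_zero _)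

lemma nsmul_hesseMap_some {n : ℕ} {x y : A}
    {h : (hesseCurve (algebraMap R A t)).toAffine.Nonsingular x y}
    (hn : n • Affine.Point.some x y h = 0) :
    ∃ h', n • (Affine.Point.some (f x) (f y) h' :
      (hesseCurve (algebraMap R B t)).toAffine.Point) = 0 := by
  obtain ⟨h', e⟩ := hesseMap_some t f h
  exact ⟨h', by rw [← e, ← map_nsmul, hn, map_zero]⟩

end Map

variable {W : Type} [CommRing W] [IsDomain W] [IsDiscreteValuationRing W]
  [IsAlgClosed (ResidueField W)] {O : Type} [CommRing O] [IsDomain O] [Algebra W O]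
  {M : ℕ} [NeZero M] (E : Emb O M)

omit [IsAlgClosed (ResidueField W)] in
/-- Where two is the uniformiser, a map to a field of characteristic zero is injective. -/
theorem injective_of_maximalIdeal_two (hmax : maximalIdeal W = Ideal.span {(2 : W)}) {F : Type*}
    [Field F] [CharZero F] (ψ : W →+* F) : Function.Injective ψ := by
  rw [injective_iff_map_eq_zero]
  intro w hw
  by_contra h0
  obtain ⟨ϖ, hϖ⟩ := IsDiscreteValuationRing.exists_irreducible W
  obtain ⟨m, u, rfl⟩ := IsDiscreteValuationRing.eq_unit_mul_pow_irreducible h0 hϖ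
  have hπ : ψ ϖ = 0 := by
    rw [map_mul, mul_eq_zero, map_pow] at hw
    rcases hw with hw | hw
    · exact absurd hw (u.isUnit.map ψ).ne_zero
    · exact eq_zero_of_pow_eq_zero hw
  obtain ⟨b, hb⟩ : ϖ ∣ (2 : W) := by
    rw [← Ideal.mem_span_singleton, ← hϖ.maximalIdeal_eq, hmax]
    exact Ideal.subset_span rfl
  have := congrArg ψ hb
  rw [map_mul, hπ, zero_mul, map_ofNat] at this
  exact two_ne_zero this

omit [IsAlgClosed (ResidueField W)] in
/-- Odd numbers are units. -/
theorem isUnit_odd_natCast (hmax : maximalIdeal W = Ideal.span {(2 : W)}) {k : ℕ} (hk : Odd k) :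
    IsUnit (k : W) := by
  refine notMem_maximalIdeal.1 fun h => ?_
  obtain ⟨i, rfl⟩ := hk
  rw [hmax, Nat.cast_add, Nat.cast_mul, Nat.cast_ofNat, Nat.cast_one] at h
  have h1 := sub_mem h (Ideal.mul_mem_right (i : W) _ (Ideal.subset_span rfl : (2 : W) ∈ Ideal.span {(2 : W)}))
  rw [add_sub_cancel_left, ← hmax] at h1
  exact (maximalIdeal.isMaximal W).ne_top ((Ideal.eq_top_iff_one _).2 h1)

/-- The base inside the level field. -/
theorem exists_hesseBaseHom [Algebra W (Fld E)] [IsScalarTower W O (Fld E)]
    (hWO : Function.Injective (algebraMap W O)) {t : Fld E}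
    (hnon : ∀ P : O[X], P ≠ 0 → aeval t P ≠ 0) :
    ∃ f : HesseBase W →+* Fld E, Function.Injective f ∧
      ∀ P : W[X], f (algebraMap W[X] (HesseBase W) P) = aeval t P := by
  have hinj : Function.Injective (aeval t : W[X] → Fld E) := by
    rw [injective_iff_map_eq_zero]
    intro P hP
    by_contra h0
    refine hnon (P.map (algebraMap W O))
      ((Polynomial.map_ne_zero_iff hWO).2 h0) ?_
    rwa [aeval_map_algebraMap]
  have hdu : IsUnit ((aeval t : W[X] →ₐ[W] Fld E).toRingHom (hesseDisc W)) := by
    rw [isUnit_iff_ne_zero]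
    exact (map_ne_zero_iff _ hinj).2 hesseDisc_ne_zero
  let f : HesseBase W →+* Fld E := IsLocalization.Away.lift (hesseDisc W) hdu
  have hal : ∀ P : W[X], f (algebraMap W[X] (HesseBase W) P) =
      aeval t P := fun P => IsLocalization.Away.lift_eq _ _ P
  have hfinj : Function.Injective f := by
    rw [injective_iff_map_eq_zero]
    intro r hr
    obtain ⟨P, m, hP⟩ := exists_hesseBase_mul r
    have : aeval t P = 0 := by
      rw [← hal, ← hP, map_mul, hr, zero_mul]
    rw [← map_zero (aeval t : W[X] →ₐ[W] Fld E), hinj.eq_iff] at this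
    rw [this, map_zero] at hP
    exact (mul_eq_zero.1 hP).resolve_right (by
      rw [map_pow]
      exact (IsLocalization.Away.algebraMap_isUnit (S := HesseBase W) (hesseDisc W)).pow m |>.ne_zero)
  exact ⟨f, hfinj, hal⟩

variable {E} [Algebra W (Fld E)] [IsScalarTower W O (Fld E)] {t : Fld E}
  [Algebra (HesseBase W) (Fld E)] [FaithfulSMul (HesseBase W) (Fld E)]

/-- Torsion of order invertible in the base is integral over it. -/
theorem isIntegral_hesseFld (H : HesseData (W := W) E t) {n : ℕ} (hn : IsUnit (n : HesseBase W))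
    [DecidableEq (Fld E)] {x y : Fld E}
    (h : (hesseCurve (algebraMap (HesseBase W) (Fld E) (hesseVar W))).toAffine.Nonsingular x y)
    (hT : n • Affine.Point.some x y h = 0) :
    _root_.IsIntegral (HesseBase W) x ∧ _root_.IsIntegral (HesseBase W) y := by
  letI : Algebra (HesseBase W) H.Ω :=
    ((algebraMap (Fld E) H.Ω).comp (algebraMap (HesseBase W) (Fld E))).toAlgebra
  haveI : IsScalarTower (HesseBase W) (Fld E) H.Ω := IsScalarTower.of_algebraMap_eq fun r => rfl
  haveI : FaithfulSMul (HesseBase W) H.Ω := (faithfulSMul_iff_algebraMap_injective _ _).2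
    ((algebraMap (Fld E) H.Ω).injective.comp (FaithfulSMul.algebraMap_injective _ _))
  let toΩ : Fld E →ₐ[HesseBase W] H.Ω := IsScalarTower.toAlgHom _ _ _
  obtain ⟨h', hT'⟩ := nsmul_hesseMap_some (hesseVar W) toΩ hT
  obtain ⟨hx, hy⟩ := isIntegral_hesse_torsion (isUnit_hesseVar (W := W)) hn h' hT'
  exact ⟨(isIntegral_algHom_iff toΩ (algebraMap (Fld E) H.Ω).injective).1 hx,
    (isIntegral_algHom_iff toΩ (algebraMap (Fld E) H.Ω).injective).1 hy⟩

variable [Algebra (FractionRing (HesseBase W)) (Fld E)]
  [IsScalarTower (HesseBase W) (FractionRing (HesseBase W)) (Fld E)] [DecidableEq (Fld E)]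
  (hal : ∀ P : W[X], algebraMap (HesseBase W) (Fld E) (algebraMap W[X] (HesseBase W) P) = aeval t P)

include hal in
/-- The level field is Galois over the fractions of the base and generated by the torsion. -/
theorem hesseFld_galois (H : HesseData (W := W) E t) :
    FiniteDimensional (FractionRing (HesseBase W)) (Fld E) ∧
      IsGalois (FractionRing (HesseBase W)) (Fld E) ∧
      ∀ F' : IntermediateField (FractionRing (HesseBase W)) (Fld E),
        (∀ (a c : Fld E)
          (h : (hesseCurve (algebraMap (HesseBase W) (Fld E) (hesseVar W))).toAffine.Nonsingular a c),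
          M • Affine.Point.some a c h = 0 → a ∈ F') → F' = ⊤ := by
  classical
  have hfinj : Function.Injective (algebraMap (HesseBase W) (Fld E)) :=
    FaithfulSMul.algebraMap_injective _ _
  have htR : algebraMap (HesseBase W) (Fld E) (hesseVar W) = t := by rw [hesseVar, hal, aeval_X]
  letI : Algebra (HesseBase W) H.Ω := ((algebraMap (Fld E) H.Ω).comp (algebraMap (HesseBase W) (Fld E))).toAlgebra
  haveI : IsScalarTower (HesseBase W) (Fld E) H.Ω := IsScalarTower.of_algebraMap_eq fun r => rfl
  haveI : FaithfulSMul (HesseBase W) H.Ω := (faithfulSMul_iff_algebraMap_injective _ _).2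
    ((algebraMap (Fld E) H.Ω).injective.comp hfinj)
  letI : Algebra (FractionRing (HesseBase W)) H.Ω := ((algebraMap (Fld E) H.Ω).comp (algebraMap (FractionRing (HesseBase W)) (Fld E))).toAlgebra
  haveI : IsScalarTower (FractionRing (HesseBase W)) (Fld E) H.Ω :=
    IsScalarTower.of_algebraMap_eq fun r => rfl
  haveI : IsScalarTower (HesseBase W) (FractionRing (HesseBase W)) H.Ω :=
    IsScalarTower.of_algebraMap_eq fun r =>
      congrArg (algebraMap (Fld E) H.Ω) (IsScalarTower.algebraMap_apply (HesseBase W)
        (FractionRing (HesseBase W)) (Fld E) r)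
  haveI : CharZero (FractionRing (HesseBase W)) :=
    ((algebraMap (FractionRing (HesseBase W)) (Fld E)).charZero_iff (RingHom.injective _)).2
      inferInstance
  let tR := hesseVar W
  let toΩ : Fld E →ₐ[HesseBase W] H.Ω := IsScalarTower.toAlgHom _ _ _
  have htΩ : algebraMap (HesseBase W) H.Ω tR = algebraMap (Fld E) H.Ω t := by
    rw [IsScalarTower.algebraMap_apply (HesseBase W) (Fld E) H.Ω, htR]
  -- torsion points in the field and over `Ω`
  have hup : ∀ {x y : Fld E} (h : (hesseCurve (algebraMap (HesseBase W) (Fld E) tR)).toAffine.Nonsingular x y)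
      (k : ℕ), k • Affine.Point.some x y h = 0 →
      ∃ h', k • (Affine.Point.some (algebraMap (Fld E) H.Ω x) (algebraMap (Fld E) H.Ω y) h' :
        (hesseCurve (algebraMap (HesseBase W) H.Ω tR)).toAffine.Point) = 0 :=
    fun h k hk => nsmul_hesseMap_some tR toΩ hk
  have hdown : ∀ (x y : H.Ω) (h : (hesseCurve (algebraMap (HesseBase W) H.Ω tR)).toAffine.Nonsingular x y),
      M • Affine.Point.some x y h = 0 → ∃ a b : Fld E, algebraMap (Fld E) H.Ω a = x ∧
        algebraMap (Fld E) H.Ω b = y := by
    have key : ∀ (T : H.Ω), T = algebraMap (Fld E) H.Ω t → ∀ (x y : H.Ω)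
        (h : (hesseCurve T).toAffine.Nonsingular x y), M • Affine.Point.some x y h = 0 →
        ∃ a b : Fld E, algebraMap (Fld E) H.Ω a = x ∧ algebraMap (Fld E) H.Ω b = y := by
      rintro T rfl
      exact H.coord_mem
    exact key _ htΩ
  -- torsion abscissae are roots
  haveI : ((hesseCurve tR).map (algebraMap (HesseBase W) H.Ω)).IsElliptic := by
    refine ⟨?_⟩
    rw [map_Δ, hesseCurve_Δ, map_mul, map_ofNat]
    exact (isUnit_iff_ne_zero.2 (by norm_num)).mul (((isUnit_hesseVar (W := W)).pow 3).map _)
  obtain ⟨A, b, hab⟩ := exists_mulPair (W := hesseCurve tR)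
    (FaithfulSMul.algebraMap_injective (HesseBase W) H.Ω) M (NeZero.pos M)
  have hb0 : b ≠ 0 := fun e => by
    have h0 := hab.coeff_b
    rw [e, coeff_zero, eq_comm, pow_eq_zero_iff two_ne_zero] at h0
    have h' := congrArg (algebraMap (HesseBase W) H.Ω) h0
    rw [map_natCast, map_zero] at h'
    exact NeZero.ne M (Nat.cast_eq_zero.1 h')
  let Sx : Set (Fld E) := {a | ∃ (c : Fld E)
    (h : (hesseCurve (algebraMap (HesseBase W) (Fld E) tR)).toAffine.Nonsingular a c),
      M • Affine.Point.some a c h = 0}
  have hSx : ∀ a ∈ Sx, (b.map (algebraMap (HesseBase W) (Fld E))).IsRoot a := by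
    rintro a ⟨c, h, hT⟩
    obtain ⟨h', hT'⟩ := hup h M hT
    apply (algebraMap (Fld E) H.Ω).injective
    rw [map_zero, ← eval_map_apply, Polynomial.map_map, ← IsScalarTower.algebraMap_eq]
    have key : ∀ (V : WeierstrassCurve H.Ω) (_ : (hesseCurve tR).map (algebraMap (HesseBase W) H.Ω) = V)
        (h : V.toAffine.Nonsingular (algebraMap (Fld E) H.Ω a) (algebraMap (Fld E) H.Ω c)),
        M • Affine.Point.some _ _ h = 0 →
        (b.map (algebraMap (HesseBase W) H.Ω)).eval (algebraMap (Fld E) H.Ω a) = 0 := by
      rintro V rfl h hh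
      exact hab.spec_zero _ _ h hh
    exact key _ (map_hesseCurve _ _) h' hT'
  have hSxfin : Sx.Finite :=
    Set.Finite.subset (Polynomial.finite_setOfPred_isRoot
      ((Polynomial.map_ne_zero_iff hfinj).2 hb0)) hSx
  -- generation over the fraction field
  have hgenK : ∀ F' : IntermediateField (FractionRing (HesseBase W)) (Fld E), Sx ⊆ F' → F' = ⊤ := by
    intro F' hF'
    have := H.gen F'.toSubfield (fun c => ?_) (fun a c h hT => ?_)
    · exact eq_top_iff.2 fun x _ => this (Subfield.mem_top x)
    · have e : algebraMap W (Fld E) c = algebraMap (FractionRing (HesseBase W)) (Fld E)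
          (algebraMap (HesseBase W) _ (algebraMap W[X] (HesseBase W) (C c))) := by
        rw [← IsScalarTower.algebraMap_apply, hal, aeval_C]
      rw [e]
      exact F'.algebraMap_mem _
    · have key : ∀ (T : H.Ω), T = algebraMap (HesseBase W) H.Ω tR →
          (hh : (hesseCurve T).toAffine.Nonsingular (algebraMap (Fld E) H.Ω a) (algebraMap (Fld E) H.Ω c)) →
          M • Affine.Point.some _ _ hh = 0 → a ∈ Sx := by
        rintro T rfl hh hh0
        have hn' : (hesseCurve (algebraMap (HesseBase W) (Fld E) tR)).toAffine.Nonsingular a c := by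
          have e := map_hesseCurve (algebraMap (Fld E) H.Ω) (algebraMap (HesseBase W) (Fld E) tR)
          rw [← IsScalarTower.algebraMap_apply] at e
          rw [← e] at hh
          exact (Affine.map_nonsingular (W := (hesseCurve (algebraMap (HesseBase W) (Fld E) tR)).toAffine)
            (algebraMap (Fld E) H.Ω).injective a c).1 hh
        refine ⟨c, hn', hesseMap_injective tR toΩ ?_⟩
        obtain ⟨h'', e⟩ := hesseMap_some tR toΩ hn'
        rw [map_nsmul, map_zero, e]
        exact hh0
      exact hF' (key _ htΩ.symm h hT)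
  have halgS : ∀ a ∈ Sx, _root_.IsIntegral (FractionRing (HesseBase W)) a := fun a ha => by
    refine IsAlgebraic.isIntegral ⟨b.map (algebraMap (HesseBase W) (FractionRing (HesseBase W))),
      (Polynomial.map_ne_zero_iff (IsFractionRing.injective _ _)).2 hb0, ?_⟩
    rw [aeval_map_algebraMap, aeval_def, eval₂_eq_eval_map]
    exact hSx a ha
  haveI : FiniteDimensional (FractionRing (HesseBase W)) (Fld E) := by
    haveI := hSxfin.to_subtype
    haveI := IntermediateField.finiteDimensional_adjoin (K := FractionRing (HesseBase W)) halgS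
    rw [hgenK _ (IntermediateField.subset_adjoin _ Sx)] at this
    exact IntermediateField.topEquiv.toLinearEquiv.finiteDimensional
  haveI : Algebra.IsAlgebraic (FractionRing (HesseBase W)) H.Ω :=
    Algebra.IsAlgebraic.trans (FractionRing (HesseBase W)) (Fld E) H.Ω
  -- normality
  let am : Fld E →ₐ[FractionRing (HesseBase W)] H.Ω := IsScalarTower.toAlgHom _ _ _
  haveI : Normal (FractionRing (HesseBase W)) (Fld E) := by
    haveI : IsAlgClosure (FractionRing (HesseBase W)) H.Ω := ⟨inferInstance, inferInstance⟩
    haveI : Normal (FractionRing (HesseBase W)) H.Ω := IsAlgClosure.normal _ H.Ω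
    haveI : Normal (FractionRing (HesseBase W)) am.fieldRange := by
      rw [IntermediateField.normal_iff_forall_map_le]
      intro σ
      rintro _ ⟨_, ⟨x, rfl⟩, rfl⟩
      let F' : IntermediateField (FractionRing (HesseBase W)) (Fld E) :=
        am.fieldRange.comap (σ.comp am)
      have : F' = ⊤ := hgenK F' (by
        rintro a ⟨c, h, hT⟩
        obtain ⟨h', hT'⟩ := hup h M hT
        obtain ⟨h'', hT''⟩ := nsmul_hesseMap_some tR (σ.restrictScalars (HesseBase W)) hT'
        obtain ⟨a', -, e, -⟩ := hdown _ _ h'' hT''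
        exact ⟨a', e⟩)
      exact (this ▸ IntermediateField.mem_top : x ∈ F')
    exact Normal.of_algEquiv (show am.fieldRange ≃ₐ[FractionRing (HesseBase W)] Fld E from
      (AlgEquiv.ofInjectiveField am).symm)
  exact ⟨inferInstance, ⟨⟩, fun F' hF' => hgenK F' (by rintro a ⟨c, h, hT⟩; exact hF' a c h hT)⟩

include hal in
/-- Two automorphisms agreeing on the parameters of points of order two and on the torsion of odd
order are equal. -/
theorem hesse_algEquiv_ext (H : HesseData (W := W) E t) {n : ℕ} (hn : Odd n) (hM : M = 2 * n)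
    {g g' : Fld E ≃ₐ[FractionRing (HesseBase W)] Fld E} (h₁ : g H.z₁ = g' H.z₁)
    (h₂ : g H.z₂ = g' H.z₂)
    (hodd : ∀ (x y : Fld E)
      (h : (hesseCurve (algebraMap (HesseBase W) (Fld E) (hesseVar W))).toAffine.Nonsingular x y),
      n • Affine.Point.some x y h = 0 → g x = g' x ∧ g y = g' y) : g = g' := by
  classical
  have htR : algebraMap (HesseBase W) (Fld E) (hesseVar W) = t := by rw [hesseVar, hal, aeval_X]
  obtain ⟨-, -, hgenK⟩ := hesseFld_galois hal H
  have hA := H.disc_ne
  let tR := hesseVar W
  let gA := g.toAlgHom.restrictScalars (HesseBase W)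
  let gA' := g'.toAlgHom.restrictScalars (HesseBase W)
  have heq : ∀ T : (hesseCurve (algebraMap (HesseBase W) (Fld E) tR)).toAffine.Point,
      M • T = 0 → hesseMap tR gA T = hesseMap tR gA' T := by
    have hn' : ∀ T : (hesseCurve (algebraMap (HesseBase W) (Fld E) tR)).toAffine.Point,
        n • T = 0 → hesseMap tR gA T = hesseMap tR gA' T := by
      rintro (_ | ⟨x, y, h⟩) hT
      · exact (map_zero _).trans (map_zero _).symm
      obtain ⟨h', e⟩ := hesseMap_some tR gA h
      obtain ⟨h'', e'⟩ := hesseMap_some tR gA' h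
      rw [e, e']
      simp only [Affine.Point.some.injEq]
      exact hodd x y h hT
    have h2' : ∀ T : (hesseCurve (algebraMap (HesseBase W) (Fld E) tR)).toAffine.Point,
        2 • T = 0 → hesseMap tR gA T = hesseMap tR gA' T := by
      rintro (_ | ⟨x, y, h⟩) hT
      · exact (map_zero _).trans (map_zero _).symm
      obtain ⟨h', e⟩ := hesseMap_some tR gA h
      obtain ⟨h'', e'⟩ := hesseMap_some tR gA' h
      rw [e, e']
      have hneg : y = (hesseCurve (algebraMap (HesseBase W) (Fld E) tR)).toAffine.negY x y := by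
        rw [two_nsmul, add_eq_zero_iff_eq_neg, Affine.Point.neg_some, Affine.Point.some.injEq] at hT
        exact hT.2
      obtain ⟨z, hz0, hroot, hzx, hzy⟩ :=
        two_torsion_param two_ne_zero (by rw [htR]; exact hA) h.1 hneg
      rw [htR] at hroot
      obtain ⟨hq, hp⟩ := two_torsion_vieta H.z_ne H.root₁ H.root₂
      have hfac : (t ^ 3 - 1) * ((z - H.z₁) * (z - H.z₂) * (z + H.z₁ + H.z₂)) = 0 := by
        linear_combination hroot - z * hq + hp
      have hgz : g z = g' z := by
        rcases mul_eq_zero.1 ((mul_eq_zero.1 hfac).resolve_left hA) with h12 | h3'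
        · rcases mul_eq_zero.1 h12 with e1 | e2
          · rw [sub_eq_zero.1 e1]; exact h₁
          · rw [sub_eq_zero.1 e2]; exact h₂
        · rw [show z = -(H.z₁ + H.z₂) by linear_combination h3', map_neg, map_neg, map_add, map_add,
            h₁, h₂]
      simp only [Affine.Point.some.injEq]
      constructor
      · show g x = g' x
        rw [hzx, map_neg, map_neg, map_inv₀, map_inv₀, map_pow, map_pow, hgz]
      · show g y = g' y
        rw [hzy, map_inv₀, map_inv₀, map_pow, map_pow, hgz]
    intro T hT
    obtain ⟨u, v, huv⟩ : ∃ u v : ℤ, u * (n : ℤ) + v * 2 = 1 := by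
      obtain ⟨k, rfl⟩ := hn
      exact ⟨1, -(k : ℤ), by push_cast; ring⟩
    have h2T : 2 • (n • T) = 0 := by rw [← mul_nsmul, mul_comm, ← hM, hT]
    have hnT : n • (2 • T) = 0 := by rw [← mul_nsmul, ← hM, hT]
    have e : T = u • (n • T) + v • (2 • T) := by
      rw [← natCast_zsmul T n, ← natCast_zsmul T 2, smul_smul, smul_smul, ← add_smul]
      norm_num [huv]
    rw [e, map_add, map_add, map_zsmul, map_zsmul, map_zsmul, map_zsmul, h2' _ h2T, hn' _ hnT]
  refine AlgEquiv.ext fun x => ?_
  let F' : IntermediateField (FractionRing (HesseBase W)) (Fld E) :=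
    { AlgHom.equalizer g.toAlgHom g'.toAlgHom with
      inv_mem' := fun x hx => by
        show g x⁻¹ = g' x⁻¹
        rw [map_inv₀, map_inv₀]
        exact congrArg _ hx }
  have : F' = ⊤ := hgenK F' fun a c h hT => by
    obtain ⟨h', e⟩ := hesseMap_some tR gA h
    obtain ⟨h'', e'⟩ := hesseMap_some tR gA' h
    have := heq _ hT
    rw [e, e', Affine.Point.some.injEq] at this
    exact this.1
  exact (this ▸ IntermediateField.mem_top : x ∈ F')

end Fermat.Agent.Moduli
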