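import Fermat.Agent.Moduli.Uniform
import Fermat.Agent.Models.Field.Quad
import Fermat.Agent.GalRep.Model.Hauptmodul
import Mathlib.Order.Filter.FilterProduct

/-!
# The abscissae of the torsion of the Legendre curve inside the level field

In the field of germs along an ultrafilter at `i∞` the uniformisations give a homomorphism of the
division points to the Legendre curve; the level field embeds, as nonzero functions are eventually
nonzero.
-/

set_option autoImplicit false
set_option linter.style.haveILetI false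

noncomputable section

namespace Fermat.Agent.Moduli

open WeierstrassCurve UpperHalfPlane CongruenceSubgroup Filter
open Fermat.Agent.GalRep Fermat.Agent.GalRep.Level Fermat.Agent.ModField
open Fermat.Agent.GalRep.Model (Quad Lev tauPair divPt wpDiff NZ PM mem_lattice_iff)
open scoped MatrixGroups

/-! ## Points over germs -/

section Germ

variable {ι : Type} (U : Ultrafilter ι)

/-- Germs of complex functions. -/
abbrev GermC : Type := Germ (U : Filter ι) ℂ

lemma charZero_germC : CharZero (GermC U) :=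
  ⟨fun m n h => by
    have : ∀ᶠ _ in (U : Filter ι), (m : ℂ) = n := Germ.coe_eq.1 h
    exact_mod_cast this.exists.choose_spec⟩

open Classical

variable {U} {W : ι → WeierstrassCurve ℂ} {V : WeierstrassCurve (GermC U)}
  (h₁ : V.a₁ = ((fun i => (W i).a₁ : ι → ℂ) : GermC U))
  (h₂ : V.a₂ = ((fun i => (W i).a₂ : ι → ℂ) : GermC U))
  (h₃ : V.a₃ = ((fun i => (W i).a₃ : ι → ℂ) : GermC U))
  (h₄ : V.a₄ = ((fun i => (W i).a₄ : ι → ℂ) : GermC U))
  (h₆ : V.a₆ = ((fun i => (W i).a₆ : ι → ℂ) : GermC U))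

include h₁ h₃ in
lemma germ_negY (x y : ι → ℂ) :
    ((fun i => (W i).toAffine.negY (x i) (y i) : ι → ℂ) : GermC U) = V.toAffine.negY ↑x ↑y := by
  rw [Affine.negY, h₁, h₃]
  rfl

include h₁ h₂ h₃ h₄ in
lemma germ_slope (x₁ x₂ y₁ y₂ : ι → ℂ) :
    ((fun i => (W i).toAffine.slope (x₁ i) (x₂ i) (y₁ i) (y₂ i) : ι → ℂ) : GermC U) =
      V.toAffine.slope ↑x₁ ↑x₂ ↑y₁ ↑y₂ := by
  rcases U.em (fun i => x₁ i = x₂ i) with hx | hx
  · have hx' : (↑x₁ : GermC U) = ↑x₂ := Germ.coe_eq.2 hx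
    rcases U.em (fun i => y₁ i = (W i).toAffine.negY (x₂ i) (y₂ i)) with hy | hy
    · rw [Affine.slope_of_Y_eq hx' (by rw [← germ_negY h₁ h₃]; exact Germ.coe_eq.2 hy)]
      exact Germ.coe_eq.2 ((hx.and hy).mono fun i hi => Affine.slope_of_Y_eq hi.1 hi.2)
    · have hy' : (↑y₁ : GermC U) ≠ V.toAffine.negY ↑x₂ ↑y₂ := by
        rw [← germ_negY h₁ h₃]
        intro e
        obtain ⟨i, hi, hi'⟩ := ((Germ.coe_eq.1 e).and hy).exists
        exact hi' hi
      rw [Affine.slope_of_Y_ne hx' hy', h₁, h₂, h₄, ← germ_negY h₁ h₃]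
      exact Germ.coe_eq.2 ((hx.and hy).mono fun i hi => Affine.slope_of_Y_ne hi.1 hi.2)
  · have hx' : (↑x₁ : GermC U) ≠ ↑x₂ := by
      intro e
      obtain ⟨i, hi, hi'⟩ := ((Germ.coe_eq.1 e).and hx).exists
      exact hi' hi
    rw [Affine.slope_of_X_ne hx']
    exact Germ.coe_eq.2 (hx.mono fun i hi => Affine.slope_of_X_ne hi)

variable (V) in
/-- `P` is the germ of the pointwise points `p`. -/
def IsGermPt (p : ∀ i, (W i).toAffine.Point) (P : V.toAffine.Point) : Prop :=
  (P = 0 ∧ ∀ᶠ i in (U : Filter ι), p i = 0) ∨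
    ∃ (x y : ι → ℂ) (h : V.toAffine.Nonsingular (↑x) (↑y)), P = Affine.Point.some _ _ h ∧
      ∀ᶠ i in (U : Filter ι), ∃ h', p i = Affine.Point.some (x i) (y i) h'

lemma IsGermPt.unique {p : ∀ i, (W i).toAffine.Point} {P P' : V.toAffine.Point}
    (h : IsGermPt V p P) (h' : IsGermPt V p P') : P = P' := by
  rcases h with ⟨rfl, h⟩ | ⟨x, y, hn, rfl, h⟩ <;> rcases h' with ⟨rfl, h'⟩ | ⟨x', y', hn', rfl, h'⟩
  · rfl
  · obtain ⟨i, hi, hh, hi'⟩ := (h.and h').exists
    exact absurd (hi'.symm.trans hi) (Affine.Point.some_ne_zero _)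
  · obtain ⟨i, ⟨hh, hi⟩, hi'⟩ := (h.and h').exists
    exact absurd (hi.symm.trans hi') (Affine.Point.some_ne_zero _)
  · have he : ∀ᶠ i in (U : Filter ι), x i = x' i ∧ y i = y' i := (h.and h').mono fun i hi => by
      obtain ⟨⟨_, e⟩, ⟨_, e'⟩⟩ := hi
      rw [e, Affine.Point.some.injEq] at e'
      exact e'
    rw [Affine.Point.some.injEq]
    exact ⟨Germ.coe_eq.2 (he.mono fun i hi => hi.1), Germ.coe_eq.2 (he.mono fun i hi => hi.2)⟩

include h₁ h₂ h₃ h₄ h₆ in
lemma IsGermPt.add {p p' : ∀ i, (W i).toAffine.Point}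
    {P P' : V.toAffine.Point} (h : IsGermPt V p P) (h' : IsGermPt V p' P') :
    IsGermPt V (fun i => p i + p' i) (P + P') := by
  rcases h with ⟨rfl, h⟩ | ⟨x, y, hn, rfl, h⟩
  · rcases h' with ⟨rfl, h'⟩ | ⟨x', y', hn', rfl, h'⟩
    · exact Or.inl ⟨add_zero _, (h.and h').mono fun i hi => show p i + p' i = 0 by rw [hi.1, hi.2, add_zero]⟩
    · exact Or.inr ⟨x', y', hn', zero_add _, (h.and h').mono fun i hi => by
        obtain ⟨hn, e⟩ := hi.2; exact ⟨hn, show p i + p' i = _ by rw [hi.1, zero_add, e]⟩⟩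
  rcases h' with ⟨rfl, h'⟩ | ⟨x', y', hn', rfl, h'⟩
  · exact Or.inr ⟨x, y, hn, add_zero _, (h.and h').mono fun i hi => by
      obtain ⟨hn, e⟩ := hi.1; exact ⟨hn, show p i + p' i = _ by rw [hi.2, add_zero, e]⟩⟩
  by_cases hxy : (↑x : GermC U) = ↑x' ∧ (↑y : GermC U) = V.toAffine.negY ↑x' ↑y'
  · refine Or.inl ⟨Affine.Point.add_of_Y_eq hxy.1 hxy.2, ?_⟩
    have e1 := Germ.coe_eq.1 hxy.1
    have e2 := Germ.coe_eq.1 (hxy.2.trans (germ_negY h₁ h₃ x' y').symm)
    filter_upwards [h, h', e1, e2] with i ⟨a, ha⟩ ⟨b, hb⟩ i1 i2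
    show p i + p' i = 0
    rw [ha, hb, Affine.Point.add_of_Y_eq i1 i2]
  · set s : ι → ℂ := fun i => (W i).toAffine.slope (x i) (x' i) (y i) (y' i) with hs
    have es : (↑s : GermC U) = V.toAffine.slope ↑x ↑x' ↑y ↑y' := germ_slope h₁ h₂ h₃ h₄ x x' y y'
    set X : ι → ℂ := fun i => (W i).toAffine.addX (x i) (x' i) (s i) with hX
    set Y : ι → ℂ := fun i => (W i).toAffine.addY (x i) (x' i) (y i) (s i) with hY
    have eX : (↑X : GermC U) = V.toAffine.addX ↑x ↑x' (V.toAffine.slope ↑x ↑x' ↑y ↑y') := by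
      rw [← es, Affine.addX, h₁, h₂]
      rfl
    have eY : (↑Y : GermC U) = V.toAffine.addY ↑x ↑x' ↑y (V.toAffine.slope ↑x ↑x' ↑y ↑y') := by
      rw [← es, Affine.addY, Affine.negAddY, Affine.addX, Affine.negY, h₁, h₂, h₃]
      rfl
    refine Or.inr ⟨X, Y, eX ▸ eY ▸ Affine.nonsingular_add hn hn' hxy,
      (Affine.Point.add_some hxy).trans ?_, ?_⟩
    · rw [Affine.Point.some.injEq]; exact ⟨eX.symm, eY.symm⟩
    have hne : ∀ᶠ i in (U : Filter ι), ¬ (x i = x' i ∧ y i = (W i).toAffine.negY (x' i) (y' i)) := by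
      refine U.eventually_not.2 fun he => hxy ⟨Germ.coe_eq.2 (he.mono fun i hi => hi.1), ?_⟩
      rw [← germ_negY h₁ h₃]
      exact Germ.coe_eq.2 (he.mono fun i hi => hi.2)
    filter_upwards [h, h', hne] with i ⟨a, ha⟩ ⟨b, hb⟩ i1
    exact ⟨Affine.nonsingular_add a b i1, show p i + p' i = _ by rw [ha, hb]; exact Affine.Point.add_some i1⟩

end Germ

/-! ## The level field -/

variable {O : Type} [CommRing O] [IsDomain O] {M : ℕ} [NeZero M] (E : Emb O M)
  (L : Lev M) (hm : L.m = 2)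

/-- An ultrafilter at `i∞`. -/
def ultraInf : Ultrafilter ℍ :=
  Ultrafilter.of atImInfty

/-- Functions as germs at `i∞`. -/
def evGerm : bddMF E →+* GermC ultraInf :=
  (Germ.coeRingHom (ultraInf : Filter ℍ)).comp
    ((modFuns (Gamma M)).val.toRingHom.comp (bddMF E).subtype)

theorem evGerm_injective : Function.Injective (evGerm E) := by
  rw [injective_iff_map_eq_zero]
  intro F hF
  by_contra h0
  have hs : serHom M (F : MF M) ≠ 0 := fun h =>
    h0 (Subtype.ext ((injective_iff_map_eq_zero _).1 (serHom_injective M) _ h))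
  have h1 := ((hasQSeries_serHom (F : MF M)).eventually_ne_zero (NeZero.pos M) hs).filter_mono
    (Ultrafilter.of_le (atImInfty : Filter ℍ))
  have h2 : ∀ᶠ τ in (ultraInf : Filter ℍ), ((F : MF M) : ℍ → ℂ) τ = 0 := Germ.coe_eq.1 hF
  obtain ⟨τ, hτ, hτ'⟩ := (h1.and h2).exists
  exact hτ hτ'

/-- The level field inside the germs. -/
def fldGerm : Fld E →+* GermC ultraInf :=
  IsFractionRing.lift (A := bddMF E) (K := FractionRing (bddMF E)) (evGerm_injective E)

theorem fldGerm_quadF (q : Quad M) :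
    fldGerm E (quadF E q) = ((q.fn : ℍ → ℂ) : GermC ultraInf) :=
  (IsFractionRing.lift_algebraMap (A := bddMF E) (K := FractionRing (bddMF E))
    (evGerm_injective E) _).trans rfl

/-- The abscissa of the division point `u`, as a ratio. -/
def absQuad (u : ℤ × ℤ) (hu : NZ M u) : Quad M :=
  ⟨u, L.V 0, L.V 2, L.V 0, hu, L.nz_V 0, L.nz_V 2, L.nz_V 0,
    L.not_pm L.valid2 L.valid0 (by decide)⟩

/-- The Legendre parameter. -/
def lamF : Fld E := quadF E (absQuad L (L.V 1) (L.nz_V 1))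

lemma divPt_sub (u v : ℤ × ℤ) (τ : ℍ) : divPt M (u - v) τ = divPt M u τ - divPt M v τ := by
  simp only [divPt, Prod.fst_sub, Prod.snd_sub, Int.cast_sub]
  ring

lemma divPt_add (u v : ℤ × ℤ) (τ : ℍ) : divPt M (u + v) τ = divPt M u τ + divPt M v τ := by
  simp only [divPt, Prod.fst_add, Prod.snd_add, Int.cast_add]
  ring

lemma divPt_mem_iff (u : ℤ × ℤ) (τ : ℍ) :
    divPt M u τ ∈ (tauPair τ).lattice ↔ ¬ NZ M u := by
  have hM : (M : ℂ) ≠ 0 := Nat.cast_ne_zero.2 (NeZero.ne M)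
  have him : (τ : ℂ).im ≠ 0 := τ.im_pos.ne'
  rw [mem_lattice_iff, NZ, not_not]
  constructor
  · rintro ⟨a, b, h⟩
    rw [divPt] at h
    field_simp at h
    have key : ((u.1 : ℂ) - M * a) * τ + ((u.2 : ℂ) - M * b) = 0 := by linear_combination h
    have e1 := congrArg Complex.im key
    simp at e1
    have e1' : (u.1 : ℤ) = M * a := by
      have : ((u.1 : ℝ) - M * a) = 0 := by
        rcases e1 with e1 | e1
        · exact e1
        · exact absurd e1 τ.im_pos.ne'
      have : (u.1 : ℝ) = ((M * a : ℤ) : ℝ) := by push_cast; linarith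
      exact_mod_cast this
    refine ⟨⟨a, e1'⟩, b, ?_⟩
    rw [e1'] at key
    have : (u.2 : ℂ) = ((M * b : ℤ) : ℂ) := by push_cast at key ⊢; linear_combination key
    exact_mod_cast this
  · rintro ⟨⟨a, ha⟩, b, hb⟩
    refine ⟨a, b, ?_⟩
    rw [divPt, ha, hb]
    push_cast
    field_simp

include hm in
lemma two_V_notNZ (i : Fin 4) : ¬ NZ M (L.V i + L.V i) := by
  rw [NZ, not_not]
  have h := L.eq
  rw [hm] at h
  constructor
  · refine ⟨(Model.base i).1, ?_⟩
    simp only [Prod.fst_add, Model.Lev.V, h]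
    push_cast
    ring
  · refine ⟨(Model.base i).2, ?_⟩
    simp only [Prod.snd_add, Model.Lev.V, h]
    push_cast
    ring

/-- The indices of the half periods. -/
def halfIdx : Fin 3 → Fin 4 := ![0, 2, 1]

lemma halfIdx_valid (i : Fin 3) : L.Valid (halfIdx i) := by
  fin_cases i <;> exact Or.inl (by decide)

include hm in
lemma halfPeriods_aux (τ : ℍ) : ∀ i : Fin 3,
    2 * divPt M (L.V (halfIdx i)) τ ∈ (tauPair τ).lattice := fun i => by
  rw [two_mul, ← divPt_add, divPt_mem_iff]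
  exact two_V_notNZ L hm _

/-- The half periods at `τ`. -/
def halfPeriods (τ : ℍ) : HalfPeriods (tauPair τ) where
  h i := divPt M (L.V (halfIdx i)) τ
  two_mul_mem := halfPeriods_aux L hm τ
  notMem i := by rw [divPt_mem_iff, not_not]; exact L.nz_V _
  sub_notMem i j hij := by
    rw [← divPt_sub, divPt_mem_iff, not_not]
    intro h
    refine L.not_pm (halfIdx_valid L i) (halfIdx_valid L j) ?_ (Or.inl h)
    revert hij
    fin_cases i <;> fin_cases j <;> decide

lemma halfPeriods_X (u : ℤ × ℤ) (hu : NZ M u) (τ : ℍ) :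
    (halfPeriods L hm τ).X (divPt M u τ) = (absQuad L u hu).fn τ := by
  have hc : ((2 : ℂ) * Real.pi * Complex.I) ^ 2 ≠ 0 :=
    pow_ne_zero _ (by simp [Real.pi_ne_zero, Complex.I_ne_zero])
  rw [Quad.fn, wpDiff, wpDiff, div_div_div_cancel_right₀ hc]
  rfl

lemma halfPeriods_lam (τ : ℍ) :
    (halfPeriods L hm τ).lam = (absQuad L (L.V 1) (L.nz_V 1)).fn τ := by
  rw [← halfPeriods_X L hm (L.V 1) (L.nz_V 1)]
  rfl

/-- The parameter in the germs. -/
abbrev lamG : GermC ultraInf := fldGerm E (lamF E L)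

/-- The points of the uniformisations. -/
def ptFam (u : ℤ × ℤ) (τ : ℍ) : (legendre (halfPeriods L hm τ).lam).toAffine.Point :=
  (halfPeriods L hm τ).uniform (divPt M u τ)

lemma lamG_eq : lamG E L = (((fun τ => (halfPeriods L hm τ).lam) : ℍ → ℂ) : GermC ultraInf) := by
  rw [lamG, lamF, fldGerm_quadF]
  congr 1
  exact funext fun τ => (halfPeriods_lam L hm τ).symm

include hm in
lemma lamG_ne : lamG E L ≠ 0 ∧ 1 - lamG E L ≠ 0 := by
  rw [lamG_eq E L hm]
  constructor
  · intro h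
    obtain ⟨τ, hτ⟩ := (Germ.coe_eq.1 (h : _ = ((0 : ℍ → ℂ) : GermC ultraInf))).exists
    exact (halfPeriods L hm τ).lam_ne_zero hτ
  · intro h
    rw [sub_eq_zero] at h
    obtain ⟨τ, hτ⟩ := (Germ.coe_eq.1 (h : ((1 : ℍ → ℂ) : GermC ultraInf) = _)).exists
    exact (halfPeriods L hm τ).lam_ne_one hτ.symm

include hm in
theorem exists_germPt (u : ℤ × ℤ) :
    ∃ P : (legendre (lamG E L)).toAffine.Point,
      IsGermPt (legendre (lamG E L)) (ptFam L hm u) P ∧
      (P = 0 ↔ ¬ NZ M u) ∧ ∀ hu : NZ M u, ∃ (y : GermC ultraInf) (h : _),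
        P = Affine.Point.some (fldGerm E (quadF E (absQuad L u hu))) y h := by
  classical
  haveI := charZero_germC ultraInf
  by_cases hu : NZ M u
  · have hmem : ∀ τ, divPt M u τ ∉ (tauPair τ).lattice := fun τ => by
      rw [divPt_mem_iff, not_not]; exact hu
    set x : ℍ → ℂ := fun τ => (halfPeriods L hm τ).X (divPt M u τ) with hx
    set y : ℍ → ℂ := fun τ => (halfPeriods L hm τ).Y (divPt M u τ) with hy
    have ex : (↑x : GermC ultraInf) = fldGerm E (quadF E (absQuad L u hu)) := by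
      rw [fldGerm_quadF]
      congr 1
      exact funext fun τ => halfPeriods_X L hm u hu τ
    obtain ⟨hl0, hl1⟩ := lamG_ne E L hm
    haveI : (legendre (lamG E L)).IsElliptic := ⟨by
      rw [legendre_Δ, isUnit_iff_ne_zero]
      exact mul_ne_zero (by norm_num) (pow_ne_zero _ (mul_ne_zero hl0 hl1))⟩
    have hns : (legendre (lamG E L)).toAffine.Nonsingular (↑x) (↑y) := by
      refine Affine.equation_iff_nonsingular.1 ((Affine.equation_iff ..).2 ?_)
      rw [lamG_eq E L hm]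
      simp only [legendre]
      refine Germ.coe_eq.2 (Eventually.of_forall fun τ => ?_)
      have he := (Affine.equation_iff ..).1 ((halfPeriods L hm τ).nonsingular (hmem τ)).1
      simp only [legendre] at he
      exact he
    refine ⟨Affine.Point.some _ _ hns,
      Or.inr ⟨x, y, hns, rfl, Eventually.of_forall fun τ =>
        ⟨_, (halfPeriods L hm τ).uniform_of_notMem (hmem τ)⟩⟩,
      iff_of_false (Affine.Point.some_ne_zero _) (not_not.2 hu), fun _ => ⟨↑y, ex ▸ hns, ?_⟩⟩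
    rw [Affine.Point.some.injEq]
    exact ⟨ex, rfl⟩
  · exact ⟨0, Or.inl ⟨rfl, Eventually.of_forall fun τ =>
      (halfPeriods L hm τ).uniform_eq_zero_iff.2 ((divPt_mem_iff u τ).2 hu)⟩,
      iff_of_true rfl hu, fun h => absurd h hu⟩

open Classical in
include hm in
/-- The division points as torsion of the Legendre curve in the germs, with abscissae in the level
field. -/
theorem exists_divisionHom : ∃ P : ℤ × ℤ →+ (legendre (lamG E L)).toAffine.Point,
    (∀ u, P u = 0 ↔ ¬ NZ M u) ∧ ∀ u (hu : NZ M u), ∃ (y : GermC ultraInf) (h : _),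
      P u = Affine.Point.some (fldGerm E (quadF E (absQuad L u hu))) y h := by
  choose P hP h0 hs using exists_germPt E L hm
  refine ⟨AddMonoidHom.mk' P fun u v => ?_, h0, hs⟩
  have hadd := IsGermPt.add (U := ultraInf) (V := legendre (lamG E L))
    (W := fun τ => legendre (halfPeriods L hm τ).lam) rfl
    (by rw [lamG_eq E L hm]; rfl) rfl (lamG_eq E L hm) rfl (hP u) (hP v)
  refine (hP (u + v)).unique ?_
  have e : ptFam L hm (u + v) = fun τ => ptFam L hm u τ + ptFam L hm v τ := funext fun τ => by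
    rw [ptFam, ptFam, ptFam, divPt_add, map_add]
  rw [e]
  exact hadd

end Fermat.Agent.Moduli
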