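import Fermat.Agent.Moduli.Hasse

/-!
# The shape of the `q`-division polynomial modulo `q`

In characteristic `q = 2m + 1` the numerator and denominator of `x ∘ [q]` are polynomials in
`X ^ q`; comparing coefficients of exponent `≡ -1` in the invariance of the differential shows
that the leading coefficient of the denominator is the Hasse invariant.
-/

set_option autoImplicit false

namespace Fermat.Agent.Moduli

open Polynomial Finset

section Cartier

variable {T : Type*} [CommRing T] (q : ℕ)

/-- The coefficients of exponents `q n + q - 1`. -/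
noncomputable def cartier (P : T[X]) : T[X] :=
  ∑ n ∈ range (P.natDegree + 1), C (P.coeff (q * n + (q - 1))) * X ^ n

variable [NeZero q]

lemma coeff_cartier (P : T[X]) (n : ℕ) : (cartier q P).coeff n = P.coeff (q * n + (q - 1)) := by
  rw [cartier, finsetSum_coeff]
  simp only [coeff_C_mul_X_pow]
  rw [sum_ite_eq]
  split_ifs with h
  · rfl
  · rw [coeff_eq_zero_of_natDegree_lt]
    have h1 : P.natDegree < n := by simpa [Nat.lt_succ_iff] using h
    have h2 : n ≤ q * n := Nat.le_mul_of_pos_left n (NeZero.pos q)
    omega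

lemma cartier_add (P Q : T[X]) : cartier q (P + Q) = cartier q P + cartier q Q := by
  ext n; simp only [coeff_cartier, coeff_add]

lemma cartier_expand_mul (S P : T[X]) :
    cartier q (expand T q S * P) = S * cartier q P := by
  induction S using Polynomial.induction_on' with
  | add a b ha hb => rw [map_add, add_mul, cartier_add, ha, hb, add_mul]
  | monomial i a =>
    rw [← C_mul_X_pow_eq_monomial]
    ext n
    rw [coeff_cartier, map_mul, map_pow, expand_C, expand_X, ← pow_mul, mul_assoc, coeff_C_mul,
      coeff_X_pow_mul', mul_assoc, coeff_C_mul, coeff_X_pow_mul']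
    congr 1
    rcases le_or_gt i n with h | h
    · have h2 : q * i ≤ q * n := Nat.mul_le_mul le_rfl h
      rw [if_pos h, if_pos (le_add_right h2), coeff_cartier]
      congr 1
      rw [Nat.mul_sub q n i]
      omega
    · have h2 : q * (n + 1) ≤ q * i := Nat.mul_le_mul le_rfl h
      have h3 : 0 < q := NeZero.pos q
      rw [mul_add, mul_one] at h2
      rw [if_neg (by omega), if_neg (by omega)]

lemma cartier_derivative [CharP T q] (P : T[X]) : cartier q (derivative P) = 0 := by
  ext n
  rw [coeff_cartier, coeff_derivative, coeff_zero]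
  have h : q * n + (q - 1) + 1 = q * (n + 1) := by
    have := NeZero.pos q
    rw [mul_add]
    omega
  rw [← Nat.cast_add_one, h, Nat.cast_mul, CharP.cast_eq_zero T q, zero_mul, mul_zero]

lemma cartier_eq_C {P : T[X]} (h : P.natDegree < 2 * q - 1) :
    cartier q P = C (P.coeff (q - 1)) := by
  ext n
  rw [coeff_cartier, coeff_C]
  rcases Nat.eq_zero_or_pos n with rfl | hn
  · simp
  · rw [if_neg hn.ne', coeff_eq_zero_of_natDegree_lt]
    have : q ≤ q * n := Nat.le_mul_of_pos_right q hn
    omega

end Cartier

variable {T : Type*} [CommRing T] [IsDomain T] {q m : ℕ} [hp : Fact q.Prime] [CharP T q]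

/-- The right-hand side `X (X - 1) (X - l)` of the Legendre equation. -/
noncomputable def legendreCubic {R : Type*} [CommRing R] (l : R) : R[X] :=
  X * (X - 1) * (X - C l)

lemma monic_legendreCubic {R : Type*} [CommRing R] (l : R) : (legendreCubic l).Monic :=
  (monic_X.mul (by simpa using monic_X_sub_C (1 : R))).mul (monic_X_sub_C l)

/-- The data of `x ∘ [q]` modulo `q`: `A(X^q)/Ψ(X^q)²`, with `Rb` the reduced derivative datum. -/
structure CharQPair (l : T) (m : ℕ) (A Ψ Rb : T[X]) : Prop where
  monic_A : A.Monic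
  natDegree_A : A.natDegree = q
  natDegree_Ψ : Ψ.natDegree ≤ m
  ne_zero : Ψ ≠ 0
  monic_Rb : Rb.Monic
  natDegree_Rb : Rb.natDegree = 6 * m * (m + 1)
  wronskian : ∃ P : T[X], Rb * expand T q Ψ =
    X ^ (q - 1) * expand T q (Ψ * (derivative A * Ψ - 2 * A * derivative Ψ)) + derivative P
  curve : ∃ G : T[X], legendreCubic l * Rb ^ 2 = expand T q G

variable {l : T} {A Ψ Rb : T[X]}

/-- The main identity. -/
theorem CharQPair.identity (h : CharQPair (q := q) l m A Ψ Rb) (hq : q = 2 * m + 1) :
    ∃ K : T[X], K.Monic ∧ K.natDegree = q + m + 2 ∧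
      (derivative A * Ψ - 2 * A * derivative Ψ) * (legendreCubic l).map (frobenius T q) =
        C ((legendreCubic l ^ m).coeff (q - 1)) * K := by
  haveI : NeZero q := ⟨hp.out.ne_zero⟩
  haveI : ExpChar T q := ExpChar.prime hp.out
  set f := legendreCubic l with hf
  obtain ⟨P, hP⟩ := h.wronskian
  obtain ⟨G, hG⟩ := h.curve
  have hm2 : (2 * (m + 1) : T[X]) = 1 := by
    have : ((q : ℕ) : T[X]) = 0 := CharP.cast_eq_zero _ q
    rw [hq] at this
    push_cast at this
    linear_combination this
  have hd : derivative f * Rb + 2 * f * derivative Rb = 0 := by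
    have := congrArg derivative hG
    rw [derivative_expand, CharP.cast_eq_zero, zero_mul, mul_zero, derivative_mul, derivative_sq,
      map_ofNat] at this
    exact (mul_eq_zero.1 (by linear_combination this :
      Rb * (derivative f * Rb + 2 * f * derivative Rb) = 0)).resolve_left h.monic_Rb.ne_zero
  have hd' : derivative (Rb * f ^ (m + 1)) = 0 := by
    rw [derivative_mul, derivative_pow, Nat.add_sub_cancel, map_natCast]
    have h2 : (2 : T[X]) ≠ 0 := fun e => by rw [e, zero_mul] at hm2; exact zero_ne_one hm2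
    apply mul_left_cancel₀ h2
    push_cast
    linear_combination f ^ m * hd + (Rb * f ^ m * derivative f) * hm2
  set K := contract q (Rb * f ^ (m + 1)) with hK
  have hKe : expand T q K = Rb * f ^ (m + 1) := expand_contract q hd' hp.out.ne_zero
  have hfd : f.natDegree = 3 := by
    rw [hf, legendreCubic, (monic_X.mul _).natDegree_mul (monic_X_sub_C l), monic_X.natDegree_mul,
      natDegree_X, natDegree_X_sub_C, show (X - 1 : T[X]) = X - C 1 by rw [map_one],
      natDegree_X_sub_C]
    · rw [show (X - 1 : T[X]) = X - C 1 by rw [map_one]]; exact monic_X_sub_C 1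
    · rw [show (X - 1 : T[X]) = X - C 1 by rw [map_one]]; exact monic_X_sub_C 1
  have hfm : f.Monic := monic_legendreCubic l
  have hKm : K.Monic := by
    have := (leadingCoeff_expand (f := K) hp.out.pos)
    rw [hKe, (h.monic_Rb.mul (hfm.pow _)).leadingCoeff] at this
    exact this.symm
  refine ⟨K, hKm, ?_, ?_⟩
  · have := natDegree_expand q K
    rw [hKe, h.monic_Rb.natDegree_mul (hfm.pow _), hfm.natDegree_pow, h.natDegree_Rb, hfd] at this
    exact Nat.eq_of_mul_eq_mul_right hp.out.pos (this.symm.trans (by rw [hq]; ring))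
  · set Fq := f.map (frobenius T q)
    have hfq : f ^ q = expand T q Fq := by rw [← map_frobenius_expand q f, map_expand]
    have e : expand T q Fq * (Rb * expand T q Ψ) = expand T q (K * Ψ) * f ^ m := by
      rw [map_mul, hKe, ← hfq, hq, show 2 * m + 1 = (m + 1) + m by ring, pow_add]
      ring
    have h1 := congrArg (cartier q) e
    rw [cartier_expand_mul, cartier_expand_mul, hP, cartier_add, cartier_derivative, add_zero,
      mul_comm (X ^ (q - 1)), cartier_expand_mul,
      cartier_eq_C q (P := X ^ (q - 1)) (by rw [natDegree_X_pow]; have := hp.out.two_le; omega),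
      coeff_X_pow_self, map_one, mul_one,
      cartier_eq_C q (P := f ^ m) (by rw [hfm.natDegree_pow, hfd]; omega)] at h1
    apply mul_left_cancel₀ h.ne_zero
    linear_combination h1

omit [IsDomain T] in
lemma coeff_legendreCubic_pow (hq : q = 2 * m + 1) (l : T) :
    (legendreCubic l ^ m).coeff (q - 1) = (-1) ^ m * (hasse T m).eval l := by
  rw [hq, Nat.add_sub_cancel]
  exact coeff_legendre_pow m l

lemma coeff_top_of_natDegree_le {E : Type*} [CommRing E] [CharP E q] {A Ψ : E[X]}
    (hA : A.natDegree ≤ q) (hA1 : A.coeff q = 1) {j : ℕ} (hj : Ψ.natDegree ≤ j) (hj0 : 1 ≤ j) :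
    (derivative A * Ψ - 2 * A * derivative Ψ).natDegree ≤ q + (j - 1) ∧
      (derivative A * Ψ - 2 * A * derivative Ψ).coeff (q + (j - 1)) =
        -(2 * (j : E)) * Ψ.coeff j := by
  have hq1 : 1 ≤ q := hp.out.one_le
  have hd1 : (derivative A).natDegree ≤ q - 1 := (natDegree_derivative_le A).trans (by omega)
  have hd2 : (derivative Ψ).natDegree ≤ j - 1 := (natDegree_derivative_le Ψ).trans (by omega)
  refine ⟨(natDegree_sub_le _ _).trans (max_le ((natDegree_mul_le_of_le hd1 hj).trans (by omega))
    (natDegree_mul_le.trans (Nat.add_le_add ?_ hd2))), ?_⟩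
  · rw [two_mul]; exact (natDegree_add_le _ _).trans (max_le hA hA)
  · rw [coeff_sub, show q + (j - 1) = (q - 1) + j by omega, coeff_mul_add_eq_of_natDegree_le hd1 hj,
      show (q - 1) + j = q + (j - 1) by omega, mul_assoc, two_mul, coeff_add,
      coeff_mul_add_eq_of_natDegree_le hA hd2, coeff_derivative, coeff_derivative, hA1,
      show q - 1 + 1 = q by omega, Nat.sub_add_cancel hj0, ← Nat.cast_add_one, ← Nat.cast_add_one,
      show q - 1 + 1 = q by omega, show j - 1 + 1 = j by omega, CharP.cast_eq_zero E q]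
    ring

/-- The middle coefficient of `Ψ` is the Hasse invariant. -/
theorem CharQPair.coeff_eq (h : CharQPair (q := q) l m A Ψ Rb) (hq : q = 2 * m + 1) (hm : 1 ≤ m) :
    Ψ.coeff m = (-1) ^ m * (hasse T m).eval l := by
  obtain ⟨K, hKm, hKd, e⟩ := h.identity hq
  obtain ⟨hd, hc⟩ := coeff_top_of_natDegree_le (q := q) h.natDegree_A.le
    (h.natDegree_A ▸ h.monic_A.coeff_natDegree) h.natDegree_Ψ hm
  have hfm : ((legendreCubic l).map (frobenius T q)).Monic := (monic_legendreCubic l).map _
  have hfd : ((legendreCubic l).map (frobenius T q)).natDegree = 3 := by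
    rw [(monic_legendreCubic l).natDegree_map, legendreCubic]
    rw [show (X - 1 : T[X]) = X - C 1 by rw [map_one],
      (monic_X.mul (monic_X_sub_C 1)).natDegree_mul (monic_X_sub_C l),
      monic_X.natDegree_mul (monic_X_sub_C 1), natDegree_X, natDegree_X_sub_C, natDegree_X_sub_C]
  have h1 := congrArg (fun p : T[X] => p.coeff (q + (m - 1) + 3)) e
  rw [coeff_mul_add_eq_of_natDegree_le hd hfd.le, hc, ← hfd, hfm.coeff_natDegree, coeff_C_mul,
    coeff_legendreCubic_pow hq, hfd, show q + (m - 1) + 3 = K.natDegree by omega,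
    hKm.coeff_natDegree, mul_one, mul_one] at h1
  rw [← h1]
  have : ((q : ℕ) : T) = 0 := CharP.cast_eq_zero _ q
  rw [hq] at this
  push_cast at this
  linear_combination Ψ.coeff m * this

/-- At a zero of the Hasse invariant `Ψ` is constant. -/
theorem CharQPair.coeff_eq_zero (h : CharQPair (q := q) l m A Ψ Rb) (hq : q = 2 * m + 1)
    {E : Type*} [Field E] [CharP E q] (φ : T →+* E) (h0 : (hasse E m).eval (φ l) = 0)
    {i : ℕ} (hi : i ≠ 0) : φ (Ψ.coeff i) = 0 := by
  obtain ⟨K, -, -, e⟩ := h.identity hq
  have h1 := congrArg (Polynomial.map φ) e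
  simp only [Polynomial.map_mul, Polynomial.map_sub, ← derivative_map, map_C, Polynomial.map_ofNat,
    coeff_legendreCubic_pow hq, map_mul, map_pow, map_neg, map_one] at h1
  rw [← eval_map_apply, map_hasse, h0, map_zero, mul_zero, zero_mul, mul_eq_zero] at h1
  have h2 := h1.resolve_right ((((monic_legendreCubic l).map _).map φ).ne_zero)
  rw [← coeff_map]
  by_contra hne
  set Ψ' := Ψ.map φ with hΨ'
  set A' := A.map φ with hA'
  have hj0 : i ≤ Ψ'.natDegree := le_natDegree_of_ne_zero hne
  have hjm : Ψ'.natDegree ≤ m := natDegree_map_le.trans h.natDegree_Ψ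
  obtain ⟨-, hc⟩ := coeff_top_of_natDegree_le (q := q) (A := A') (Ψ := Ψ')
    (natDegree_map_le.trans h.natDegree_A.le)
    (by rw [hA', coeff_map, ← h.natDegree_A, h.monic_A.coeff_natDegree, map_one])
    le_rfl (by omega)
  rw [h2, coeff_zero, eq_comm, mul_eq_zero, neg_eq_zero] at hc
  rcases hc with hc | hc
  · have h3 : ((2 * Ψ'.natDegree : ℕ) : E) = 0 := by push_cast; exact hc
    rw [CharP.cast_eq_zero_iff E q] at h3
    exact absurd (Nat.le_of_dvd (by omega) h3) (by omega)
  · exact hne (by rw [leadingCoeff_eq_zero.1 hc, coeff_zero])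

end Fermat.Agent.Moduli
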