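import Fermat.Agent.Moduli.Legendre

/-!
# The chord in the coordinates at infinity

`z = -x/y`, `w = -1/y`, `s = 1/x = w/z`: the curve is `w = z³ + a₂ z² w + a₄ z w²`, and the
line through `P`, `Q` is `w = L z + ν`.
-/

set_option autoImplicit false

namespace Fermat.Agent.Moduli

open WeierstrassCurve

variable {K : Type*} [Field K] [DecidableEq K]

/-- The parameter `-x/y` at infinity. -/
def zCoord {V : WeierstrassCurve K} : V.toAffine.Point → K
  | .zero => 0
  | .some x y _ => -x / y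

/-- The inverse of the abscissa. -/
def sCoord {V : WeierstrassCurve K} : V.toAffine.Point → K
  | .zero => 0
  | .some x _ _ => x⁻¹

omit [DecidableEq K] in
lemma zCoord_some {V : WeierstrassCurve K} {x y : K} (h : V.toAffine.Nonsingular x y) :
    zCoord (Affine.Point.some x y h) = -x / y := rfl

omit [DecidableEq K] in
lemma sCoord_some {V : WeierstrassCurve K} {x y : K} (h : V.toAffine.Nonsingular x y) :
    sCoord (Affine.Point.some x y h) = x⁻¹ := rfl

omit [DecidableEq K] in
lemma equation_legendre {l x y : K} (h : (legendre l).toAffine.Equation x y) :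
    y ^ 2 = x ^ 3 - (1 + l) * x ^ 2 + l * x := by
  rw [Affine.equation_iff] at h
  simp only [legendre] at h
  linear_combination h

omit [DecidableEq K] in
lemma negY_legendre (l x y : K) : (legendre l).toAffine.negY x y = -y := by
  simp [Affine.negY, legendre]

omit [DecidableEq K] in
/-- `z² (1 - s)(1 - l s) = s`. -/
lemma zCoord_sq {l x y : K} (h : (legendre l).toAffine.Nonsingular x y) (hx : x ≠ 0) (hy : y ≠ 0) :
    zCoord (Affine.Point.some x y h) ^ 2 *
      ((1 - sCoord (Affine.Point.some x y h)) * (1 - l * sCoord (Affine.Point.some x y h))) =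
      sCoord (Affine.Point.some x y h) := by
  have he := equation_legendre h.1
  rw [zCoord_some, sCoord_some]
  field_simp
  linear_combination -he

/-- The data of the line through two points. -/
theorem exists_chord [CharZero K] {l x₁ y₁ x₂ y₂ x₃ y₃ : K}
    {h₁ : (legendre l).toAffine.Nonsingular x₁ y₁} {h₂ : (legendre l).toAffine.Nonsingular x₂ y₂}
    {h₃ : (legendre l).toAffine.Nonsingular x₃ y₃}
    (hsum : Affine.Point.some x₁ y₁ h₁ + Affine.Point.some x₂ y₂ h₂ = Affine.Point.some x₃ y₃ h₃)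
    (hy₁ : y₁ ≠ 0) (hy₂ : y₂ ≠ 0) (hy₃ : y₃ ≠ 0) :
    ∃ L ν : K,
      -1 / y₁ = L * (-x₁ / y₁) + ν ∧ -1 / y₂ = L * (-x₂ / y₂) + ν ∧
      -1 / y₃ = L * (-x₃ / y₃) - ν ∧
      (-x₃ / y₃ - -x₁ / y₁ - -x₂ / y₂) * ((1 - L) * (1 - l * L)) = (-(1 + l) + 2 * l * L) * ν ∧
      L * (1 + (1 + l) * (-x₂ / y₂) ^ 2 - l * (-x₂ / y₂) * (-1 / y₁ + -1 / y₂)) =
        (-x₁ / y₁) ^ 2 + (-x₁ / y₁) * (-x₂ / y₂) + (-x₂ / y₂) ^ 2 -
          (1 + l) * (-1 / y₁) * (-x₁ / y₁ + -x₂ / y₂) + l * (-1 / y₁) ^ 2 := by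
  have hne : ¬(x₁ = x₂ ∧ y₁ = (legendre l).toAffine.negY x₂ y₂) := by
    rintro ⟨e₁, e₂⟩
    rw [Affine.Point.add_of_Y_eq e₁ e₂] at hsum
    exact Affine.Point.some_ne_zero h₃ hsum.symm
  rw [Affine.Point.add_some hne, Affine.Point.some.injEq] at hsum
  obtain ⟨hx3, hy3⟩ := hsum
  set sl := (legendre l).toAffine.slope x₁ x₂ y₁ y₂ with hsl
  have e₁ := equation_legendre h₁.1
  have e₂ := equation_legendre h₂.1
  have e₃ := equation_legendre h₃.1
  simp only [Affine.addX, legendre, zero_mul, add_zero] at hx3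
  rw [Affine.addY, Affine.negAddY, negY_legendre] at hy3
  simp only [Affine.addX, legendre, zero_mul, add_zero] at hy3
  rw [hx3] at hy3
  set c := y₁ - sl * x₁ with hc
  have hline₁ : y₁ = sl * x₁ + c := by rw [hc]; ring
  -- the slope relation
  obtain ⟨hline₂, hsym⟩ : y₂ = sl * x₂ + c ∧
      x₁ * x₂ + (x₁ + x₂) * x₃ = l - 2 * sl * c := by
    by_cases hx : x₁ = x₂
    · have hyne : y₁ ≠ (legendre l).toAffine.negY x₂ y₂ := fun e => hne ⟨hx, e⟩
      have hyy : y₁ = y₂ := Affine.Y_eq_of_Y_ne h₁.1 h₂.1 hx hyne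
      have hs := Affine.slope_of_Y_ne (W := (legendre l).toAffine) hx hyne
      rw [← hsl, negY_legendre] at hs
      simp only [legendre, zero_mul, sub_zero] at hs
      have hy2 : y₁ - -y₁ ≠ 0 := by
        rw [sub_neg_eq_add, ← two_mul]; exact mul_ne_zero two_ne_zero hy₁
      rw [eq_div_iff hy2] at hs
      refine ⟨by rw [← hyy, ← hx, hc]; ring, ?_⟩
      rw [← hx3, ← hx, hc]
      linear_combination hs
    · have hs := Affine.slope_of_X_ne (W := (legendre l).toAffine) (y₁ := y₁) (y₂ := y₂) hx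
      rw [← hsl] at hs
      have hd : x₁ - x₂ ≠ 0 := sub_ne_zero.2 hx
      rw [eq_div_iff hd] at hs
      have h2 : y₂ = sl * x₂ + c := by rw [hc]; linear_combination hs
      refine ⟨h2, ?_⟩
      apply mul_left_cancel₀ hd
      rw [← hx3]
      have f₁ := e₁
      have f₂ := e₂
      rw [hline₁] at f₁
      rw [h2] at f₂
      linear_combination f₁ - f₂
  have hy3' : y₃ = -(sl * x₃ + c) := by rw [← hy3, hc]; ring
  have hprod : x₁ * x₂ * x₃ = c ^ 2 := by
    have f₁ := e₁
    rw [hline₁] at f₁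
    rw [← hx3] at hsym ⊢
    linear_combination -f₁ + x₁ * hsym
  have hc0 : c ≠ 0 := by
    intro e
    rw [e, zero_pow two_ne_zero, mul_eq_zero, mul_eq_zero] at hprod
    rcases hprod with (h | h) | h
    · exact hy₁ (by rw [hline₁, e, h]; ring)
    · exact hy₂ (by rw [hline₂, e, h]; ring)
    · exact hy₃ (by rw [hy3', e, h]; ring)
  refine ⟨-sl / c, -1 / c, ?_, ?_, ?_, ?_, ?_⟩
  · field_simp
    linear_combination -hline₁
  · field_simp
    linear_combination hline₂
  · field_simp
    linear_combination -hy3'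
  · have hsum' : x₁ + x₂ + x₃ = sl ^ 2 + (1 + l) := by rw [← hx3]; ring
    have key : (x₁ * (sl * x₂ + c) * (sl * x₃ + c) + x₂ * (sl * x₁ + c) * (sl * x₃ + c) +
        x₃ * (sl * x₁ + c) * (sl * x₂ + c)) * ((c + sl) * (c + l * sl)) =
        (sl * x₁ + c) * (sl * x₂ + c) * (sl * x₃ + c) * ((1 + l) * c + 2 * l * sl) := by
      linear_combination (sl * c * ((c + sl) * (c + l * sl)) * 2 -
          sl ^ 2 * c * ((1 + l) * c + 2 * l * sl)) * hsym +
        (c ^ 2 * ((c + sl) * (c + l * sl)) - sl * c ^ 2 * ((1 + l) * c + 2 * l * sl)) * hsum' +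
        (3 * sl ^ 2 * ((c + sl) * (c + l * sl)) - sl ^ 3 * ((1 + l) * c + 2 * l * sl)) * hprod
    rw [← hline₁, ← hline₂, show sl * x₃ + c = -y₃ by rw [hy3']; ring] at key
    field_simp
    linear_combination -key
  · by_cases hz : -x₁ / y₁ = -x₂ / y₂
    · have hline : -1 / y₁ = -1 / y₂ := by
        have g₁ : -1 / y₁ = -sl / c * (-x₁ / y₁) + -1 / c := by
          field_simp; linear_combination -hline₁
        have g₂ : -1 / y₂ = -sl / c * (-x₂ / y₂) + -1 / c := by
          field_simp; linear_combination hline₂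
        rw [g₁, g₂, hz]
      have hyy : y₁ = y₂ := by
        field_simp at hline
        first
          | exact hline.symm
          | exact hline
          | linear_combination hline
      have hxx : x₁ = x₂ := by
        rw [hyy] at hz
        field_simp at hz
        linear_combination -hz
      subst hxx hyy
      have f₁ := e₁
      rw [hline₁] at f₁
      have hs : sl * (2 * y₁) = 3 * x₁ ^ 2 - 2 * (1 + l) * x₁ + l := by
        have h' := hsym
        rw [← hx3, hc] at h'
        linear_combination h'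
      field_simp
      rw [hc]
      linear_combination y₁ * hs - 3 * sl * e₁
    · have hzz : -x₁ / y₁ - -x₂ / y₂ ≠ 0 := sub_ne_zero.2 hz
      apply mul_left_cancel₀ hzz
      have g₁ : -1 / y₁ = -sl / c * (-x₁ / y₁) + -1 / c := by field_simp; linear_combination -hline₁
      have g₂ : -1 / y₂ = -sl / c * (-x₂ / y₂) + -1 / c := by field_simp; linear_combination hline₂
      have q₁ : -1 / y₁ = (-x₁ / y₁) ^ 3 - (1 + l) * (-x₁ / y₁) ^ 2 * (-1 / y₁) +
          l * (-x₁ / y₁) * (-1 / y₁) ^ 2 := by field_simp; linear_combination -e₁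
      have q₂ : -1 / y₂ = (-x₂ / y₂) ^ 3 - (1 + l) * (-x₂ / y₂) ^ 2 * (-1 / y₂) +
          l * (-x₂ / y₂) * (-1 / y₂) ^ 2 := by field_simp; linear_combination -e₂
      set z₁ := -x₁ / y₁
      set z₂ := -x₂ / y₂
      set w₁ := -1 / y₁
      set w₂ := -1 / y₂
      linear_combination q₁ - q₂ - (1 + (1 + l) * z₂ ^ 2 - l * z₂ * (w₁ + w₂)) * (g₁ - g₂)

end Fermat.Agent.Moduli
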