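import Fermat.Agent.Moduli.QPoly
import Fermat.Agent.Moduli.Chord

/-!
# Coordinates at infinity of the odd torsion points of the Legendre curve

For an odd `n`, `1/x(T)` and `-x(T)/y(T)` are integral over any normal base in which `l`, `1 - l`
are invertible, and `b(X) = b(0) ∏ (1 - X/x(T))`.
-/

set_option autoImplicit false
set_option linter.unusedSectionVars false

namespace Fermat.Agent.Moduli

open WeierstrassCurve Polynomial Fermat.Agent.EC Finset

variable {R : Type*} [CommRing R] [IsDomain R] [IsIntegrallyClosed R] {Ω : Type*} [Field Ω]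
  [IsAlgClosed Ω] [CharZero Ω] [DecidableEq Ω] [Algebra R Ω] [FaithfulSMul R Ω] {l : R}

/-- The Legendre curve over `Ω`. -/
abbrev legendreΩ (Ω : Type*) [Field Ω] [Algebra R Ω] (l : R) : WeierstrassCurve Ω :=
  legendre (algebraMap R Ω l)

lemma legendre_isElliptic (hl : IsUnit l) (hl1 : IsUnit (1 - l)) :
    ((legendre l).map (algebraMap R Ω)).IsElliptic := by
  refine ⟨isUnit_iff_ne_zero.2 ?_⟩
  rw [map_Δ, legendre_Δ, map_mul, map_pow, map_mul, map_ofNat]
  exact mul_ne_zero (by norm_num) (pow_ne_zero _ (mul_ne_zero (hl.map _).ne_zero (hl1.map _).ne_zero))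

lemma legendreΩ_isElliptic (hl : IsUnit l) (hl1 : IsUnit (1 - l)) :
    (legendreΩ Ω l).IsElliptic := by
  have := legendre_isElliptic (Ω := Ω) hl hl1
  rwa [map_legendre] at this

/-- The odd multiplication data over `R`. -/
structure DivData (R Ω : Type*) [CommRing R] [IsDomain R] [Field Ω] [IsAlgClosed Ω] [CharZero Ω]
    [DecidableEq Ω] [Algebra R Ω] (l : R) (k : ℕ) where
  a : R[X]
  b : R[X]
  ψ : R[X]
  pair : MulPair (legendre l) (algebraMap R Ω) (2 * k + 1) a b
  b_eq : b = ψ ^ 2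
  natDegree_ψ : ψ.natDegree = 2 * k * (k + 1)
  coeff_ψ : ψ.coeff (2 * k * (k + 1)) = ((2 * k + 1 : ℕ) : R)

theorem nonempty_divData (hl : IsUnit l) (hl1 : IsUnit (1 - l)) (k : ℕ) :
    Nonempty (DivData R Ω l k) := by
  haveI := legendre_isElliptic (Ω := Ω) hl hl1
  have hφ := FaithfulSMul.algebraMap_injective R Ω
  obtain ⟨a, b, h⟩ := exists_mulPair (W := legendre l) hφ (2 * k + 1) (by omega)
  obtain ⟨ψ, h1, h2, h3⟩ := exists_psi hφ h
  exact ⟨⟨a, b, ψ, h, h1, h2, h3⟩⟩

variable {k : ℕ}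

lemma eval_b_eq_zero_iff_of_eq (hl : IsUnit l) (hl1 : IsUnit (1 - l)) {a b : R[X]} {n : ℕ}
    (hp : MulPair (legendre l) (algebraMap R Ω) n a b) {V : WeierstrassCurve Ω}
    (hV : (legendre l).map (algebraMap R Ω) = V) {x y : Ω} (h : V.toAffine.Nonsingular x y) :
    (b.map (algebraMap R Ω)).eval x = 0 ↔ n • Affine.Point.some x y h = 0 := by
  subst hV
  haveI := legendre_isElliptic (Ω := Ω) hl hl1
  exact hp.eval_b_eq_zero_iff h

lemma DivData.eval_ψ_eq_zero_iff (hl : IsUnit l) (hl1 : IsUnit (1 - l)) (D : DivData R Ω l k)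
    {x y : Ω} (h : (legendreΩ Ω l).toAffine.Nonsingular x y) :
    (D.ψ.map (algebraMap R Ω)).eval x = 0 ↔ (2 * k + 1) • Affine.Point.some x y h = 0 := by
  rw [← eval_b_eq_zero_iff_of_eq hl hl1 D.pair (map_legendre _ _) h, D.b_eq, Polynomial.map_pow,
    eval_pow, pow_eq_zero_iff two_ne_zero]

/-- An affine odd torsion point has nonzero ordinate, and abscissa outside `{0, 1, l}`. -/
lemma torsion_coord_ne {x y : Ω} (h : (legendreΩ Ω l).toAffine.Nonsingular x y)
    (t : (2 * k + 1) • Affine.Point.some x y h = 0) :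
    y ≠ 0 ∧ x ≠ 0 ∧ x ≠ 1 ∧ x ≠ algebraMap R Ω l := by
  have hy : y ≠ 0 := by
    intro e
    have h2 : 2 • Affine.Point.some x y h = 0 := by
      rw [two_nsmul, add_self_eq_zero_iff]
      simp [legendre, e]
    rw [succ_nsmul, mul_comm, mul_nsmul', h2, nsmul_zero, zero_add] at t
    exact Affine.Point.some_ne_zero h t
  have he := equation_legendre h.1
  have hy2 := pow_ne_zero 2 hy
  refine ⟨hy, ?_, ?_, ?_⟩ <;> intro e <;> apply hy2 <;> rw [he, e] <;> ring

/-- The nonzero torsion points are two to one over the roots of `ψ`. -/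
theorem DivData.b_eq_prod (hl : IsUnit l) (hl1 : IsUnit (1 - l)) (D : DivData R Ω l k)
    [Fintype {P : (legendreΩ Ω l).toAffine.Point // (2 * k + 1) • P = 0}] :
    D.b.map (algebraMap R Ω) = C (algebraMap R Ω (D.b.eval 0)) *
      ∏ P : {P : (legendreΩ Ω l).toAffine.Point // (2 * k + 1) • P = 0},
        (1 - C (sCoord P.1) * X) := by
  classical
  haveI := legendreΩ_isElliptic (Ω := Ω) hl hl1
  set φ := algebraMap R Ω with hφ
  have hinj := FaithfulSMul.algebraMap_injective R Ω
  set ψ' := D.ψ.map φ with hψ'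
  have hn0 : ((2 * k + 1 : ℕ) : Ω) ≠ 0 := Nat.cast_ne_zero.2 (by omega)
  have hd : ψ'.natDegree = 2 * k * (k + 1) := by
    rw [hψ', natDegree_map_eq_of_injective hinj, D.natDegree_ψ]
  have hlead : ψ'.leadingCoeff = ((2 * k + 1 : ℕ) : Ω) := by
    rw [leadingCoeff, hd, hψ', coeff_map, D.coeff_ψ, map_natCast]
  have hψ0 : ψ' ≠ 0 := fun e => hn0 (by rw [← hlead, e, leadingCoeff_zero])
  let Tor := {P : (legendreΩ Ω l).toAffine.Point // (2 * k + 1) • P = 0}
  set Z : Finset Tor := Finset.univ.filter (fun P => P.1 ≠ 0) with hZ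
  let xc : Tor → Ω := fun P => (sCoord P.1)⁻¹
  have hxc : ∀ (P : Tor) (x y : Ω) (h : (legendreΩ Ω l).toAffine.Nonsingular x y),
      P.1 = Affine.Point.some x y h → xc P = x := fun P x y h e => by
    simp only [xc, e, sCoord_some, inv_inv]
  have hmap : ∀ P ∈ Z, xc P ∈ ψ'.roots.toFinset := by
    intro P hP
    rcases e : P.1 with _ | ⟨x, y, h⟩
    · exact absurd e (Finset.mem_filter.1 hP).2
    · rw [hxc P x y h e, Multiset.mem_toFinset, mem_roots hψ0]
      exact (D.eval_ψ_eq_zero_iff hl hl1 h).2 (e ▸ P.2)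
  have hfib : ∀ x ∈ ψ'.roots.toFinset, (Z.filter (fun P => xc P = x)).card = 2 := by
    intro x hx
    rw [Multiset.mem_toFinset, mem_roots hψ0] at hx
    obtain ⟨y, hy⟩ := exists_point (W := legendreΩ Ω l) (φ := RingHom.id Ω) x
    rw [WeierstrassCurve.map_id] at hy
    have t := (D.eval_ψ_eq_zero_iff hl hl1 hy).1 hx
    obtain ⟨hy0, -, -, -⟩ := torsion_coord_ne hy t
    set Q := Affine.Point.some x y hy with hQ
    have t' : (2 * k + 1) • -Q = 0 := by rw [neg_nsmul, t, neg_zero]
    rw [Finset.card_eq_two]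
    refine ⟨⟨Q, t⟩, ⟨-Q, t'⟩, ?_, ?_⟩
    · intro e
      have := congrArg Subtype.val e
      simp only [hQ, Affine.Point.neg_some, Affine.Point.some.injEq, negY_legendre, true_and] at this
      exact hy0 (by linear_combination this / 2)
    · ext P
      simp only [Finset.mem_filter, hZ, Finset.mem_univ, true_and, Finset.mem_insert,
        Finset.mem_singleton]
      constructor
      · rintro ⟨hP0, hPx⟩
        rcases e : P.1 with _ | ⟨x', y', h'⟩
        · exact absurd e hP0
        rw [hxc P x' y' h' e] at hPx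
        subst hPx
        rcases (Affine.Point.X_eq_iff (h₁ := h') (h₂ := hy)).1 rfl with e' | e'
        · exact Or.inl (Subtype.ext (e.trans e'))
        · exact Or.inr (Subtype.ext (e.trans e'))
      · rintro (rfl | rfl)
        · exact ⟨Affine.Point.some_ne_zero hy, hxc _ _ _ _ rfl⟩
        · exact ⟨neg_ne_zero.2 (Affine.Point.some_ne_zero hy), hxc _ _ _ _ rfl⟩
  have hcardT : Fintype.card Tor = (2 * k + 1) ^ 2 := by
    rw [← Nat.card_eq_fintype_card]
    exact card_nsmul_eq_zero (legendreΩ Ω l) _ (by omega)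
  have hcardZ : Z.card = 2 * (2 * k * (k + 1)) := by
    have h0 : Z = (Finset.univ : Finset Tor).erase ⟨0, nsmul_zero _⟩ := by
      ext P
      simp only [hZ, Finset.mem_filter, Finset.mem_univ, true_and, Finset.mem_erase, and_true]
      exact not_congr ⟨fun e => Subtype.ext e, congrArg Subtype.val⟩
    rw [h0, Finset.card_erase_of_mem (Finset.mem_univ _), Finset.card_univ, hcardT,
      show (2 * k + 1) ^ 2 = 2 * (2 * k * (k + 1)) + 1 by ring, Nat.add_sub_cancel]
  have hcardS : ψ'.roots.toFinset.card = 2 * k * (k + 1) := by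
    have := Finset.card_eq_sum_card_fiberwise hmap
    rw [Finset.sum_congr rfl hfib, Finset.sum_const, smul_eq_mul, hcardZ] at this
    omega
  have hsplit : ψ' = C ((2 * k + 1 : ℕ) : Ω) * ∏ x ∈ ψ'.roots.toFinset, (X - C x) := by
    have hnd : ψ'.roots.Nodup := by
      have h1 := ψ'.card_roots'
      have h2 := Multiset.toFinset_card_le ψ'.roots
      rw [hd] at h1
      have h3 : ψ'.roots.toFinset.card = ψ'.roots.card := by omega
      rw [Finset.card_def, Multiset.toFinset_val] at h3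
      exact Multiset.dedup_eq_self.1
        (Multiset.eq_of_le_of_card_le (Multiset.dedup_le _) h3.ge)
    conv_lhs => rw [(IsAlgClosed.splits ψ').eq_prod_roots]
    rw [hlead, Finset.prod_eq_multiset_prod, Multiset.toFinset_val,
      Multiset.dedup_eq_self.2 hnd]
  have hb1 : D.b.map φ =
      C (((2 * k + 1 : ℕ) : Ω) ^ 2) * ∏ P ∈ Z, (X - C (xc P)) := by
    rw [D.b_eq, Polynomial.map_pow, ← hψ', hsplit, mul_pow, ← map_pow, ← Finset.prod_pow]
    congr 1
    rw [← Finset.prod_fiberwise_of_maps_to hmap (fun P => (Polynomial.X - C (xc P) : Polynomial Ω))]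
    refine Finset.prod_congr rfl fun x hx => ?_
    rw [Finset.prod_congr rfl (g := fun _ => (Polynomial.X - C x : Polynomial Ω))
      (fun P hP => by rw [(Finset.mem_filter.1 hP).2]), Finset.prod_const, hfib x hx]
  have hb2 : D.b.map φ =
      C (((2 * k + 1 : ℕ) : Ω) ^ 2 * ∏ P ∈ Z, -xc P) * ∏ P : Tor, (1 - C (sCoord P.1) * X) := by
    have hone : ∏ P ∈ Z, (1 - C (sCoord P.1) * X : Polynomial Ω) = ∏ P : Tor, (1 - C (sCoord P.1) * X) := by
      refine Finset.prod_subset (Finset.subset_univ _) fun P _ hP => ?_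
      have : P.1 = 0 := by simpa [hZ] using hP
      rw [this, show sCoord (0 : (legendreΩ Ω l).toAffine.Point) = 0 from rfl, map_zero, zero_mul,
        sub_zero]
    rw [hb1, map_mul, mul_assoc, ← hone, map_prod, ← Finset.prod_mul_distrib]
    congr 1
    refine Finset.prod_congr rfl fun P hP => ?_
    rcases e : P.1 with _ | ⟨x, y, h⟩
    · exact absurd e (Finset.mem_filter.1 hP).2
    · obtain ⟨-, hx0, -, -⟩ := torsion_coord_ne h (e ▸ P.2)
      have hx : C x * C x⁻¹ = (1 : Polynomial Ω) := by rw [← map_mul, mul_inv_cancel₀ hx0, map_one]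
      rw [hxc P x y h e, sCoord_some, map_neg]
      linear_combination -(X : Polynomial Ω) * hx
  have h0 : φ (D.b.eval 0) = ((2 * k + 1 : ℕ) : Ω) ^ 2 * ∏ P ∈ Z, -xc P := by
    have h1 := congrArg (eval 0) hb2
    rw [eval_mul, eval_C, eval_prod] at h1
    simp only [eval_sub, eval_one, eval_mul, eval_X, mul_zero, sub_zero, Finset.prod_const_one,
      mul_one] at h1
    rw [← coeff_zero_eq_eval_zero, coeff_map, coeff_zero_eq_eval_zero] at h1
    exact h1
  rw [h0]
  exact hb2

/-- Integrality of the coordinates. -/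
theorem isIntegral_coords (hl : IsUnit l) (hl1 : IsUnit (1 - l))
    (P : (legendreΩ Ω l).toAffine.Point) (t : (2 * k + 1) • P = 0) :
    IsIntegral R (sCoord P) ∧ IsIntegral R (zCoord P) ∧
      IsIntegral R (1 - sCoord P)⁻¹ ∧ IsIntegral R (1 - algebraMap R Ω l * sCoord P)⁻¹ := by
  haveI := legendre_isElliptic (Ω := Ω) hl hl1
  rcases P with _ | ⟨x, y, h⟩
  · simp [sCoord, zCoord, isIntegral_zero, isIntegral_one]
  obtain ⟨hy, hx0, hx1, hxl⟩ := torsion_coord_ne h t
  obtain ⟨D⟩ := nonempty_divData (R := R) (Ω := Ω) hl hl1 k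
  set φ := algebraMap R Ω with hφ
  have hinj := FaithfulSMul.algebraMap_injective R Ω
  -- `r + f'(r)/(x - r)` is integral
  have key : ∀ r : R, IsTwoTor l r → IsUnit (slopeAt l r) → x ≠ φ r →
      IsIntegral R ((x - φ r)⁻¹) := by
    intro r hr hd hxr
    obtain ⟨F, hFm, -, hF⟩ := exists_factor hinj hr hd D.pair D.b_eq D.natDegree_ψ.le
    obtain ⟨u, hu⟩ := hd
    have hr0 : (φ r + φ (slopeAt l r) / (x - φ r) - φ r) ≠ 0 := by
      rw [add_sub_cancel_left]
      exact div_ne_zero (map_slopeAt_ne_zero hr) (sub_ne_zero.2 hxr)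
    obtain ⟨h1, h2, -⟩ := mulPair_shift hinj hr D.pair
    have hb : (D.b.map φ).eval x = 0 :=
      (eval_b_eq_zero_iff_of_eq hl hl1 D.pair (map_legendre _ _) h).2 t
    have hev := eval_shiftRev φ r (slopeAt l r) (N := (2 * k + 1) ^ 2) (P := D.a - C r * D.b)
      (((natDegree_sub_le _ _).trans (max_le D.pair.natDegree_a.le ((natDegree_C_mul_le _ _).trans
        (D.pair.natDegree_b.trans (Nat.sub_le _ _)))))) hxr
    rw [h2, Polynomial.map_mul, eval_mul, hb, mul_zero, eq_comm, mul_eq_zero,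
      pow_eq_zero_iff (by positivity), or_iff_right (sub_ne_zero.2 hxr), hF, Polynomial.map_mul,
      Polynomial.map_pow, Polynomial.map_sub, map_X, map_C, eval_mul, eval_pow, eval_sub, eval_X,
      eval_C, mul_eq_zero, or_iff_right hr0, pow_eq_zero_iff two_ne_zero] at hev
    have hint : IsIntegral R (φ r + φ (slopeAt l r) / (x - φ r)) :=
      ⟨F, hFm, by rw [eval₂_eq_eval_map]; exact hev⟩
    have h3 := (isIntegral_algebraMap (R := R) (A := Ω) (x := (↑u⁻¹ : R))).mul
      (hint.sub (isIntegral_algebraMap (R := R) (A := Ω) (x := r)))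
    rw [← hφ, add_sub_cancel_left, mul_div_assoc', ← map_mul, ← hu, Units.inv_mul, map_one,
      one_div] at h3
    exact h3
  have hs : IsIntegral R (x⁻¹) := by
    have := key 0 (isTwoTor_zero l) (isUnit_slopeAt_zero hl) (by rwa [map_zero])
    rwa [map_zero, sub_zero] at this
  have hs1 : IsIntegral R (1 - x⁻¹)⁻¹ := by
    have h1 := key 1 (isTwoTor_one l) (isUnit_slopeAt_one hl1) (by rwa [map_one])
    rw [map_one] at h1
    have e : (1 - x⁻¹)⁻¹ = 1 + (x - 1)⁻¹ := by
      have : x - 1 ≠ 0 := sub_ne_zero.2 hx1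
      field_simp
      ring
    rw [e]
    exact isIntegral_one.add h1
  have hsl : IsIntegral R (1 - φ l * x⁻¹)⁻¹ := by
    have h1 := key l (isTwoTor_self l) (isUnit_slopeAt_self hl hl1) hxl
    have e : (1 - φ l * x⁻¹)⁻¹ = 1 + φ l * (x - φ l)⁻¹ := by
      have : x - φ l ≠ 0 := sub_ne_zero.2 hxl
      field_simp
      ring
    rw [e]
    exact isIntegral_one.add (isIntegral_algebraMap.mul h1)
  refine ⟨hs, ?_, hs1, hsl⟩
  have hz : zCoord (Affine.Point.some x y h) ^ 2 =
      x⁻¹ * (1 - x⁻¹)⁻¹ * (1 - φ l * x⁻¹)⁻¹ := by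
    have h4 := zCoord_sq h hx0 hy
    rw [sCoord_some] at h4
    have n1 : (1 - x⁻¹) ≠ 0 := by
      intro e; rw [sub_eq_zero, eq_comm, inv_eq_one] at e; exact hx1 e
    have n2 : (1 - φ l * x⁻¹) ≠ 0 := by
      intro e
      apply hxl
      field_simp at e
      linear_combination e
    calc zCoord (Affine.Point.some x y h) ^ 2
        = zCoord (Affine.Point.some x y h) ^ 2 * ((1 - x⁻¹) * (1 - φ l * x⁻¹)) *
            ((1 - x⁻¹)⁻¹ * (1 - φ l * x⁻¹)⁻¹) := by field_simp
      _ = _ := by rw [h4]; ring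
  exact .of_pow two_pos (by rw [hz]; exact (hs.mul hs1).mul hsl)

end Fermat.Agent.Moduli
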