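import Fermat.Agent.EC.Torsion

/-!
# The denominator of `x ∘ [n]` is a square for odd `n`
-/

set_option autoImplicit false

namespace Fermat.Agent.Moduli

open WeierstrassCurve Polynomial Fermat.Agent.EC

variable {O : Type*} [CommRing O] [IsDomain O] {K : Type*} [Field K] [IsAlgClosed K] [CharZero K]
  [DecidableEq K] {W : WeierstrassCurve O} {φ : O →+* K}

/-- The pair computing `x ∘ [n]` is unique. -/
theorem mulPair_unique (hφ : Function.Injective φ) [(W.map φ).IsElliptic] {n : ℕ} (hn : 1 ≤ n)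
    {a b a₁ b₁ : O[X]} (h : MulPair W φ n a b) (h₁ : MulPair W φ n a₁ b₁) : a = a₁ ∧ b = b₁ := by
  classical
  have hn0 : (n : K) ≠ 0 := Nat.cast_ne_zero.2 (by omega)
  have hb0 : ∀ {c d : O[X]}, MulPair W φ n c d → d.map φ ≠ 0 := fun {c d} hd e => by
    have := congrArg (fun p => p.coeff (n ^ 2 - 1)) e
    simp only [coeff_map, hd.coeff_b, map_pow, map_natCast, coeff_zero] at this
    exact pow_ne_zero 2 hn0 this
  have hcross : a.map φ * b₁.map φ = a₁.map φ * b.map φ := by
    apply Polynomial.eq_of_infinite_eval_eq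
    refine (((b.map φ).roots.toFinset ∪ (b₁.map φ).roots.toFinset).finite_toSet.infinite_compl).mono
      fun x hx => ?_
    simp only [Set.mem_compl_iff, Finset.coe_union, Set.mem_union, Finset.mem_coe,
      Multiset.mem_toFinset, mem_roots (hb0 h), mem_roots (hb0 h₁), IsRoot.def, not_or] at hx
    obtain ⟨y, hy⟩ := exists_point (W := W) (φ := φ) x
    rcases hc : n • Affine.Point.some x y hy with _ | ⟨x', y', h'⟩
    · exact absurd (h.spec_zero x y hy hc) hx.1
    · obtain ⟨-, e⟩ := h.spec_some x y hy _ _ _ hc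
      obtain ⟨-, e₁⟩ := h₁.spec_some x y hy _ _ _ hc
      show (a.map φ * b₁.map φ).eval x = (a₁.map φ * b.map φ).eval x
      rw [eval_mul, eval_mul, e, e₁]
      ring
  have hco : IsCoprime (a.map φ) (b.map φ) := by
    rw [Polynomial.isCoprime_iff_aeval_ne_zero_of_isAlgClosed _ K]
    intro x
    simpa [aeval_def, eval₂_eq_eval_map] using h.noCommonRoot x
  have ha : a.map φ = a₁.map φ := by
    refine (eq_of_monic_of_dvd_of_natDegree_le (h.monic.map φ) (h₁.monic.map φ)
      (hco.dvd_of_dvd_mul_right ⟨b₁.map φ, hcross.symm⟩) ?_).symm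
    rw [h.monic.natDegree_map, h₁.monic.natDegree_map, h.natDegree_a, h₁.natDegree_a]
  refine ⟨map_injective φ hφ ha, map_injective φ hφ ?_⟩
  rw [ha] at hcross
  exact (mul_left_cancel₀ (h₁.monic.map φ).ne_zero hcross).symm

variable [IsIntegrallyClosed O]

theorem isSquare_mulPair (hφ : Function.Injective φ) [(W.map φ).IsElliptic] (k : ℕ) {a b : O[X]}
    (h : MulPair W φ (2 * k + 1) a b) : ∃ ψ : O[X], b = ψ ^ 2 := by
  induction k generalizing a b with
  | zero =>
    exact ⟨1, by rw [(mulPair_unique hφ le_rfl h mulPair_one).2, one_pow]⟩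
  | succ k ih =>
    obtain ⟨a'', b'', h''⟩ := exists_mulPair (W := W) hφ (2 * k + 1) (by omega)
    obtain ⟨a₂, b₂, h₂⟩ := exists_mulPair (W := W) hφ (2 * k + 1 + 1) (by omega)
    obtain ⟨a', b', h', hU, -, -⟩ := mulPair_step hφ (by omega) h₂ h''
    obtain ⟨ψ, rfl⟩ := ih h''
    have hb' : b = b' := (mulPair_unique hφ (by omega) h h').2
    have hψ0 : ψ ≠ 0 := by
      rintro rfl
      have := h''.coeff_b
      rw [zero_pow two_ne_zero, coeff_zero] at this
      have := congrArg φ this
      rw [map_zero, map_pow, map_natCast, eq_comm, pow_eq_zero_iff two_ne_zero,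
        Nat.cast_eq_zero] at this
      omega
    obtain ⟨ψ', hψ'⟩ := (IsIntegrallyClosed.pow_dvd_pow_iff two_ne_zero).1
      (Dvd.intro b' hU.symm : ψ ^ 2 ∣ (a₂ - X * b₂) ^ 2)
    refine ⟨ψ', ?_⟩
    rw [hb']
    apply mul_left_cancel₀ (pow_ne_zero 2 hψ0)
    rw [← hU, hψ']
    ring

/-- The `n`-division polynomial: the square root of the denominator, with leading coefficient `n`. -/
theorem exists_psi (hφ : Function.Injective φ) [(W.map φ).IsElliptic] {k : ℕ} {a b : O[X]}
    (h : MulPair W φ (2 * k + 1) a b) :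
    ∃ ψ : O[X], b = ψ ^ 2 ∧ ψ.natDegree = 2 * k * (k + 1) ∧
      ψ.coeff (2 * k * (k + 1)) = (2 * k + 1 : ℕ) := by
  obtain ⟨ψ, hψ⟩ := isSquare_mulPair hφ k h
  have hn0 : ((2 * k + 1 : ℕ) : O) ≠ 0 := fun e => by
    have := congrArg φ e
    rw [map_natCast, map_zero, Nat.cast_eq_zero] at this
    omega
  have hN : (2 * k + 1) ^ 2 - 1 = 2 * (2 * k * (k + 1)) := by
    rw [show (2 * k + 1) ^ 2 = 2 * (2 * k * (k + 1)) + 1 by ring, Nat.add_sub_cancel]
  have hbd : b.natDegree = 2 * (2 * k * (k + 1)) := by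
    rw [← hN]
    exact natDegree_eq_of_le_of_coeff_ne_zero h.natDegree_b
      (by rw [h.coeff_b]; exact pow_ne_zero 2 hn0)
  have hd : ψ.natDegree = 2 * k * (k + 1) := by
    rw [hψ, natDegree_pow] at hbd
    omega
  have hc : ψ.coeff (2 * k * (k + 1)) ^ 2 = ((2 * k + 1 : ℕ) : O) ^ 2 := by
    have h1 := coeff_mul_add_eq_of_natDegree_le (le_of_eq hd) (le_of_eq hd)
    rw [← pow_two ψ, ← hψ, ← two_mul (2 * k * (k + 1)), ← hN, h.coeff_b] at h1
    rw [pow_two]
    exact h1.symm
  rcases sq_eq_sq_iff_eq_or_eq_neg.1 hc with e | e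
  · exact ⟨ψ, hψ, hd, e⟩
  · exact ⟨-ψ, by rw [neg_sq, hψ], by rw [natDegree_neg, hd], by rw [coeff_neg, e, neg_neg]⟩

omit [IsIntegrallyClosed O] in
/-- Numerator and denominator have no common zero over any field in which `Δ` is invertible. -/
theorem mulPair_coprime_at (hφ : Function.Injective φ) [(W.map φ).IsElliptic] {E : Type*} [Field E]
    (χ : O →+* E) (hΔ : χ W.Δ ≠ 0) {n : ℕ} (hn : 1 ≤ n) {a b : O[X]} (h : MulPair W φ n a b)
    (x : E) : (a.map χ).eval x ≠ 0 ∨ (b.map χ).eval x ≠ 0 := by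
  induction n using Nat.strong_induction_on generalizing a b with
  | _ n ih =>
    rcases n with _ | _ | _ | n
    · omega
    · rw [(mulPair_unique hφ le_rfl h mulPair_one).2]
      simp
    · obtain ⟨rfl, rfl⟩ := mulPair_unique hφ (by omega) h (mulPair_two (W := W) (φ := φ))
      by_contra hc
      push Not at hc
      simp only [sP, tP, map_b₂, map_b₄, map_b₆, map_b₈, Polynomial.map_add, Polynomial.map_mul,
        Polynomial.map_sub, Polynomial.map_pow, Polynomial.map_one, map_X, map_C,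
        Polynomial.map_ofNat, eval_add, eval_mul, eval_sub, eval_pow, eval_one, eval_X, eval_C,
        eval_ofNat] at hc
      refine forms_ne_zero (W.map χ) (s := x * x) (t := x + x) (u := 1)
        (by rw [map_Δ]; exact isUnit_iff_ne_zero.2 hΔ) (by simp) ⟨?_, ?_, ?_⟩
      · simpa [sP] using hc.1
      · simpa [tP] using hc.2
      · simp [uP]; ring
    · obtain ⟨a'', b'', h''⟩ := exists_mulPair (W := W) hφ (n + 1) (by omega)
      obtain ⟨a₂, b₂, h₂⟩ := exists_mulPair (W := W) hφ (n + 1 + 1) (by omega)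
      obtain ⟨a', b', h', hU, hS, hT⟩ := mulPair_step hφ (by omega) h₂ h''
      obtain ⟨rfl, rfl⟩ := mulPair_unique hφ (by omega) h h'
      by_contra hc
      push Not at hc
      have e : ∀ {p q : O[X]}, p = q → (p.map χ).eval x = (q.map χ).eval x := fun e => by rw [e]
      have eU := e hU
      have eS := e hS
      have eT := e hT
      simp only [sP, tP, map_b₂, map_b₄, map_b₆, map_b₈, Polynomial.map_add, Polynomial.map_mul,
        Polynomial.map_sub, Polynomial.map_pow, map_X, map_C, Polynomial.map_ofNat, eval_add,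
        eval_mul, eval_sub, eval_pow, eval_X, eval_C, eval_ofNat, hc.1, hc.2, mul_zero,
        add_zero] at eU eS eT
      have hab := ih (n + 2) (by omega) (by omega) h₂
      refine forms_ne_zero (W.map χ) (s := (a₂.map χ).eval x * x)
        (t := (a₂.map χ).eval x + x * (b₂.map χ).eval x) (u := (b₂.map χ).eval x)
        (by rw [map_Δ]; exact isUnit_iff_ne_zero.2 hΔ) ?_ ⟨?_, ?_, ?_⟩
      · rintro ⟨-, h2, h3⟩
        rw [h3, mul_zero, add_zero] at h2
        exact hab.elim (· h2) (· h3)
      · simpa [sP] using eS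
      · simpa [tP] using eT
      · simp only [uP]
        linear_combination eU

end Fermat.Agent.Moduli
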