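import Mathlib

/-!
# The Hasse polynomial of the Legendre family

`hasse m = Σ (m choose i)² Xⁱ`; when `2m + 1 = 0` in the coefficients it satisfies the
hypergeometric equation and so has no multiple root outside `{0, 1}`.
-/

set_option autoImplicit false

namespace Fermat.Agent.Moduli

open Polynomial Finset

variable {R : Type*} [CommRing R]

variable (R) in
/-- `Σ (m choose i)² Xⁱ`. -/
noncomputable def hasse (m : ℕ) : R[X] :=
  ∑ i ∈ range (m + 1), C (((m.choose i) ^ 2 : ℕ) : R) * X ^ i

lemma coeff_hasse (m i : ℕ) : (hasse R m).coeff i = (((m.choose i) ^ 2 : ℕ) : R) := by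
  rw [hasse, finsetSum_coeff]
  simp only [coeff_C_mul_X_pow]
  rw [sum_ite_eq]
  split_ifs with h
  · rfl
  · rw [Nat.choose_eq_zero_of_lt (by simpa [Nat.lt_succ_iff] using h)]
    simp

lemma map_hasse {S : Type*} [CommRing S] (f : R →+* S) (m : ℕ) :
    (hasse R m).map f = hasse S m := by
  ext i
  rw [coeff_map, coeff_hasse, coeff_hasse, map_natCast]

lemma eval_zero_hasse (m : ℕ) : (hasse R m).eval 0 = 1 := by
  rw [← coeff_zero_eq_eval_zero, coeff_hasse]
  simp

lemma natDegree_hasse_le (m : ℕ) : (hasse R m).natDegree ≤ m :=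
  natDegree_le_iff_coeff_eq_zero.2 fun i hi => by
    rw [coeff_hasse, Nat.choose_eq_zero_of_lt hi]
    simp

/-- The hypergeometric equation. -/
theorem hasse_ode {m : ℕ} (hm : 2 * (m : R) + 1 = 0) :
    C 4 * X * (1 - X) * derivative (derivative (hasse R m)) +
      C 4 * (1 - 2 * X) * derivative (hasse R m) - hasse R m = 0 := by
  have key : ∀ i : ℕ, ((i : R) + 1) ^ 2 * (hasse R m).coeff (i + 1) * 4 =
      (2 * (i : R) + 1) ^ 2 * (hasse R m).coeff i := by
    intro i
    rw [coeff_hasse, coeff_hasse]
    rcases le_or_gt i m with hi | hi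
    · have e : ((i + 1 : ℕ) : R) ^ 2 * (((m.choose (i + 1)) ^ 2 : ℕ) : R) =
          ((m : R) - i) ^ 2 * (((m.choose i) ^ 2 : ℕ) : R) := by
        rw [← Nat.cast_sub hi]
        have := congrArg (fun z : ℕ => ((z ^ 2 : ℕ) : R)) (Nat.choose_succ_right_eq m i)
        push_cast at this ⊢
        linear_combination this
      push_cast at e ⊢
      linear_combination 4 * e + ((m.choose i : R) ^ 2) * (2 * m - 4 * i - 1) * hm
    · rw [Nat.choose_eq_zero_of_lt hi, Nat.choose_eq_zero_of_lt (by omega)]
      simp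
  have h1 : C 4 * X * (1 - X) * derivative (derivative (hasse R m)) +
      C 4 * (1 - 2 * X) * derivative (hasse R m) - hasse R m =
      C 4 * (X * derivative (derivative (hasse R m))) -
        C 4 * (X * (X * derivative (derivative (hasse R m)))) +
        C 4 * derivative (hasse R m) - C 8 * (X * derivative (hasse R m)) - hasse R m := by
    rw [show (8 : R) = 2 * 4 by norm_num, map_mul, map_ofNat C 2]
    ring
  rw [h1]
  ext i
  have hk := key i
  rcases i with _ | _ | i <;>
  · simp only [coeff_sub, coeff_add, coeff_C_mul, coeff_zero, coeff_X_mul, mul_coeff_zero, coeff_C_zero,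
      coeff_X_zero, zero_mul, coeff_derivative]
    push_cast at hk ⊢
    linear_combination hk

/-- No multiple root outside `{0, 1}`. -/
theorem hasse_simple_root {E : Type*} [Field E] {q m : ℕ} [CharP E q] (hq : q = 2 * m + 1)
    (hp : q.Prime) {c : E} (hc0 : c ≠ 0) (hc1 : c ≠ 1) (h : (hasse E m).eval c = 0) :
    (derivative (hasse E m)).eval c ≠ 0 := by
  intro h'
  have hm : 2 * (m : E) + 1 = 0 := by
    have := CharP.cast_eq_zero E q
    rw [hq] at this
    push_cast at this
    exact this
  have hne : hasse E m ≠ 0 := fun e => by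
    have := eval_zero_hasse (R := E) m
    rw [e, eval_zero] at this
    exact zero_ne_one this
  have hk : 1 < (hasse E m).rootMultiplicity c :=
    (one_lt_rootMultiplicity_iff_isRoot hne).2 ⟨h, h'⟩
  obtain ⟨g, hg, hg0⟩ := exists_eq_pow_rootMultiplicity_mul_and_not_dvd _ hne c
  rw [dvd_iff_isRoot] at hg0
  obtain ⟨j, hj⟩ : ∃ j, (hasse E m).rootMultiplicity c = j + 2 :=
    ⟨(hasse E m).rootMultiplicity c - 2, by omega⟩
  have hjm : j + 2 ≤ m := by
    have h1 : ((X - C c) ^ (j + 2)).natDegree ≤ (hasse E m).natDegree :=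
      natDegree_le_of_dvd (hg ▸ hj ▸ dvd_mul_right _ _) hne
    rw [natDegree_pow, natDegree_X_sub_C, mul_one] at h1
    exact h1.trans (natDegree_hasse_le m)
  have hode := hasse_ode (R := E) hm
  rw [hg, hj] at hode
  set L := X - C c with hL
  have hd : derivative L = 1 := by simp [hL]
  have e : C 4 * X * (1 - X) * derivative (derivative (L ^ (j + 2) * g)) +
      C 4 * (1 - 2 * X) * derivative (L ^ (j + 2) * g) - L ^ (j + 2) * g =
      L ^ j * (C 4 * X * (1 - X) * (C ((j : E) + 2) * C ((j : E) + 1) * g +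
        2 * C ((j : E) + 2) * L * derivative g + L ^ 2 * derivative (derivative g)) +
        L * (C 4 * (1 - 2 * X) * (C ((j : E) + 2) * g + L * derivative g) - L * g)) := by
    simp only [derivative_mul, derivative_pow, hd, derivative_C, derivative_add, map_add,
      map_natCast, map_ofNat, map_one, Nat.cast_add, Nat.cast_ofNat, derivative_natCast,
      Nat.add_sub_cancel, show j + 2 - 1 = j + 1 from rfl, derivative_one, derivative_ofNat]
    ring
  rw [e, mul_eq_zero] at hode
  have := congrArg (eval c) (hode.resolve_left (pow_ne_zero _ (X_sub_C_ne_zero c)))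
  simp only [hL, eval_add, eval_mul, eval_sub, eval_pow, eval_C, eval_X, eval_one, eval_zero,
    sub_self, zero_mul, mul_zero, add_zero, ne_eq, OfNat.ofNat_ne_zero, not_false_eq_true,
    zero_pow] at this
  have hn : ∀ n : ℕ, 0 < n → n < q → (n : E) ≠ 0 := fun n hn hnq hz => by
    rw [CharP.cast_eq_zero_iff E q] at hz
    exact absurd (Nat.le_of_dvd hn hz) (by omega)
  have h4 : (4 : E) ≠ 0 := by
    have := hn 2 (by omega) (by omega)
    rw [show (4 : E) = 2 * 2 by norm_num]
    exact mul_ne_zero (by exact_mod_cast this) (by exact_mod_cast this)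
  have hj2 : (j : E) + 2 ≠ 0 := by exact_mod_cast hn (j + 2) (by omega) (by omega)
  have hj1 : (j : E) + 1 ≠ 0 := by exact_mod_cast hn (j + 1) (by omega) (by omega)
  simp only [mul_eq_zero, h4, hc0, hj2, hj1, sub_eq_zero, Ne.symm hc1, false_or] at this
  exact hg0 this

/-- The coefficient of the middle degree of `(X (X - 1) (X - c)) ^ m`. -/
theorem coeff_legendre_pow (m : ℕ) (c : R) :
    ((X * (X - 1) * (X - C c)) ^ m).coeff (2 * m) = (-1) ^ m * (hasse R m).eval c := by
  rw [mul_assoc, mul_pow, show 2 * m = m + m by ring, coeff_X_pow_mul, mul_pow,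
    show (X - 1 : R[X]) = X + C (-1) by rw [map_neg, map_one, ← sub_eq_add_neg],
    show (X - C c : R[X]) = X + C (-c) by rw [map_neg, ← sub_eq_add_neg],
    coeff_mul, hasse, eval_finset_sum, mul_sum, Nat.sum_antidiagonal_eq_sum_range_succ_mk]
  refine sum_congr rfl fun i hi => ?_
  rw [coeff_X_add_C_pow, coeff_X_add_C_pow, eval_mul, eval_C, eval_pow, eval_X]
  have hi' : i ≤ m := Nat.lt_succ_iff.1 (mem_range.1 hi)
  dsimp only
  rw [Nat.choose_symm hi', Nat.sub_sub_self hi', neg_pow c]
  have hsign : (-1 : R) ^ (m - i) * (-1) ^ i = (-1) ^ m := by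
    rw [← pow_add, Nat.sub_add_cancel hi']
  push_cast
  linear_combination (c ^ i * (m.choose i : R) ^ 2) * hsign

end Fermat.Agent.Moduli
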