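import Fermat.Agent.Moduli.Galois

/-!
# The base of the Legendre family over an unramified ring of residue characteristic `q`

`R = W[X][1/(X(1 - X))]`; each maximal ideal containing `q` gives the numerical hypotheses.
-/

set_option autoImplicit false
set_option linter.style.haveILetI false
set_option linter.unusedSectionVars false

noncomputable section

namespace Fermat.Agent.Moduli

open Polynomial IsLocalRing

variable (W : Type) [CommRing W]

/-- `X (1 - X)`. -/
def legDisc : W[X] := X * (1 - X)

/-- The base `W[X][1/(X(1-X))]`. -/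
abbrev LegBase : Type := Localization.Away (legDisc W)

/-- The parameter. -/
def legVar : LegBase W := algebraMap W[X] (LegBase W) X

variable {W} [IsDomain W] [IsDiscreteValuationRing W]

lemma isUnit_legVar : IsUnit (legVar W) ∧ IsUnit (1 - legVar W) := by
  have h : IsUnit (algebraMap W[X] (LegBase W) (legDisc W)) :=
    IsLocalization.Away.algebraMap_isUnit (S := LegBase W) (legDisc W)
  have e : algebraMap W[X] (LegBase W) (legDisc W) = legVar W * (1 - legVar W) := by
    simp [legDisc, legVar]
  rw [e] at h
  exact ⟨isUnit_of_mul_isUnit_left h, isUnit_of_mul_isUnit_right h⟩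

lemma legDisc_ne_zero : legDisc W ≠ 0 :=
  mul_ne_zero X_ne_zero (sub_ne_zero.2 fun h => by simpa [coeff_one, coeff_X] using congrArg (Polynomial.coeff · 1) h)

instance instIsDomainLegBase : IsDomain (LegBase W) :=
  IsLocalization.isDomain_localization (powers_le_nonZeroDivisors_of_noZeroDivisors legDisc_ne_zero)

instance instIsNoetherianLegBase : IsNoetherianRing (LegBase W) :=
  IsLocalization.isNoetherianRing (Submonoid.powers (legDisc W)) (LegBase W) inferInstance

instance instIsIntegrallyClosedLegBase : IsIntegrallyClosed (LegBase W) :=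
  isIntegrallyClosed_of_isLocalization (LegBase W) (Submonoid.powers (legDisc W))
    (powers_le_nonZeroDivisors_of_noZeroDivisors legDisc_ne_zero)

/-- Every element is a polynomial divided by a power of the discriminant. -/
lemma exists_legBase_mul (r : LegBase W) : ∃ (P : W[X]) (n : ℕ),
    r * algebraMap W[X] (LegBase W) (legDisc W ^ n) = algebraMap W[X] (LegBase W) P := by
  obtain ⟨⟨P, s⟩, h⟩ := IsLocalization.surj (Submonoid.powers (legDisc W)) r
  obtain ⟨n, hn⟩ := s.2
  exact ⟨P, n, by rw [show legDisc W ^ n = (s : W[X]) from hn]; exact h⟩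

variable [IsAlgClosed (ResidueField W)] {q k : ℕ}

/-- A maximal ideal containing `q` is a base point. -/
theorem exists_basePoint (hq : q.Prime) (hk : q = 2 * k + 1)
    (hmax : maximalIdeal W = Ideal.span {(q : W)}) (hq0 : (q : W) ≠ 0)
    (I : Ideal (LegBase W)) [I.IsMaximal] (hqI : (q : LegBase W) ∈ I) :
    ∃ t ∈ I, BasePoint (LegBase W) (legVar W) k q t := by
  classical
  haveI : Fact q.Prime := ⟨hq⟩
  let res := residue W
  set al := algebraMap W[X] (LegBase W)
  set J := I.comap al
  haveI : J.IsPrime := Ideal.comap_isPrime _ _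
  have hres : ∀ w : W, res w = 0 ↔ (q : W) ∣ w := fun w => by
    rw [residue_eq_zero_iff, hmax, Ideal.mem_span_singleton]
  have hqJ : C (q : W) ∈ J := by
    show al (C (q : W)) ∈ I
    rw [map_natCast, map_natCast]
    exact hqI
  have hker : ∀ P : W[X], P.map res = 0 → P ∈ J := fun P hP => by
    obtain ⟨Q, rfl⟩ : C (q : W) ∣ P := (C_dvd_iff_dvd_coeff _ _).2 fun i => by
      rw [← hres, ← coeff_map, hP, coeff_zero]
    exact J.mul_mem_right _ hqJ
  -- the point
  obtain ⟨c, hc⟩ : ∃ c : W, X - C c ∈ J := by
    by_contra hno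
    push Not at hno
    have hP : ∀ P : W[X], P.map res ≠ 0 → P ∉ J := by
      intro P hP hPJ
      have hspl := (IsAlgClosed.splits (P.map res)).eq_prod_roots
      choose lift hlift using residue_surjective (R := W)
      set Q : W[X] := C (lift (P.map res).leadingCoeff) *
        ((P.map res).roots.map fun r => X - C (lift r)).prod
      have hQ : (P - Q).map res = 0 := by
        rw [Polynomial.map_sub, sub_eq_zero]
        conv_lhs => rw [hspl]
        simp only [Q, Polynomial.map_mul, map_C, hlift, Polynomial.map_multiset_prod,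
          Multiset.map_map, Function.comp_def, Polynomial.map_sub, map_X, res]
      have hQJ : Q ∈ J := by
        have := J.sub_mem hPJ (hker _ hQ)
        rwa [sub_sub_cancel] at this
      rcases (Ideal.IsPrime.mem_or_mem inferInstance hQJ) with h | h
      · have hu : IsUnit (lift (P.map res).leadingCoeff) :=
          (residue_ne_zero_iff_isUnit _).1 (by
            rw [hlift]; exact leadingCoeff_ne_zero.2 hP)
        exact Ideal.IsPrime.ne_top inferInstance (Ideal.eq_top_of_isUnit_mem J h (hu.map C))
      · rw [(inferInstance : J.IsPrime).multiset_prod_mem_iff_exists_mem] at h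
        obtain ⟨y, hy, hyJ⟩ := h
        obtain ⟨r, -, rfl⟩ := Multiset.mem_map.1 hy
        exact hno _ hyJ
    obtain ⟨r₀, hr₀⟩ := Infinite.exists_notMem_finset ({0, 1} : Finset (ResidueField W))
    simp only [Finset.mem_insert, Finset.mem_singleton, not_or] at hr₀
    obtain ⟨c₀, rfl⟩ := residue_surjective r₀
    have hne : al (X - C c₀) ∉ I := hP _ (by
      rw [Polynomial.map_sub, map_X, map_C]; exact X_sub_C_ne_zero _)
    obtain ⟨r, i, hi, hri⟩ := Ideal.IsMaximal.exists_inv ‹I.IsMaximal› hne
    obtain ⟨P, n, hP'⟩ := exists_legBase_mul r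
    have hmem : P * (X - C c₀) - legDisc W ^ n ∈ J := by
      show al _ ∈ I
      rw [map_sub, map_mul, ← hP']
      have : r * al (X - C c₀) - 1 ∈ I := by
        rw [show r * al (X - C c₀) - 1 = -i by rw [← hri]; ring]
        exact I.neg_mem hi
      have := I.mul_mem_right (al (legDisc W ^ n)) this
      rwa [sub_mul, one_mul, mul_assoc, mul_comm (al (X - C c₀)), ← mul_assoc] at this
    have hz : (P * (X - C c₀) - legDisc W ^ n).map res = 0 := not_not.1 fun h => hP _ h hmem
    have h0 := congrArg (Polynomial.eval (residue W c₀)) hz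
    simp only [legDisc, Polynomial.map_sub, Polynomial.map_mul, Polynomial.map_pow, map_X, map_C,
      Polynomial.map_one, eval_sub, eval_mul, eval_pow, eval_X, eval_C, eval_one, eval_zero,
      sub_self, mul_zero, zero_sub, neg_eq_zero, res] at h0
    exact mul_ne_zero hr₀.1 (sub_ne_zero.2 (Ne.symm hr₀.2)) (eq_zero_of_pow_eq_zero h0)
  set t := al (X - C c)
  have htI : t ∈ I := hc
  obtain ⟨hl, hl1⟩ := isUnit_legVar (W := W)
  -- evaluation at the point
  have hlc : legVar W - algebraMap W[X] (LegBase W) (C c) = t := by rw [legVar, ← map_sub]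
  have hgu : IsUnit (eval₂RingHom res (res c) (legDisc W)) := by
    rw [isUnit_iff_ne_zero, legDisc, coe_eval₂RingHom, eval₂_mul, eval₂_sub, eval₂_X, eval₂_one]
    have hI : ∀ w : W, res w = 0 → al (C w) ∈ I := fun w hw =>
      hker (C w) (by rw [map_C, hw, C_0])
    refine mul_ne_zero (fun h => ?_) (fun h => ?_)
    · refine (Ideal.IsMaximal.ne_top ‹_›) (Ideal.eq_top_of_isUnit_mem I ?_ hl)
      have := I.add_mem htI (hI c h)
      rwa [← hlc, sub_add_cancel] at this
    · refine (Ideal.IsMaximal.ne_top ‹_›) (Ideal.eq_top_of_isUnit_mem I ?_ hl1)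
      have := I.sub_mem (hI (1 - c) (by rw [map_sub, map_one, h])) htI
      rw [← hlc, map_sub C, map_sub, C_1, map_one] at this
      convert this using 1
      ring
  let ρ : LegBase W →+* ResidueField W := IsLocalization.Away.lift (legDisc W) hgu
  have hρ : ∀ P : W[X], ρ (al P) = res (P.eval c) := fun P => by
    rw [IsLocalization.Away.lift_eq, coe_eval₂RingHom, eval₂_at_apply]
  have hρs : Function.Surjective ρ := fun x => by
    obtain ⟨w, rfl⟩ := residue_surjective x
    exact ⟨al (C w), by rw [hρ, eval_C]⟩
  have hspan : Ideal.span {(q : LegBase W), t} = RingHom.ker ρ := by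
    apply le_antisymm
    · rw [Ideal.span_le]
      rintro x (rfl | rfl)
      · show ρ _ = 0
        rw [map_natCast, ← map_natCast res, hres]
      · show ρ t = 0
        rw [hρ, eval_sub, eval_X, eval_C, sub_self, map_zero]
    · intro r hr
      rw [RingHom.mem_ker] at hr
      obtain ⟨P, n, hP⟩ := exists_legBase_mul r
      have h0 : res (P.eval c) = 0 := by rw [← hρ, ← hP, map_mul, hr, zero_mul]
      obtain ⟨Q, hQ⟩ := X_sub_C_dvd_sub_C_eval (a := c) (p := P)
      obtain ⟨b, hb⟩ := (hres _).1 h0
      have hu : IsUnit (al (legDisc W ^ n)) := by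
        rw [map_pow]
        exact (IsLocalization.Away.algebraMap_isUnit (S := LegBase W) (legDisc W)).pow n
      rw [← Ideal.mul_unit_mem_iff_mem _ hu, hP, show P = (X - C c) * Q + C (P.eval c) by
        rw [← hQ, sub_add_cancel], hb, map_mul C, map_add, map_mul, map_mul, map_natCast,
        map_natCast]
      exact add_mem (Ideal.mul_mem_right _ _ (Ideal.subset_span (Or.inr rfl)))
        (Ideal.mul_mem_right _ _ (Ideal.subset_span (Or.inl rfl)))
  have hkmax : (RingHom.ker ρ).IsMaximal := RingHom.ker_isMaximal_of_surjective ρ hρs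
  have hle : Ideal.span {(q : LegBase W), t} ≤ I := by
    rw [Ideal.span_le]
    rintro x (rfl | rfl)
    exacts [hqI, htI]
  have hmaxI : (Ideal.span {(q : LegBase W), t}).IsMaximal := hspan ▸ hkmax
  have hI : Ideal.span {(q : LegBase W), t} = I := hmaxI.eq_of_le (Ideal.IsMaximal.ne_top ‹_›) hle
  -- the prime `q`
  have hqspan : Ideal.span {(q : LegBase W)} = (Ideal.span {C (q : W)}).map al := by
    rw [Ideal.map_span, Set.image_singleton, map_natCast, map_natCast]
  have hqW : Prime (q : W) := by
    rw [← Ideal.span_singleton_prime hq0, ← hmax]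
    exact (maximalIdeal.isMaximal W).isPrime
  haveI hCq : (Ideal.span {C (q : W)}).IsPrime :=
    (Ideal.span_singleton_prime (C_ne_zero.2 hq0)).2 (prime_C_iff.2 hqW)
  have hdisj : Disjoint (Submonoid.powers (legDisc W) : Set W[X]) (Ideal.span {C (q : W)} : Set W[X]) := by
    rw [Set.disjoint_left]
    rintro _ ⟨n, rfl⟩ h
    have h1 := Ideal.IsPrime.mem_of_pow_mem hCq n h
    rw [Ideal.mem_span_singleton, C_dvd_iff_dvd_coeff] at h1
    have := h1 1
    simp [legDisc, mul_sub, ← sq, coeff_X_pow] at this
    exact hqW.not_isUnit (isUnit_of_dvd_one this)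
  have hqP : Prime (q : LegBase W) := by
    have h0 : (q : LegBase W) ≠ 0 := by
      rw [← map_natCast al]
      exact fun h => hq0 (by
        have h' := IsLocalization.injective (LegBase W)
          (powers_le_nonZeroDivisors_of_noZeroDivisors legDisc_ne_zero) (h.trans (map_zero _).symm)
        simpa using congrArg (Polynomial.coeff · 0) h')
    rw [← Ideal.span_singleton_prime h0, hqspan]
    exact IsLocalization.isPrime_of_isPrime_disjoint (Submonoid.powers (legDisc W)) (LegBase W) _ hCq hdisj
  refine ⟨t, htI, ⟨hk, hqP, ?_, hmaxI,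
    splitsMod_of_isAlgClosed ρ hρs hspan.ge, hl, hl1, ?_, ?_⟩⟩
  · intro hd
    rw [← Ideal.mem_span_singleton, hqspan,
      IsLocalization.algebraMap_mem_map_algebraMap_iff (Submonoid.powers (legDisc W))] at hd
    obtain ⟨s, hs, hst⟩ := hd
    rcases hCq.mem_or_mem hst with h | h
    · exact Set.disjoint_left.1 hdisj hs h
    · rw [Ideal.mem_span_singleton, C_dvd_iff_dvd_coeff] at h
      have := h 1
      simp [coeff_X] at this
      exact hqW.not_isUnit (isUnit_of_dvd_one this)
  · rw [hI, ← hlc]
    refine hasse_unit_or_parameter hk hqI hl hl1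
      (c := al (C c)) (by rw [hlc]; exact htI) ?_
    intro hH
    have e : (hasse (LegBase W) k).eval (al (C c)) = al (C ((hasse W k).eval c)) := by
      rw [← map_hasse (R := W) (al.comp C) k, show al (C c) = (al.comp C) c from rfl, eval_map_apply, RingHom.comp_apply]
    rw [e] at hH ⊢
    have h0 : res ((hasse W k).eval c) = 0 := by
      have h1 : al (C ((hasse W k).eval c)) ∈ RingHom.ker ρ := by rwa [← hspan, hI]
      rwa [RingHom.mem_ker, hρ, eval_C] at h1
    obtain ⟨b, hb⟩ := (hres _).1 h0
    rw [hb, map_mul, map_mul, map_natCast, map_natCast]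
    exact Ideal.mul_mem_right _ _ (Ideal.subset_span rfl)
  · obtain ⟨μ, hμ⟩ := IsAlgClosed.exists_pow_nat_eq (res c) hq.pos
    obtain ⟨μ₀, rfl⟩ := residue_surjective μ
    obtain ⟨b, hb⟩ : (q : W) ∣ μ₀ ^ q - c := by rw [← hres, map_sub, map_pow, hμ, sub_self]
    refine ⟨al (C μ₀), ?_⟩
    have e : t - (legVar W - al (C μ₀) ^ q) = al (C (μ₀ ^ q - c)) := by
      rw [← hlc, map_sub C, map_pow C, map_sub, map_pow]
      ring
    rw [e, hb, map_mul, map_mul, map_natCast, map_natCast]
    exact Ideal.mul_mem_right _ _ (Ideal.subset_span rfl)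

end Fermat.Agent.Moduli
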