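import Fermat.Agent.Moduli.CharQ
import Fermat.Agent.Moduli.DivPoly

/-!
# Multiplication by an odd `n` on the Legendre curve

Translation by a two-torsion point `(r, 0)` acts on abscissae by `x ↦ r + f'(r)/(x - r)`. As it
commutes with `[n]`, the numerators of `x ∘ [n] - r` are obtained from the denominator.
-/

set_option autoImplicit false
set_option linter.unusedSectionVars false

namespace Fermat.Agent.Moduli

open WeierstrassCurve Polynomial Fermat.Agent.EC Finset

variable {R : Type*} [CommRing R]

/-- `y² = x (x - 1) (x - l)`. -/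
def legendre (l : R) : WeierstrassCurve R := ⟨0, -(1 + l), 0, l, 0⟩

/-- `f'(r)` for `f = x (x - 1) (x - l)`. -/
def slopeAt (l r : R) : R := 3 * r ^ 2 - 2 * (1 + l) * r + l

/-- `r` is the abscissa of a point of order two. -/
def IsTwoTor (l r : R) : Prop := r ^ 3 - (1 + l) * r ^ 2 + l * r = 0

lemma map_legendre {S : Type*} [CommRing S] (f : R →+* S) (l : R) :
    (legendre l).map f = legendre (f l) := by
  ext <;> simp [legendre]

lemma legendre_Δ (l : R) : (legendre l).Δ = 16 * (l * (1 - l)) ^ 2 := by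
  simp only [legendre, WeierstrassCurve.Δ, WeierstrassCurve.b₂, WeierstrassCurve.b₄,
    WeierstrassCurve.b₆, WeierstrassCurve.b₈]
  ring

/-- `(X - r)^N P(r + d/(X - r))`. -/
noncomputable def shiftRev (r d : R) (N : ℕ) (P : R[X]) : R[X] :=
  ∑ i ∈ range (N + 1), C (P.coeff i) * (C r * (X - C r) + C d) ^ i * (X - C r) ^ (N - i)

lemma shiftRev_C_mul (r d e : R) (N : ℕ) (P : R[X]) :
    shiftRev r d N (C e * P) = C e * shiftRev r d N P := by
  simp only [shiftRev, coeff_C_mul, map_mul, mul_sum, mul_assoc]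

lemma shiftRev_sub (r d : R) (N : ℕ) (P Q : R[X]) :
    shiftRev r d N (P - Q) = shiftRev r d N P - shiftRev r d N Q := by
  simp only [shiftRev, coeff_sub, map_sub, sub_mul, sum_sub_distrib]

lemma natDegree_shiftRev_le (r d : R) (N : ℕ) (P : R[X]) :
    (shiftRev r d N P).natDegree ≤ N := by
  refine natDegree_sum_le_of_forall_le _ _ fun i hi => ?_
  have h1 : (C r * (X - C r) + C d).natDegree ≤ 1 :=
    (natDegree_add_le _ _).trans (max_le ((natDegree_C_mul_le _ _).trans (natDegree_X_sub_C_le r))
      (by simp))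
  have hi' := Nat.lt_succ_iff.1 (mem_range.1 hi)
  refine (natDegree_mul_le_of_le (m := i) (n := N - i) ?_ ?_).trans (by omega)
  · exact (natDegree_C_mul_le _ _).trans (natDegree_pow_le.trans (by
      simpa using Nat.mul_le_mul_left i h1))
  · exact natDegree_pow_le.trans (by simpa using Nat.mul_le_mul_left (N - i) (natDegree_X_sub_C_le r))

lemma coeff_shiftRev (r d : R) {N : ℕ} {P : R[X]} (hP : P.natDegree ≤ N) :
    (shiftRev r d N P).coeff N = P.eval r := by
  rw [shiftRev, finsetSum_coeff, eval_eq_sum_range' (Nat.lt_succ_of_le hP)]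
  refine sum_congr rfl fun i hi => ?_
  have hi' := Nat.lt_succ_iff.1 (mem_range.1 hi)
  have h1 : (C r * (X - C r) + C d).natDegree ≤ 1 :=
    (natDegree_add_le _ _).trans (max_le ((natDegree_C_mul_le _ _).trans (natDegree_X_sub_C_le r))
      (by simp))
  have h2 : ((C r * (X - C r) + C d) ^ i).natDegree ≤ i :=
    natDegree_pow_le.trans (by simpa using Nat.mul_le_mul_left i h1)
  have h3 : ((X - C r) ^ (N - i)).natDegree ≤ N - i :=
    natDegree_pow_le.trans (by simpa using Nat.mul_le_mul_left (N - i) (natDegree_X_sub_C_le r))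
  have h4 : ((C r * (X - C r) + C d) ^ i).coeff i = r ^ i := by
    have := coeff_pow_of_natDegree_le (m := i) h1
    rw [mul_one] at this
    rw [this, coeff_add, coeff_C_mul, coeff_sub, coeff_X_one, coeff_C, coeff_C]
    simp
  have h5 : ((X - C r) ^ (N - i)).coeff (N - i) = 1 := by
    have := coeff_pow_of_natDegree_le (m := N - i) (natDegree_X_sub_C_le r)
    rw [mul_one] at this
    rw [this, coeff_sub, coeff_X_one, coeff_C]
    simp
  rw [mul_assoc, coeff_C_mul]
  congr 1
  conv_lhs => rw [show N = i + (N - i) by omega]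
  rw [Nat.add_sub_cancel_left, coeff_mul_add_eq_of_natDegree_le h2 h3, h4, h5, mul_one]

section Eval

variable {K : Type*} [Field K] (φ : R →+* K)

lemma eval_shiftRev (r d : R) {N : ℕ} {P : R[X]} (hP : P.natDegree ≤ N) {x : K} (hx : x ≠ φ r) :
    ((shiftRev r d N P).map φ).eval x =
      (x - φ r) ^ N * (P.map φ).eval (φ r + φ d / (x - φ r)) := by
  have hx' : x - φ r ≠ 0 := sub_ne_zero.2 hx
  rw [shiftRev, Polynomial.map_sum, eval_finset_sum,
    eval_eq_sum_range' (Nat.lt_succ_of_le (natDegree_map_le.trans hP)), mul_sum]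
  refine sum_congr rfl fun i hi => ?_
  have hi' := Nat.lt_succ_iff.1 (mem_range.1 hi)
  simp only [Polynomial.map_mul, Polynomial.map_pow, Polynomial.map_add, Polynomial.map_sub, map_C,
    map_X, eval_mul, eval_pow, eval_add, eval_sub, eval_C, eval_X, coeff_map]
  rw [show (x - φ r) ^ N = (x - φ r) ^ (N - i) * (x - φ r) ^ i by
    rw [← pow_add, Nat.sub_add_cancel hi'],
    show φ r * (x - φ r) + φ d = (φ r + φ d / (x - φ r)) * (x - φ r) by field_simp, mul_pow]
  ring

variable [Infinite K] [IsDomain R] {φ} (hφ : Function.Injective φ)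

include hφ in
lemma shiftRev_ext {r : R} {P Q : R[X]}
    (h : ∀ x : K, x ≠ φ r → (P.map φ).eval x = (Q.map φ).eval x) : P = Q :=
  map_injective φ hφ (eq_of_infinite_eval_eq _ _
    ((Set.finite_singleton (φ r)).infinite_compl.mono fun x hx => h x hx))

include hφ in
lemma shiftRev_shiftRev (r : R) {d : R} (hd : φ d ≠ 0) {N : ℕ} {P : R[X]} (hP : P.natDegree ≤ N) :
    shiftRev r d N (shiftRev r d N P) = C (d ^ N) * P := by
  refine shiftRev_ext hφ (r := r) fun x hx => ?_
  have hx' : x - φ r ≠ 0 := sub_ne_zero.2 hx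
  have hne : φ r + φ d / (x - φ r) ≠ φ r := by
    rw [ne_eq, add_eq_left]; exact div_ne_zero hd hx'
  rw [eval_shiftRev φ r d (natDegree_shiftRev_le r d N P) hx,
    eval_shiftRev φ r d hP hne, Polynomial.map_mul, map_C, eval_mul, eval_C, map_pow,
    add_sub_cancel_left, div_div_cancel₀ hd, add_sub_cancel, ← mul_assoc, ← mul_pow,
    mul_div_cancel₀ _ hx']

include hφ in
lemma shiftRev_sq (r : R) (d : R) {N : ℕ} {P : R[X]} (hP : P.natDegree ≤ N) :
    shiftRev r d (2 * N + 1) (P ^ 2) = (X - C r) * shiftRev r d N P ^ 2 := by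
  refine shiftRev_ext hφ (r := r) fun x hx => ?_
  have h2 : (P ^ 2).natDegree ≤ 2 * N + 1 := by
    refine natDegree_pow_le.trans ?_
    omega
  rw [eval_shiftRev φ r d h2 hx, Polynomial.map_mul, Polynomial.map_pow, Polynomial.map_pow,
    eval_mul, eval_pow, eval_pow, eval_shiftRev φ r d hP hx, Polynomial.map_sub, map_X, map_C,
    eval_sub, eval_X, eval_C, pow_succ (x - φ r), mul_comm 2 N, pow_mul]
  ring

end Eval

variable [IsDomain R] {K : Type*} [Field K] [IsAlgClosed K] [CharZero K] [DecidableEq K]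
  {φ : R →+* K} {l r : R} [hell : ((legendre l).map φ).IsElliptic]

lemma equation_twoTor (hr : IsTwoTor l r) :
    ((legendre l).map φ).toAffine.Equation (φ r) 0 := by
  have := congrArg φ hr
  simp only [map_add, map_sub, map_mul, map_pow, map_one, map_zero] at this
  rw [Affine.equation_iff]
  simp only [map_a₁, map_a₂, map_a₃, map_a₄, map_a₆, legendre, map_zero, map_neg, map_add, map_one]
  linear_combination -this

lemma map_slopeAt_ne_zero (hr : IsTwoTor l r) : φ (slopeAt l r) ≠ 0 := by
  have hns := (Affine.equation_iff_nonsingular (W := ((legendre l).map φ).toAffine)).1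
    (equation_twoTor (φ := φ) hr)
  rw [Affine.nonsingular_iff] at hns
  intro e
  simp only [slopeAt, map_add, map_sub, map_mul, map_pow, map_ofNat, map_one] at e
  rcases hns.2 with h | h
  · apply h
    simp only [map_a₁, map_a₂, map_a₄, legendre, map_zero, map_neg, map_add, map_one]
    linear_combination -e
  · apply h
    simp [legendre]

/-- Translation by a point of order two. -/
lemma add_twoTor (hr : IsTwoTor l r) {x y : K}
    (h : ((legendre l).map φ).toAffine.Nonsingular x y) (hx : x ≠ φ r) :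
    ∃ (y' : K) (h' : ((legendre l).map φ).toAffine.Nonsingular
        (φ r + φ (slopeAt l r) / (x - φ r)) y'),
      Affine.Point.some x y h + Affine.Point.some (φ r) 0
        (Affine.equation_iff_nonsingular.1 (equation_twoTor hr)) =
        Affine.Point.some _ y' h' := by
  have hx' : x - φ r ≠ 0 := sub_ne_zero.2 hx
  have he := h.1
  rw [Affine.equation_iff] at he
  simp only [map_a₁, map_a₂, map_a₃, map_a₄, map_a₆, legendre, map_zero, map_neg, map_add,
    map_one] at he
  have hr' := congrArg φ hr
  simp only [map_add, map_sub, map_mul, map_pow, map_one, map_zero] at hr'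
  have e : ((legendre l).map φ).toAffine.addX x (φ r)
      (((legendre l).map φ).toAffine.slope x (φ r) y 0) = φ r + φ (slopeAt l r) / (x - φ r) := by
    rw [Affine.slope_of_X_ne hx, Affine.addX]
    simp only [map_a₁, map_a₂, legendre, map_zero, map_neg, map_add, map_one, slopeAt, map_sub,
      map_mul, map_pow, map_ofNat]
    field_simp
    linear_combination he + hr'
  have h' := Affine.nonsingular_add h
    (Affine.equation_iff_nonsingular.1 (equation_twoTor (φ := φ) hr)) (by tauto)
  refine ⟨_, e ▸ h', ?_⟩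
  rw [Affine.Point.add_of_X_ne hx, Affine.Point.some.injEq]
  exact ⟨e, rfl⟩

variable [IsIntegrallyClosed R] {k : ℕ} {a b : R[X]}

/-- The two transformation formulas under translation by `(r, 0)`. -/
theorem mulPair_shift (hφ : Function.Injective φ) (hr : IsTwoTor l r)
    (h : MulPair (legendre l) φ (2 * k + 1) a b) :
    shiftRev r (slopeAt l r) ((2 * k + 1) ^ 2) b = C (b.eval r) * (a - C r * b) ∧
    shiftRev r (slopeAt l r) ((2 * k + 1) ^ 2) (a - C r * b) =
      C (slopeAt l r * b.eval r) * b ∧
    b.eval r ^ 2 = slopeAt l r ^ (4 * k * (k + 1)) := by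
  classical
  set d := slopeAt l r with hd
  set n := 2 * k + 1 with hn
  set N := n ^ 2 with hN
  set c := a - C r * b with hc
  have hd0 : φ d ≠ 0 := map_slopeAt_ne_zero hr
  have hN1 : 1 ≤ N := Nat.one_le_pow _ _ (by omega)
  have hNk : N = 4 * k * (k + 1) + 1 := by rw [hN, hn]; ring
  have hbN : b.natDegree ≤ N - 1 := h.natDegree_b
  have hcN : c.natDegree = N := by
    rw [hc, natDegree_sub_eq_left_of_natDegree_lt, h.natDegree_a]
    rw [h.natDegree_a]
    exact lt_of_le_of_lt ((natDegree_C_mul_le _ _).trans h.natDegree_b) (by omega)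
  have hcm : c.Monic := h.monic.sub_of_left (degree_lt_degree (by
    rw [h.natDegree_a]
    exact lt_of_le_of_lt ((natDegree_C_mul_le _ _).trans h.natDegree_b) (by omega)))
  have hb0 : b.map φ ≠ 0 := fun e => by
    have := congrArg (fun p => p.coeff (N - 1)) e
    simp only [coeff_map, hN, h.coeff_b, map_pow, map_natCast, coeff_zero] at this
    exact pow_ne_zero 2 (Nat.cast_ne_zero.2 (by omega : n ≠ 0)) this
  have key : shiftRev r d N c * c = C d * shiftRev r d N b * b := by
    refine map_injective φ hφ (eq_of_infinite_eval_eq _ _ ?_)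
    refine ((insert (φ r) ((b.map φ).roots.toFinset ∪
      (c.map φ).roots.toFinset)).finite_toSet.infinite_compl).mono fun x hx => ?_
    simp only [Set.mem_compl_iff, Finset.coe_insert, Finset.coe_union, Set.mem_insert_iff,
      Set.mem_union, Finset.mem_coe, Multiset.mem_toFinset, mem_roots hb0,
      mem_roots (hcm.map φ).ne_zero, IsRoot.def, not_or] at hx
    obtain ⟨hxr, hxb, hxc⟩ := hx
    obtain ⟨y, hy⟩ := exists_point (W := legendre l) (φ := φ) x
    set P := Affine.Point.some x y hy with hP
    rcases hnP : n • P with _ | ⟨x₁, y₁, h₁⟩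
    · exact absurd (h.spec_zero x y hy hnP) hxb
    obtain ⟨-, hA⟩ := h.spec_some x y hy _ _ _ hnP
    set p := Affine.Point.some (φ r) 0
      (Affine.equation_iff_nonsingular.1 (equation_twoTor (φ := φ) hr)) with hp
    have h2p : 2 • p = 0 := by
      rw [two_nsmul, hp, add_self_eq_zero_iff]
      simp [legendre]
    have hnp : n • p = p := by rw [hn, succ_nsmul, mul_comm, mul_nsmul', h2p, nsmul_zero, zero_add]
    have hx₁ : x₁ ≠ φ r := by
      intro e
      apply hxc
      rw [hc, Polynomial.map_sub, Polynomial.map_mul, map_C, eval_sub, eval_mul, eval_C, hA, e,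
        sub_self]
    obtain ⟨y₂, h₂, e₂⟩ := add_twoTor hr hy hxr
    obtain ⟨y₃, h₃, e₃⟩ := add_twoTor hr h₁ hx₁
    have hn2 : n • Affine.Point.some _ y₂ h₂ = Affine.Point.some _ y₃ h₃ := by
      rw [← e₂, ← e₃, nsmul_add, ← hp, ← hP, hnp, hnP]
    obtain ⟨-, hA₂⟩ := h.spec_some _ _ h₂ _ _ _ hn2
    show ((shiftRev r d N c * c).map φ).eval x = ((C d * shiftRev r d N b * b).map φ).eval x
    have hx₁' : x₁ - φ r ≠ 0 := sub_ne_zero.2 hx₁
    simp only [Polynomial.map_mul, eval_mul, map_C, eval_C, eval_shiftRev φ r d hcN.le hxr,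
      eval_shiftRev φ r d (hbN.trans (Nat.sub_le N 1)) hxr]
    rw [hc, Polynomial.map_sub, Polynomial.map_mul, map_C, eval_sub, eval_mul, eval_C, hA₂,
      eval_sub, eval_mul, eval_C, hA, hd]
    field_simp
    ring
  have hco : IsCoprime (c.map φ) (b.map φ) := by
    rw [Polynomial.isCoprime_iff_aeval_ne_zero_of_isAlgClosed _ K]
    intro x
    by_contra hh
    push Not at hh
    simp only [coe_aeval_eq_eval, hc, Polynomial.map_sub, Polynomial.map_mul, map_C, eval_sub,
      eval_mul, eval_C] at hh
    obtain ⟨h1, h2⟩ := hh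
    rw [h2, mul_zero, sub_zero] at h1
    exact (h.noCommonRoot x).elim (· h1) (· h2)
  have hfirst : shiftRev r d N b = C (b.eval r) * c := by
    have hdvd : c ∣ shiftRev r d N b := by
      rw [← Polynomial.map_dvd_map φ hφ hcm]
      refine (hco.dvd_of_dvd_mul_right ?_)
      have h1 := congrArg (Polynomial.map φ) key
      simp only [Polynomial.map_mul, map_C] at h1
      refine ((isUnit_C.2 (isUnit_iff_ne_zero.2 hd0)).dvd_mul_left).1
        ⟨(shiftRev r d N c).map φ, ?_⟩
      linear_combination -h1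
    obtain ⟨e, he⟩ := hdvd
    rcases eq_or_ne e 0 with rfl | he0
    · rw [← coeff_shiftRev r d (hbN.trans (Nat.sub_le N 1)), he, mul_zero, coeff_zero, map_zero,
        zero_mul]
    have hed : e.natDegree = 0 := by
      have := natDegree_shiftRev_le r d N b
      rw [he, hcm.natDegree_mul' he0, hcN] at this
      omega
    rw [eq_C_of_natDegree_eq_zero hed] at he
    have hcc : c.coeff N = 1 := by rw [← hcN]; exact hcm.coeff_natDegree
    rw [← coeff_shiftRev r d (hbN.trans (Nat.sub_le N 1)), he, coeff_mul_C, hcc, one_mul, mul_comm]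
  have hsecond : shiftRev r d N c = C (d * b.eval r) * b := by
    apply mul_right_cancel₀ hcm.ne_zero
    rw [key, hfirst, map_mul]
    ring
  refine ⟨hfirst, hsecond, ?_⟩
  have h3 := shiftRev_shiftRev hφ r hd0 (hbN.trans (Nat.sub_le N 1))
  rw [hfirst, shiftRev_C_mul, hsecond, ← mul_assoc, ← map_mul] at h3
  have h4 := mul_right_cancel₀ (fun e : b = 0 => hb0 (by rw [e, Polynomial.map_zero])) h3
  rw [C_inj, hNk, pow_succ] at h4
  exact mul_right_cancel₀ (fun e : d = 0 => hd0 (by rw [e, map_zero]))
    (by linear_combination h4 : b.eval r ^ 2 * d = d ^ (4 * k * (k + 1)) * d)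

end Fermat.Agent.Moduli
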