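import Mathlib

/-!
# Lengths of quotients by ideals
-/

set_option autoImplicit false

namespace Fermat.Agent.Moduli

open Ideal

variable {C : Type*} [CommRing C]

/-- The length of `C ⧸ I`. -/
noncomputable def qlen (I : Ideal C) : ℕ∞ := Module.length C (C ⧸ I)

lemma qlen_le_of_le {I J : Ideal C} (h : I ≤ J) : qlen J ≤ qlen I :=
  Module.length_le_of_surjective (Submodule.factor h) (Submodule.factor_surjective h)

lemma qlen_pos {I : Ideal C} (h : I ≠ ⊤) : 1 ≤ qlen I := by
  haveI : Nontrivial (C ⧸ I) := Ideal.Quotient.nontrivial_iff.2 h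
  exact ENat.one_le_iff_ne_zero.2 (Module.length_pos (R := C) (M := C ⧸ I)).ne'

lemma eq_of_qlen_eq_one [IsLocalRing C] {I : Ideal C} (h : qlen I = 1) :
    I = IsLocalRing.maximalIdeal C := by
  rw [qlen, Module.length_eq_one_iff, isSimpleModule_iff_isCoatom] at h
  exact IsLocalRing.eq_maximalIdeal (Ideal.isMaximal_def.2 h)

lemma length_quotient_span_mk (I : Ideal C) (a : C) :
    Ring.ord (C ⧸ I) (Ideal.Quotient.mk I a) = qlen (I ⊔ span {a}) := by
  rw [Ring.ord, qlen, ← Module.length_eq_of_surjective (S := C) (R := C ⧸ I)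
    Ideal.Quotient.mk_surjective]
  have e : span {Ideal.Quotient.mk I a} = (span {a}).map (Ideal.Quotient.mk I) := by
    rw [Ideal.map_span, Set.image_singleton]
  rw [e]
  exact (DoubleQuot.quotQuotEquivQuotSupₐ C I (span {a})).toLinearEquiv.length_eq

/-- `a` is not a zero divisor modulo `I`. -/
def IsRegularMod (I : Ideal C) (a : C) : Prop := ∀ b, a * b ∈ I → b ∈ I

lemma IsRegularMod.mk_mem_nonZeroDivisors {I : Ideal C} {a : C} (h : IsRegularMod I a) :
    Ideal.Quotient.mk I a ∈ nonZeroDivisors (C ⧸ I) := by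
  rw [mem_nonZeroDivisors_iff_right]
  intro y hy
  obtain ⟨b, rfl⟩ := Ideal.Quotient.mk_surjective y
  rw [← map_mul, Ideal.Quotient.eq_zero_iff_mem, mul_comm] at hy
  exact Ideal.Quotient.eq_zero_iff_mem.2 (h b hy)

lemma IsRegularMod.pow {I : Ideal C} {a : C} (h : IsRegularMod I a) (n : ℕ) :
    IsRegularMod I (a ^ n) := by
  induction n with
  | zero => intro b hb; simpa using hb
  | succ n ih => intro b hb; rw [pow_succ, mul_assoc] at hb; exact h b (ih _ hb)

lemma IsRegularMod.of_mul_right {I : Ideal C} {a b : C} (h : IsRegularMod I (a * b)) :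
    IsRegularMod I b := fun c hc => h c (by rw [mul_assoc]; exact I.mul_mem_left a hc)

lemma IsRegularMod.of_isUnit {I : Ideal C} {a : C} (h : IsUnit a) : IsRegularMod I a := by
  intro b hb
  exact (I.unit_mul_mem_iff_mem h).1 hb

lemma qlen_sup_mul {I : Ideal C} {a b : C} (hb : IsRegularMod I b) :
    qlen (I ⊔ span {a * b}) = qlen (I ⊔ span {a}) + qlen (I ⊔ span {b}) := by
  rw [← length_quotient_span_mk, ← length_quotient_span_mk, ← length_quotient_span_mk, map_mul,
    Ring.ord_mul _ hb.mk_mem_nonZeroDivisors]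

lemma qlen_sup_pow {I : Ideal C} {a : C} (ha : IsRegularMod I a) (n : ℕ) :
    qlen (I ⊔ span {a ^ n}) = n • qlen (I ⊔ span {a}) := by
  rw [← length_quotient_span_mk, ← length_quotient_span_mk, map_pow,
    Ring.ord_pow ha.mk_mem_nonZeroDivisors]

lemma qlen_sup_of_isUnit {I : Ideal C} {a : C} (ha : IsUnit a) : qlen (I ⊔ span {a}) = 0 := by
  rw [span_singleton_eq_top.2 ha, sup_top_eq, qlen, Module.length_eq_zero_iff,
    Ideal.Quotient.subsingleton_iff]

lemma qlen_sup_prod {ι : Type*} (s : Finset ι) (f : ι → C) {I : Ideal C}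
    (h : ∀ i ∈ s, IsRegularMod I (f i)) :
    qlen (I ⊔ span {∏ i ∈ s, f i}) = ∑ i ∈ s, qlen (I ⊔ span {f i}) := by
  classical
  induction s using Finset.induction_on with
  | empty => rw [Finset.prod_empty, Finset.sum_empty, qlen_sup_of_isUnit isUnit_one]
  | insert i s hi ih =>
    rw [Finset.prod_insert hi, Finset.sum_insert hi, mul_comm,
      qlen_sup_mul (h i (Finset.mem_insert_self i s)),
      ih fun j hj => h j (Finset.mem_insert_of_mem hj), add_comm]

/-- Congruent up to a unit modulo `I`. -/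
lemma sup_span_congr {I : Ideal C} {a b u : C} (hu : IsUnit u) (h : a - u * b ∈ I) :
    I ⊔ span {a} = I ⊔ span {b} := by
  apply le_antisymm <;> refine sup_le le_sup_left ?_ <;> rw [span_singleton_le_iff_mem]
  · rw [show a = (a - u * b) + u * b by ring]
    exact add_mem (mem_sup_left h) (mem_sup_right (mul_mem_left _ u (mem_span_singleton_self b)))
  · obtain ⟨v, rfl⟩ := hu
    rw [show b = ↑v⁻¹ * (a - (a - ↑v * b)) by rw [sub_sub_cancel, Units.inv_mul_cancel_left]]
    exact mul_mem_left _ _ (sub_mem (mem_sup_right (mem_span_singleton_self a)) (mem_sup_left h))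

end Fermat.Agent.Moduli
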