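import Fermat.Agent.Moduli.Prod

/-!
# The second parameter at an ordinary point

`a - r b = ∏_T (X - x(T + (r, 0)))`; modulo the parameter of a kernel point `P` the factors are
constant on the cosets of `⟨P⟩`, which gives `μ` with `μ ^ q ≡ l`.
-/

set_option autoImplicit false
set_option linter.unusedSectionVars false
set_option linter.style.haveILetI false

namespace Fermat.Agent.Moduli

open WeierstrassCurve Polynomial Fermat.Agent.EC Finset IsLocalRing

variable {R : Type*} [CommRing R] [IsDomain R] [IsIntegrallyClosed R] {Ω : Type*} [Field Ω]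
  [IsAlgClosed Ω] [CharZero Ω] [DecidableEq Ω] [Algebra R Ω] [FaithfulSMul R Ω] {l : R} {k : ℕ}
  {C : Type*} [CommRing C] [IsDomain C] [IsLocalRing C] [Algebra C Ω] [FaithfulSMul C Ω]
  [Algebra R C] [IsScalarTower R C Ω] [Fintype (LegTorsion Ω l (2 * k + 1))]
  [DecidableEq (LegTorsion Ω l (2 * k + 1))]

namespace HasCoords

variable (H : HasCoords (Ω := Ω) C k l)

lemma exists_shift_unit {r : R} (hr : r = 0 ∨ r = 1 ∨ r = l) (T : LegTorsion Ω l (2 * k + 1)) :
    ∃ w : Cˣ, (w : C) = 1 - algebraMap R C r * H.s T := by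
  rcases hr with rfl | rfl | rfl
  · exact ⟨1, by rw [Units.val_one, map_zero, zero_mul, sub_zero]⟩
  · exact ⟨H.u T, by rw [H.u_eq, map_one, one_mul]⟩
  · exact ⟨H.v T, H.v_eq T⟩

/-- The unit `1 - r s_T`. -/
noncomputable def shiftUnit {r : R} (hr : r = 0 ∨ r = 1 ∨ r = l)
    (T : LegTorsion Ω l (2 * k + 1)) : Cˣ :=
  (H.exists_shift_unit hr T).choose

lemma shiftUnit_eq {r : R} (hr : r = 0 ∨ r = 1 ∨ r = l) (T : LegTorsion Ω l (2 * k + 1)) :
    (H.shiftUnit hr T : C) = 1 - algebraMap R C r * H.s T :=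
  (H.exists_shift_unit hr T).choose_spec

lemma isTwoTor_of {r : R} (hr : r = 0 ∨ r = 1 ∨ r = l) : IsTwoTor l r := by
  rcases hr with rfl | rfl | rfl
  exacts [isTwoTor_zero l, isTwoTor_one l, isTwoTor_self r]

lemma isUnit_slopeAt_of (hl : IsUnit l) (hl1 : IsUnit (1 - l)) {r : R}
    (hr : r = 0 ∨ r = 1 ∨ r = l) : IsUnit (slopeAt l r) := by
  rcases hr with rfl | rfl | rfl
  exacts [isUnit_slopeAt_zero hl, isUnit_slopeAt_one hl1, isUnit_slopeAt_self hl hl1]

/-- The abscissa of `T + (r, 0)`. -/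
noncomputable def xShift {r : R} (hr : r = 0 ∨ r = 1 ∨ r = l)
    (T : LegTorsion Ω l (2 * k + 1)) : C :=
  algebraMap R C r + algebraMap R C (slopeAt l r) * H.s T * ((H.shiftUnit hr T)⁻¹ : Cˣ)

/-- The factorisation of `a - r b`. -/
theorem shift_map_eq (hl : IsUnit l) (hl1 : IsUnit (1 - l)) (D : DivData R Ω l k) {r : R}
    (hr : r = 0 ∨ r = 1 ∨ r = l) :
    (D.a - Polynomial.C r * D.b).map (algebraMap R C) =
      ∏ T, (X - Polynomial.C (H.xShift hr T)) := by
  classical
  haveI := legendre_isElliptic (Ω := Ω) hl hl1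
  have hφ := FaithfulSMul.algebraMap_injective R Ω
  obtain ⟨h1, -, -⟩ := mulPair_shift hφ (isTwoTor_of hr) D.pair
  set d := slopeAt l r
  set b0 := algebraMap R C (D.b.eval 0)
  set P₁ : C[X] := ∏ T, (X - Polynomial.C (H.xShift hr T)) with hP₁
  set W : C := ∏ T, (H.shiftUnit hr T : C) with hW
  have key : Polynomial.C (algebraMap R C (D.b.eval r)) *
      (D.a - Polynomial.C r * D.b).map (algebraMap R C) = Polynomial.C (b0 * W) * P₁ := by
    apply map_injective _ (inj (C := C) (Ω := Ω))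
    refine eq_of_infinite_eval_eq _ _
      ((Set.finite_singleton (algebraMap R Ω r)).infinite_compl.mono fun x hx => ?_)
    have hx' : x - algebraMap R Ω r ≠ 0 := sub_ne_zero.2 hx
    show _ = _
    rw [Polynomial.map_mul, map_C, ← IsScalarTower.algebraMap_apply, Polynomial.map_map,
      ← IsScalarTower.algebraMap_eq]
    have h1' := congrArg (fun p => (p.map (algebraMap R Ω)).eval x) h1
    rw [eval_shiftRev (algebraMap R Ω) r _ (D.pair.natDegree_b.trans (Nat.sub_le _ 1)) hx,
      Polynomial.map_mul, map_C] at h1'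
    rw [← h1']
    have h2 := congrArg (fun p => (p.map (algebraMap C Ω)).eval
      (algebraMap R Ω r + algebraMap R Ω d / (x - algebraMap R Ω r))) (H.b_map_eq hl hl1 D)
    rw [Polynomial.map_map, ← IsScalarTower.algebraMap_eq] at h2
    rw [h2, ← card_torsion (Ω := Ω) (k := k) hl hl1, ← Finset.card_univ, hP₁, hW]
    simp only [Polynomial.map_mul, map_C, Polynomial.map_prod, Polynomial.map_sub,
      Polynomial.map_one, map_X, eval_mul, eval_C, eval_prod, eval_sub, eval_one, eval_X, map_mul,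
      map_prod]
    rw [mul_left_comm, mul_assoc (algebraMap C Ω b0)]
    congr 1
    rw [← Finset.prod_const, ← Finset.prod_mul_distrib, ← Finset.prod_mul_distrib]
    refine Finset.prod_congr rfl fun T _ => ?_
    simp only [xShift, map_add, map_mul, ← IsScalarTower.algebraMap_apply]
    have hw : algebraMap C Ω (H.shiftUnit hr T : C) *
        algebraMap C Ω (((H.shiftUnit hr T)⁻¹ : Cˣ) : C) = 1 := by
      rw [← map_mul, Units.mul_inv, map_one]
    have hw' : algebraMap C Ω (H.shiftUnit hr T : C) =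
        1 - algebraMap R Ω r * algebraMap C Ω (H.s T) := by
      rw [H.shiftUnit_eq, map_sub, map_one, map_mul, ← IsScalarTower.algebraMap_apply]
    field_simp
    linear_combination (algebraMap R Ω d * algebraMap C Ω (H.s T)) * hw -
      (x - algebraMap R Ω r) * hw'
  have hbr : IsUnit (algebraMap R C (D.b.eval r)) := by
    rw [D.b_eq, eval_pow]
    exact ((isUnit_psi_eval hφ (isTwoTor_of hr) (isUnit_slopeAt_of hl hl1 hr) D.pair D.b_eq).pow
      2).map _
  have hm : ((D.a - Polynomial.C r * D.b).map (algebraMap R C)).Monic := by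
    refine (D.pair.monic.sub_of_left (degree_lt_degree ?_)).map _
    rw [D.pair.natDegree_a]
    refine lt_of_le_of_lt ((natDegree_C_mul_le _ _).trans D.pair.natDegree_b) ?_
    have : 0 < (2 * k + 1) ^ 2 := by positivity
    omega
  have hm₁ : P₁.Monic := monic_prod_of_monic _ _ fun T _ => monic_X_sub_C _
  have hlc := congrArg Polynomial.leadingCoeff key
  rw [leadingCoeff_mul, leadingCoeff_mul, leadingCoeff_C, leadingCoeff_C, hm.leadingCoeff,
    hm₁.leadingCoeff, mul_one, mul_one] at hlc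
  rw [← hlc] at key
  exact mul_left_cancel₀ (Polynomial.C_ne_zero.2 hbr.ne_zero) key

variable {q : ℕ} [hp : Fact q.Prime]

lemma s_congr {P Q : LegTorsion Ω l (2 * k + 1)} (hPm : H.z P ∈ maximalIdeal C)
    (hker : ∀ T, H.z T ∈ maximalIdeal C → T ∈ AddSubgroup.zmultiples P) (i : ℕ) :
    H.s (Q + i • P) - H.s Q ∈ Ideal.span {H.z P} := by
  by_cases hQ : H.z Q ∈ maximalIdeal C
  · refine sub_mem (H.s_mem_of_mem_zmultiples hPm ?_) (H.s_mem_of_mem_zmultiples hPm (hker Q hQ))
    exact AddMemClass.add_mem (hker Q hQ) (nsmul_mem (AddSubgroup.mem_zmultiples P) i)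
  · have hi := H.z_nsmul_mem hPm i
    rw [add_comm Q]
    exact (Ideal.span_singleton_le_iff_mem _).2 hi
      (H.congr_coords _ Q ((Ideal.span_singleton_le_iff_mem _).2 hPm hi) hQ).2

lemma xShift_congr {r : R} (hr : r = 0 ∨ r = 1 ∨ r = l) {S T : LegTorsion Ω l (2 * k + 1)}
    {J : Ideal C} (h : H.s S - H.s T ∈ J) : H.xShift hr S - H.xShift hr T ∈ J := by
  have e : H.xShift hr S - H.xShift hr T = algebraMap R C (slopeAt l r) *
      (((H.shiftUnit hr S)⁻¹ : Cˣ) * ((H.shiftUnit hr T)⁻¹ : Cˣ)) * (H.s S - H.s T) := by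
    have hS := (H.shiftUnit hr S).inv_mul
    have hT := (H.shiftUnit hr T).inv_mul
    rw [H.shiftUnit_eq] at hS hT
    simp only [xShift]
    linear_combination (algebraMap R C (slopeAt l r) * H.s T * ((H.shiftUnit hr T)⁻¹ : Cˣ)) * hS -
      (algebraMap R C (slopeAt l r) * H.s S * ((H.shiftUnit hr S)⁻¹ : Cˣ)) * hT
  rw [e]
  exact J.mul_mem_left _ h

/-- The sum over the cosets of the kernel. -/
noncomputable def cosetSum {r : R} (hr : r = 0 ∨ r = 1 ∨ r = l) (Q : LegTorsion Ω l (2 * k + 1)) :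
    C := ∑ j : Fin (2 * k + 1), H.xShift hr ((j : ℕ) • Q)

/-- Modulo the parameter of the kernel the sum over cosets is a `q`-th root. -/
theorem cosetSum_pow (hl : IsUnit l) (hl1 : IsUnit (1 - l)) (hq : q = 2 * k + 1)
    (D : DivData R Ω l k) {r : R} (hr : r = 0 ∨ r = 1 ∨ r = l)
    {P Q : LegTorsion Ω l (2 * k + 1)} (hP : P ≠ 0) (hQ : Q ∉ AddSubgroup.zmultiples P)
    (hPm : H.z P ∈ maximalIdeal C) (hqP : (q : C) ∈ Ideal.span {H.z P})
    (hker : ∀ T, H.z T ∈ maximalIdeal C → T ∈ AddSubgroup.zmultiples P) :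
    H.cosetSum hr Q ^ q -
      algebraMap R C (r * D.b.coeff (2 * k * q) - D.a.coeff (2 * k * q)) ∈ Ideal.span {H.z P} := by
  classical
  set J : Ideal C := Ideal.span {H.z P} with hJ
  set π := Ideal.Quotient.mk J
  haveI : Nontrivial (C ⧸ J) := Ideal.Quotient.nontrivial_iff.2 fun e =>
    (maximalIdeal.isMaximal C).ne_top (top_le_iff.1 (e ▸ (Ideal.span_singleton_le_iff_mem _).2 hPm))
  haveI : CharP (C ⧸ J) q := (CharP.charP_iff_prime_eq_zero hp.out).2 (by
    rw [← map_natCast π, Ideal.Quotient.eq_zero_iff_mem]; exact hqP)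
  haveI : ExpChar (C ⧸ J) q := ExpChar.prime hp.out
  let e : Fin (2 * k + 1) × Fin (2 * k + 1) → LegTorsion Ω l (2 * k + 1) := fun x => (x.1 : ℕ) • Q + (x.2 : ℕ) • P
  have hsurj : Function.Surjective e := by
    intro T
    have hFq : ∀ (S : LegTorsion Ω l (2 * k + 1)) (a : ℕ), (a % (2 * k + 1)) • S = a • S := by
      intro S a
      conv_rhs => rw [← Nat.mod_add_div a (2 * k + 1), add_nsmul, mul_comm (2 * k + 1), mul_nsmul', legTorsion_nsmul',
        nsmul_zero, add_zero]
    have hspan : ∃ a b : ℕ, T = a • Q + b • P := by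
      haveI : Fact (Nat.card (LegTorsion Ω l (2 * k + 1) ⧸ AddSubgroup.zmultiples P)).Prime := ⟨by
        have h := (AddSubgroup.zmultiples P).card_eq_card_quotient_mul_card_addSubgroup
        rw [Nat.card_zmultiples, addOrderOf_eq_prime (p := q) (hq ▸ legTorsion_nsmul' P) hP,
          Nat.card_eq_fintype_card, card_torsion hl hl1] at h
        have h' : (2 * k + 1) ^ 2 = q * q := by rw [hq, pow_two]
        rw [← Nat.eq_of_mul_eq_mul_right hp.out.pos (h'.symm.trans h)]
        exact hp.out⟩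
      obtain ⟨a, ha⟩ := mem_zmultiples_of_prime_card
        (g := (Q : LegTorsion Ω l (2 * k + 1) ⧸ AddSubgroup.zmultiples P))
        (g' := (T : LegTorsion Ω l (2 * k + 1) ⧸ AddSubgroup.zmultiples P)) rfl
        (fun e => hQ ((QuotientAddGroup.eq_zero_iff Q).1 e))
      have hT : T - a • Q ∈ AddSubgroup.zmultiples P := by
        rw [← QuotientAddGroup.eq_zero_iff]
        simp only [QuotientAddGroup.mk_sub, QuotientAddGroup.mk_zsmul]
        exact sub_eq_zero.2 ha.symm
      obtain ⟨b, hb⟩ := hT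
      have hz : ∀ (S : LegTorsion Ω l (2 * k + 1)) (a : ℤ), (a % ((2 * k + 1 : ℕ) : ℤ)).toNat • S = a • S := by
        intro S a
        rw [← natCast_zsmul, Int.toNat_of_nonneg (Int.emod_nonneg a (by omega)), Int.emod_def,
          sub_smul, mul_smul, natCast_zsmul, legTorsion_nsmul', sub_zero]
      refine ⟨(a % ((2 * k + 1 : ℕ) : ℤ)).toNat, (b % ((2 * k + 1 : ℕ) : ℤ)).toNat, ?_⟩
      rw [hz, hz, show b • P = T - a • Q from hb]
      abel
    obtain ⟨a, b, rfl⟩ := hspan
    exact ⟨(⟨a % (2 * k + 1), Nat.mod_lt _ (by omega)⟩, ⟨b % (2 * k + 1), Nat.mod_lt _ (by omega)⟩),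
      by show (a % (2 * k + 1)) • Q + (b % (2 * k + 1)) • P = _; rw [hFq, hFq]⟩
  have hbij : Function.Bijective e :=
    (Fintype.bijective_iff_surjective_and_card e).2
      ⟨hsurj, by rw [Fintype.card_prod, Fintype.card_fin, card_torsion hl hl1, pow_two]⟩
  set x : Fin (2 * k + 1) → C ⧸ J := fun j => π (H.xShift hr ((j : ℕ) • Q))
  have hprod : ((D.a - Polynomial.C r * D.b).map (algebraMap R C)).map π =
      expand (C ⧸ J) q (∏ j, (X - Polynomial.C (x j ^ q))) := by
    rw [H.shift_map_eq hl hl1 D hr, ← (Equiv.ofBijective e hbij).prod_comp, Polynomial.map_prod,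
      Fintype.prod_prod_type, map_prod]
    refine Finset.prod_congr rfl fun j _ => ?_
    rw [map_sub, expand_X, expand_C, map_pow, ← sub_pow_char]
    rw [Finset.prod_congr rfl (g := fun _ => X - Polynomial.C (x j)) fun i _ => by
      rw [Polynomial.map_sub, map_X, map_C]
      congr 2
      exact Ideal.Quotient.eq.2 (H.xShift_congr hr (H.s_congr hPm hker i)),
      Finset.prod_const, Finset.card_univ, Fintype.card_fin, hq]
  have h := congrArg (fun p => p.coeff ((q - 1) * q)) hprod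
  rw [coeff_map, coeff_map, coeff_expand_mul hp.out.pos, coeff_sub, coeff_C_mul] at h
  have hcard : (Finset.univ : Finset (Fin (2 * k + 1))).card = q := by
    rw [Finset.card_univ, Fintype.card_fin, hq]
  rw [← hcard, prod_X_sub_C_coeff_card_pred _ _ (by rw [hcard]; exact hp.out.pos), hcard] at h
  rw [show (q - 1) * q = 2 * k * q by rw [hq, Nat.add_sub_cancel]] at h
  rw [← Ideal.Quotient.eq, map_pow, cosetSum, map_sum, sum_pow_char]
  have h' := congrArg Neg.neg h
  rw [neg_neg, ← map_neg, ← map_neg, neg_sub] at h'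
  exact h'.symm

/-- The parameter along the kernel component. -/
theorem exists_e (hl : IsUnit l) (hl1 : IsUnit (1 - l)) (hq : q = 2 * k + 1)
    (hqR : (Ideal.span {(q : R)}).IsPrime) {P Q : LegTorsion Ω l (2 * k + 1)} (hP : P ≠ 0)
    (hQ : Q ∉ AddSubgroup.zmultiples P) (hPm : H.z P ∈ maximalIdeal C)
    (hqP : (q : C) ∈ Ideal.span {H.z P})
    (hker : ∀ T, H.z T ∈ maximalIdeal C → T ∈ AddSubgroup.zmultiples P)
    (hh : IsUnit (algebraMap R C ((hasse R k).eval l))) {t μ₀ : R}
    (ht : t - (l - μ₀ ^ q) ∈ Ideal.span {(q : R)}) :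
    ∃ μ : C, μ ^ q - algebraMap R C l ∈ Ideal.span {H.z P} ∧
      algebraMap R C t - (μ - algebraMap R C μ₀) ^ q ∈ Ideal.span {H.z P} := by
  classical
  obtain ⟨D⟩ := nonempty_divData (R := R) (Ω := Ω) hl hl1 k
  set J : Ideal C := Ideal.span {H.z P} with hJ
  set π := Ideal.Quotient.mk J
  haveI : Nontrivial (C ⧸ J) := Ideal.Quotient.nontrivial_iff.2 fun e =>
    (maximalIdeal.isMaximal C).ne_top (top_le_iff.1 (e ▸ (Ideal.span_singleton_le_iff_mem _).2 hPm))
  haveI : CharP (C ⧸ J) q := (CharP.charP_iff_prime_eq_zero hp.out).2 (by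
    rw [← map_natCast π, Ideal.Quotient.eq_zero_iff_mem]; exact hqP)
  haveI : ExpChar (C ⧸ J) q := ExpChar.prime hp.out
  have hzero : ∀ c ∈ Ideal.span {(q : R)}, π (algebraMap R C c) = 0 := by
    intro c hc
    obtain ⟨c', rfl⟩ := Ideal.mem_span_singleton.1 hc
    rw [map_mul, map_natCast, Ideal.Quotient.eq_zero_iff_mem]
    exact J.mul_mem_right _ hqP
  set β := π (algebraMap R C (D.b.coeff (2 * k * q))) with hβ
  set α := π (algebraMap R C (D.a.coeff (2 * k * q)))
  have hβu : IsUnit β := by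
    have h := hzero _ (coeff_b_sub_mem (Ω := Ω) hl hl1 hq hqR D)
    rw [map_sub, map_sub, sub_eq_zero, map_pow, map_pow] at h
    rw [hβ, h]
    exact (hh.map π).pow 2
  have hU : ∀ {r : R} (hr : r = 0 ∨ r = 1 ∨ r = l),
      π (H.cosetSum hr Q) ^ q = π (algebraMap R C r) * β - α := by
    intro r hr
    rw [← map_pow, Ideal.Quotient.eq.2 (H.cosetSum_pow hl hl1 hq D hr hP hQ hPm hqP hker), map_sub,
      map_mul, map_sub, map_mul]
  set U₀ := H.cosetSum (r := (0 : R)) (Or.inl rfl) Q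
  set U₁ := H.cosetSum (r := (1 : R)) (Or.inr (Or.inl rfl)) Q
  set U₂ := H.cosetSum (r := l) (Or.inr (Or.inr rfl)) Q
  have h10 : π (U₁ - U₀) ^ q = β := by
    rw [map_sub, sub_pow_char, hU, hU, map_one, map_zero, map_one, map_zero]
    ring
  have hu : IsUnit (U₁ - U₀) := by
    rw [← notMem_maximalIdeal]
    intro hm
    rw [← h10, ← map_pow] at hβu
    obtain ⟨v, hv⟩ := Ideal.Quotient.mk_surjective (↑hβu.unit⁻¹ : C ⧸ J)
    have h1 : (U₁ - U₀) ^ q * v - 1 ∈ J := by
      rw [← Ideal.Quotient.eq, map_mul, map_one, hv, IsUnit.mul_val_inv]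
    refine one_notMem_nonunits (?_ : (1 : C) ∈ maximalIdeal C)
    rw [show (1 : C) = (U₁ - U₀) ^ q * v - ((U₁ - U₀) ^ q * v - 1) by ring]
    exact sub_mem (Ideal.mul_mem_right _ _ (Ideal.pow_mem_of_mem _ hm q hp.out.pos))
      ((Ideal.span_singleton_le_iff_mem _).2 hPm h1)
  obtain ⟨w, hw⟩ := hu
  set μ : C := (U₂ - U₀) * (↑w⁻¹ : C)
  have hμ : π μ ^ q = π (algebraMap R C l) := by
    have h1 : π μ * π (U₁ - U₀) = π (U₂ - U₀) := by
      rw [← map_mul, ← hw, mul_assoc, Units.inv_mul, mul_one]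
    have h2 := congrArg (· ^ q) h1
    simp only [mul_pow, h10] at h2
    rw [map_sub, sub_pow_char, hU, hU, map_zero, map_zero] at h2
    exact hβu.mul_right_cancel (by rw [h2]; ring)
  refine ⟨μ, Ideal.Quotient.eq.1 (by rw [map_pow, hμ]), Ideal.Quotient.eq.1 ?_⟩
  rw [map_pow, map_sub, sub_pow_char, hμ, ← map_pow, ← map_pow, ← map_sub π, ← map_sub]
  have := hzero _ ht
  rw [map_sub, map_sub, sub_eq_zero] at this
  exact this

end HasCoords

end Fermat.Agent.Moduli
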