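import Fermat.Agent.Moduli.Rel

/-!
# The product of the torsion parameters and the Hasse invariant

`b(X) = b(0) ∏ (1 - s_T X)` in a local ring containing the coordinates at infinity: the leading
coefficient gives `q ~ ∏ z_T`, the coefficient of `X ^ (q (q - 1))` gives the Hasse invariant.
-/

set_option autoImplicit false
set_option linter.unusedSectionVars false
set_option linter.style.haveILetI false

namespace Fermat.Agent.Moduli

open WeierstrassCurve Polynomial Fermat.Agent.EC Finset IsLocalRing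

variable {R : Type*} [CommRing R] [IsDomain R] [IsIntegrallyClosed R] {Ω : Type*} [Field Ω]
  [IsAlgClosed Ω] [CharZero Ω] [DecidableEq Ω] [Algebra R Ω] [FaithfulSMul R Ω] {l : R} {k : ℕ}

variable (Ω l) in
lemma finite_legTorsion (hl : IsUnit l) (hl1 : IsUnit (1 - l)) (n : ℕ) (hn : 0 < n) :
    Finite (LegTorsion Ω l n) := by
  haveI := legendreΩ_isElliptic (Ω := Ω) hl hl1
  refine Nat.finite_of_card_ne_zero ?_
  rw [natCard_torsionBy _ _ hn]
  positivity

/-- The map from torsion subtype to torsion submodule. -/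
def torEquiv (n : ℕ) :
    {P : (legendreΩ Ω l).toAffine.Point // n • P = 0} ≃ LegTorsion Ω l n :=
  Equiv.subtypeEquivRight fun P => by
    rw [Submodule.mem_torsionBy_iff, natCast_zsmul]

lemma DivData.isUnit_b0 (hl : IsUnit l) (hl1 : IsUnit (1 - l)) (D : DivData R Ω l k) :
    IsUnit (D.b.eval 0) := by
  haveI := legendre_isElliptic (Ω := Ω) hl hl1
  rw [D.b_eq, eval_pow]
  exact (isUnit_psi_eval (FaithfulSMul.algebraMap_injective R Ω) (isTwoTor_zero l)
    (isUnit_slopeAt_zero hl) D.pair D.b_eq).pow 2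

lemma coeff_prod_one_sub {A ι : Type*} [CommRing A] (s : Finset ι) (a : ι → A) :
    (∏ i ∈ s, (1 - Polynomial.C (a i) * X)).coeff s.card = ∏ i ∈ s, -a i := by
  have h := coeff_prod_of_natDegree_le (s := s) (f := fun i => 1 - Polynomial.C (a i) * X) (n := 1)
    fun i _ => (natDegree_sub_le _ _).trans (max_le (by rw [natDegree_one]; exact zero_le_one)
      ((natDegree_C_mul_le _ _).trans natDegree_X_le))
  rw [mul_one] at h
  rw [h]
  refine Finset.prod_congr rfl fun i _ => ?_
  rw [coeff_sub, coeff_one, if_neg one_ne_zero, coeff_C_mul, coeff_X_one, mul_one, zero_sub]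

variable {C : Type*} [CommRing C] [IsDomain C] [IsLocalRing C] [Algebra C Ω] [FaithfulSMul C Ω]
  [Algebra R C] [IsScalarTower R C Ω] [Fintype (LegTorsion Ω l (2 * k + 1))]
  [DecidableEq (LegTorsion Ω l (2 * k + 1))]

namespace HasCoords

variable (H : HasCoords (Ω := Ω) C k l)

/-- The factorisation of `b` over the local ring. -/
theorem b_map_eq (hl : IsUnit l) (hl1 : IsUnit (1 - l)) (D : DivData R Ω l k) :
    D.b.map (algebraMap R C) = Polynomial.C (algebraMap R C (D.b.eval 0)) *
      ∏ T, (1 - Polynomial.C (H.s T) * X) := by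
  classical
  letI : Fintype {P : (legendreΩ Ω l).toAffine.Point // (2 * k + 1) • P = 0} :=
    Fintype.ofEquiv _ (torEquiv (2 * k + 1)).symm
  apply map_injective _ (inj (C := C) (Ω := Ω))
  rw [Polynomial.map_map, ← IsScalarTower.algebraMap_eq, D.b_eq_prod hl hl1, Polynomial.map_mul,
    map_C, ← IsScalarTower.algebraMap_apply, Polynomial.map_prod,
    ← Equiv.prod_comp (torEquiv (2 * k + 1))]
  congr 1
  refine Finset.prod_congr rfl fun P _ => ?_
  simp only [Polynomial.map_sub, Polynomial.map_one, Polynomial.map_mul, map_C, map_X, H.map_s]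
  rfl

lemma prod_erase_eq :
    ∏ T, (1 - Polynomial.C (H.s T) * X) =
      ∏ T ∈ (univ : Finset (LegTorsion Ω l (2 * k + 1))).erase 0,
        (1 - Polynomial.C (H.s T) * X) := by
  rw [← Finset.mul_prod_erase _ _ (Finset.mem_univ (0 : LegTorsion Ω l (2 * k + 1))), H.s_zero,
    map_zero, zero_mul, sub_zero, one_mul]

lemma card_torsion (hl : IsUnit l) (hl1 : IsUnit (1 - l)) :
    Fintype.card (LegTorsion Ω l (2 * k + 1)) = (2 * k + 1) ^ 2 := by
  haveI := legendreΩ_isElliptic (Ω := Ω) hl hl1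
  rw [← Nat.card_eq_fintype_card]
  exact natCard_torsionBy _ _ (by omega)

/-- `n² = b(0) ∏ (-s_T)`. -/
lemma natCast_sq (hl : IsUnit l) (hl1 : IsUnit (1 - l)) (D : DivData R Ω l k) :
    ((2 * k + 1 : ℕ) : C) ^ 2 = algebraMap R C (D.b.eval 0) *
      ∏ T ∈ (univ : Finset (LegTorsion Ω l (2 * k + 1))).erase 0, -H.s T := by
  have h := congrArg (fun p : C[X] => p.coeff ((2 * k + 1) ^ 2 - 1)) (H.b_map_eq hl hl1 D)
  have hc : ((univ : Finset (LegTorsion Ω l (2 * k + 1))).erase 0).card = (2 * k + 1) ^ 2 - 1 := by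
    rw [Finset.card_erase_of_mem (Finset.mem_univ _), Finset.card_univ, card_torsion hl hl1]
  rw [coeff_map, D.pair.coeff_b, map_pow, map_natCast, coeff_C_mul, H.prod_erase_eq] at h
  rw [← hc, coeff_prod_one_sub] at h
  exact h

/-- The integer `n` is the product of the parameters up to a unit. -/
theorem associated_prod [IsIntegrallyClosed C] (hl : IsUnit l) (hl1 : IsUnit (1 - l)) :
    Associated ((2 * k + 1 : ℕ) : C)
      (∏ T ∈ (univ : Finset (LegTorsion Ω l (2 * k + 1))).erase 0, H.z T) := by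
  classical
  obtain ⟨D⟩ := nonempty_divData (R := R) (Ω := Ω) hl hl1 k
  set S := (univ : Finset (LegTorsion Ω l (2 * k + 1))).erase 0
  have hsq : Associated (((2 * k + 1 : ℕ) : C) ^ 2) ((∏ T ∈ S, H.z T) ^ 2) := by
    rw [H.natCast_sq hl hl1 D, ← Finset.prod_pow]
    refine (associated_unit_mul_left _ _ ((D.isUnit_b0 hl hl1).map _)).trans
      (Associated.prod S _ _ fun T _ => ?_)
    rw [H.s_eq, ← mul_neg]
    exact associated_mul_unit_left _ _ ((H.u T).isUnit.mul (H.v T).isUnit).neg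
  exact associated_of_dvd_dvd
    ((IsIntegrallyClosed.pow_dvd_pow_iff two_ne_zero).1 hsq.dvd)
    ((IsIntegrallyClosed.pow_dvd_pow_iff two_ne_zero).1 hsq.symm.dvd)

/-- The data consumed by the length count. -/
noncomputable def toFamily [IsIntegrallyClosed C] (hl : IsUnit l) (hl1 : IsUnit (1 - l)) {q : ℕ}
    (hq : q = 2 * k + 1) : TorsionFamily (LegTorsion Ω l (2 * k + 1)) C q where
  z := H.z
  nsmul_eq T := by subst hq; exact legTorsion_nsmul' T
  card_eq := by subst hq; exact card_torsion hl hl1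
  z_zero := H.z_zero
  z_neg := H.z_neg
  prod_eq := by subst hq; exact H.associated_prod hl hl1
  add_mem := H.add_mem
  add_congr P Q hP hQ := (H.congr_coords P Q hP hQ).1

variable {q : ℕ} [hp : Fact q.Prime]

lemma isPrime_charP (hqR : (Ideal.span {(q : R)}).IsPrime) :
    CharP (R ⧸ Ideal.span {(q : R)}) q :=
  (CharP.charP_iff_prime_eq_zero hp.out).2 (by
    rw [← map_natCast (Ideal.Quotient.mk _), Ideal.Quotient.eq_zero_iff_mem]
    exact Ideal.mem_span_singleton_self _)

lemma z_nsmul_mem {P : LegTorsion Ω l (2 * k + 1)} (hPm : H.z P ∈ maximalIdeal C) (n : ℕ) :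
    H.z (n • P) ∈ Ideal.span {H.z P} := by
  induction n with
  | zero => rw [zero_nsmul, H.z_zero]; exact zero_mem _
  | succ n ih =>
    have hm : H.z (n • P) ∈ maximalIdeal C := (Ideal.span_singleton_le_iff_mem _).2 hPm ih
    have h := H.add_mem (n • P) P hm hPm
    have hle : (Ideal.span {H.z (n • P), H.z P} : Ideal C) ≤ Ideal.span {H.z P} :=
      Ideal.span_le.2 (by
        rintro x (rfl | rfl)
        · exact ih
        · exact Ideal.mem_span_singleton_self _)
    rw [succ_nsmul, show H.z (n • P + P) =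
      (H.z (n • P + P) - H.z (n • P) - H.z P) + (H.z (n • P) + H.z P) by ring]
    exact AddMemClass.add_mem (hle (Ideal.pow_le_self two_ne_zero h))
      (AddMemClass.add_mem ih (Ideal.mem_span_singleton_self _))

lemma z_mem_of_mem_zmultiples {P T : LegTorsion Ω l (2 * k + 1)} (hPm : H.z P ∈ maximalIdeal C)
    (hT : T ∈ AddSubgroup.zmultiples P) : H.z T ∈ Ideal.span {H.z P} := by
  obtain ⟨j, rfl⟩ := AddSubgroup.mem_zmultiples_iff.1 hT
  obtain ⟨n, rfl | rfl⟩ := Int.eq_nat_or_neg j
  · rw [natCast_zsmul]; exact H.z_nsmul_mem hPm n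
  · rw [neg_smul, natCast_zsmul, H.z_neg]; exact neg_mem (H.z_nsmul_mem hPm n)

lemma s_mem_of_mem_zmultiples {P T : LegTorsion Ω l (2 * k + 1)} (hPm : H.z P ∈ maximalIdeal C)
    (hT : T ∈ AddSubgroup.zmultiples P) : H.s T ∈ Ideal.span {H.z P} := by
  rw [H.s_eq, pow_two, mul_assoc]
  exact Ideal.mul_mem_right _ _ (H.z_mem_of_mem_zmultiples hPm hT)

/-- The coefficient of `X ^ (q (q - 1))` of `b` is the square of the Hasse invariant. -/
theorem coeff_b_sub_mem (hl : IsUnit l) (hl1 : IsUnit (1 - l)) (hq : q = 2 * k + 1)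
    (hqR : (Ideal.span {(q : R)}).IsPrime) (D : DivData R Ω l k) :
    D.b.coeff (2 * k * q) - (hasse R k).eval l ^ 2 ∈ Ideal.span {(q : R)} := by
  haveI := hqR
  haveI := legendre_isElliptic (Ω := Ω) hl hl1
  haveI := isPrime_charP (q := q) hqR
  have hk : 1 ≤ k := by have := hp.out.two_le; omega
  set χ := Ideal.Quotient.mk (Ideal.span {(q : R)}) with hχ
  obtain ⟨A, Ψ, Rb, hP, -, hΨe⟩ := exists_charQPair (χ := χ)
    (FaithfulSMul.algebraMap_injective R Ω) hl hl1 Ideal.Quotient.mk_surjective Ideal.mk_ker hq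
    D.pair D.b_eq D.natDegree_ψ D.coeff_ψ
  rw [← Ideal.Quotient.eq, map_pow, ← coeff_map, D.b_eq, Polynomial.map_pow, hΨe, ← map_pow,
    coeff_expand_mul hp.out.pos, pow_two Ψ, two_mul k,
    coeff_mul_add_eq_of_natDegree_le hP.natDegree_Ψ hP.natDegree_Ψ, hP.coeff_eq hq hk,
    mul_mul_mul_comm, ← mul_pow, neg_one_mul, neg_neg, one_pow, one_mul, ← map_hasse χ,
    eval_map_apply, pow_two]

/-- The Hasse invariant modulo a parameter in the kernel. -/
theorem hasse_sq_mem (hl : IsUnit l) (hl1 : IsUnit (1 - l)) (hq : q = 2 * k + 1)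
    (hqR : (Ideal.span {(q : R)}).IsPrime) {P : LegTorsion Ω l (2 * k + 1)} (hP : P ≠ 0)
    (hPm : H.z P ∈ maximalIdeal C) (hqP : (q : C) ∈ Ideal.span {H.z P}) :
    ∃ u, IsUnit u ∧ algebraMap R C ((hasse R k).eval l) ^ 2 -
      u * ∏ T ∈ univ.filter (fun T => T ∉ AddSubgroup.zmultiples P), H.z T ^ 2 ∈
        Ideal.span {H.z P} := by
  classical
  obtain ⟨D⟩ := nonempty_divData (R := R) (Ω := Ω) hl hl1 k
  set J : Ideal C := Ideal.span {H.z P}
  set S := univ.filter (fun T : LegTorsion Ω l (2 * k + 1) => T ∉ AddSubgroup.zmultiples P)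
  have hsJ : ∀ T ∈ AddSubgroup.zmultiples P, H.s T ∈ J := fun T hT =>
    H.s_mem_of_mem_zmultiples hPm hT
  have hcard : S.card = 2 * k * q := by
    have h1 : (univ.filter (fun X : LegTorsion Ω l (2 * k + 1) =>
        X ∈ AddSubgroup.zmultiples P)).card = q := by
      rw [← Fintype.card_subtype, ← Nat.card_eq_fintype_card]
      refine (Nat.card_zmultiples P).trans (addOrderOf_eq_prime ?_ hP)
      rw [hq]; exact legTorsion_nsmul' P
    have h2 := Finset.card_filter_add_card_filter_not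
      (s := (univ : Finset (LegTorsion Ω l (2 * k + 1)))) (fun X => X ∈ AddSubgroup.zmultiples P)
    rw [h1, Finset.card_univ, card_torsion hl hl1] at h2
    have : (2 * k + 1) ^ 2 = q + 2 * k * q := by rw [hq]; ring
    show (univ.filter _).card = _
    omega
  set π := Ideal.Quotient.mk J
  have e := congrArg (fun p : C[X] => (p.map π).coeff (2 * k * q)) (H.b_map_eq hl hl1 D)
  have hprod : ∏ T, (1 - Polynomial.C (π (H.s T)) * X) =
      ∏ T ∈ S, (1 - Polynomial.C (π (H.s T)) * X) := by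
    refine (Finset.prod_subset (Finset.subset_univ _) fun T _ hT => ?_).symm
    rw [Ideal.Quotient.eq_zero_iff_mem.2 (hsJ T (by simpa [S] using hT)), map_zero, zero_mul,
      sub_zero]
  simp only [Polynomial.map_mul, map_C, Polynomial.map_prod, Polynomial.map_sub, Polynomial.map_one,
    map_X, coeff_C_mul] at e
  rw [hprod, ← hcard, coeff_prod_one_sub, hcard, coeff_map, coeff_map] at e
  have hh : π (algebraMap R C (D.b.coeff (2 * k * q))) =
      π (algebraMap R C ((hasse R k).eval l) ^ 2) := by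
    rw [← map_pow, Ideal.Quotient.eq, ← map_sub]
    obtain ⟨c, hc⟩ := Ideal.mem_span_singleton.1 (coeff_b_sub_mem hl hl1 hq hqR D)
    rw [hc, map_mul, map_natCast]
    exact Ideal.mul_mem_right _ _ hqP
  rw [hh] at e
  refine ⟨algebraMap R C (D.b.eval 0) * ∏ T ∈ S, -((H.u T : C) * H.v T),
    ((D.isUnit_b0 hl hl1).map _).mul (IsUnit.prod_iff.2 fun T _ =>
      ((H.u T).isUnit.mul (H.v T).isUnit).neg), Ideal.Quotient.eq.1 ?_⟩
  rw [e, map_mul, map_mul, mul_assoc, map_prod, map_prod, ← Finset.prod_mul_distrib]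
  congr 1
  refine Finset.prod_congr rfl fun T _ => ?_
  rw [← map_mul, ← map_neg, H.s_eq T]
  exact congrArg _ (by ring)

/-- Where the Hasse invariant vanishes, everything reduces to the origin. -/
theorem all_mem_of_hasse_mem (hl : IsUnit l) (hl1 : IsUnit (1 - l)) (hq : q = 2 * k + 1)
    (hqR : (Ideal.span {(q : R)}).IsPrime) (hqm : (q : C) ∈ maximalIdeal C)
    (hh : algebraMap R C ((hasse R k).eval l) ∈ maximalIdeal C)
    (T : LegTorsion Ω l (2 * k + 1)) : H.z T ∈ maximalIdeal C := by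
  classical
  haveI := hqR
  haveI := legendre_isElliptic (Ω := Ω) hl hl1
  haveI := isPrime_charP (q := q) hqR
  obtain ⟨D⟩ := nonempty_divData (R := R) (Ω := Ω) hl hl1 k
  set χ := Ideal.Quotient.mk (Ideal.span {(q : R)}) with hχ
  obtain ⟨A, Ψ, Rb, hP, -, hΨe⟩ := exists_charQPair (χ := χ)
    (FaithfulSMul.algebraMap_injective R Ω) hl hl1 Ideal.Quotient.mk_surjective Ideal.mk_ker hq
    D.pair D.b_eq D.natDegree_ψ D.coeff_ψ
  set E := ResidueField C
  let ρ : R →+* E := (residue C).comp (algebraMap R C)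
  have hρq : ∀ x ∈ Ideal.span {(q : R)}, ρ x = 0 := by
    intro x hx
    obtain ⟨c, rfl⟩ := Ideal.mem_span_singleton.1 hx
    rw [map_mul, map_natCast ρ, ← map_natCast (residue C), (residue_eq_zero_iff _).2 hqm, zero_mul]
  let φ : (R ⧸ Ideal.span {(q : R)}) →+* E := Ideal.Quotient.lift _ ρ hρq
  haveI : CharP E q := (CharP.charP_iff_prime_eq_zero hp.out).2 (by
    rw [← map_natCast (residue C), residue_eq_zero_iff]; exact hqm)
  have h0 : (hasse E k).eval (φ (χ l)) = 0 := by
    rw [← map_hasse ρ, hχ, Ideal.Quotient.lift_mk, eval_map_apply]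
    exact (residue_eq_zero_iff _).2 hh
  have hconst : (Ψ.map φ) = Polynomial.C (φ (Ψ.coeff 0)) := by
    ext i
    rw [coeff_map, coeff_C]
    split_ifs with hi
    · rw [hi]
    · exact hP.coeff_eq_zero hq φ h0 hi
  have hbρ : ∃ c : E, D.b.map ρ = Polynomial.C c := by
    refine ⟨φ (Ψ.coeff 0) ^ 2, ?_⟩
    rw [show ρ = φ.comp χ from (Ideal.Quotient.lift_comp_mk _ _ _).symm, ← Polynomial.map_map,
      D.b_eq, Polynomial.map_pow, hΨe, Polynomial.map_pow, map_expand, hconst, expand_C, map_pow]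
  obtain ⟨c, hc⟩ := hbρ
  rw [← H.z_mem_iff, ← residue_eq_zero_iff]
  by_contra hne
  have h := congrArg (Polynomial.map (residue C)) (H.b_map_eq hl hl1 D)
  rw [Polynomial.map_map, hc] at h
  simp only [Polynomial.map_mul, map_C, Polynomial.map_prod, Polynomial.map_sub, Polynomial.map_one,
    map_X] at h
  have h1 := congrArg (eval (residue C (H.s T))⁻¹) h
  have h2 := congrArg (eval 0) h
  simp only [eval_C, eval_mul, eval_prod, eval_sub, eval_one, eval_X, mul_zero, sub_zero,
    Finset.prod_const_one, mul_one] at h1 h2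
  rw [h2, Finset.prod_eq_zero (Finset.mem_univ T) (by rw [mul_inv_cancel₀ hne, sub_self]),
    mul_zero] at h1
  exact ((D.isUnit_b0 hl hl1).map ρ).ne_zero h1

end HasCoords

end Fermat.Agent.Moduli
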