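import Fermat.Agent.Moduli.Legendre

/-!
# The `q`-division polynomial of the Legendre curve modulo `q`
-/

set_option autoImplicit false
set_option linter.unusedSectionVars false

namespace Fermat.Agent.Moduli

open WeierstrassCurve Polynomial Fermat.Agent.EC Finset

variable {R : Type*} [CommRing R] [IsDomain R] [IsIntegrallyClosed R] {K : Type*} [Field K]
  [IsAlgClosed K] [CharZero K] [DecidableEq K] {φ : R →+* K} {l : R}
  [hell : ((legendre l).map φ).IsElliptic] {k : ℕ} {a b ψ : R[X]}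

lemma isTwoTor_zero (l : R) : IsTwoTor l 0 := by simp [IsTwoTor]
lemma isTwoTor_one (l : R) : IsTwoTor l 1 := by simp only [IsTwoTor]; ring
lemma isTwoTor_self (l : R) : IsTwoTor l l := by simp only [IsTwoTor]; ring

lemma isUnit_slopeAt_zero (hl : IsUnit l) : IsUnit (slopeAt l 0) := by simpa [slopeAt] using hl
lemma isUnit_slopeAt_one (hl1 : IsUnit (1 - l)) : IsUnit (slopeAt l 1) := by
  rw [show slopeAt l 1 = 1 - l by simp only [slopeAt]; ring]; exact hl1
lemma isUnit_slopeAt_self (hl : IsUnit l) (hl1 : IsUnit (1 - l)) : IsUnit (slopeAt l l) := by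
  rw [show slopeAt l l = -(l * (1 - l)) by simp only [slopeAt]; ring]
  exact (hl.mul hl1).neg

/-- `ψ` takes unit values at the abscissae of the points of order two. -/
theorem isUnit_psi_eval (hφ : Function.Injective φ) {r : R} (hr : IsTwoTor l r)
    (hd : IsUnit (slopeAt l r)) (h : MulPair (legendre l) φ (2 * k + 1) a b) (hψ : b = ψ ^ 2) :
    IsUnit (ψ.eval r) := by
  obtain ⟨-, -, h3⟩ := mulPair_shift hφ hr h
  rw [hψ, eval_pow, ← pow_mul] at h3
  have h4 : IsUnit (ψ.eval r ^ (2 * 2)) := h3 ▸ hd.pow _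
  exact (isUnit_pow_iff (by norm_num)).1 h4

/-- `a - r b` is `X - r` times the square of a monic polynomial. -/
theorem exists_factor (hφ : Function.Injective φ) {r : R} (hr : IsTwoTor l r)
    (hd : IsUnit (slopeAt l r)) (h : MulPair (legendre l) φ (2 * k + 1) a b) (hψ : b = ψ ^ 2)
    (hψd : ψ.natDegree ≤ 2 * k * (k + 1)) :
    ∃ F : R[X], F.Monic ∧ F.natDegree = 2 * k * (k + 1) ∧ a - C r * b = (X - C r) * F ^ 2 := by
  obtain ⟨h1, -, -⟩ := mulPair_shift hφ hr h
  obtain ⟨u, hu⟩ := isUnit_psi_eval hφ hr hd h hψ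
  set S := shiftRev r (slopeAt l r) (2 * k * (k + 1)) ψ with hS
  have hcoeff : (C (↑u⁻¹ : R) * S).coeff (2 * k * (k + 1)) = 1 := by
    rw [coeff_C_mul, coeff_shiftRev _ _ hψd, ← hu, Units.inv_mul]
  have hdeg : (C (↑u⁻¹ : R) * S).natDegree ≤ 2 * k * (k + 1) :=
    (natDegree_C_mul_le _ _).trans (natDegree_shiftRev_le _ _ _ _)
  refine ⟨C (↑u⁻¹ : R) * S, monic_of_natDegree_le_of_coeff_eq_one _ hdeg hcoeff,
    natDegree_eq_of_le_of_coeff_ne_zero hdeg (by rw [hcoeff]; exact one_ne_zero), ?_⟩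
  rw [show (2 * k + 1) ^ 2 = 2 * (2 * k * (k + 1)) + 1 by ring, hψ,
    shiftRev_sq hφ r _ hψd, eval_pow, ← hψ, ← hu] at h1
  rw [mul_pow, ← map_pow]
  calc a - C r * b = C ((↑u⁻¹ : R) ^ 2 * (↑u : R) ^ 2) * (a - C r * b) := by
        rw [← mul_pow, Units.inv_mul, one_pow, map_one, one_mul]
    _ = (X - C r) * (C ((↑u⁻¹ : R) ^ 2) * S ^ 2) := by rw [map_mul, mul_assoc, ← h1]; ring

/-- Degree and top coefficient of `a' ψ - 2 a ψ'`. -/
lemma derivNum_top {S : Type*} [CommRing S] {a ψ : S[X]} {N M : ℕ} (hN : 1 ≤ N)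
    (ha : a.natDegree = N) (ham : a.Monic) (hψ : ψ.natDegree ≤ M) :
    (derivative a * ψ - 2 * a * derivative ψ).natDegree ≤ N - 1 + M ∧
      (derivative a * ψ - 2 * a * derivative ψ).coeff (N - 1 + M) =
        ((N : S) - 2 * (M : S)) * ψ.coeff M := by
  have hd1 : (derivative a).natDegree ≤ N - 1 := (natDegree_derivative_le _).trans (by rw [ha])
  have h2a : (2 * a).natDegree ≤ N := by
    rw [two_mul]; exact (natDegree_add_le _ _).trans (by simp [ha])
  have hc1 : (derivative a * ψ).coeff (N - 1 + M) = (N : S) * ψ.coeff M := by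
    rw [coeff_mul_add_eq_of_natDegree_le hd1 hψ, coeff_derivative, ← Nat.cast_add_one,
      show N - 1 + 1 = N by omega, ← ha, ham.coeff_natDegree, one_mul]
  rcases Nat.eq_zero_or_pos M with rfl | hM
  · have hψC : ψ = C (ψ.coeff 0) := eq_C_of_natDegree_le_zero hψ
    have hd0 : derivative ψ = 0 := by rw [hψC, derivative_C]
    rw [hd0, mul_zero, sub_zero]
    refine ⟨(natDegree_mul_le_of_le hd1 hψ), ?_⟩
    rw [hc1]
    simp
  · have hd2 : (derivative ψ).natDegree ≤ M - 1 := (natDegree_derivative_le _).trans (by omega)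
    refine ⟨(natDegree_sub_le _ _).trans (max_le (natDegree_mul_le_of_le hd1 hψ)
      ((natDegree_mul_le_of_le h2a hd2).trans (by omega))), ?_⟩
    rw [coeff_sub, hc1, show N - 1 + M = N + (M - 1) by omega,
      coeff_mul_add_eq_of_natDegree_le h2a hd2, two_mul a, coeff_add, coeff_derivative,
      ← Nat.cast_add_one, show M - 1 + 1 = M by omega, ← ha, ham.coeff_natDegree]
    ring

/-- The derivative of `x ∘ [n]` and the equation of the curve at `n P`. -/
theorem exists_derivFactor (hφ : Function.Injective φ) (hl : IsUnit l) (hl1 : IsUnit (1 - l))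
    (h : MulPair (legendre l) φ (2 * k + 1) a b) (hψ : b = ψ ^ 2)
    (hψd : ψ.natDegree = 2 * k * (k + 1))
    (hψc : ψ.coeff (2 * k * (k + 1)) = ((2 * k + 1 : ℕ) : R)) :
    ∃ Φ : R[X], Φ.Monic ∧ Φ.natDegree = 6 * k * (k + 1) ∧
      derivative a * ψ - 2 * a * derivative ψ = C ((2 * k + 1 : ℕ) : R) * Φ ∧
      legendreCubic l * Φ ^ 2 = a * (a - b) * (a - C l * b) := by
  classical
  obtain ⟨F₀, m₀, d₀, e₀⟩ := exists_factor hφ (isTwoTor_zero l) (isUnit_slopeAt_zero hl) h hψ hψd.le
  obtain ⟨F₁, m₁, d₁, e₁⟩ := exists_factor hφ (isTwoTor_one l) (isUnit_slopeAt_one hl1) h hψ hψd.le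
  obtain ⟨F₂, m₂, d₂, e₂⟩ :=
    exists_factor hφ (isTwoTor_self l) (isUnit_slopeAt_self hl hl1) h hψ hψd.le
  set E := derivative a * ψ - 2 * a * derivative ψ with hE
  have hEr : ∀ (r : R) (F : R[X]), a - C r * b = (X - C r) * F ^ 2 → F ∣ E := by
    intro r F e
    refine ⟨F * ψ + 2 * (X - C r) * derivative F * ψ - 2 * (X - C r) * F * derivative ψ, ?_⟩
    rw [hE, show a = C r * ψ ^ 2 + (X - C r) * F ^ 2 by rw [← e, hψ]; ring]
    simp only [derivative_add, derivative_mul, derivative_sub, derivative_sq, derivative_C,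
      derivative_X, map_ofNat]
    ring
  have hco : ∀ {r s : R} {F G : R[X]}, r ≠ s → a - C r * b = (X - C r) * F ^ 2 →
      a - C s * b = (X - C s) * G ^ 2 → IsCoprime (F.map φ) (G.map φ) := by
    intro r s F G hrs eF eG
    rw [Polynomial.isCoprime_iff_aeval_ne_zero_of_isAlgClosed _ K]
    intro x
    by_contra hh
    push Not at hh
    simp only [coe_aeval_eq_eval] at hh
    have h1 := congrArg (fun p => (p.map φ).eval x) eF
    have h2 := congrArg (fun p => (p.map φ).eval x) eG
    simp only [Polynomial.map_sub, Polynomial.map_mul, Polynomial.map_pow, map_C, map_X, eval_sub,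
      eval_mul, eval_pow, eval_C, eval_X, hh.1, hh.2, ne_eq, OfNat.ofNat_ne_zero, not_false_eq_true,
      zero_pow, mul_zero] at h1 h2
    have hbx : (φ s - φ r) * (b.map φ).eval x = 0 := by linear_combination h1 - h2
    rcases mul_eq_zero.1 hbx with e | e
    · exact hrs (hφ (sub_eq_zero.1 e).symm)
    · rw [e, mul_zero, sub_zero] at h1
      exact (h.noCommonRoot x).elim (· h1) (· e)
  have h01 : (0 : R) ≠ 1 := zero_ne_one
  have h0l : (0 : R) ≠ l := hl.ne_zero.symm
  have h1l : (1 : R) ≠ l := fun e => hl1.ne_zero (by rw [← e, sub_self])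
  set Φ := F₀ * F₁ * F₂ with hΦ
  have mΦ : Φ.Monic := (m₀.mul m₁).mul m₂
  have dΦ : Φ.natDegree = 6 * k * (k + 1) := by
    rw [hΦ, (m₀.mul m₁).natDegree_mul m₂, m₀.natDegree_mul m₁, d₀, d₁, d₂]
    ring
  refine ⟨Φ, mΦ, dΦ, ?_, ?_⟩
  · have hdvd : Φ.map φ ∣ E.map φ := by
      rw [hΦ, Polynomial.map_mul, Polynomial.map_mul]
      exact (IsCoprime.mul_left (hco h0l e₀ e₂) (hco h1l e₁ e₂)).mul_dvd
        ((hco h01 e₀ e₁).mul_dvd (Polynomial.map_dvd φ (hEr 0 F₀ e₀))
          (Polynomial.map_dvd φ (hEr 1 F₁ e₁))) (Polynomial.map_dvd φ (hEr l F₂ e₂))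
    obtain ⟨c, hc⟩ := (Polynomial.map_dvd_map φ hφ mΦ).1 hdvd
    obtain ⟨hd, hEc⟩ := derivNum_top (N := (2 * k + 1) ^ 2) (M := 2 * k * (k + 1))
      (Nat.one_le_pow _ _ (by omega)) h.natDegree_a
      h.monic hψd.le
    have hsix : (2 * k + 1) ^ 2 - 1 + 2 * k * (k + 1) = 6 * k * (k + 1) := by
      rw [show (2 * k + 1) ^ 2 = 2 * (2 * k * (k + 1)) + 1 by ring, Nat.add_sub_cancel]
      ring
    rw [hsix] at hd hEc
    rw [← hE] at hd hEc
    rw [hψc, show (((2 * k + 1) ^ 2 : ℕ) : R) - 2 * ((2 * k * (k + 1) : ℕ) : R) = 1 by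
      push_cast; ring, one_mul] at hEc
    have hn0 : ((2 * k + 1 : ℕ) : R) ≠ 0 := fun e => by
      have := congrArg φ e
      rw [map_natCast, map_zero, Nat.cast_eq_zero] at this
      omega
    have hc0 : c ≠ 0 := by
      rintro rfl
      rw [hc, mul_zero, coeff_zero] at hEc
      exact hn0 hEc.symm
    have hcd : c.natDegree = 0 := by
      have := mΦ.natDegree_mul' hc0
      rw [← hc, dΦ] at this
      omega
    rw [eq_C_of_natDegree_eq_zero hcd] at hc
    rw [hc, coeff_mul_C, ← dΦ, mΦ.coeff_natDegree, one_mul] at hEc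
    rw [hc, hEc, mul_comm]
  · rw [map_zero, zero_mul, sub_zero, sub_zero] at e₀
    rw [map_one, one_mul] at e₁
    rw [e₁, e₂, e₀, hΦ, legendreCubic]
    ring

section ModQ

variable {q : ℕ} [hp : Fact q.Prime] {T : Type*} [CommRing T] [IsDomain T] [CharP T q] {χ : R →+* T}

/-- Modulo `q` numerator and denominator are polynomials in `X^q`, giving a `CharQPair`. -/
theorem exists_charQPair (hφ : Function.Injective φ) (hl : IsUnit l) (hl1 : IsUnit (1 - l))
    (hχ : Function.Surjective χ) (hker : RingHom.ker χ = Ideal.span {(q : R)})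
    (hq : q = 2 * k + 1) (h : MulPair (legendre l) φ (2 * k + 1) a b) (hψ : b = ψ ^ 2)
    (hψd : ψ.natDegree = 2 * k * (k + 1))
    (hψc : ψ.coeff (2 * k * (k + 1)) = ((2 * k + 1 : ℕ) : R)) :
    ∃ A Ψ Rb : T[X], CharQPair (q := q) (χ l) k A Ψ Rb ∧ a.map χ = expand T q A ∧
      ψ.map χ = expand T q Ψ := by
  classical
  have hq0 : q ≠ 0 := hp.out.ne_zero
  have hk : 1 ≤ k := by have := hp.out.two_le; omega
  obtain ⟨Φ, mΦ, dΦ, hE, hG⟩ := exists_derivFactor hφ hl hl1 h hψ hψd hψc
  have hnq : ((2 * k + 1 : ℕ) : R) = (q : R) := by rw [hq]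
  have hχq : χ (q : R) = 0 := by rw [map_natCast, CharP.cast_eq_zero]
  have hT2 : (2 : T) ≠ 0 := fun e => by
    have h2 : ((2 : ℕ) : T) = 0 := by exact_mod_cast e
    rw [CharP.cast_eq_zero_iff T q] at h2
    have := Nat.le_of_dvd two_pos h2
    omega
  -- no common zero modulo `q`
  let E := AlgebraicClosure (FractionRing T)
  let ι : T →+* E := (algebraMap (FractionRing T) E).comp (algebraMap T (FractionRing T))
  have hι : Function.Injective ι :=
    (algebraMap (FractionRing T) E).injective.comp (IsFractionRing.injective T (FractionRing T))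
  have hΔ : (ι.comp χ) (legendre l).Δ ≠ 0 := by
    rw [RingHom.comp_apply, legendre_Δ, ne_eq, map_eq_zero_iff ι hι, map_mul, map_pow, map_mul,
      map_ofNat, show (16 : T) = 2 ^ 4 by norm_num]
    exact mul_ne_zero (pow_ne_zero _ hT2)
      (pow_ne_zero _ (mul_ne_zero (hl.map χ).ne_zero (hl1.map χ).ne_zero))
  have hcr : IsCoprime ((a.map χ).map ι) ((ψ.map χ).map ι) := by
    rw [Polynomial.isCoprime_iff_aeval_ne_zero_of_isAlgClosed _ E]
    intro x
    simp only [coe_aeval_eq_eval, Polynomial.map_map]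
    refine (mulPair_coprime_at hφ (ι.comp χ) hΔ (by omega) h x).imp id fun hb e => hb ?_
    rw [hψ, Polynomial.map_pow, eval_pow, e, zero_pow two_ne_zero]
  have hW : derivative (a.map χ) * ψ.map χ = 2 * a.map χ * derivative (ψ.map χ) := by
    have := congrArg (Polynomial.map χ) hE
    rw [hnq, Polynomial.map_mul, map_C, hχq, map_zero, zero_mul, Polynomial.map_sub,
      Polynomial.map_mul, Polynomial.map_mul, Polynomial.map_mul, Polynomial.map_ofNat,
      ← derivative_map, ← derivative_map, sub_eq_zero] at this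
    exact this
  have hda : derivative (a.map χ) = 0 := by
    apply map_injective ι hι
    rw [Polynomial.map_zero]
    by_contra hne
    have hdvd : (a.map χ).map ι ∣ (derivative (a.map χ)).map ι :=
      hcr.dvd_of_dvd_mul_right ⟨2 * (derivative (ψ.map χ)).map ι, by
        rw [← Polynomial.map_mul, hW]
        simp only [Polynomial.map_mul, Polynomial.map_ofNat]
        ring⟩
    have h1 := natDegree_le_of_dvd hdvd hne
    rw [((h.monic.map χ).natDegree_map ι), natDegree_map_eq_of_injective hι,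
      h.monic.natDegree_map] at h1
    have h2 : (derivative (a.map χ)).natDegree < (a.map χ).natDegree := natDegree_derivative_lt
      (by rw [h.monic.natDegree_map, h.natDegree_a]; positivity)
    rw [h.monic.natDegree_map] at h2
    omega
  have hdψ : derivative (ψ.map χ) = 0 := by
    rw [hda, zero_mul, eq_comm, mul_eq_zero, mul_eq_zero] at hW
    refine hW.resolve_left (not_or.2 ⟨?_, (h.monic.map χ).ne_zero⟩)
    intro e
    apply hT2
    simpa [coeff_ofNat_zero] using congrArg (fun p : T[X] => p.coeff 0) e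
  set A := contract q (a.map χ) with hA
  set Ψ := contract q (ψ.map χ) with hΨ
  have hAe : expand T q A = a.map χ := expand_contract q hda hq0
  have hΨe : expand T q Ψ = ψ.map χ := expand_contract q hdψ hq0
  obtain ⟨Al, hAl⟩ := Polynomial.map_surjective χ hχ A
  obtain ⟨Ψl, hΨl⟩ := Polynomial.map_surjective χ hχ Ψ
  have hdiv : ∀ {p : R[X]} {Pl : R[X]}, p.map χ = expand T q (Pl.map χ) →
      ∃ p₁ : R[X], p = expand R q Pl + C (q : R) * p₁ := by
    intro p Pl e
    obtain ⟨p₁, hp₁⟩ : C (q : R) ∣ p - expand R q Pl := by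
      rw [C_dvd_iff_dvd_coeff]
      intro i
      rw [← Ideal.mem_span_singleton, ← hker, RingHom.mem_ker, ← coeff_map, Polynomial.map_sub,
        map_expand, e, sub_self, coeff_zero]
    exact ⟨p₁, by rw [← hp₁]; ring⟩
  obtain ⟨a₁, ha₁⟩ := hdiv (p := a) (Pl := Al) (by rw [hAl, hAe])
  obtain ⟨ψ₁, hψ₁⟩ := hdiv (p := ψ) (Pl := Ψl) (by rw [hΨl, hΨe])
  have hΦ : Φ = (X ^ (q - 1) * expand R q (derivative Al) + derivative a₁) * ψ -
      2 * a * (X ^ (q - 1) * expand R q (derivative Ψl) + derivative ψ₁) := by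
    have hq' : C (q : R) ≠ 0 := C_ne_zero.2 fun e => by
      have := congrArg φ e
      rw [map_natCast, map_zero, Nat.cast_eq_zero] at this
      exact hq0 this
    apply mul_left_cancel₀ hq'
    rw [← hnq] at hq' ⊢
    rw [← hE, hnq]
    have e1 : ∀ Pl p₁ : R[X], derivative (expand R q Pl + C (q : R) * p₁) =
        C (q : R) * (X ^ (q - 1) * expand R q (derivative Pl) + derivative p₁) := by
      intro Pl p₁
      rw [derivative_add, derivative_expand, derivative_C_mul, ← C_eq_natCast]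
      ring
    conv_lhs => rw [ha₁, hψ₁, e1, e1, ← ha₁, ← hψ₁]
    ring
  have hAdeg : A.natDegree = q := by
    have := natDegree_expand q A
    rw [hAe, h.monic.natDegree_map, h.natDegree_a, ← hq, pow_two] at this
    exact (Nat.eq_of_mul_eq_mul_right hp.out.pos this).symm
  have hΨdeg : Ψ.natDegree ≤ k := by
    have h1 := natDegree_expand q Ψ
    rw [hΨe] at h1
    have h2 : Ψ.natDegree * q ≤ 2 * k * (k + 1) := h1 ▸ natDegree_map_le.trans hψd.le
    by_contra hlt
    have h3 : (k + 1) * q ≤ Ψ.natDegree * q := Nat.mul_le_mul_right q (not_le.1 hlt)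
    rw [hq] at h2 h3
    nlinarith
  have hAm : A.Monic := by
    have := leadingCoeff_expand (f := A) hp.out.pos
    rw [hAe, (h.monic.map χ).leadingCoeff] at this
    exact this.symm
  have hΨ0 : Ψ ≠ 0 := by
    intro e
    rw [e, map_zero] at hΨe
    rw [← hΨe, Polynomial.map_zero, isCoprime_zero_right] at hcr
    have := natDegree_eq_zero_of_isUnit hcr
    rw [(h.monic.map χ).natDegree_map, h.monic.natDegree_map, h.natDegree_a] at this
    exact absurd this (by positivity)
  refine ⟨A, Ψ, Φ.map χ, ⟨hAm, hAdeg, hΨdeg, hΨ0, mΦ.map χ,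
    by rw [mΦ.natDegree_map, dΦ], ?_, ?_⟩, hAe.symm, hΨe.symm⟩
  · refine ⟨(expand T q Ψ) ^ 2 * a₁.map χ - 2 * expand T q A * expand T q Ψ * ψ₁.map χ, ?_⟩
    rw [hΦ]
    simp only [Polynomial.map_sub, Polynomial.map_mul, Polynomial.map_add, Polynomial.map_pow,
      map_X, map_expand, ← derivative_map, hAl, hΨl, Polynomial.map_ofNat, ← hAe, ← hΨe,
      map_mul, map_sub, map_ofNat, derivative_mul, derivative_sq, derivative_expand,
      CharP.cast_eq_zero, derivative_ofNat]
    ring
  · refine ⟨A * (A - Ψ ^ 2) * (A - C (χ l) * Ψ ^ 2), ?_⟩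
    have := congrArg (Polynomial.map χ) hG
    simp only [legendreCubic, Polynomial.map_mul, Polynomial.map_sub, Polynomial.map_pow, map_X,
      map_C, Polynomial.map_one, hψ] at this
    simp only [legendreCubic, map_mul, map_sub, map_pow, expand_C, hAe, hΨe]
    exact this

end ModQ

end Fermat.Agent.Moduli
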