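import Fermat.Agent.Moduli.Length

/-!
# Two dimensional regular local domains

A noetherian local domain with maximal ideal `(a, b)` containing a regular sequence `q, t`:
`a`, `b` are prime and every prime of height one is principal, so the ring is factorial.
-/

set_option autoImplicit false
set_option linter.unusedSectionVars false
set_option linter.style.haveILetI false

namespace Fermat.Agent.Moduli

open Ideal IsLocalRing

variable {C : Type*} [CommRing C] [IsDomain C] [IsNoetherianRing C] [IsLocalRing C] {a b q t : C}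

/-- `(a, b)` is the maximal ideal and it contains a regular sequence `(q, t)`. -/
structure IsRegularTwo (a b q t : C) : Prop where
  maximal : maximalIdeal C = span {a} ⊔ span {b}
  q_mem : q ∈ maximalIdeal C
  t_mem : t ∈ maximalIdeal C
  t_ne : t ≠ 0
  reg : IsRegularMod (span {t}) q

namespace IsRegularTwo

variable (h : IsRegularTwo a b q t)

include h in
lemma symm : IsRegularTwo b a q t :=
  ⟨h.maximal.trans (sup_comm _ _), h.q_mem, h.t_mem, h.t_ne, h.reg⟩

include h in
/-- No element of the maximal ideal divides a power of both. -/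
lemma not_dvd_pow {c : C} (hc : c ∈ maximalIdeal C) (N : ℕ) (h1 : c ∣ q ^ N) (h2 : c ∣ t ^ N) :
    False := by
  obtain ⟨x, hx⟩ := h1
  obtain ⟨y, hy⟩ := h2
  have hc0 : c ≠ 0 := by rintro rfl; exact h.t_ne (pow_eq_zero_iff'.1 (by rw [hy, zero_mul])).1
  have e : q ^ N * y = t ^ N * x := by
    apply mul_left_cancel₀ hc0
    linear_combination (q ^ N) * hy.symm - (t ^ N) * hx.symm
  have key : ∀ (n : ℕ) (y : C), t ^ n ∣ q ^ N * y → t ^ n ∣ y := by
    intro n
    induction n with
    | zero => intro y _; rw [pow_zero]; exact one_dvd _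
    | succ n ih =>
      intro y hy
      obtain ⟨y', rfl⟩ := mem_span_singleton.1 (h.reg.pow N y
        (mem_span_singleton.2 ((dvd_pow_self t (Nat.succ_ne_zero n)).trans hy)))
      rw [pow_succ'] at hy ⊢
      rw [mul_left_comm] at hy
      exact mul_dvd_mul dvd_rfl (ih y' ((mul_dvd_mul_iff_left h.t_ne).1 hy))
  obtain ⟨y', rfl⟩ := key N y ⟨x, e⟩
  have h1' : c * y' = 1 := by
    refine mul_left_cancel₀ (pow_ne_zero N h.t_ne) ?_
    linear_combination hy.symm
  exact notMem_maximalIdeal.2 (IsUnit.of_mul_eq_one (a := c) _ h1') hc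

include h in
lemma left_mem : a ∈ maximalIdeal C := h.maximal ▸ mem_sup_left (mem_span_singleton_self a)

include h in
lemma pow_notMem (n : ℕ) : b ^ n ∉ span {a} := by
  intro hn
  have hle : maximalIdeal C ^ (n + 1) ≤ span {a} := by
    rw [h.maximal]
    refine (sup_pow_add_le_pow_sup_pow (n := 1) (m := n)
      |> fun h' => (pow_le_pow_right (Nat.le_of_eq (by omega))).trans h').trans ?_
    rw [pow_one, span_singleton_pow]
    exact sup_le le_rfl ((span_singleton_le_iff_mem _).2 hn)
  exact h.not_dvd_pow h.left_mem (n + 1)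
    (mem_span_singleton.1 (hle (pow_mem_pow h.q_mem _)))
    (mem_span_singleton.1 (hle (pow_mem_pow h.t_mem _)))

include h in
lemma ne_zero : a ≠ 0 := fun e =>
  h.not_dvd_pow h.symm.left_mem 1 (by
    have := h.q_mem
    rw [h.maximal, e, span_singleton_eq_bot.2 rfl, bot_sup_eq, mem_span_singleton] at this
    rwa [pow_one]) (by
    have := h.t_mem
    rw [h.maximal, e, span_singleton_eq_bot.2 rfl, bot_sup_eq, mem_span_singleton] at this
    rwa [pow_one])

include h in
/-- Modulo `a` every element is a power of `b` times a unit. -/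
lemma exists_pow_mul_unit {c : C} (hc : c ∉ span {a}) :
    ∃ (n : ℕ) (u : C), IsUnit u ∧ c - b ^ n * u ∈ span {a} := by
  set I : Ideal C := span {a}
  haveI : Nontrivial (C ⧸ I) := Ideal.Quotient.nontrivial_iff.2 fun e =>
    hc (e ▸ Submodule.mem_top)
  haveI : IsLocalRing (C ⧸ I) := .of_surjective' _ Ideal.Quotient.mk_surjective
  have hne : (span {Ideal.Quotient.mk I b}) ≠ ⊤ := by
    rw [Ne, span_singleton_eq_top]
    rintro hu
    obtain ⟨v, hv⟩ := Ideal.Quotient.mk_surjective (↑hu.unit⁻¹ : C ⧸ I)
    have h1 : b * v - 1 ∈ I := by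
      rw [← Ideal.Quotient.eq, map_mul, map_one, hv, IsUnit.mul_val_inv]
    refine one_notMem_nonunits (?_ : (1 : C) ∈ maximalIdeal C)
    rw [show (1 : C) = b * v - (b * v - 1) by ring]
    exact sub_mem (mul_mem_right _ _ h.symm.left_mem)
      ((span_singleton_le_iff_mem _).2 h.left_mem h1)
  by_contra hh
  push Not at hh
  have hall : ∀ n, ∃ d, c - b ^ n * d ∈ I := by
    intro n
    induction n with
    | zero => exact ⟨c, by simp⟩
    | succ n ih =>
      obtain ⟨d, hd⟩ := ih
      have hdm : d ∈ maximalIdeal C := by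
        by_contra hu
        exact hh n d (notMem_maximalIdeal.1 hu) hd
      rw [h.maximal] at hdm
      obtain ⟨x, hx, y, hy, rfl⟩ := Submodule.mem_sup.1 hdm
      obtain ⟨y', rfl⟩ := mem_span_singleton.1 hy
      refine ⟨y', ?_⟩
      have := add_mem hd (mul_mem_left _ (b ^ n) hx)
      convert this using 1
      ring
  have : Ideal.Quotient.mk I c ∈ ⨅ n : ℕ, span {Ideal.Quotient.mk I b} ^ n := by
    rw [Submodule.mem_iInf]
    intro n
    obtain ⟨d, hd⟩ := hall n
    rw [Ideal.Quotient.eq.2 hd, span_singleton_pow, map_mul, map_pow]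
    exact mul_mem_right _ _ (mem_span_singleton_self _)
  rw [Ideal.iInf_pow_eq_bot_of_isLocalRing _ hne, mem_bot, Ideal.Quotient.eq_zero_iff_mem] at this
  exact hc this

include h in
lemma prime_left : Prime a := by
  rw [← span_singleton_prime h.ne_zero]
  refine ⟨fun e => notMem_maximalIdeal.2 (span_singleton_eq_top.1 e) h.left_mem, fun {x y} hxy => ?_⟩
  by_contra hne
  push Not at hne
  obtain ⟨i, u, hu, hx⟩ := h.exists_pow_mul_unit hne.1
  obtain ⟨j, v, hv, hy⟩ := h.exists_pow_mul_unit hne.2
  refine h.pow_notMem (i + j) ?_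
  rw [← Ideal.mul_unit_mem_iff_mem _ (hu.mul hv)]
  have := sub_mem hxy (add_mem (mul_mem_left _ x hy) (mul_mem_right (b ^ j * v) _ hx))
  convert this using 1
  ring

include h in
lemma prime_right : Prime b := h.symm.prime_left

include h in
lemma not_associated : ¬ Associated a b := fun e => h.pow_notMem 1 (by
  rw [pow_one, mem_span_singleton]; exact e.dvd)

include h in
/-- Primes other than `0` and the maximal ideal are principal. -/
theorem isPrincipal_of_isPrime (P : Ideal C) [hP : P.IsPrime] (hP0 : P ≠ ⊥)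
    (hPm : P ≠ maximalIdeal C) : ∃ f, Prime f ∧ P = span {f} := by
  classical
  suffices hf : ∃ f, P = span {f} by
    obtain ⟨f, rfl⟩ := hf
    exact ⟨f, (span_singleton_prime (fun e => hP0 (span_singleton_eq_bot.2 e))).1 hP, rfl⟩
  by_cases ha : a ∈ P
  · refine ⟨a, le_antisymm (fun x hx => ?_) ((span_singleton_le_iff_mem _).2 ha)⟩
    by_contra hxa
    obtain ⟨n, u, hu, hxn⟩ := h.exists_pow_mul_unit hxa
    apply hPm
    refine le_antisymm (le_maximalIdeal hP.ne_top) ?_
    rw [h.maximal]
    refine sup_le ((span_singleton_le_iff_mem _).2 ha) ((span_singleton_le_iff_mem _).2 ?_)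
    have hbn : b ^ n * u ∈ P := by
      have := sub_mem hx ((span_singleton_le_iff_mem _).2 ha hxn)
      rwa [sub_sub_cancel] at this
    exact hP.mem_of_pow_mem n ((Ideal.mul_unit_mem_iff_mem _ hu).1 hbn)
  · have hne : ¬ P ≤ span {a} := by
      intro hle
      apply hP0
      refine le_bot_iff.1 (fun x hx => ?_)
      have : x ∈ ⨅ n : ℕ, span {a} ^ n := by
        rw [Submodule.mem_iInf]
        intro n
        rw [span_singleton_pow]
        induction n generalizing x with
        | zero => rw [pow_zero, span_singleton_one]; exact Submodule.mem_top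
        | succ n ih =>
          obtain ⟨y, rfl⟩ := mem_span_singleton.1 (hle hx)
          obtain ⟨z, rfl⟩ := mem_span_singleton.1 (ih y ((hP.mem_or_mem hx).resolve_left ha))
          rw [mem_span_singleton]
          exact ⟨z, by ring⟩
      rwa [Ideal.iInf_pow_eq_bot_of_isLocalRing _ fun e =>
        notMem_maximalIdeal.2 (span_singleton_eq_top.1 e) h.left_mem, mem_bot] at this
    obtain ⟨x₀, hx₀, hx₀a⟩ := SetLike.not_le_iff_exists.1 hne
    obtain ⟨n₀, u₀, hu₀, hn₀⟩ := h.exists_pow_mul_unit hx₀a
    have hex : ∃ n, b ^ n ∈ P ⊔ span {a} := ⟨n₀, by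
      rw [← Ideal.mul_unit_mem_iff_mem _ hu₀]
      have := sub_mem (mem_sup_left (T := span {a}) hx₀) (mem_sup_right (S := P) hn₀)
      rwa [sub_sub_cancel] at this⟩
    obtain ⟨f, hf, g, hg, hfg⟩ := Submodule.mem_sup.1 (Nat.find_spec hex)
    refine ⟨f, le_antisymm ?_ ((span_singleton_le_iff_mem _).2 hf)⟩
    refine Submodule.le_of_le_smul_of_le_jacobson_bot (I := span {a}) (IsNoetherian.noetherian P)
      ((span_singleton_le_iff_mem _).2 (by rw [jacobson_eq_maximalIdeal _ bot_ne_top]; exact h.left_mem))
      fun x hx => ?_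
    have hxs : x ∈ span {f} ⊔ span {a} := by
      by_cases hxa : x ∈ span {a}
      · exact mem_sup_right hxa
      obtain ⟨n, u, hu, hxn⟩ := h.exists_pow_mul_unit hxa
      have hn : Nat.find hex ≤ n := Nat.find_le (by
        rw [← Ideal.mul_unit_mem_iff_mem _ hu]
        have := sub_mem (mem_sup_left (T := span {a}) hx) (mem_sup_right (S := P) hxn)
        rwa [sub_sub_cancel] at this)
      obtain ⟨j, hj⟩ := Nat.exists_eq_add_of_le hn
      rw [show x = (x - b ^ n * u) + b ^ n * u by ring, hj, pow_add, ← hfg]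
      refine add_mem (mem_sup_right ?_) (mul_mem_right _ _ (mul_mem_right _ _ (add_mem
        (mem_sup_left (mem_span_singleton_self f)) (mem_sup_right hg))))
      rw [hj, pow_add, ← hfg] at hxn
      exact hxn
    obtain ⟨x₁, hx₁, x₂, hx₂, rfl⟩ := Submodule.mem_sup.1 hxs
    refine add_mem (mem_sup_left hx₁) (mem_sup_right ?_)
    obtain ⟨y, rfl⟩ := mem_span_singleton.1 hx₂
    have hay : a * y ∈ P := by
      simpa using sub_mem hx ((span_singleton_le_iff_mem _).2 hf hx₁)
    exact Submodule.smul_mem_smul (mem_span_singleton_self a) ((hP.mem_or_mem hay).resolve_left ha)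

include h in
/-- The ring is factorial. -/
theorem uniqueFactorizationMonoid : UniqueFactorizationMonoid C := by
  refine UniqueFactorizationMonoid.iff_exists_prime_mem_of_isPrime.2 fun P hP0 hP => ?_
  haveI := hP
  by_cases hPm : P = maximalIdeal C
  · exact ⟨a, hPm ▸ h.left_mem, h.prime_left⟩
  · obtain ⟨f, hf, rfl⟩ := h.isPrincipal_of_isPrime P hP0 hPm
    exact ⟨f, mem_span_singleton_self f, hf⟩

end IsRegularTwo

end Fermat.Agent.Moduli
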