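import Fermat.Agent.Moduli.Coord
import Fermat.Agent.Moduli.Family
import Fermat.Agent.EC.AddSub

/-!
# The relations between torsion parameters in a local ring
-/

set_option autoImplicit false
set_option linter.unusedSectionVars false

namespace Fermat.Agent.Moduli

open WeierstrassCurve Polynomial Fermat.Agent.EC Finset IsLocalRing

variable {R : Type*} [CommRing R] [IsDomain R] [IsIntegrallyClosed R] {Ω : Type*} [Field Ω]
  [IsAlgClosed Ω] [CharZero Ω] [DecidableEq Ω] [Algebra R Ω] [FaithfulSMul R Ω] {l : R}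

variable (Ω l) in
/-- The `n`-torsion of the Legendre curve over `Ω`. -/
abbrev LegTorsion (n : ℕ) := Submodule.torsionBy ℤ (legendreΩ Ω l).toAffine.Point (n : ℤ)

lemma legTorsion_nsmul {n : ℕ} (T : LegTorsion Ω l n) :
    n • (T : (legendreΩ Ω l).toAffine.Point) = 0 := by
  have := T.2
  rwa [Submodule.mem_torsionBy_iff, natCast_zsmul] at this

lemma legTorsion_nsmul' {n : ℕ} (T : LegTorsion Ω l n) : n • T = 0 :=
  Subtype.ext (legTorsion_nsmul T)

/-- The parameter of a torsion point. -/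
def tz {n : ℕ} (T : LegTorsion Ω l n) : Ω := zCoord T.1

/-- The inverse abscissa of a torsion point. -/
def ts {n : ℕ} (T : LegTorsion Ω l n) : Ω := sCoord T.1

lemma tz_zero {n : ℕ} : tz (0 : LegTorsion Ω l n) = 0 := rfl
lemma ts_zero {n : ℕ} : ts (0 : LegTorsion Ω l n) = 0 := rfl

lemma tz_neg {n : ℕ} (T : LegTorsion Ω l n) : tz (-T) = -tz T := by
  show zCoord (-T.1) = -zCoord T.1
  rcases T.1 with _ | ⟨x, y, h⟩
  · show (0 : Ω) = -0
    rw [neg_zero]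
  · rw [Affine.Point.neg_some, zCoord_some, zCoord_some, negY_legendre, div_neg]

lemma ts_neg {n : ℕ} (T : LegTorsion Ω l n) : ts (-T) = ts T := by
  show sCoord (-T.1) = sCoord T.1
  rcases T.1 with _ | ⟨x, y, h⟩
  · rfl
  · rw [Affine.Point.neg_some]; rfl

lemma exists_coord_of_ne_zero {k : ℕ} {T : LegTorsion Ω l (2 * k + 1)} (hT : T ≠ 0) :
    ∃ (x y : Ω) (h : (legendreΩ Ω l).toAffine.Nonsingular x y),
      T.1 = Affine.Point.some x y h ∧ tz T = -x / y ∧ ts T = x⁻¹ ∧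
      y ≠ 0 ∧ x ≠ 0 ∧ x ≠ 1 ∧ x ≠ algebraMap R Ω l := by
  rcases e : T.1 with _ | ⟨x, y, h⟩
  · exact absurd (Subtype.ext e) hT
  · obtain ⟨a, b, c, d⟩ := torsion_coord_ne h (e ▸ legTorsion_nsmul T)
    exact ⟨x, y, h, rfl, by rw [tz, e, zCoord_some], by rw [ts, e, sCoord_some], a, b, c, d⟩

lemma sum_eq_some {k : ℕ} {P Q : LegTorsion Ω l (2 * k + 1)} :
    (P + Q).1 = P.1 + Q.1 := rfl

section Local

variable {k : ℕ} (C : Type*) [CommRing C] [IsDomain C] [IsLocalRing C] [Algebra C Ω]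
  [FaithfulSMul C Ω] [Algebra R C] [IsScalarTower R C Ω]

/-- `C` contains the coordinates at infinity of the torsion. -/
structure HasCoords (k : ℕ) (l : R) where
  z : LegTorsion Ω l (2 * k + 1) → C
  s : LegTorsion Ω l (2 * k + 1) → C
  u : LegTorsion Ω l (2 * k + 1) → Cˣ
  v : LegTorsion Ω l (2 * k + 1) → Cˣ
  map_z : ∀ T, algebraMap C Ω (z T) = tz T
  map_s : ∀ T, algebraMap C Ω (s T) = ts T
  u_eq : ∀ T, (u T : C) = 1 - s T
  v_eq : ∀ T, (v T : C) = 1 - algebraMap R C l * s T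

variable {C}

lemma algebraMap_l : algebraMap C Ω (algebraMap R C l) = algebraMap R Ω l :=
  (IsScalarTower.algebraMap_apply R C Ω l).symm

namespace HasCoords

variable (H : HasCoords (Ω := Ω) C k l)

lemma inj : Function.Injective (algebraMap C Ω) := FaithfulSMul.algebraMap_injective C Ω

lemma z_zero : H.z 0 = 0 := inj (C := C) (Ω := Ω) (by rw [H.map_z, tz_zero, map_zero])

lemma s_zero : H.s 0 = 0 := inj (C := C) (Ω := Ω) (by rw [H.map_s, ts_zero, map_zero])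

lemma z_neg (T : LegTorsion Ω l (2 * k + 1)) : H.z (-T) = -H.z T :=
  inj (C := C) (Ω := Ω) (by rw [map_neg, H.map_z, H.map_z, tz_neg])

lemma s_eq (T : LegTorsion Ω l (2 * k + 1)) : H.s T = H.z T ^ 2 * ((H.u T : C) * H.v T) := by
  rcases eq_or_ne T 0 with rfl | hT
  · rw [H.z_zero, H.s_zero, zero_pow two_ne_zero, zero_mul]
  obtain ⟨x, y, h, -, ez, es, hy, hx, -, -⟩ := exists_coord_of_ne_zero hT
  apply inj (C := C) (Ω := Ω)
  have := zCoord_sq h hx hy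
  rw [zCoord_some, sCoord_some] at this
  rw [H.u_eq, H.v_eq, map_mul, map_mul, map_pow, map_sub, map_sub, map_mul, map_one, H.map_s,
    H.map_z, ez, es, algebraMap_l, this]

lemma z_mem_iff (T : LegTorsion Ω l (2 * k + 1)) :
    H.s T ∈ maximalIdeal C ↔ H.z T ∈ maximalIdeal C := by
  rw [H.s_eq T, Ideal.mul_unit_mem_iff_mem _ ((H.u T).isUnit.mul (H.v T).isUnit)]
  exact ⟨fun h => Ideal.IsPrime.mem_of_pow_mem inferInstance 2 h,
    fun h => Ideal.pow_mem_of_mem _ h 2 two_pos⟩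

/-- The chord inside `C`, cleared of denominators. -/
lemma chord {P Q : LegTorsion Ω l (2 * k + 1)} (hP : P ≠ 0) (hQ : Q ≠ 0) (hPQ : P + Q ≠ 0) :
    ∃ L : Ω,
      tz P * ts P - L * tz P = tz Q * ts Q - L * tz Q ∧
      tz (P + Q) * ts (P + Q) = L * tz (P + Q) - (tz P * ts P - L * tz P) ∧
      (tz (P + Q) - tz P - tz Q) * ((1 - L) * (1 - algebraMap R Ω l * L)) =
        (-(1 + algebraMap R Ω l) + 2 * algebraMap R Ω l * L) * (tz P * ts P - L * tz P) ∧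
      L * (1 + (1 + algebraMap R Ω l) * tz Q ^ 2 -
          algebraMap R Ω l * tz Q * (tz P * ts P + tz Q * ts Q)) =
        tz P ^ 2 + tz P * tz Q + tz Q ^ 2 -
          (1 + algebraMap R Ω l) * (tz P * ts P) * (tz P + tz Q) +
          algebraMap R Ω l * (tz P * ts P) ^ 2 := by
  obtain ⟨x₁, y₁, h₁, e₁, z₁, s₁, hy₁, hx₁, -, -⟩ := exists_coord_of_ne_zero hP
  obtain ⟨x₂, y₂, h₂, e₂, z₂, s₂, hy₂, hx₂, -, -⟩ := exists_coord_of_ne_zero hQ
  obtain ⟨x₃, y₃, h₃, e₃, z₃, s₃, hy₃, hx₃, -, -⟩ := exists_coord_of_ne_zero hPQ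
  have hsum : Affine.Point.some x₁ y₁ h₁ + Affine.Point.some x₂ y₂ h₂ =
      Affine.Point.some x₃ y₃ h₃ := by rw [← e₁, ← e₂, ← e₃]; rfl
  obtain ⟨L, ν, c₁, c₂, c₃, c₄, c₅⟩ := exists_chord hsum hy₁ hy₂ hy₃
  have w₁ : tz P * ts P = -1 / y₁ := by rw [z₁, s₁]; field_simp
  have w₂ : tz Q * ts Q = -1 / y₂ := by rw [z₂, s₂]; field_simp
  have w₃ : tz (P + Q) * ts (P + Q) = -1 / y₃ := by rw [z₃, s₃]; field_simp
  have hν : ν = tz P * ts P - L * tz P := by rw [w₁, z₁]; linear_combination -c₁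
  refine ⟨L, ?_, ?_, ?_, ?_⟩
  · rw [← hν, w₂, z₂]; linear_combination -c₂
  · rw [w₃, z₃, ← hν]; exact c₃
  · rw [← hν, z₁, z₂, z₃]; exact c₄
  · rw [w₁, w₂, z₁, z₂]; exact c₅

/-- Both in the kernel: the parameter is additive to first order. -/
theorem add_mem (P Q : LegTorsion Ω l (2 * k + 1)) (hP : H.z P ∈ maximalIdeal C)
    (hQ : H.z Q ∈ maximalIdeal C) :
    H.z (P + Q) - H.z P - H.z Q ∈ (Ideal.span {H.z P, H.z Q} : Ideal C) ^ 2 := by
  set I : Ideal C := Ideal.span {H.z P, H.z Q}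
  rcases eq_or_ne P 0 with rfl | hP0
  · rw [zero_add, H.z_zero, sub_zero, sub_self]; exact zero_mem _
  rcases eq_or_ne Q 0 with rfl | hQ0
  · rw [add_zero, H.z_zero, sub_zero, sub_self]; exact zero_mem _
  rcases eq_or_ne (P + Q) 0 with h0 | h0
  · rw [h0, eq_neg_of_add_eq_zero_right h0, H.z_zero, H.z_neg, zero_sub, sub_neg_eq_add,
      neg_add_cancel]
    exact zero_mem _
  obtain ⟨L, -, -, c₄, c₅⟩ := chord hP0 hQ0 h0
  set a := algebraMap R C l with ha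
  have hP' : H.z P ∈ I := Ideal.subset_span (by simp)
  have hQ' : H.z Q ∈ I := Ideal.subset_span (by simp)
  have hIm : I ≤ maximalIdeal C := Ideal.span_le.2 (by rintro x (rfl | rfl) <;> assumption)
  set D := 1 + (1 + a) * H.z Q ^ 2 - a * H.z Q * (H.z P * H.s P + H.z Q * H.s Q) with hD
  set N := H.z P ^ 2 + H.z P * H.z Q + H.z Q ^ 2 - (1 + a) * (H.z P * H.s P) * (H.z P + H.z Q) +
    a * (H.z P * H.s P) ^ 2 with hN
  have hNI : N ∈ I ^ 2 := by
    have hw : H.z P * H.s P ∈ I := I.mul_mem_right _ hP'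
    rw [pow_two, hN]
    refine AddMemClass.add_mem (sub_mem (AddMemClass.add_mem (AddMemClass.add_mem ?_ ?_) ?_) ?_) ?_
    · rw [pow_two]; exact Ideal.mul_mem_mul hP' hP'
    · exact Ideal.mul_mem_mul hP' hQ'
    · rw [pow_two]; exact Ideal.mul_mem_mul hQ' hQ'
    · exact Ideal.mul_mem_mul (I.mul_mem_left _ hw) (I.add_mem hP' hQ')
    · rw [pow_two]; exact Ideal.mul_mem_left _ _ (Ideal.mul_mem_mul hw hw)
  have hDu : IsUnit D := by
    rw [← notMem_maximalIdeal]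
    intro hDm
    refine one_notMem_nonunits (?_ : (1 : C) ∈ maximalIdeal C)
    rw [show (1 : C) = D + H.z Q * (-((1 + a) * H.z Q) + a * (H.z P * H.s P + H.z Q * H.s Q)) by
      rw [hD]; ring]
    exact AddMemClass.add_mem hDm (Ideal.mul_mem_right _ _ hQ)
  obtain ⟨Du, hDu'⟩ := hDu
  set L' := (↑Du⁻¹ : C) * N with hL'
  have hL : algebraMap C Ω L' = L := by
    have h5 : algebraMap C Ω D * L = algebraMap C Ω N := by
      rw [hD, hN]
      simp only [map_add, map_sub, map_mul, map_pow, map_one, H.map_z, H.map_s, ha, algebraMap_l]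
      linear_combination c₅
    rw [hL', map_mul, ← h5, ← mul_assoc, ← map_mul, ← hDu', Units.inv_mul, map_one, one_mul]
  have hLI : L' ∈ I ^ 2 := Ideal.mul_mem_left _ _ hNI
  have hden : IsUnit ((1 - L') * (1 - a * L')) := by
    have hLm : L' ∈ maximalIdeal C := hIm (Ideal.pow_le_self two_ne_zero hLI)
    rw [IsUnit.mul_iff]
    exact ⟨isUnit_one_sub_self_of_mem_nonunits _ hLm,
      isUnit_one_sub_self_of_mem_nonunits _ (Ideal.mul_mem_left _ _ hLm)⟩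
  rw [← Ideal.mul_unit_mem_iff_mem _ hden]
  have e : (H.z (P + Q) - H.z P - H.z Q) * ((1 - L') * (1 - a * L')) =
      (-(1 + a) + 2 * a * L') * (H.z P * H.s P - L' * H.z P) := by
    apply inj (C := C) (Ω := Ω)
    simp only [map_add, map_sub, map_mul, map_neg, map_one, map_ofNat, H.map_z, H.map_s, ha,
      algebraMap_l, hL]
    exact c₄
  rw [e]
  refine Ideal.mul_mem_left _ _ (sub_mem ?_ (Ideal.mul_mem_right _ _ hLI))
  rw [H.s_eq P, pow_two I]
  exact Ideal.mul_mem_mul hP' (I.mul_mem_right _ (Ideal.pow_mem_of_mem I hP' 2 two_pos))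

/-- One in the kernel: congruence of the coordinates. -/
theorem congr_coords (P Q : LegTorsion Ω l (2 * k + 1)) (hP : H.z P ∈ maximalIdeal C)
    (hQ : H.z Q ∉ maximalIdeal C) :
    H.z (P + Q) - H.z Q ∈ Ideal.span {H.z P} ∧ H.s (P + Q) - H.s Q ∈ Ideal.span {H.z P} := by
  set J : Ideal C := Ideal.span {H.z P}
  rcases eq_or_ne P 0 with rfl | hP0
  · rw [zero_add, sub_self, sub_self]; exact ⟨zero_mem _, zero_mem _⟩
  have hQ0 : Q ≠ 0 := fun e => hQ (by rw [e, H.z_zero]; exact zero_mem _)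
  have h0 : P + Q ≠ 0 := fun e => hQ (by
    rw [eq_neg_of_add_eq_zero_right e, H.z_neg]; exact neg_mem hP)
  obtain ⟨L, c₁, c₃, c₄, -⟩ := chord hP0 hQ0 h0
  set a := algebraMap R C l with ha
  have hJ : J ≤ maximalIdeal C := (Ideal.span_singleton_le_iff_mem _).2 hP
  have hd : IsUnit (H.z Q - H.z P) := by
    rw [← notMem_maximalIdeal]
    intro h
    exact hQ (by simpa using AddMemClass.add_mem h hP)
  obtain ⟨du, hdu⟩ := hd
  set L' := (↑du⁻¹ : C) * (H.z Q * H.s Q - H.z P * H.s P) with hL'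
  have hL : algebraMap C Ω L' = L := by
    rw [hL', map_mul, show algebraMap C Ω (H.z Q * H.s Q - H.z P * H.s P) =
      algebraMap C Ω (H.z Q - H.z P) * L by
        simp only [map_sub, map_mul, H.map_z, H.map_s]; linear_combination -c₁,
      ← mul_assoc, ← map_mul, ← hdu, Units.inv_mul, map_one, one_mul]
  have hP' : H.z P ∈ J := Ideal.mem_span_singleton_self _
  have hzQ : IsUnit (H.z Q) := notMem_maximalIdeal.1 hQ
  have hLs : L' - H.s Q ∈ J := by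
    rw [show L' - H.s Q = (↑du⁻¹ : C) * (H.z P * (H.s Q - H.s P)) by
      have h1 := du.inv_mul
      rw [hdu] at h1
      rw [hL']
      linear_combination H.s Q * h1]
    exact J.mul_mem_left _ (J.mul_mem_right _ hP')
  have hden : IsUnit ((1 - L') * (1 - a * L')) := by
    rw [IsUnit.mul_iff, ← notMem_maximalIdeal, ← notMem_maximalIdeal]
    refine ⟨fun h => ?_, fun h => ?_⟩
    · refine notMem_maximalIdeal.2 (H.u Q).isUnit ?_
      rw [H.u_eq, show 1 - H.s Q = (1 - L') + (L' - H.s Q) by ring]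
      exact AddMemClass.add_mem h (hJ hLs)
    · refine notMem_maximalIdeal.2 (H.v Q).isUnit ?_
      rw [H.v_eq, ← ha, show 1 - a * H.s Q = (1 - a * L') + a * (L' - H.s Q) by ring]
      exact AddMemClass.add_mem h (Ideal.mul_mem_left _ _ (hJ hLs))
  have e : (H.z (P + Q) - H.z P - H.z Q) * ((1 - L') * (1 - a * L')) =
      (-(1 + a) + 2 * a * L') * (H.z P * H.s P - L' * H.z P) := by
    apply inj (C := C) (Ω := Ω)
    simp only [map_add, map_sub, map_mul, map_neg, map_one, map_ofNat, H.map_z, H.map_s, ha,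
      algebraMap_l, hL]
    exact c₄
  have hν : H.z P * H.s P - L' * H.z P ∈ J :=
    sub_mem (J.mul_mem_right _ hP') (J.mul_mem_left _ hP')
  have hz : H.z (P + Q) - H.z Q ∈ J := by
    have h1 : H.z (P + Q) - H.z P - H.z Q ∈ J := by
      rw [← Ideal.mul_unit_mem_iff_mem _ hden, e]
      exact J.mul_mem_left _ hν
    rw [show H.z (P + Q) - H.z Q = H.z (P + Q) - H.z P - H.z Q + H.z P by ring]
    exact AddMemClass.add_mem h1 hP'
  refine ⟨hz, ?_⟩
  have e₃ : H.z (P + Q) * H.s (P + Q) = L' * H.z (P + Q) - (H.z P * H.s P - L' * H.z P) := by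
    apply inj (C := C) (Ω := Ω)
    simp only [map_sub, map_mul, H.map_z, H.map_s, hL]
    exact c₃
  have hu3 : IsUnit (H.z (P + Q)) := by
    rw [← notMem_maximalIdeal]
    intro h
    exact hQ (by simpa using sub_mem h (hJ hz))
  have h2 : H.s (P + Q) - L' ∈ J := by
    rw [← Ideal.unit_mul_mem_iff_mem _ hu3,
      show H.z (P + Q) * (H.s (P + Q) - L') = -(H.z P * H.s P - L' * H.z P) by
        linear_combination e₃]
    exact neg_mem hν
  simpa using AddMemClass.add_mem h2 hLs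

/-- Equal reductions differ by the kernel, up to sign. -/
theorem sep (h2 : IsUnit (2 : C)) (P Q : LegTorsion Ω l (2 * k + 1))
    (hP : H.z P ∉ maximalIdeal C) (hQ : H.z Q ∉ maximalIdeal C)
    (hs : H.s P - H.s Q ∈ maximalIdeal C) :
    H.z (P - Q) ∈ maximalIdeal C ∨ H.z (P + Q) ∈ maximalIdeal C := by
  by_contra hne
  push Not at hne
  obtain ⟨hD, hS⟩ := hne
  have hP0 : P ≠ 0 := fun e => hP (by rw [e, H.z_zero]; exact zero_mem _)
  have hQ0 : Q ≠ 0 := fun e => hQ (by rw [e, H.z_zero]; exact zero_mem _)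
  have hD0 : P - Q ≠ 0 := fun e => hD (by rw [e, H.z_zero]; exact zero_mem _)
  have hS0 : P + Q ≠ 0 := fun e => hS (by rw [e, H.z_zero]; exact zero_mem _)
  obtain ⟨x₁, y₁, g₁, e₁, z₁, s₁, hy₁, hx₁, -, -⟩ := exists_coord_of_ne_zero hP0
  obtain ⟨x₂, y₂, g₂, e₂, z₂, s₂, hy₂, hx₂, -, -⟩ := exists_coord_of_ne_zero hQ0
  obtain ⟨x₃, y₃, g₃, e₃, -, s₃, -, hx₃, -, -⟩ := exists_coord_of_ne_zero hS0
  obtain ⟨x₄, y₄, g₄, e₄, -, s₄, -, hx₄, -, -⟩ := exists_coord_of_ne_zero hD0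
  have hne : x₁ ≠ x₂ := by
    intro e
    subst e
    rcases (Affine.Point.X_eq_iff (h₁ := g₁) (h₂ := g₂)).1 rfl with h | h
    · exact hD0 (Subtype.ext (show P.1 - Q.1 = 0 by rw [e₁, e₂, h, sub_self]))
    · exact hS0 (Subtype.ext (show P.1 + Q.1 = 0 by rw [e₁, e₂, h, neg_add_cancel]))
  obtain ⟨xa, ya, xs, ys, ha, hb, ea, eb, hsum, -⟩ := addSub_of_ne g₁ g₂ hne
  have hxa : xa = x₃ := by
    have : Affine.Point.some xa ya ha = Affine.Point.some x₃ y₃ g₃ := by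
      rw [← ea, ← e₁, ← e₂, ← e₃]; rfl
    exact ((Affine.Point.some.injEq ..).mp this).1
  have hxs : xs = x₄ := by
    have : Affine.Point.some xs ys hb = Affine.Point.some x₄ y₄ g₄ := by
      rw [← eb, ← e₁, ← e₂, ← e₄]; rfl
    exact ((Affine.Point.some.injEq ..).mp this).1
  subst hxa hxs
  have hu : ∀ T : LegTorsion Ω l (2 * k + 1), H.z T ∉ maximalIdeal C → IsUnit (H.s T) :=
    fun T hT => notMem_maximalIdeal.1 fun h => hT ((H.z_mem_iff T).1 h)
  obtain ⟨σ₁, hσ₁⟩ := hu P hP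
  obtain ⟨σ₂, hσ₂⟩ := hu Q hQ
  obtain ⟨σ₃, hσ₃⟩ := hu _ hS
  obtain ⟨σ₄, hσ₄⟩ := hu _ hD
  set a := algebraMap R C l with ha
  set X₁ : C := ↑σ₁⁻¹ with hX₁
  set X₂ : C := ↑σ₂⁻¹ with hX₂
  have hX : ∀ (σ : Cˣ) (T : LegTorsion Ω l (2 * k + 1)) (x : Ω), (σ : C) = H.s T → ts T = x⁻¹ →
      algebraMap C Ω ((σ⁻¹ : Cˣ) : C) = x := by
    intro σ T x h1 h3
    rw [← inv_inv x, ← h3, ← H.map_s, ← h1]
    exact (map_units_inv (algebraMap C Ω) σ)
  have key : ((↑σ₃⁻¹ : C) + ↑σ₄⁻¹) * ((X₁ + X₂) ^ 2 - 4 * (X₁ * X₂)) =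
      2 * (X₁ + X₂) * (X₁ * X₂) + (-4 * (1 + a)) * (X₁ * X₂) + 2 * a * (X₁ + X₂) := by
    apply inj (C := C) (Ω := Ω)
    simp only [map_add, map_sub, map_mul, map_pow, map_neg, map_ofNat, map_one, ha, algebraMap_l,
      hX₁, hX₂, hX σ₁ P x₁ hσ₁ s₁, hX σ₂ Q x₂ hσ₂ s₂, hX σ₃ _ xa hσ₃ s₃, hX σ₄ _ xs hσ₄ s₄]
    simp only [uP, tP, legendre, WeierstrassCurve.b₂, WeierstrassCurve.b₄,
      WeierstrassCurve.b₆] at hsum
    linear_combination hsum
  have hdiff : X₁ - X₂ ∈ maximalIdeal C := by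
    rw [show X₁ - X₂ = -(X₁ * X₂ * (H.s P - H.s Q)) by
      rw [← hσ₁, ← hσ₂, hX₁, hX₂]
      linear_combination (↑σ₂⁻¹ : C) * σ₁.inv_mul - (↑σ₁⁻¹ : C) * σ₂.inv_mul]
    exact neg_mem (Ideal.mul_mem_left _ _ hs)
  -- so `4 f(x) ≡ 0`
  have h4 : 4 * (X₂ * (X₂ - 1) * (X₂ - a)) ∈ maximalIdeal C := by
    have hl : ((↑σ₃⁻¹ : C) + ↑σ₄⁻¹) * ((X₁ + X₂) ^ 2 - 4 * (X₁ * X₂)) ∈ maximalIdeal C := by
      rw [show (X₁ + X₂) ^ 2 - 4 * (X₁ * X₂) = (X₁ - X₂) * (X₁ - X₂) by ring]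
      exact Ideal.mul_mem_left _ _ (Ideal.mul_mem_left _ _ hdiff)
    rw [key] at hl
    rw [show 4 * (X₂ * (X₂ - 1) * (X₂ - a)) =
      (2 * (X₁ + X₂) * (X₁ * X₂) + (-4 * (1 + a)) * (X₁ * X₂) + 2 * a * (X₁ + X₂)) -
        (X₁ - X₂) * (2 * X₁ * X₂ + 4 * X₂ ^ 2 - 4 * (1 + a) * X₂ + 2 * a) by ring]
    exact sub_mem hl (Ideal.mul_mem_right _ _ hdiff)
  refine notMem_maximalIdeal.2 ?_ h4
  have hX₂u : IsUnit X₂ := (σ₂⁻¹).isUnit
  have hmul : X₂ * H.s Q = 1 := by rw [hX₂, ← hσ₂, Units.inv_mul]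
  refine IsUnit.mul ?_ (IsUnit.mul (IsUnit.mul hX₂u ?_) ?_)
  · rw [show (4 : C) = 2 * 2 by norm_num]; exact h2.mul h2
  · rw [show X₂ - 1 = X₂ * (H.u Q : C) by rw [H.u_eq, mul_sub, mul_one, hmul]]
    exact hX₂u.mul (H.u Q).isUnit
  · rw [show X₂ - a = X₂ * (H.v Q : C) by rw [H.v_eq, mul_sub, mul_one, mul_left_comm, hmul, mul_one]]
    exact hX₂u.mul (H.v Q).isUnit

end HasCoords

end Local

end Fermat.Agent.Moduli
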