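import Fermat.Agent.Moduli.Point
import Mathlib.RingTheory.DiscreteValuationRing.Basic
import Mathlib.RingTheory.Localization.Away.Basic

/-!
# The base of the level three family over an unramified ring of residue characteristic two

`R = W[X][1/(X³ - 1)]`; a maximal ideal containing `2` is `(2, X - c)` with residue field that
of `W`.
-/

set_option autoImplicit false
set_option linter.style.haveILetI false

noncomputable section

namespace Fermat.Agent.Moduli

open Polynomial IsLocalRing

variable (W : Type) [CommRing W]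

/-- The polynomial to invert. -/
def hesseDisc : W[X] := X ^ 3 - 1

/-- The base. -/
abbrev HesseBase : Type := Localization.Away (hesseDisc W)

/-- The parameter. -/
def hesseVar : HesseBase W := algebraMap W[X] (HesseBase W) X

variable {W} [IsDomain W] [IsDiscreteValuationRing W]

lemma isUnit_hesseVar : IsUnit (hesseVar W ^ 3 - 1) := by
  have h := IsLocalization.Away.algebraMap_isUnit (S := HesseBase W) (hesseDisc W)
  simpa [hesseDisc, hesseVar] using h

lemma monic_hesseDisc : (hesseDisc W).Monic := by
  unfold hesseDisc; monicity!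

lemma hesseDisc_ne_zero : hesseDisc W ≠ 0 := monic_hesseDisc.ne_zero

instance instIsDomainHesseBase : IsDomain (HesseBase W) :=
  IsLocalization.isDomain_localization (powers_le_nonZeroDivisors_of_noZeroDivisors hesseDisc_ne_zero)

instance instIsNoetherianHesseBase : IsNoetherianRing (HesseBase W) :=
  IsLocalization.isNoetherianRing (Submonoid.powers (hesseDisc W)) (HesseBase W) inferInstance

instance instIsIntegrallyClosedHesseBase : IsIntegrallyClosed (HesseBase W) :=
  isIntegrallyClosed_of_isLocalization (HesseBase W) (Submonoid.powers (hesseDisc W))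
    (powers_le_nonZeroDivisors_of_noZeroDivisors hesseDisc_ne_zero)

lemma exists_hesseBase_mul (r : HesseBase W) : ∃ (P : W[X]) (n : ℕ),
    r * algebraMap W[X] (HesseBase W) (hesseDisc W ^ n) = algebraMap W[X] (HesseBase W) P := by
  obtain ⟨⟨P, ⟨_, n, rfl⟩⟩, h⟩ := IsLocalization.surj (Submonoid.powers (hesseDisc W)) r
  exact ⟨P, n, h⟩

variable [IsAlgClosed (ResidueField W)]

/-- A maximal ideal containing `2` is `(2, X - c)`, with residue field that of `W`. -/
theorem exists_hessePoint (hmax : maximalIdeal W = Ideal.span {(2 : W)}) (h20 : (2 : W) ≠ 0)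
    (I : Ideal (HesseBase W)) [I.IsMaximal] (h2I : (2 : HesseBase W) ∈ I) :
    ∃ c : W, I = Ideal.span {(2 : HesseBase W), hesseVar W - algebraMap W[X] (HesseBase W) (C c)} ∧
      SplitsMod I ∧ ∃ P : Ideal (HesseBase W), P.IsPrime ∧ P ≠ ⊥ ∧ P < I := by
  classical
  let res := residue W
  set al := algebraMap W[X] (HesseBase W)
  set J := I.comap al
  haveI : J.IsPrime := Ideal.comap_isPrime _ _
  have hres : ∀ w : W, res w = 0 ↔ (2 : W) ∣ w := fun w => by
    rw [residue_eq_zero_iff, hmax, Ideal.mem_span_singleton]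
  have hker : ∀ P : W[X], P.map res = 0 → P ∈ J := fun P hP => by
    obtain ⟨Q, rfl⟩ : C (2 : W) ∣ P := (C_dvd_iff_dvd_coeff _ _).2 fun i => by
      rw [← hres, ← coeff_map, hP, coeff_zero]
    refine J.mul_mem_right _ ?_
    show al (C 2) ∈ I
    rwa [map_ofNat, map_ofNat]
  have hdisc : (hesseDisc W).map res ≠ 0 := (monic_hesseDisc.map res).ne_zero
  -- the point
  obtain ⟨c, hc⟩ : ∃ c : W, X - C c ∈ J := by
    by_contra hno
    push Not at hno
    have hP : ∀ P : W[X], P.map res ≠ 0 → P ∉ J := by
      intro P hP hPJ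
      have hspl := (IsAlgClosed.splits (P.map res)).eq_prod_roots
      choose lift hlift using residue_surjective (R := W)
      set Q : W[X] := C (lift (P.map res).leadingCoeff) *
        ((P.map res).roots.map fun r => X - C (lift r)).prod
      have hQ : (P - Q).map res = 0 := by
        rw [Polynomial.map_sub, sub_eq_zero]
        conv_lhs => rw [hspl]
        simp only [Q, Polynomial.map_mul, map_C, hlift, Polynomial.map_multiset_prod,
          Multiset.map_map, Function.comp_def, Polynomial.map_sub, map_X, res]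
      have hQJ : Q ∈ J := by
        have := J.sub_mem hPJ (hker _ hQ)
        rwa [sub_sub_cancel] at this
      rcases (Ideal.IsPrime.mem_or_mem inferInstance hQJ) with h | h
      · have hu : IsUnit (lift (P.map res).leadingCoeff) :=
          (residue_ne_zero_iff_isUnit _).1 (by
            rw [hlift]; exact leadingCoeff_ne_zero.2 hP)
        exact Ideal.IsPrime.ne_top inferInstance (Ideal.eq_top_of_isUnit_mem J h (hu.map C))
      · rw [(inferInstance : J.IsPrime).multiset_prod_mem_iff_exists_mem] at h
        obtain ⟨y, hy, hyJ⟩ := h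
        obtain ⟨r, -, rfl⟩ := Multiset.mem_map.1 hy
        exact hno _ hyJ
    obtain ⟨r₀, hr₀⟩ := Infinite.exists_notMem_finset ((hesseDisc W).map res).roots.toFinset
    obtain ⟨c₀, rfl⟩ := residue_surjective r₀
    have hne : al (X - C c₀) ∉ I := hP _ (by
      rw [Polynomial.map_sub, map_X, map_C]; exact X_sub_C_ne_zero _)
    obtain ⟨r, i, hi, hri⟩ := Ideal.IsMaximal.exists_inv ‹I.IsMaximal› hne
    obtain ⟨P, n, hP'⟩ := exists_hesseBase_mul r
    have hmem : P * (X - C c₀) - hesseDisc W ^ n ∈ J := by
      show al _ ∈ I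
      rw [map_sub, map_mul, ← hP']
      have : r * al (X - C c₀) - 1 ∈ I := by
        rw [show r * al (X - C c₀) - 1 = -i by rw [← hri]; ring]
        exact I.neg_mem hi
      have := I.mul_mem_right (al (hesseDisc W ^ n)) this
      rwa [sub_mul, one_mul, mul_assoc, mul_comm (al (X - C c₀)), ← mul_assoc] at this
    have hz : (P * (X - C c₀) - hesseDisc W ^ n).map res = 0 := not_not.1 fun h => hP _ h hmem
    rw [Polynomial.map_sub, Polynomial.map_mul, Polynomial.map_pow, sub_eq_zero] at hz
    have h0 := congrArg (Polynomial.eval (residue W c₀)) hz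
    rw [eval_mul, eval_pow, Polynomial.map_sub, map_X, map_C, eval_sub, eval_X, eval_C,
      sub_self, mul_zero, eq_comm] at h0
    exact hr₀ (Multiset.mem_toFinset.2 ((mem_roots hdisc).2 (eq_zero_of_pow_eq_zero h0)))
  set t := al (X - C c)
  have htI : t ∈ I := hc
  have hlc : hesseVar W - al (C c) = t := by rw [hesseVar, ← map_sub]
  -- evaluation at the point
  have hgu : IsUnit (eval₂RingHom res (res c) (hesseDisc W)) := by
    rw [isUnit_iff_ne_zero, coe_eval₂RingHom, eval₂_at_apply]
    intro h
    refine (Ideal.IsMaximal.ne_top ‹_›) (Ideal.eq_top_of_isUnit_mem I ?_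
      (IsLocalization.Away.algebraMap_isUnit (S := HesseBase W) (hesseDisc W)))
    obtain ⟨Q, hQ⟩ := X_sub_C_dvd_sub_C_eval (a := c) (p := hesseDisc W)
    have h' : (X - C c) * Q + C ((hesseDisc W).eval c) ∈ J :=
      J.add_mem (J.mul_mem_right _ hc) (hker _ (by rw [map_C, h, C_0]))
    rw [← hQ, sub_add_cancel] at h'
    exact h'
  let ρ : HesseBase W →+* ResidueField W := IsLocalization.Away.lift (hesseDisc W) hgu
  have hρ : ∀ P : W[X], ρ (al P) = res (P.eval c) := fun P => by
    rw [IsLocalization.Away.lift_eq, coe_eval₂RingHom, eval₂_at_apply]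
  have hρs : Function.Surjective ρ := fun x => by
    obtain ⟨w, rfl⟩ := residue_surjective x
    exact ⟨al (C w), by rw [hρ, eval_C]⟩
  have hspan : Ideal.span {(2 : HesseBase W), t} = RingHom.ker ρ := by
    apply le_antisymm
    · rw [Ideal.span_le]
      rintro x (rfl | rfl)
      · show ρ _ = 0
        rw [map_ofNat, ← map_ofNat res, hres]
      · show ρ t = 0
        rw [hρ, eval_sub, eval_X, eval_C, sub_self, map_zero]
    · intro r hr
      rw [RingHom.mem_ker] at hr
      obtain ⟨P, n, hP⟩ := exists_hesseBase_mul r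
      have h0 : res (P.eval c) = 0 := by rw [← hρ, ← hP, map_mul, hr, zero_mul]
      obtain ⟨Q, hQ⟩ := X_sub_C_dvd_sub_C_eval (a := c) (p := P)
      obtain ⟨b, hb⟩ := (hres _).1 h0
      have hu : IsUnit (al (hesseDisc W ^ n)) := by
        rw [map_pow]
        exact (IsLocalization.Away.algebraMap_isUnit (S := HesseBase W) (hesseDisc W)).pow n
      rw [← Ideal.mul_unit_mem_iff_mem _ hu, hP, show P = (X - C c) * Q + C (P.eval c) by
        rw [← hQ, sub_add_cancel], hb, map_mul C, map_add, map_mul, map_mul, map_ofNat, map_ofNat]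
      exact add_mem (Ideal.mul_mem_right _ _ (Ideal.subset_span (Or.inr rfl)))
        (Ideal.mul_mem_right _ _ (Ideal.subset_span (Or.inl rfl)))
  haveI hkmax : (RingHom.ker ρ).IsMaximal := RingHom.ker_isMaximal_of_surjective ρ hρs
  have hI : Ideal.span {(2 : HesseBase W), t} = I := hspan.trans (hkmax.eq_of_le
    (Ideal.IsMaximal.ne_top ‹_›) (by
      rw [← hspan, Ideal.span_le]
      rintro x (rfl | rfl)
      exacts [h2I, htI]))
  refine ⟨c, by rw [hlc, hI], splitsMod_of_isAlgClosed ρ hρs (hspan.symm.trans hI).le, ?_⟩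
  -- the curve `X = c` through the point
  have h1 : IsUnit (eval₂RingHom (RingHom.id W) c (hesseDisc W)) := by
    rw [coe_eval₂RingHom, eval₂_id]
    refine (residue_ne_zero_iff_isUnit _).1 ?_
    rw [coe_eval₂RingHom, eval₂_at_apply, isUnit_iff_ne_zero] at hgu
    exact hgu
  let ψ : HesseBase W →+* W := IsLocalization.Away.lift (hesseDisc W) h1
  have hψ : ∀ P : W[X], ψ (al P) = P.eval c := fun P => by
    rw [IsLocalization.Away.lift_eq, coe_eval₂RingHom, eval₂_id]
  refine ⟨RingHom.ker ψ, RingHom.ker_isPrime ψ, ?_, ?_⟩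
  · refine fun h => ?_
    have ht : t ∈ RingHom.ker ψ := by
      show ψ t = 0
      rw [hψ, eval_sub, eval_X, eval_C, sub_self]
    rw [h, Ideal.mem_bot] at ht
    exact X_sub_C_ne_zero c (IsLocalization.injective (HesseBase W)
      (powers_le_nonZeroDivisors_of_noZeroDivisors hesseDisc_ne_zero) (ht.trans (map_zero al).symm))
  · refine lt_of_le_of_ne (fun r hr => ?_) ?_
    · obtain ⟨P, n, hP⟩ := exists_hesseBase_mul r
      have h0 : P.eval c = 0 := by rw [← hψ, ← hP, map_mul, (RingHom.mem_ker).1 hr, zero_mul]
      rw [← hI, hspan, RingHom.mem_ker]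
      have hu : IsUnit (ρ (al (hesseDisc W ^ n))) := by
        rw [map_pow, map_pow]
        exact ((IsLocalization.Away.algebraMap_isUnit (S := HesseBase W) (hesseDisc W)).map ρ).pow n
      refine hu.mul_left_eq_zero.1 ?_
      rw [← map_mul, hP, hρ, h0, map_zero]
    · intro h
      have : ψ 2 = 0 := by rw [← RingHom.mem_ker, h]; exact h2I
      rw [map_ofNat] at this
      exact h20 this

end Fermat.Agent.Moduli
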