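import Fermat.Agent.Moduli.Galois
import Fermat.Agent.Moduli.Mu

/-!
# Torsion of two-power order at odd residue characteristic

The coordinates are integral, and translation by a point of order two has no fixed point in the
special fibre, so an element fixing a closed point fixes all torsion of two-power order.
-/

set_option autoImplicit false
set_option linter.unusedSectionVars false
set_option linter.style.haveILetI false

noncomputable section

namespace Fermat.Agent.Moduli

open WeierstrassCurve Polynomial Fermat.Agent.EC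
open scoped Pointwise

section Translation

variable {R : Type*} [CommRing R] {Ω : Type*} [Field Ω] [CharZero Ω] [DecidableEq Ω] [Algebra R Ω]
  {l : R}

/-- A point of order two has abscissa `0`, `1` or `l`. -/
lemma two_torsion_cases {x y : Ω} (h : (legendreΩ Ω l).toAffine.Nonsingular x y)
    (h2 : 2 • Affine.Point.some x y h = 0) :
    y = 0 ∧ ∃ r : R, (r = 0 ∨ r = 1 ∨ r = l) ∧ x = algebraMap R Ω r := by
  have hy : y = 0 := by
    rw [two_nsmul, add_self_eq_zero_iff] at h2
    simpa [legendre] using h2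
  have he := equation_legendre h.1
  rw [hy, zero_pow two_ne_zero] at he
  replace he : x * (x - 1) * (x - algebraMap R Ω l) = 0 := by linear_combination -he
  rw [mul_eq_zero, mul_eq_zero, sub_eq_zero, sub_eq_zero] at he
  refine ⟨hy, ?_⟩
  rcases he with (e | e) | e
  · exact ⟨0, Or.inl rfl, by rw [e, map_zero]⟩
  · exact ⟨1, Or.inr (Or.inl rfl), by rw [e, map_one]⟩
  · exact ⟨l, Or.inr (Or.inr rfl), e⟩

/-- Translation by a point of order two. -/
lemma add_two_torsion {r : R} (hr : r = 0 ∨ r = 1 ∨ r = l) {x y y₀ : Ω}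
    (h : (legendreΩ Ω l).toAffine.Nonsingular x y)
    (h₀ : (legendreΩ Ω l).toAffine.Nonsingular (algebraMap R Ω r) y₀) (hy₀ : y₀ = 0)
    (hx : x ≠ algebraMap R Ω r) :
    ∃ (x' y' : Ω) (h' : (legendreΩ Ω l).toAffine.Nonsingular x' y'),
      Affine.Point.some x y h + Affine.Point.some _ _ h₀ = Affine.Point.some x' y' h' ∧
      (x' - algebraMap R Ω r) * (x - algebraMap R Ω r) = algebraMap R Ω (slopeAt l r) ∧
      y' * (x - algebraMap R Ω r) ^ 2 = -(y * algebraMap R Ω (slopeAt l r)) := by
  subst hy₀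
  have hx' : x - algebraMap R Ω r ≠ 0 := sub_ne_zero.2 hx
  have he := equation_legendre h.1
  have h' := Affine.nonsingular_add h h₀ fun hxy => hx hxy.1
  refine ⟨_, _, h', Affine.Point.add_of_X_ne hx, ?_⟩
  have e : ((legendreΩ Ω l).toAffine.addX x (algebraMap R Ω r)
      ((legendreΩ Ω l).toAffine.slope x (algebraMap R Ω r) y 0) - algebraMap R Ω r) *
        (x - algebraMap R Ω r) = algebraMap R Ω (slopeAt l r) := by
    rw [Affine.slope_of_X_ne hx, Affine.addX]
    simp only [legendre, slopeAt, map_add, map_sub, map_mul, map_pow, map_ofNat, map_one,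
      zero_mul, add_zero, sub_zero]
    field_simp
    rcases hr with rfl | rfl | rfl <;> (try simp only [map_zero, map_one]) <;> linear_combination he
  refine ⟨e, ?_⟩
  rw [Affine.addY, Affine.negAddY, negY_legendre]
  set x' := (legendreΩ Ω l).toAffine.addX x (algebraMap R Ω r)
      ((legendreΩ Ω l).toAffine.slope x (algebraMap R Ω r) y 0)
  rw [Affine.slope_of_X_ne hx, sub_zero]
  field_simp
  linear_combination -y * e

/-- The arithmetic at a point where translation by `(r, 0)` would fix the special fibre. -/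
lemma no_fixed_translate [IsDomain R] [IsIntegrallyClosed R] {B : Type*} [CommRing B] [Algebra R B] {m : Ideal B} [m.IsPrime]
    (hl : IsUnit l) (hl1 : IsUnit (1 - l)) (h2 : IsUnit (2 : R)) {r : R}
    (hr : r = 0 ∨ r = 1 ∨ r = l) {X Y X' Y' : B}
    (hY : Y ^ 2 = X * (X - 1) * (X - algebraMap R B l))
    (hX' : (X' - algebraMap R B r) * (X - algebraMap R B r) = algebraMap R B (slopeAt l r))
    (hY' : Y' * (X - algebraMap R B r) ^ 2 = -(Y * algebraMap R B (slopeAt l r)))
    (hXm : X' - X ∈ m) (hYm : Y' - Y ∈ m) : False := by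
  set π := Ideal.Quotient.mk m
  set φ : R →+* B ⧸ m := π.comp (algebraMap R B)
  have hd : IsUnit (slopeAt l r) := by
    rcases hr with rfl | rfl | rfl
    exacts [isUnit_slopeAt_zero hl, isUnit_slopeAt_one hl1, isUnit_slopeAt_self hl hl1]
  have ex : π X' = π X := Ideal.Quotient.eq.2 hXm
  have ey : π Y' = π Y := Ideal.Quotient.eq.2 hYm
  have a1 := congrArg π hX'
  have a2 := congrArg π hY'
  have a3 := congrArg π hY
  simp only [map_mul, map_sub, map_pow, map_neg, map_one] at a1 a2 a3
  rw [ex] at a1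
  rw [ey] at a2
  change (π X - φ r) * (π X - φ r) = φ (slopeAt l r) at a1
  change π Y * (π X - φ r) ^ 2 = -(π Y * φ (slopeAt l r)) at a2
  change π Y ^ 2 = π X * (π X - 1) * (π X - φ l) at a3
  set u := π X - φ r with hu_def
  set d := φ (slopeAt l r) with hd_def
  have hd0 : d ≠ 0 := (hd.map φ).ne_zero
  have h20 : (2 : B ⧸ m) ≠ 0 := by
    have := (h2.map φ).ne_zero
    rwa [map_ofNat] at this
  have hY0 : π Y = 0 := by
    have : π Y * (2 * d) = 0 := by linear_combination a2 - π Y * a1
    exact (mul_eq_zero.1 this).resolve_right (mul_ne_zero h20 hd0)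
  set A := φ (3 * r - (1 + l)) with hA
  have a4 : π X * (π X - 1) * (π X - φ l) = u * (u ^ 2 + A * u + d) := by
    rw [hu_def, hA, hd_def]
    rcases hr with rfl | rfl | rfl <;>
      simp only [slopeAt, map_add, map_sub, map_mul, map_pow, map_ofNat, map_one, map_zero] <;>
      ring
  have hu0 : u ≠ 0 := fun e => hd0 (by rw [← a1, e, mul_zero])
  have a5 : A * u = -(2 * d) := by
    rw [hY0, a4, zero_pow two_ne_zero, eq_comm, mul_eq_zero] at a3
    linear_combination a3.resolve_left hu0 - a1
  have a6 : d * (A ^ 2 - 4 * d) = 0 := by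
    linear_combination (A * u - 2 * d) * a5 - A ^ 2 * a1
  have a7 := (mul_eq_zero.1 a6).resolve_left hd0
  have hdisc : IsUnit ((3 * r - (1 + l)) ^ 2 - 4 * slopeAt l r) := by
    rcases hr with rfl | rfl | rfl
    · convert hl1.pow 2 using 1; simp only [slopeAt]; ring
    · convert hl.pow 2 using 1; simp only [slopeAt]; ring
    · convert isUnit_one using 1; simp only [slopeAt]; ring
  refine (hdisc.map φ).ne_zero ?_
  rw [hA, hd_def] at a7
  simp only [map_sub, map_mul, map_pow, map_ofNat]
  simp only [map_sub, map_mul, map_ofNat] at a7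
  exact a7

lemma legTorsion_mem_iff {n : ℕ} {P : (legendreΩ Ω l).toAffine.Point} :
    P ∈ Submodule.torsionBy ℤ (legendreΩ Ω l).toAffine.Point (n : ℤ) ↔ n • P = 0 := by
  rw [Submodule.mem_torsionBy_iff, natCast_zsmul]

end Translation

variable {R : Type*} [CommRing R] [IsDomain R] [IsIntegrallyClosed R] [IsNoetherianRing R]
  {K : Type*} [Field K] [Algebra R K] [IsFractionRing R K] {Ω : Type*} [Field Ω] [IsAlgClosed Ω]
  [CharZero Ω] [DecidableEq Ω] [Algebra K Ω] [Algebra.IsAlgebraic K Ω] [Algebra R Ω]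
  [IsScalarTower R K Ω] [FaithfulSMul R Ω] {l : R}

omit [IsNoetherianRing R] in
/-- Two-power torsion has integral coordinates. -/
theorem isIntegral_two_power (hl : IsUnit l) (hl1 : IsUnit (1 - l)) (h2 : IsUnit (2 : R)) {a : ℕ}
    {x y : Ω} (h : (legendreΩ Ω l).toAffine.Nonsingular x y)
    (hT : 2 ^ a • Affine.Point.some x y h = 0) : IsIntegral R x ∧ IsIntegral R y := by
  haveI := legendre_isElliptic (Ω := Ω) hl hl1
  have hinj := FaithfulSMul.algebraMap_injective R Ω
  obtain ⟨A, b, hab⟩ := exists_mulPair (W := legendre l) hinj (2 ^ a) Nat.one_le_two_pow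
  have hb := (eval_b_eq_zero_iff_of_eq hl hl1 hab (map_legendre _ _) h).2 hT
  have hu : IsUnit (((2 ^ a : ℕ) : R) ^ 2) := by
    push_cast
    exact (h2.pow a).pow 2
  have hlc : b.leadingCoeff = ((2 ^ a : ℕ) : R) ^ 2 := by
    rw [leadingCoeff, natDegree_eq_of_le_of_coeff_ne_zero hab.natDegree_b
      (by rw [hab.coeff_b]; exact hu.ne_zero), hab.coeff_b]
  obtain ⟨u, hu⟩ := hu
  have hx : IsIntegral R x := by
    refine ⟨C (↑u⁻¹ : R) * b, ?_, by rw [eval₂_mul, eval₂_eq_eval_map (p := b), hb, mul_zero]⟩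
    simp only [Monic.def, leadingCoeff_mul, leadingCoeff_C, hlc, ← hu, Units.inv_mul]
  refine ⟨hx, IsIntegral.of_pow two_pos ?_⟩
  rw [equation_legendre h.1]
  exact ((hx.pow 3).sub ((isIntegral_one.add isIntegral_algebraMap).mul (hx.pow 2))).add
    (isIntegral_algebraMap.mul hx)

variable (L : IntermediateField K Ω) [FiniteDimensional K L] [IsGalois K L]

/-- An element fixing a closed point fixes the torsion of two-power order. -/
theorem autPoint_two_power (hl : IsUnit l) (hl1 : IsUnit (1 - l)) (h2 : IsUnit (2 : R))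
    {I : Ideal R} (hI : SplitsMod I) {m : Ideal (IntCl R L)} [m.IsPrime]
    (hle : ∀ r ∈ I, algebraMap R (IntCl R L) r ∈ m) {g : L ≃ₐ[K] L} (hg : g • m = m) :
    ∀ a : ℕ, CoordsIn L l (2 ^ a) → ∀ T : (legendreΩ Ω l).toAffine.Point, 2 ^ a • T = 0 →
      autPoint (liftAut L g) T = T := by
  intro a
  induction a with
  | zero =>
    intro _ T hT
    rw [pow_zero, one_nsmul] at hT
    rw [hT, map_zero]
  | succ a ih =>
    intro hL T hT
    haveI := legendreΩ_isElliptic (Ω := Ω) hl hl1
    set f := autPoint (l := l) (liftAut L g)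
    have hL' : CoordsIn L l (2 ^ a) := fun S x y h e => by
      refine hL ⟨S.1, ?_⟩ x y h e
      rw [legTorsion_mem_iff, pow_succ', mul_nsmul', legTorsion_mem_iff.1 S.2, nsmul_zero]
    have h2T : f (2 • T) = 2 • T := ih hL' _ (by rwa [← mul_nsmul, ← pow_succ'])
    set S := f T - T
    have hS : 2 • S = 0 := by rw [nsmul_sub, ← map_nsmul, h2T, sub_self]
    by_contra hne
    rcases eT : T with _ | ⟨x, y, h⟩
    · exact hne (by rw [eT]; exact map_zero f)
    rcases eS : S with _ | ⟨xs, ys, hs⟩
    · exact hne (sub_eq_zero.1 eS)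
    rw [eS] at hS
    obtain ⟨hys, r, hr, hxs⟩ := two_torsion_cases hs hS
    obtain ⟨h', ef⟩ := autPoint_some (l := l) (liftAut L g) h
    have hfix : ∀ c : R, liftAut L g (algebraMap R Ω c) = algebraMap R Ω c := fun c => by
      rw [IsScalarTower.algebraMap_apply R K Ω, AlgHom.commutes]
    by_cases hx : x = algebraMap R Ω r
    · apply hne
      have hy : y = 0 := by
        have he := equation_legendre h.1
        rw [hx] at he
        refine pow_eq_zero_iff two_ne_zero |>.1 (he.trans ?_)
        rcases hr with rfl | rfl | rfl <;> (try simp only [map_zero, map_one]) <;> ring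
      rw [eT, ef, Affine.Point.some.injEq]
      exact ⟨by rw [hx, hfix], by rw [hy, map_zero]⟩
    subst hxs
    obtain ⟨x', y', h'', hadd, e1, e2⟩ := add_two_torsion hr h hs hys hx
    have efs : f T = Affine.Point.some x' y' h'' := by
      rw [← hadd, ← eT, ← eS]
      exact (add_sub_cancel T (f T)).symm
    rw [eT] at efs
    rw [show f (Affine.Point.some x y h) = _ from ef, Affine.Point.some.injEq] at efs
    rw [← efs.1] at e1
    rw [← efs.2] at e2
    obtain ⟨hxL, hyL⟩ := hL ⟨T, legTorsion_mem_iff.2 hT⟩ x y h eT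
    obtain ⟨hxi, hyi⟩ := isIntegral_two_power (a := a + 1) hl hl1 h2 h (eT ▸ hT)
    have mk : ∀ z : Ω, z ∈ L → IsIntegral R z →
        ∃ b : IntCl R L, algebraMap (IntCl R L) Ω b = z :=
      fun z hz hi => ⟨⟨⟨z, hz⟩, (isIntegral_algHom_iff (IsScalarTower.toAlgHom R L Ω)
        Subtype.val_injective).1 hi⟩, rfl⟩
    obtain ⟨X, hX⟩ := mk x hxL hxi
    obtain ⟨Y, hY⟩ := mk y hyL hyi
    have hg' : ∀ b : IntCl R L,
        algebraMap (IntCl R L) Ω (g • b) = liftAut L g (algebraMap (IntCl R L) Ω b) :=
      fun b => (liftAut_coe L g (b : L)).symm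
    have hinj := FaithfulSMul.algebraMap_injective (IntCl R L) Ω
    haveI := isIntegrallyClosed_intCl (R := R) L
    haveI := faithfulSMul_intCl (R := R) L
    have hr' : ∀ c : R, algebraMap (IntCl R L) Ω (algebraMap R (IntCl R L) c) = algebraMap R Ω c :=
      fun c => (IsScalarTower.algebraMap_apply R (IntCl R L) Ω c).symm
    refine no_fixed_translate (B := IntCl R L) (m := m) hl hl1 h2 hr (X := X) (Y := Y)
      (X' := g • X) (Y' := g • Y) ?_ ?_ ?_ (smul_sub_mem_of_fix hI hle hg X)
      (smul_sub_mem_of_fix hI hle hg Y)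
    all_goals apply hinj
    · simp only [map_pow, map_mul, map_sub, map_one, hr', hX, hY]
      linear_combination equation_legendre h.1
    · simp only [map_mul, map_sub, hr', hg', hX]
      exact e1
    · simp only [map_pow, map_mul, map_sub, map_neg, hr', hg', hX, hY]
      exact e2

end Fermat.Agent.Moduli
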