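import Fermat.Agent.Moduli.WpAdd
import Fermat.Agent.Moduli.Chord

/-!
# The Weierstrass uniformisation of the Legendre curve

For three half periods `h₀, h₁, h₂` the map `z ↦ ((℘ z - e₀)/(e₁ - e₀), ℘' z / (2 r³))` is a
homomorphism from `ℂ` to the Legendre curve at `(e₂ - e₀)/(e₁ - e₀)` with kernel the lattice.
-/

set_option autoImplicit false
set_option linter.style.haveILetI false

noncomputable section

namespace Fermat.Agent.Moduli

open WeierstrassCurve PeriodPair Fermat.Agent.GalRep.Model Fermat.Agent.EC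

/-- The three classes of half periods. -/
structure HalfPeriods (L : PeriodPair) where
  h : Fin 3 → ℂ
  two_mul_mem : ∀ i, 2 * h i ∈ L.lattice
  notMem : ∀ i, h i ∉ L.lattice
  sub_notMem : ∀ i j, i ≠ j → h i - h j ∉ L.lattice

namespace HalfPeriods

variable {L : PeriodPair} (P : HalfPeriods L)

/-- The values of `℘` at the half periods. -/
def e (i : Fin 3) : ℂ := L.weierstrassP (P.h i)

lemma deriv_eq_zero (i : Fin 3) : L.derivWeierstrassP (P.h i) = 0 := by
  have h1 := L.derivWeierstrassP_add_coe (-P.h i) ⟨_, P.two_mul_mem i⟩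
  rw [show -P.h i + 2 * P.h i = P.h i by ring, L.derivWeierstrassP_neg] at h1
  linear_combination h1 / 2

lemma e_injective : Function.Injective P.e := by
  intro i j hij
  by_contra hne
  rcases wp_eq_iff_mem L (P.notMem i) (P.notMem j) hij with h | h
  · exact P.sub_notMem i j hne h
  · exact P.sub_notMem i j hne (by
      have := L.lattice.sub_mem h (P.two_mul_mem j)
      rwa [show P.h i + P.h j - 2 * P.h j = P.h i - P.h j by ring] at this)

lemma cubic_eq_zero (i : Fin 3) : 4 * P.e i ^ 3 - L.g₂ * P.e i - L.g₃ = 0 := by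
  have := L.derivWeierstrassP_sq _ (P.notMem i)
  rw [P.deriv_eq_zero] at this
  rw [e, ← this]
  ring

lemma cubic_eq (x : ℂ) :
    4 * x ^ 3 - L.g₂ * x - L.g₃ = 4 * (x - P.e 0) * (x - P.e 1) * (x - P.e 2) := by
  have h0 := P.cubic_eq_zero 0
  have h1 := P.cubic_eq_zero 1
  have h2 := P.cubic_eq_zero 2
  have n01 : P.e 0 - P.e 1 ≠ 0 := sub_ne_zero.2 (P.e_injective.ne (by decide))
  have n12 : P.e 1 - P.e 2 ≠ 0 := sub_ne_zero.2 (P.e_injective.ne (by decide))
  have n02 : P.e 0 - P.e 2 ≠ 0 := sub_ne_zero.2 (P.e_injective.ne (by decide))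
  have a : L.g₂ = 4 * (P.e 0 ^ 2 + P.e 0 * P.e 1 + P.e 1 ^ 2) := by
    apply mul_left_cancel₀ n01
    linear_combination h1 - h0
  have b : L.g₂ = 4 * (P.e 1 ^ 2 + P.e 1 * P.e 2 + P.e 2 ^ 2) := by
    apply mul_left_cancel₀ n12
    linear_combination h2 - h1
  have s : P.e 0 + P.e 1 + P.e 2 = 0 := by
    apply mul_left_cancel₀ n02
    linear_combination (b - a) / 4
  have e2 : P.e 2 = -P.e 0 - P.e 1 := by linear_combination s
  rw [e2]
  linear_combination h0 + (P.e 0 - x) * a

lemma sub_ne : P.e 1 - P.e 0 ≠ 0 := sub_ne_zero.2 (P.e_injective.ne (by decide))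

/-- The Legendre parameter. -/
def lam : ℂ := (P.e 2 - P.e 0) / (P.e 1 - P.e 0)

lemma lam_ne_zero : P.lam ≠ 0 :=
  div_ne_zero (sub_ne_zero.2 (P.e_injective.ne (by decide))) P.sub_ne

lemma lam_ne_one : P.lam ≠ 1 := by
  rw [lam, Ne, div_eq_one_iff_eq P.sub_ne, sub_left_inj]
  exact P.e_injective.ne (by decide)

/-- A square root of `e₁ - e₀`. -/
def root : ℂ := (IsAlgClosed.exists_pow_nat_eq (P.e 1 - P.e 0) two_pos).choose

lemma root_sq : P.root ^ 2 = P.e 1 - P.e 0 :=
  (IsAlgClosed.exists_pow_nat_eq (P.e 1 - P.e 0) two_pos).choose_spec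

lemma root_ne : P.root ≠ 0 := fun h => P.sub_ne (by rw [← P.root_sq, h]; ring)

/-- The abscissa. -/
def X (z : ℂ) : ℂ := (L.weierstrassP z - P.e 0) / (P.e 1 - P.e 0)

/-- The ordinate. -/
def Y (z : ℂ) : ℂ := L.derivWeierstrassP z / (2 * P.root ^ 3)

lemma nonsingular {z : ℂ} (hz : z ∉ L.lattice) :
    (legendre P.lam).toAffine.Nonsingular (P.X z) (P.Y z) := by
  haveI : (legendre P.lam).IsElliptic := ⟨by
    rw [legendre_Δ, isUnit_iff_ne_zero]
    exact mul_ne_zero (by norm_num)
      (pow_ne_zero _ (mul_ne_zero P.lam_ne_zero (sub_ne_zero.2 P.lam_ne_one.symm)))⟩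
  refine (Affine.equation_iff_nonsingular).1 ((Affine.equation_iff ..).2 ?_)
  have hs := L.derivWeierstrassP_sq z hz
  rw [P.cubic_eq] at hs
  have r0 := P.root_ne
  have d0 := P.sub_ne
  have hr : (2 * P.root ^ 3) ^ 2 = 4 * (P.e 1 - P.e 0) ^ 3 := by rw [← P.root_sq]; ring
  have hY : P.Y z ^ 2 = P.X z * (P.X z - 1) * (P.X z - P.lam) := by
    rw [Y, div_pow, hr, hs, X, lam]
    field_simp
    ring
  simp only [legendre]
  linear_combination hY

open Classical in
/-- The point of the Legendre curve at `z`. -/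
def pointMap (z : ℂ) : (legendre P.lam).toAffine.Point :=
  if h : z ∈ L.lattice then 0 else .some _ _ (P.nonsingular h)

lemma pointMap_of_mem {z : ℂ} (hz : z ∈ L.lattice) : P.pointMap z = 0 := dif_pos hz

lemma pointMap_of_notMem {z : ℂ} (hz : z ∉ L.lattice) :
    P.pointMap z = .some _ _ (P.nonsingular hz) := dif_neg hz

lemma pointMap_eq_zero_iff {z : ℂ} : P.pointMap z = 0 ↔ z ∈ L.lattice := by
  refine ⟨fun h => by_contra fun hz => ?_, P.pointMap_of_mem⟩
  rw [P.pointMap_of_notMem hz] at h
  exact Affine.Point.some_ne_zero _ h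

lemma pointMap_add_lattice (z : ℂ) {l : ℂ} (hl : l ∈ L.lattice) :
    P.pointMap (z + l) = P.pointMap z := by
  by_cases hz : z ∈ L.lattice
  · rw [P.pointMap_of_mem hz, P.pointMap_of_mem (L.lattice.add_mem hz hl)]
  · have hzl : z + l ∉ L.lattice := fun h => hz (by simpa using L.lattice.sub_mem h hl)
    rw [P.pointMap_of_notMem hz, P.pointMap_of_notMem hzl, Affine.Point.some.injEq]
    exact ⟨by rw [X, X, ← L.weierstrassP_add_coe z ⟨l, hl⟩],
      by rw [Y, Y, ← L.derivWeierstrassP_add_coe z ⟨l, hl⟩]⟩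

lemma pointMap_neg (z : ℂ) : P.pointMap (-z) = -P.pointMap z := by
  by_cases hz : z ∈ L.lattice
  · rw [P.pointMap_of_mem hz, P.pointMap_of_mem (L.lattice.neg_mem hz), neg_zero]
  · have hz' : -z ∉ L.lattice := fun h => hz (by simpa using L.lattice.neg_mem h)
    rw [P.pointMap_of_notMem hz, P.pointMap_of_notMem hz', Affine.Point.neg_some,
      Affine.Point.some.injEq]
    exact ⟨by rw [X, X, L.weierstrassP_neg],
      by rw [negY_legendre, Y, Y, L.derivWeierstrassP_neg, neg_div]⟩

lemma pointMap_add_of_ne {z w : ℂ} (hz : z ∉ L.lattice) (hw : w ∉ L.lattice)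
    (hne : L.weierstrassP z ≠ L.weierstrassP w) :
    P.pointMap (z + w) = P.pointMap z + P.pointMap w := by
  have hc : z + w ∉ L.lattice := by
    intro hm
    refine hne ?_
    have h1 := L.weierstrassP_add_coe (-w) ⟨z + w, hm⟩
    rw [L.weierstrassP_neg] at h1
    simpa [add_comm z w] using h1
  obtain ⟨hx, hy⟩ := weierstrassP_add hz hw hne
  have d0 := P.sub_ne
  have r0 := P.root_ne
  have hX : P.X z ≠ P.X w := by
    intro h
    apply hne
    rw [X, X, div_left_inj' d0, sub_left_inj] at h
    exact h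
  have hd : L.weierstrassP z - L.weierstrassP w ≠ 0 := sub_ne_zero.2 hne
  set s := wpSlope L z w with hs
  have hsl : (legendre P.lam).toAffine.slope (P.X z) (P.X w) (P.Y z) (P.Y w) = s / (2 * P.root) := by
    have hdx : P.X z - P.X w = (L.weierstrassP z - L.weierstrassP w) / P.root ^ 2 := by
      rw [X, X, P.root_sq, div_sub_div_same, sub_sub_sub_cancel_right]
    have hdy : P.Y z - P.Y w = (L.derivWeierstrassP z - L.derivWeierstrassP w) / (2 * P.root ^ 3) := by
      rw [Y, Y, div_sub_div_same]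
    rw [Affine.slope_of_X_ne hX, hdx, hdy, hs, wpSlope, div_div_div_eq, div_div]
    field_simp
  rw [P.pointMap_of_notMem hz, P.pointMap_of_notMem hw, P.pointMap_of_notMem hc,
    Affine.Point.add_of_X_ne hX, Affine.Point.some.injEq]
  have hx3 : P.X (z + w) = (legendre P.lam).toAffine.addX (P.X z) (P.X w)
      ((legendre P.lam).toAffine.slope (P.X z) (P.X w) (P.Y z) (P.Y w)) := by
    have hsum : P.e 0 + P.e 1 + P.e 2 = 0 := by
      have a := P.cubic_eq 0
      have b := P.cubic_eq 1
      have c := P.cubic_eq (-1)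
      linear_combination (b + c - 2 * a) / 8
    rw [hsl, Affine.addX, X, X, X, hx]
    simp only [legendre, lam, zero_mul, add_zero, neg_neg, sub_neg_eq_add, div_pow, mul_pow,
      P.root_sq]
    field_simp
    linear_combination -16 * hsum
  refine ⟨hx3, ?_⟩
  rw [Affine.addY, Affine.negAddY, ← hx3, negY_legendre, hsl, X, X, Y, Y]
  rw [show L.derivWeierstrassP (z + w) =
    -(s * (L.weierstrassP (z + w) - L.weierstrassP z) + L.derivWeierstrassP z) by
      linear_combination -hy, ← P.root_sq]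
  field_simp
  ring

lemma pointMap_two_mul {z : ℂ} (hz : 2 * z ∉ L.lattice) :
    P.pointMap (2 * z) = P.pointMap z + P.pointMap z := by
  have hz1 : z ∉ L.lattice := fun h => hz (by rw [two_mul]; exact L.lattice.add_mem h h)
  obtain ⟨t, ht⟩ : ∃ t : ℂ, 2 * t ∉ L.lattice ∧ z + t ∉ L.lattice ∧ z - t ∉ L.lattice := by
    have hS : ((fun t : ℂ => 2 * t) ⁻¹' L.lattice ∪ (fun t : ℂ => z + t) ⁻¹' L.lattice ∪
        (fun t : ℂ => z - t) ⁻¹' L.lattice).Countable :=
      (((countable_lattice L).preimage (mul_right_injective₀ two_ne_zero)).union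
        ((countable_lattice L).preimage (add_right_injective z))).union
          ((countable_lattice L).preimage (sub_right_injective (b := z)))
    obtain ⟨t, ht⟩ := (hS.isConnected_compl_of_one_lt_rank (by simp)).1
    simp only [Set.mem_compl_iff, Set.mem_union, Set.mem_preimage, SetLike.mem_coe, not_or] at ht
    exact ⟨t, ht.1.1, ht.1.2, ht.2⟩
  obtain ⟨h2t, ha, hb⟩ := ht
  have ht1 : t ∉ L.lattice := fun h => h2t (by rw [two_mul]; exact L.lattice.add_mem h h)
  have hzt : L.weierstrassP z ≠ L.weierstrassP t := fun h =>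
    (wp_eq_iff_mem L hz1 ht1 h).elim hb ha
  have hab : L.weierstrassP (z + t) ≠ L.weierstrassP (z - t) := fun h =>
    (wp_eq_iff_mem L ha hb h).elim (fun h' => h2t (by rwa [show z + t - (z - t) = 2 * t by ring] at h'))
      (fun h' => hz (by rwa [show z + t + (z - t) = 2 * z by ring] at h'))
  have e1 := P.pointMap_add_of_ne hz1 ht1 hzt
  have e2 := P.pointMap_add_of_ne (w := -t) hz1 (fun h => ht1 (by simpa using L.lattice.neg_mem h))
    (by rw [L.weierstrassP_neg]; exact hzt)
  rw [show 2 * z = z + t + (z - t) by ring, P.pointMap_add_of_ne ha hb hab, sub_eq_add_neg z t, e1,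
    e2, P.pointMap_neg]
  abel

theorem pointMap_add (z w : ℂ) : P.pointMap (z + w) = P.pointMap z + P.pointMap w := by
  by_cases hz : z ∈ L.lattice
  · rw [add_comm z w, P.pointMap_add_lattice w hz, P.pointMap_of_mem hz, zero_add]
  by_cases hw : w ∈ L.lattice
  · rw [P.pointMap_add_lattice z hw, P.pointMap_of_mem hw, add_zero]
  by_cases hne : L.weierstrassP z = L.weierstrassP w
  · rcases wp_eq_iff_mem L hz hw hne with h | h
    · by_cases h2 : 2 * z ∈ L.lattice
      · have hsum : z + w ∈ L.lattice := by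
          have := L.lattice.sub_mem h2 h
          rwa [show 2 * z - (z - w) = z + w by ring] at this
        rw [P.pointMap_of_mem hsum]
        have e : P.pointMap w = P.pointMap (-z) := by
          rw [← P.pointMap_add_lattice (-z) hsum, neg_add_cancel_left]
        rw [e, P.pointMap_neg, add_neg_cancel]
      · have e : P.pointMap w = P.pointMap z := by
          rw [← P.pointMap_add_lattice w h, add_sub_cancel]
        rw [e, show z + w = 2 * z + -(z - w) by ring,
          P.pointMap_add_lattice _ (L.lattice.neg_mem h), P.pointMap_two_mul h2]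
    · rw [P.pointMap_of_mem h]
      have e : P.pointMap w = P.pointMap (-z) := by
        rw [← P.pointMap_add_lattice (-z) h, neg_add_cancel_left]
      rw [e, P.pointMap_neg, add_neg_cancel]
  · exact P.pointMap_add_of_ne hz hw hne

/-- The uniformisation as a homomorphism. -/
def uniform : ℂ →+ (legendre P.lam).toAffine.Point :=
  AddMonoidHom.mk' P.pointMap P.pointMap_add

lemma uniform_eq_zero_iff {z : ℂ} : P.uniform z = 0 ↔ z ∈ L.lattice := P.pointMap_eq_zero_iff

lemma uniform_of_notMem {z : ℂ} (hz : z ∉ L.lattice) :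
    P.uniform z = .some _ _ (P.nonsingular hz) := P.pointMap_of_notMem hz

end HalfPeriods

end Fermat.Agent.Moduli
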