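import Fermat.Agent.GalRep.Model.WpDiff

/-!
# The addition formula for the Weierstrass function

For fixed `c` the chord of the points at `z` and `c - z` has constant data in `z`: its derivative
vanishes identically, and its limit at `z = 0` is the point at `c`.
-/

set_option autoImplicit false
set_option linter.style.haveILetI false

noncomputable section

namespace Fermat.Agent.Moduli

open Filter Topology PeriodPair Fermat.Agent.GalRep.Model

variable (L : PeriodPair)

/-- The slope of the chord through the points at `z` and `w`. -/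
def wpSlope (z w : ℂ) : ℂ :=
  (L.derivWeierstrassP z - L.derivWeierstrassP w) / (L.weierstrassP z - L.weierstrassP w)

/-- The abscissa of the third intersection. -/
def chordAbscissa (c z : ℂ) : ℂ :=
  wpSlope L z (c - z) ^ 2 / 4 - L.weierstrassP z - L.weierstrassP (c - z)

/-- The ordinate of the chord over the abscissa at `c`. -/
def chordOrdinate (c z : ℂ) : ℂ :=
  wpSlope L z (c - z) * (L.weierstrassP c - L.weierstrassP z) + L.derivWeierstrassP z

/-- The points where the chord is defined. -/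
def chordDom (c : ℂ) : Set ℂ :=
  {z | z ∉ L.lattice ∧ c - z ∉ L.lattice ∧ L.weierstrassP z ≠ L.weierstrassP (c - z)}

lemma eventually_notMem_lattice : ∀ᶠ z in 𝓝[≠] (0 : ℂ), z ∉ L.lattice := by
  filter_upwards [nhdsWithin_le_nhds (L.compl_lattice_sdiff_singleton_mem_nhds 0),
    self_mem_nhdsWithin] with z hz hz0 hmem
  exact hz ⟨hmem, hz0⟩

lemma weierstrassP_eq_except (z : ℂ) :
    L.weierstrassP z = 1 / z ^ 2 + L.weierstrassPExcept 0 z := by
  have := L.weierstrassPExcept_def (0 : L.lattice) z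
  simp only [ZeroMemClass.coe_zero] at this
  rw [this]
  simp

lemma derivWeierstrassP_eq_except (z : ℂ) :
    L.derivWeierstrassP z = -2 / z ^ 3 + L.derivWeierstrassPExcept 0 z := by
  have := L.derivWeierstrassPExcept_def (0 : L.lattice) z
  simp only [ZeroMemClass.coe_zero, sub_zero] at this
  rw [this]
  ring

variable {L} {c : ℂ}

lemma isOpen_chordDom : IsOpen (chordDom L c) := by
  rw [isOpen_iff_mem_nhds]
  rintro z ⟨h1, h2, h3⟩
  have hf : Tendsto (fun w => L.weierstrassP w - L.weierstrassP (c - w)) (𝓝 z)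
      (𝓝 (L.weierstrassP z - L.weierstrassP (c - z))) :=
    ((L.analyticOnNhd_weierstrassP z h1).continuousAt.tendsto).sub
      (((L.analyticOnNhd_weierstrassP (c - z) h2).continuousAt.tendsto).comp
        ((continuous_const.sub continuous_id).tendsto z))
  filter_upwards [L.isClosed_lattice.isOpen_compl.mem_nhds h1,
    ((L.isClosed_lattice.preimage (continuous_const.sub continuous_id)).isOpen_compl).mem_nhds
      (show c - z ∉ (L.lattice : Set ℂ) from h2),
    hf.eventually_ne (sub_ne_zero.2 h3)] with w a b d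
  exact ⟨a, b, sub_ne_zero.1 d⟩

lemma countable_compl_chordDom (hc : c ∉ L.lattice) : (chordDom L c)ᶜ.Countable := by
  refine ((((countable_lattice L).union
    ((countable_lattice L).preimage (sub_right_injective (b := c)))).union
      ((countable_lattice L).image fun x => (x + c) / 2))).mono fun z hz => ?_
  simp only [chordDom, Set.mem_compl_iff, Set.mem_setOf_eq, not_and, ne_eq, not_not] at hz
  by_cases h1 : z ∈ L.lattice
  · exact Or.inl (Or.inl h1)
  by_cases h2 : c - z ∈ L.lattice
  · exact Or.inl (Or.inr h2)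
  rcases wp_eq_iff_mem L h1 h2 (hz h1 h2) with h | h
  · exact Or.inr ⟨z - (c - z), h, by ring⟩
  · exact absurd (by simpa using h) hc

lemma eventually_mem_chordDom (hc : c ∉ L.lattice) : ∀ᶠ z in 𝓝[≠] (0 : ℂ), z ∈ chordDom L c := by
  have h1 : ∀ᶠ z in 𝓝 (0 : ℂ), c - z ∉ L.lattice :=
    ((L.isClosed_lattice.preimage (continuous_const.sub continuous_id)).isOpen_compl).mem_nhds
      (show c - 0 ∉ (L.lattice : Set ℂ) by simpa using hc)
  have hE : Tendsto (fun z => 1 + z ^ 2 * (L.weierstrassPExcept 0 z - L.weierstrassP (c - z)))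
      (𝓝 (0 : ℂ)) (𝓝 1) := by
    have hQ : Tendsto (fun z => L.weierstrassP (c - z)) (𝓝 0) (𝓝 (L.weierstrassP (c - 0))) :=
      ((L.analyticOnNhd_weierstrassP (c - 0) (by simpa using hc)).continuousAt.tendsto).comp
        ((continuous_const.sub continuous_id).tendsto 0)
    have := (((continuous_pow 2).tendsto (0 : ℂ)).mul
      (((L.analyticAt_weierstrassPExcept 0).continuousAt.tendsto).sub hQ)).const_add (1 : ℂ)
    simpa using this
  filter_upwards [eventually_notMem_lattice L, nhdsWithin_le_nhds h1,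
    nhdsWithin_le_nhds (hE.eventually_ne one_ne_zero), self_mem_nhdsWithin] with z a b d hz0
  refine ⟨a, b, fun e => d ?_⟩
  have hz : z ≠ 0 := hz0
  rw [weierstrassP_eq_except] at e
  rw [← e]
  field_simp
  ring

lemma hasDerivAt_wp_sub {z : ℂ} (h : c - z ∉ L.lattice) :
    HasDerivAt (fun w => L.weierstrassP (c - w)) (-L.derivWeierstrassP (c - z)) z := by
  simpa [Function.comp_def] using! (hasDerivAt_wp L h).comp z ((hasDerivAt_id z).const_sub c)

lemma hasDerivAt_wp' {z : ℂ} (h : z ∉ L.lattice) :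
    HasDerivAt L.derivWeierstrassP (6 * L.weierstrassP z ^ 2 - L.g₂ / 2) z := by
  rw [← second_deriv_wp L h]
  exact (L.analyticOnNhd_derivWeierstrassP z h).differentiableAt.hasDerivAt

lemma hasDerivAt_wp'_sub {z : ℂ} (h : c - z ∉ L.lattice) :
    HasDerivAt (fun w => L.derivWeierstrassP (c - w))
      (-(6 * L.weierstrassP (c - z) ^ 2 - L.g₂ / 2)) z := by
  simpa [Function.comp_def] using! (hasDerivAt_wp' h).comp z ((hasDerivAt_id z).const_sub c)

lemma hasDerivAt_wpSlope {z : ℂ} (h : z ∈ chordDom L c) :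
    HasDerivAt (fun w => wpSlope L w (c - w))
      (2 * (L.weierstrassP z - L.weierstrassP (c - z))) z := by
  obtain ⟨h1, h2, h3⟩ := h
  have hne := sub_ne_zero.2 h3
  refine (((hasDerivAt_wp' h1).sub (hasDerivAt_wp'_sub h2)).div
    ((hasDerivAt_wp L h1).sub (hasDerivAt_wp_sub h2)) hne).congr_deriv ?_
  simp only [Pi.sub_apply]
  field_simp
  linear_combination -2 * (L.derivWeierstrassP_sq z h1) + 2 * L.derivWeierstrassP_sq (c - z) h2

lemma slope_mul {z : ℂ} (h : z ∈ chordDom L c) :
    wpSlope L z (c - z) * (L.weierstrassP z - L.weierstrassP (c - z)) =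
      L.derivWeierstrassP z - L.derivWeierstrassP (c - z) := by
  rw [wpSlope, div_mul_cancel₀ _ (sub_ne_zero.2 h.2.2)]

lemma eqOn_const_chordDom (hc : c ∉ L.lattice) {f : ℂ → ℂ}
    (hf : ∀ z ∈ chordDom L c, HasDerivAt f 0 z) {v : ℂ} (hv : Tendsto f (𝓝[≠] 0) (𝓝 v))
    {z : ℂ} (hz : z ∈ chordDom L c) : f z = v := by
  have hconn : IsPreconnected (chordDom L c) := by
    have := isPreconnected_compl_countable (countable_compl_chordDom hc)
    rwa [compl_compl] at this
  refine tendsto_nhds_unique ?_ hv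
  refine tendsto_const_nhds.congr' ?_
  filter_upwards [eventually_mem_chordDom hc] with w hw
  exact IsOpen.is_const_of_deriv_eq_zero isOpen_chordDom hconn
    (fun x hx => (hf x hx).differentiableAt.differentiableWithinAt)
    (fun x hx => (hf x hx).deriv) hz hw

lemma slope_near_zero {z : ℂ} (hz0 : z ≠ 0) {e e' f f' : ℂ} (hd : 1 + z ^ 2 * (e - f) ≠ 0) :
    (-2 / z ^ 3 + e' - f') / (1 / z ^ 2 + e - f) =
      (-2 + z ^ 3 * (e' - f')) / (z * (1 + z ^ 2 * (e - f))) := by
  have h1 : -2 / z ^ 3 + e' - f' = (-2 + z ^ 3 * (e' - f')) / z ^ 3 := by field_simp; ring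
  have h2 : 1 / z ^ 2 + e - f = (1 + z ^ 2 * (e - f)) / z ^ 2 := by field_simp; ring
  rw [h1, h2, div_div_div_eq]
  field_simp

lemma hasDerivAt_chordAbscissa {z : ℂ} (h : z ∈ chordDom L c) :
    HasDerivAt (chordAbscissa L c) 0 z := by
  refine (((((hasDerivAt_wpSlope h).pow 2).div_const 4).sub (hasDerivAt_wp L h.1)).sub
    (hasDerivAt_wp_sub h.2.1)).congr_deriv ?_
  push_cast
  linear_combination slope_mul h

lemma tendsto_chordAbscissa (hc : c ∉ L.lattice) :
    Tendsto (chordAbscissa L c) (𝓝[≠] 0) (𝓝 (L.weierstrassP c)) := by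
  set E := L.weierstrassPExcept 0
  set E' := L.derivWeierstrassPExcept 0
  let B₁ : ℂ → ℂ := fun z => E z - L.weierstrassP (c - z)
  let A₁ : ℂ → ℂ := fun z => E' z - L.derivWeierstrassP (c - z)
  let F : ℂ → ℂ := fun z =>
    (-z * A₁ z + z ^ 4 * A₁ z ^ 2 / 4 - 2 * B₁ z - z ^ 2 * B₁ z ^ 2) / (1 + z ^ 2 * B₁ z) ^ 2 -
      E z - L.weierstrassP (c - z)
  have hcE : ContinuousAt E 0 := (L.analyticAt_weierstrassPExcept 0).continuousAt
  have hcE' : ContinuousAt E' 0 := (L.analyticAt_derivWeierstrassPExcept 0).continuousAt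
  have hsub : ContinuousAt (fun z : ℂ => c - z) 0 := (continuous_const.sub continuous_id).continuousAt
  have hQ : ContinuousAt (fun z => L.weierstrassP (c - z)) 0 :=
    (L.analyticOnNhd_weierstrassP c hc).continuousAt.comp_of_eq hsub (sub_zero c)
  have hB : ContinuousAt (fun z => L.derivWeierstrassP (c - z)) 0 :=
    (L.analyticOnNhd_derivWeierstrassP c hc).continuousAt.comp_of_eq hsub (sub_zero c)
  have hB₁ : ContinuousAt B₁ 0 := hcE.sub hQ
  have hA₁ : ContinuousAt A₁ 0 := hcE'.sub hB
  have hF : ContinuousAt F 0 := by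
    refine ((ContinuousAt.div ?_ ((continuousAt_const.add ((continuousAt_id.pow 2).mul hB₁)).pow 2)
      (by simp)).sub hcE).sub hQ
    exact (((continuousAt_id.neg.mul hA₁).add (((continuousAt_id.pow 4).mul (hA₁.pow 2)).div_const 4)).sub
      (continuousAt_const.mul hB₁)).sub ((continuousAt_id.pow 2).mul (hB₁.pow 2))
  have h0 : F 0 = L.weierstrassP c := by
    simp [F, B₁, E]
    ring
  rw [← h0]
  refine (hF.tendsto.mono_left nhdsWithin_le_nhds).congr' ?_
  filter_upwards [eventually_mem_chordDom hc, self_mem_nhdsWithin] with z hz hz0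
  have hz0' : z ≠ 0 := hz0
  have hd : 1 + z ^ 2 * B₁ z ≠ 0 := fun e => hz.2.2 (by
    rw [weierstrassP_eq_except L z]
    simp only [B₁, E] at e
    field_simp
    linear_combination e)
  simp only [chordAbscissa, wpSlope, weierstrassP_eq_except L z, derivWeierstrassP_eq_except L z]
  have hd' : 1 / z ^ 2 + L.weierstrassPExcept 0 z - L.weierstrassP (c - z) ≠ 0 := by
    rw [← weierstrassP_eq_except L z]; exact sub_ne_zero.2 hz.2.2
  simp only [F, A₁, B₁, E, E'] at hd ⊢
  rw [slope_near_zero hz0' hd]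
  generalize L.weierstrassPExcept 0 z = e at hd ⊢
  generalize L.weierstrassP (c - z) = f at hd ⊢
  generalize hD : 1 + z ^ 2 * (e - f) = d at hd ⊢
  field_simp
  subst hD
  ring

lemma hasDerivAt_chordOrdinate (hc : c ∉ L.lattice) {z : ℂ} (h : z ∈ chordDom L c) :
    HasDerivAt (chordOrdinate L c) 0 z := by
  have hx := eqOn_const_chordDom hc (fun w hw => hasDerivAt_chordAbscissa hw)
    (tendsto_chordAbscissa hc) h
  refine (((hasDerivAt_wpSlope h).mul ((hasDerivAt_wp L h.1).const_sub _)).add
    (hasDerivAt_wp' h.1)).congr_deriv ?_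
  simp only [chordAbscissa] at hx
  have e1 := slope_mul h
  have s1 := L.derivWeierstrassP_sq z h.1
  have s2 := L.derivWeierstrassP_sq (c - z) h.2.1
  have hne := sub_ne_zero.2 h.2.2
  refine mul_left_cancel₀ hne ?_
  linear_combination -2 * (L.weierstrassP z - L.weierstrassP (c - z)) ^ 2 * hx +
    ((L.weierstrassP z - L.weierstrassP (c - z)) * wpSlope L z (c - z) / 2 -
      (L.derivWeierstrassP z + L.derivWeierstrassP (c - z)) / 2) * e1 +
    (-1 / 2) * s1 + (1 / 2) * s2

lemma tendsto_chordOrdinate (hc : c ∉ L.lattice) :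
    Tendsto (chordOrdinate L c) (𝓝[≠] 0) (𝓝 (-L.derivWeierstrassP c)) := by
  set E := L.weierstrassPExcept 0
  set E' := L.derivWeierstrassPExcept 0
  let B₁ : ℂ → ℂ := fun z => E z - L.weierstrassP (c - z)
  let A₁ : ℂ → ℂ := fun z => E' z - L.derivWeierstrassP (c - z)
  let G : ℂ → ℂ := fun z => L.weierstrassP c - E z
  let D : ℂ → ℂ := fun z => slope (fun w => L.weierstrassP (c - w)) 0 z
  have hcE : ContinuousAt E 0 := (L.analyticAt_weierstrassPExcept 0).continuousAt
  have hcE' : ContinuousAt E' 0 := (L.analyticAt_derivWeierstrassPExcept 0).continuousAt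
  have hsub : ContinuousAt (fun z : ℂ => c - z) 0 := (continuous_const.sub continuous_id).continuousAt
  have hQ : ContinuousAt (fun z => L.weierstrassP (c - z)) 0 :=
    (L.analyticOnNhd_weierstrassP c hc).continuousAt.comp_of_eq hsub (sub_zero c)
  have hB : ContinuousAt (fun z => L.derivWeierstrassP (c - z)) 0 :=
    (L.analyticOnNhd_derivWeierstrassP c hc).continuousAt.comp_of_eq hsub (sub_zero c)
  have hB₁ : ContinuousAt B₁ 0 := hcE.sub hQ
  have hA₁ : ContinuousAt A₁ 0 := hcE'.sub hB
  have hG : ContinuousAt G 0 := continuousAt_const.sub hcE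
  have hD : Tendsto D (𝓝[≠] 0) (𝓝 (-L.derivWeierstrassP c)) := by
    have := hasDerivAt_iff_tendsto_slope.1 (hasDerivAt_wp_sub (c := c) (z := 0) (by rwa [sub_zero]))
    rwa [sub_zero] at this
  let N : ℂ → ℂ := fun z => L.derivWeierstrassP (c - z) +
    z ^ 2 * (A₁ z * G z + E' z * B₁ z)
  let den : ℂ → ℂ := fun z => 1 + z ^ 2 * B₁ z
  have hN : ContinuousAt N 0 :=
    hB.add ((continuousAt_id.pow 2).mul ((hA₁.mul hG).add (hcE'.mul hB₁)))
  have hden : ContinuousAt den 0 := continuousAt_const.add ((continuousAt_id.pow 2).mul hB₁)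
  have hlim : Tendsto (fun z => (2 * D z + N z) / den z) (𝓝[≠] 0) (𝓝 (-L.derivWeierstrassP c)) := by
    have h := (((hD.const_mul (2 : ℂ)).add (hN.tendsto.mono_left nhdsWithin_le_nhds)).div
      (hden.tendsto.mono_left nhdsWithin_le_nhds) (by simp [den]))
    have hN0 : N 0 = L.derivWeierstrassP c := by
      show L.derivWeierstrassP (c - 0) + 0 ^ 2 * _ = _
      simp
    have hd0 : den 0 = 1 := by
      show 1 + (0 : ℂ) ^ 2 * _ = 1
      simp
    rw [hN0, hd0, div_one, show 2 * -L.derivWeierstrassP c + L.derivWeierstrassP c =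
      -L.derivWeierstrassP c by ring] at h
    exact h
  refine hlim.congr' ?_
  filter_upwards [eventually_mem_chordDom hc, self_mem_nhdsWithin] with z hz hz0
  have hz0' : z ≠ 0 := hz0
  have hd' : 1 / z ^ 2 + L.weierstrassPExcept 0 z - L.weierstrassP (c - z) ≠ 0 := by
    rw [← weierstrassP_eq_except L z]; exact sub_ne_zero.2 hz.2.2
  have hd : den z ≠ 0 := fun e => hd' (by
    simp only [den, B₁, E] at e
    field_simp
    linear_combination e)
  simp only [chordOrdinate, wpSlope, weierstrassP_eq_except L z, derivWeierstrassP_eq_except L z]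
  simp only [N, den, D, A₁, B₁, G, E, E', slope_def_field, sub_zero] at hd ⊢
  rw [slope_near_zero hz0' hd]
  generalize L.weierstrassPExcept 0 z = e at hd ⊢
  generalize L.weierstrassP (c - z) = f at hd ⊢
  generalize hD : 1 + z ^ 2 * (e - f) = d at hd ⊢
  field_simp
  subst hD
  ring

/-- The addition formula. -/
theorem weierstrassP_add {z w : ℂ} (hz : z ∉ L.lattice) (hw : w ∉ L.lattice)
    (hne : L.weierstrassP z ≠ L.weierstrassP w) :
    L.weierstrassP (z + w) = wpSlope L z w ^ 2 / 4 - L.weierstrassP z - L.weierstrassP w ∧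
      -L.derivWeierstrassP (z + w) =
        wpSlope L z w * (L.weierstrassP (z + w) - L.weierstrassP z) + L.derivWeierstrassP z := by
  have hc : z + w ∉ L.lattice := by
    intro hm
    refine hne ?_
    have h1 := L.weierstrassP_add_coe (-w) ⟨z + w, hm⟩
    rw [L.weierstrassP_neg] at h1
    simpa [add_comm z w] using h1
  have hmem : z ∈ chordDom L (z + w) := ⟨hz, by simpa using hw, by simpa using hne⟩
  have h1 := eqOn_const_chordDom hc (fun x hx => hasDerivAt_chordAbscissa hx)
    (tendsto_chordAbscissa hc) hmem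
  have h2 := eqOn_const_chordDom hc (fun x hx => hasDerivAt_chordOrdinate hc hx)
    (tendsto_chordOrdinate hc) hmem
  simp only [chordAbscissa, chordOrdinate, add_sub_cancel_left] at h1 h2
  exact ⟨h1.symm, h2.symm⟩

end Fermat.Agent.Moduli
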